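/-
W2-C (S55) block B (helper3, architect): local class field theory — INTERFACE.

Model: a local field is a field `K` with a normalized discrete valuation `v : Valuation K ℤᵐ⁰`
which is complete and has finite residue field (`IsLocalVal v`).  A finite Galois extension of
local fields is `IsLocalExt v w e` (`w` on `L` extends `v` with ramification index `e`).
The concrete local fields are the finite subextensions of `PadicAlgCl q / ℚ_[q]` (slice `BΩ`).

Every `def … : Prop` below is the exact statement of one slice; its owner proves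
`theorem h<seat>lb_<name> : H3LB.<Name>` in `Fermat/Agent/CFT2/B/<Name>_<seat>.lean`.
-/
import Mathlib

set_option autoImplicit false

namespace H3LB

open scoped WithZero

section defs

/-- `(K, v)` is a non-archimedean local field: `v` is a normalized discrete valuation, `K` is
complete and the residue field is finite (given by a finite set of representatives). -/
structure IsLocalVal {K : Type} [Field K] (v : Valuation K ℤᵐ⁰) : Prop where
  surj : Function.Surjective v
  complete : ∀ x : ℕ → K, (∀ n, v (x (n + 1) - x n) ≤ WithZero.exp (-(n : ℤ))) →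
    ∃ y : K, ∀ n, v (y - x n) ≤ WithZero.exp (-(n : ℤ))
  finite : ∃ R : Finset K, ∀ x : K, v x ≤ 1 → ∃ r ∈ R, v (x - r) < 1

/-- `(L, w) / (K, v)` is a finite Galois extension of local fields with ramification index `e`. -/
structure IsLocalExt {K L : Type} [Field K] [Field L] [Algebra K L]
    (v : Valuation K ℤᵐ⁰) (w : Valuation L ℤᵐ⁰) (e : ℕ) : Prop where
  hv : IsLocalVal v
  hw : IsLocalVal w
  fin : FiniteDimensional K L
  gal : IsGalois K L
  e_pos : 0 < e
  ext : ∀ x : K, w (algebraMap K L x) = v x ^ e
  inv : ∀ (σ : L ≃ₐ[K] L) (x : L), w (σ x) = w x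

/-- the norm as a homomorphism of unit groups -/
noncomputable def normUnits (K L : Type) [Field K] [Field L] [Algebra K L] : Lˣ →* Kˣ :=
  Units.map (Algebra.norm K : L →* K)

/-- the group of units of the valuation ring -/
def unitGroup {L : Type} [Field L] (w : Valuation L ℤᵐ⁰) : Subgroup Lˣ where
  carrier := {u | w (u : L) = 1}
  mul_mem' := by
    intro a b ha hb
    simp only [Set.mem_ofPred_eq] at ha hb ⊢
    rw [Units.val_mul, map_mul, ha, hb, one_mul]
  one_mem' := by simp
  inv_mem' := by
    intro a ha
    simp only [Set.mem_ofPred_eq] at ha ⊢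
    rw [Units.val_inv_eq_inv_val, map_inv₀, ha, inv_one]

end defs

section slices

/-- **(B2) unramified extensions: the norm is surjective on units.** -/
def UnrNormSurj : Prop :=
  ∀ (K L : Type) [Field K] [Field L] [Algebra K L] (v : Valuation K ℤᵐ⁰) (w : Valuation L ℤᵐ⁰),
    IsLocalExt v w 1 → ∀ u : Kˣ, u ∈ unitGroup v → ∃ y : Lˣ, y ∈ unitGroup w ∧ normUnits K L y = u

/-- **(B2') unramified extensions are cyclic**, generated by a Frobenius: `σ x ≡ x ^ N mod 𝔪`,
`N` the cardinality of the residue field of `K`. -/
def UnrCyclic : Prop :=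
  ∀ (K L : Type) [Field K] [Field L] [Algebra K L] (v : Valuation K ℤᵐ⁰) (w : Valuation L ℤᵐ⁰),
    IsLocalExt v w 1 → IsCyclic (L ≃ₐ[K] L)

/-- **(B4) the local norm index theorem** for cyclic extensions: `[Kˣ : N Lˣ] = [L : K]`. -/
def NormIndexCyclic : Prop :=
  ∀ (K L : Type) [Field K] [Field L] [Algebra K L] (v : Valuation K ℤᵐ⁰) (w : Valuation L ℤᵐ⁰)
    (e : ℕ), IsLocalExt v w e → IsCyclic (L ≃ₐ[K] L) →
    (normUnits K L).range.index = Module.finrank K L

end slices

end H3LB
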