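/-
W2-C (S55) block B, slice BΩ (helper3): every finite extension of `ℚ_[q]` is a local field.
The valuation is built from Mathlib's spectral norm.
-/
import Mathlib
import Fermat.Agent.CFT2.B.Defs

set_option autoImplicit false
set_option linter.style.haveILetI false
set_option linter.unusedSectionVars false
set_option linter.unusedVariables false

namespace H3LB

open scoped WithZero

section spectral

variable (q : ℕ) [Fact q.Prime] (L : Type) [Field L] [Algebra ℚ_[q] L]
  [FiniteDimensional ℚ_[q] L]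

/-- the spectral norm on a finite extension of `ℚ_[q]` -/
noncomputable def snorm (x : L) : ℝ := spectralNorm ℚ_[q] L x

variable {L}

theorem h3lb_snorm_mul (x y : L) : snorm q L (x * y) = snorm q L x * snorm q L y := by
  unfold snorm
  rw [← spectralMulAlgNorm_def, ← spectralMulAlgNorm_def, ← spectralMulAlgNorm_def, map_mul]

theorem h3lb_snorm_zero : snorm q L (0 : L) = 0 := spectralNorm_zero

theorem h3lb_snorm_one : snorm q L (1 : L) = 1 := spectralNorm_one

theorem h3lb_snorm_nonneg (x : L) : 0 ≤ snorm q L x := spectralNorm_nonneg x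

theorem h3lb_snorm_pos {x : L} (hx : x ≠ 0) : 0 < snorm q L x :=
  spectralNorm_zero_lt hx (Algebra.IsAlgebraic.isAlgebraic x)

theorem h3lb_snorm_eq_zero {x : L} : snorm q L x = 0 ↔ x = 0 := by
  constructor
  · intro h
    by_contra hx
    exact (h3lb_snorm_pos q hx).ne' h
  · rintro rfl
    exact h3lb_snorm_zero q

theorem h3lb_snorm_add_le (x y : L) : snorm q L (x + y) ≤ max (snorm q L x) (snorm q L y) :=
  isNonarchimedean_spectralNorm x y

theorem h3lb_snorm_neg (x : L) : snorm q L (-x) = snorm q L x :=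
  spectralNorm_neg (Algebra.IsAlgebraic.isAlgebraic x)

theorem h3lb_snorm_algebraMap (x : ℚ_[q]) : snorm q L (algebraMap ℚ_[q] L x) = ‖x‖ :=
  spectralNorm_extends x

theorem h3lb_q_pos : (1 : ℝ) < (q : ℝ) := by exact_mod_cast (Fact.out : q.Prime).one_lt

/-- the key discreteness statement: `‖x‖ ^ n ∈ q ^ ℤ`. -/
theorem h3lb_exists_ordN {x : L} (hx : x ≠ 0) :
    ∃ m : ℤ, snorm q L x ^ Module.finrank ℚ_[q] L = (q : ℝ) ^ (-m) := by
  have hint : IsIntegral ℚ_[q] x := Algebra.IsIntegral.isIntegral x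
  have hdvd := minpoly.degree_dvd hint
  obtain ⟨k, hk⟩ := hdvd
  have hdeg : 0 < (minpoly ℚ_[q] x).natDegree := minpoly.natDegree_pos hint
  have h0 : (minpoly ℚ_[q] x).coeff 0 ≠ 0 := minpoly.coeff_zero_ne_zero hint hx
  have h1 := spectralNorm.spectralNorm_eq_norm_coeff_zero_rpow ℚ_[q] L x
  have h2 : snorm q L x ^ (minpoly ℚ_[q] x).natDegree = ‖(minpoly ℚ_[q] x).coeff 0‖ := by
    unfold snorm
    rw [h1, ← Real.rpow_natCast, ← Real.rpow_mul (norm_nonneg _), one_div,
      inv_mul_cancel₀ (by exact_mod_cast hdeg.ne'), Real.rpow_one]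
  refine ⟨((minpoly ℚ_[q] x).coeff 0).valuation * k, ?_⟩
  rw [hk, pow_mul, h2, Padic.norm_eq_zpow_neg_valuation h0, ← zpow_natCast, ← zpow_mul]
  congr 1
  ring

/-- `n · ord`, junk value `0` at `0`. -/
noncomputable def ordN (x : L) : ℤ :=
  open Classical in if h : x = 0 then 0 else (h3lb_exists_ordN q h).choose

theorem h3lb_ordN_spec {x : L} (hx : x ≠ 0) :
    snorm q L x ^ Module.finrank ℚ_[q] L = (q : ℝ) ^ (-(ordN q x)) := by
  unfold ordN
  rw [dif_neg hx]
  exact (h3lb_exists_ordN q hx).choose_spec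

theorem h3lb_zpow_inj {a b : ℤ} (h : (q : ℝ) ^ a = (q : ℝ) ^ b) : a = b :=
  zpow_right_injective₀ (by linarith [h3lb_q_pos q]) (h3lb_q_pos q).ne' h

theorem h3lb_ordN_mul {x y : L} (hx : x ≠ 0) (hy : y ≠ 0) :
    ordN q (x * y) = ordN q x + ordN q y := by
  have h := h3lb_ordN_spec q (mul_ne_zero hx hy)
  rw [h3lb_snorm_mul, mul_pow, h3lb_ordN_spec q hx, h3lb_ordN_spec q hy,
    ← zpow_add₀ (by linarith [h3lb_q_pos q] : (q : ℝ) ≠ 0)] at h
  have := h3lb_zpow_inj q h
  linarith

theorem h3lb_ordN_one : ordN q (1 : L) = 0 := by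
  have h := h3lb_ordN_spec q (one_ne_zero : (1 : L) ≠ 0)
  rw [h3lb_snorm_one, one_pow] at h
  have : (q : ℝ) ^ (0 : ℤ) = (q : ℝ) ^ (-(ordN q (1 : L))) := by rw [zpow_zero]; exact h
  have := h3lb_zpow_inj q this
  linarith

theorem h3lb_finrank_pos : 0 < Module.finrank ℚ_[q] L := Module.finrank_pos

/-- comparison of norms and orders -/
theorem h3lb_snorm_le_iff {x y : L} (hx : x ≠ 0) (hy : y ≠ 0) :
    snorm q L x ≤ snorm q L y ↔ ordN q y ≤ ordN q x := by
  have hn := h3lb_finrank_pos q (L := L)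
  rw [← pow_le_pow_iff_left₀ (h3lb_snorm_nonneg q x) (h3lb_snorm_nonneg q y) hn.ne',
    h3lb_ordN_spec q hx, h3lb_ordN_spec q hy, zpow_le_zpow_iff_right₀ (h3lb_q_pos q)]
  omega

theorem h3lb_ordN_add {x y : L} (hx : x ≠ 0) (hy : y ≠ 0) (hxy : x + y ≠ 0) :
    min (ordN q x) (ordN q y) ≤ ordN q (x + y) := by
  have h := h3lb_snorm_add_le q x y
  rcases le_max_iff.mp h with h1 | h1
  · exact (min_le_left _ _).trans ((h3lb_snorm_le_iff q hxy hx).mp h1)
  · exact (min_le_right _ _).trans ((h3lb_snorm_le_iff q hxy hy).mp h1)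

theorem h3lb_ordN_q : ordN q (algebraMap ℚ_[q] L (q : ℚ_[q])) = Module.finrank ℚ_[q] L := by
  have hq0 : (q : ℚ_[q]) ≠ 0 := Nat.cast_ne_zero.mpr (Fact.out : q.Prime).ne_zero
  have hq : algebraMap ℚ_[q] L (q : ℚ_[q]) ≠ 0 := by
    rw [Ne, map_eq_zero]; exact hq0
  have h := h3lb_ordN_spec q hq
  rw [h3lb_snorm_algebraMap, Padic.norm_p, inv_pow, ← zpow_natCast, ← zpow_neg] at h
  have := h3lb_zpow_inj q h
  omega

theorem h3lb_ordN_inv {x : L} (hx : x ≠ 0) : ordN q x⁻¹ = - ordN q x := by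
  have h := h3lb_ordN_mul q hx (inv_ne_zero hx)
  rw [mul_inv_cancel₀ hx, h3lb_ordN_one] at h
  linarith

variable (L) in
/-- the value group as a subgroup of `ℤ` -/
def ordSubgroup : AddSubgroup ℤ where
  carrier := {m | ∃ x : L, x ≠ 0 ∧ ordN q x = m}
  add_mem' := by
    rintro a b ⟨x, hx, rfl⟩ ⟨y, hy, rfl⟩
    exact ⟨x * y, mul_ne_zero hx hy, h3lb_ordN_mul q hx hy⟩
  zero_mem' := ⟨1, one_ne_zero, h3lb_ordN_one q⟩
  neg_mem' := by
    rintro a ⟨x, hx, rfl⟩
    exact ⟨x⁻¹, inv_ne_zero hx, h3lb_ordN_inv q hx⟩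

variable (L) in
/-- the positive generator of the value group -/
theorem h3lb_exists_gen : ∃ d : ℕ, 0 < d ∧ (∀ x : L, x ≠ 0 → (d : ℤ) ∣ ordN q x) ∧
    ∃ π : L, π ≠ 0 ∧ ordN q π = d := by
  obtain ⟨a, ha⟩ := Int.subgroup_cyclic (ordSubgroup q L)
  have hn : (Module.finrank ℚ_[q] L : ℤ) ∈ ordSubgroup q L := by
    refine ⟨algebraMap ℚ_[q] L (q : ℚ_[q]), ?_, h3lb_ordN_q q⟩
    rw [Ne, map_eq_zero]
    exact Nat.cast_ne_zero.mpr (Fact.out : q.Prime).ne_zero
  have hmem : ∀ m : ℤ, m ∈ ordSubgroup q L ↔ ∃ k : ℤ, k • a = m := by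
    intro m
    rw [ha, AddSubgroup.mem_closure_singleton]
  have ha0 : a ≠ 0 := by
    rintro rfl
    obtain ⟨k, hk⟩ := (hmem _).mp hn
    have h0 : (Module.finrank ℚ_[q] L : ℤ) = 0 := by rw [← hk]; simp
    have := h3lb_finrank_pos q (L := L)
    omega
  refine ⟨a.natAbs, Int.natAbs_pos.mpr ha0, ?_, ?_⟩
  · intro x hx
    obtain ⟨k, hk⟩ := (hmem _).mp ⟨x, hx, rfl⟩
    rw [Int.natAbs_dvd]
    exact ⟨k, by rw [← hk, smul_eq_mul, mul_comm]⟩
  · have h1 : (a.natAbs : ℤ) ∈ ordSubgroup q L := by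
      rw [hmem]
      rcases Int.natAbs_eq a with h | h
      · exact ⟨1, by rw [one_smul]; exact h⟩
      · exact ⟨-1, by rw [neg_smul, one_smul]; omega⟩
    obtain ⟨π, hπ, hπ'⟩ := h1
    exact ⟨π, hπ, hπ'⟩

variable (L) in
/-- `n / e`: the generator of the value group of `‖·‖ ^ n` -/
noncomputable def ordGen : ℕ := (h3lb_exists_gen q L).choose

theorem h3lb_ordGen_pos : 0 < ordGen q L := (h3lb_exists_gen q L).choose_spec.1

theorem h3lb_ordGen_dvd {x : L} (hx : x ≠ 0) : (ordGen q L : ℤ) ∣ ordN q x :=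
  (h3lb_exists_gen q L).choose_spec.2.1 x hx

variable (L) in
theorem h3lb_exists_unif : ∃ π : L, π ≠ 0 ∧ ordN q π = ordGen q L :=
  (h3lb_exists_gen q L).choose_spec.2.2

/-- the normalized order function -/
noncomputable def ordL (x : L) : ℤ := ordN q x / ordGen q L

theorem h3lb_ordL_mul_gen {x : L} (hx : x ≠ 0) : ordL q x * ordGen q L = ordN q x :=
  Int.ediv_mul_cancel (h3lb_ordGen_dvd q hx)

theorem h3lb_ordL_mul {x y : L} (hx : x ≠ 0) (hy : y ≠ 0) :
    ordL q (x * y) = ordL q x + ordL q y := by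
  have hd : (ordGen q L : ℤ) ≠ 0 := by exact_mod_cast (h3lb_ordGen_pos q (L := L)).ne'
  apply mul_right_cancel₀ hd
  rw [add_mul, h3lb_ordL_mul_gen q hx, h3lb_ordL_mul_gen q hy,
    h3lb_ordL_mul_gen q (mul_ne_zero hx hy), h3lb_ordN_mul q hx hy]

theorem h3lb_ordL_one : ordL q (1 : L) = 0 := by
  unfold ordL
  rw [h3lb_ordN_one, Int.zero_ediv]

theorem h3lb_ordL_le_iff {x y : L} (hx : x ≠ 0) (hy : y ≠ 0) :
    ordL q x ≤ ordL q y ↔ ordN q x ≤ ordN q y := by
  have hd : (0 : ℤ) < (ordGen q L : ℤ) := by exact_mod_cast h3lb_ordGen_pos q (L := L)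
  rw [← h3lb_ordL_mul_gen q hx, ← h3lb_ordL_mul_gen q hy]
  exact (mul_le_mul_iff_of_pos_right hd).symm

theorem h3lb_ordL_add {x y : L} (hx : x ≠ 0) (hy : y ≠ 0) (hxy : x + y ≠ 0) :
    min (ordL q x) (ordL q y) ≤ ordL q (x + y) := by
  have h := h3lb_ordN_add q hx hy hxy
  rcases min_le_iff.mp h with h1 | h1
  · exact (min_le_left _ _).trans ((h3lb_ordL_le_iff q hx hxy).mpr h1)
  · exact (min_le_right _ _).trans ((h3lb_ordL_le_iff q hy hxy).mpr h1)

variable (L) in
/-- the valuation as a function -/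
noncomputable def valFun (x : L) : ℤᵐ⁰ :=
  open Classical in if x = 0 then 0 else WithZero.exp (-(ordL q x))

theorem h3lb_valFun_zero : valFun q L 0 = 0 := by
  unfold valFun; rw [if_pos rfl]

theorem h3lb_valFun_apply {x : L} (hx : x ≠ 0) : valFun q L x = WithZero.exp (-(ordL q x)) := by
  unfold valFun; rw [if_neg hx]

theorem h3lb_valFun_mul (x y : L) : valFun q L (x * y) = valFun q L x * valFun q L y := by
  by_cases hx : x = 0
  · rw [hx, zero_mul, h3lb_valFun_zero, zero_mul]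
  by_cases hy : y = 0
  · rw [hy, mul_zero, h3lb_valFun_zero, mul_zero]
  rw [h3lb_valFun_apply q hx, h3lb_valFun_apply q hy, h3lb_valFun_apply q (mul_ne_zero hx hy),
    h3lb_ordL_mul q hx hy, neg_add, WithZero.exp_add]

theorem h3lb_valFun_add (x y : L) :
    valFun q L (x + y) ≤ max (valFun q L x) (valFun q L y) := by
  by_cases hx : x = 0
  · rw [hx, zero_add]; exact le_max_right _ _
  by_cases hy : y = 0
  · rw [hy, add_zero]; exact le_max_left _ _
  by_cases hxy : x + y = 0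
  · rw [hxy, h3lb_valFun_zero]; exact zero_le
  rw [h3lb_valFun_apply q hx, h3lb_valFun_apply q hy, h3lb_valFun_apply q hxy]
  have h := h3lb_ordL_add q hx hy hxy
  rcases min_le_iff.mp h with h1 | h1
  · exact le_max_of_le_left (WithZero.exp_le_exp.mpr (by omega))
  · exact le_max_of_le_right (WithZero.exp_le_exp.mpr (by omega))

variable (L) in
/-- **the valuation of a finite extension of `ℚ_[q]`** -/
noncomputable def padicVal : Valuation L ℤᵐ⁰ :=
  Valuation.mk
    { toFun := valFun q L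
      map_zero' := h3lb_valFun_zero q
      map_one' := by
        rw [h3lb_valFun_apply q one_ne_zero, h3lb_ordL_one, neg_zero, WithZero.exp_zero]
      map_mul' := h3lb_valFun_mul q }
    (h3lb_valFun_add q)

theorem h3lb_padicVal_apply {x : L} (hx : x ≠ 0) :
    padicVal q L x = WithZero.exp (-(ordL q x)) :=
  h3lb_valFun_apply q hx

theorem h3lb_padicVal_le_iff {x y : L} (hy : y ≠ 0) :
    padicVal q L x ≤ padicVal q L y ↔ snorm q L x ≤ snorm q L y := by
  by_cases hx : x = 0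
  · subst hx
    rw [map_zero, h3lb_snorm_zero]
    exact ⟨fun _ => h3lb_snorm_nonneg q y, fun _ => zero_le⟩
  rw [h3lb_padicVal_apply q hx, h3lb_padicVal_apply q hy, WithZero.exp_le_exp,
    h3lb_snorm_le_iff q hx hy, neg_le_neg_iff, h3lb_ordL_le_iff q hy hx]

theorem h3lb_padicVal_lt_iff {x y : L} (hx : x ≠ 0) :
    padicVal q L x < padicVal q L y ↔ snorm q L x < snorm q L y := by
  rw [← not_le, ← not_le, h3lb_padicVal_le_iff q hx]

theorem h3lb_padicVal_unif {π : L} (hπ : π ≠ 0) (hπ' : ordN q π = ordGen q L) :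
    padicVal q L π = WithZero.exp (-1 : ℤ) := by
  rw [h3lb_padicVal_apply q hπ]
  congr 2
  have hd : (ordGen q L : ℤ) ≠ 0 := by exact_mod_cast (h3lb_ordGen_pos q (L := L)).ne'
  unfold ordL
  rw [hπ', Int.ediv_self hd]

theorem h3lb_padicVal_surj : Function.Surjective (padicVal q L) := by
  obtain ⟨π, hπ, hπ'⟩ := h3lb_exists_unif q L
  have h1 := h3lb_padicVal_unif q hπ hπ'
  intro γ
  by_cases hγ : γ = 0
  · exact ⟨0, by rw [map_zero, hγ]⟩
  refine ⟨π ^ (-(WithZero.log γ)), ?_⟩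
  rw [map_zpow₀, h1, ← WithZero.exp_zsmul, smul_eq_mul, neg_mul_neg, mul_one, WithZero.exp_log hγ]

/-- `v x ≤ exp (-n)` in terms of the norm -/
theorem h3lb_padicVal_le_exp {π : L} (hπ : π ≠ 0) (hπ' : ordN q π = ordGen q L) (x : L) (n : ℕ) :
    padicVal q L x ≤ WithZero.exp (-(n : ℤ)) ↔ snorm q L x ≤ snorm q L π ^ n := by
  have h1 := h3lb_padicVal_unif q hπ hπ'
  have h2 : padicVal q L (π ^ n) = WithZero.exp (-(n : ℤ)) := by
    rw [map_pow, h1, ← WithZero.exp_nsmul, nsmul_eq_mul, mul_neg, mul_one]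
  have h3 : snorm q L (π ^ n) = snorm q L π ^ n := by
    induction n with
    | zero => simp [h3lb_snorm_one]
    | succ n ih =>
      have e : padicVal q L (π ^ n) = WithZero.exp (-(n : ℤ)) := by
        rw [map_pow, h1, ← WithZero.exp_nsmul, nsmul_eq_mul, mul_neg, mul_one]
      rw [pow_succ, h3lb_snorm_mul, ih e, pow_succ]
  rw [← h2, ← h3, h3lb_padicVal_le_iff q (pow_ne_zero n hπ)]

theorem h3lb_snorm_unif_lt_one {π : L} (hπ : π ≠ 0) (hπ' : ordN q π = ordGen q L) :
    snorm q L π < 1 := by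
  have h1 := h3lb_padicVal_unif q hπ hπ'
  have h2 : padicVal q L π < padicVal q L 1 := by
    rw [h1, map_one, ← WithZero.exp_zero, WithZero.exp_lt_exp]
    norm_num
  have := (h3lb_padicVal_lt_iff q hπ).mp h2
  rwa [h3lb_snorm_one] at this

theorem h3lb_padicVal_complete (x : ℕ → L)
    (hx : ∀ n, padicVal q L (x (n + 1) - x n) ≤ WithZero.exp (-(n : ℤ))) :
    ∃ y : L, ∀ n, padicVal q L (y - x n) ≤ WithZero.exp (-(n : ℤ)) := by
  obtain ⟨π, hπ, hπ'⟩ := h3lb_exists_unif q L
  set c := snorm q L π with hc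
  have hc1 : c < 1 := h3lb_snorm_unif_lt_one q hπ hπ'
  have hc0 : 0 < c := h3lb_snorm_pos q hπ
  letI : NormedField L := spectralNorm.normedField ℚ_[q] L
  haveI : CompleteSpace L := spectralNorm.completeSpace ℚ_[q] L
  have hnorm : ∀ z : L, ‖z‖ = snorm q L z := fun z => rfl
  have hstep : ∀ n, ‖x (n + 1) - x n‖ ≤ c ^ n := fun n => by
    rw [hnorm]; exact (h3lb_padicVal_le_exp q hπ hπ' _ n).mp (hx n)
  -- ultrametric estimate
  have hdiff : ∀ n k, ‖x (n + k) - x n‖ ≤ c ^ n := by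
    intro n k
    induction k with
    | zero => simp [pow_nonneg hc0.le]
    | succ k ih =>
      have e : x (n + (k + 1)) - x n = (x (n + k + 1) - x (n + k)) + (x (n + k) - x n) := by
        rw [← add_assoc]; ring
      rw [e, hnorm]
      refine (h3lb_snorm_add_le q _ _).trans (max_le ?_ ih)
      have := hstep (n + k)
      rw [hnorm] at this
      exact this.trans (pow_le_pow_of_le_one hc0.le hc1.le (Nat.le_add_right n k))
  have hcauchy : CauchySeq x := by
    refine cauchySeq_of_le_geometric c 1 hc1 (fun n => ?_)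
    rw [one_mul, dist_comm, dist_eq_norm]
    exact hstep n
  obtain ⟨y, hy⟩ := cauchySeq_tendsto_of_complete hcauchy
  refine ⟨y, fun n => ?_⟩
  rw [h3lb_padicVal_le_exp q hπ hπ']
  have hlim : Filter.Tendsto (fun k => ‖x (n + k) - x n‖) Filter.atTop (nhds ‖y - x n‖) := by
    have h1 : Filter.Tendsto (fun k => x (n + k)) Filter.atTop (nhds y) := by
      have := hy.comp (Filter.tendsto_add_atTop_nat n)
      refine this.congr (fun k => ?_)
      simp [add_comm]
    exact ((h1.sub tendsto_const_nhds).norm)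
  exact le_of_tendsto' hlim (fun k => hdiff n k)

theorem h3lb_padicVal_finite :
    ∃ R : Finset L, ∀ x : L, padicVal q L x ≤ 1 → ∃ r ∈ R, padicVal q L (x - r) < 1 := by
  letI : NontriviallyNormedField L := spectralNorm.nontriviallyNormedField ℚ_[q] L
  letI : NormedSpace ℚ_[q] L := spectralNorm.normedSpace ℚ_[q] L
  haveI : ProperSpace L := FiniteDimensional.proper ℚ_[q] L
  have hnorm : ∀ z : L, ‖z‖ = snorm q L z := fun z => rfl
  have hcomp : IsCompact (Metric.closedBall (0 : L) 1) := isCompact_closedBall 0 1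
  obtain ⟨t, -, htfin, hcover⟩ := hcomp.finite_cover_balls (e := 1) one_pos
  refine ⟨htfin.toFinset, fun x hx => ?_⟩
  have hx1 : x ∈ Metric.closedBall (0 : L) 1 := by
    rw [mem_closedBall_zero_iff, hnorm]
    have := (h3lb_padicVal_le_iff q (one_ne_zero : (1 : L) ≠ 0) (x := x)).mp (by rwa [map_one])
    rwa [h3lb_snorm_one] at this
  obtain ⟨r, hr, hxr⟩ := Set.mem_iUnion₂.mp (hcover hx1)
  refine ⟨r, htfin.mem_toFinset.mpr hr, ?_⟩
  rw [Metric.mem_ball, dist_eq_norm, hnorm] at hxr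
  by_cases h0 : x - r = 0
  · rw [h0, map_zero]; exact zero_lt_one
  have := (h3lb_padicVal_lt_iff q h0 (y := 1)).mpr (by rwa [h3lb_snorm_one])
  rwa [map_one] at this

variable (L) in
/-- **(BΩ)** every finite extension of `ℚ_[q]` is a local field. -/
theorem h3lb_isLocalVal : IsLocalVal (padicVal q L) where
  surj := h3lb_padicVal_surj q
  complete := h3lb_padicVal_complete q
  finite := h3lb_padicVal_finite q

end spectral

section tower

variable (q : ℕ) [Fact q.Prime] {K L : Type} [Field K] [Field L] [Algebra ℚ_[q] K]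
  [Algebra ℚ_[q] L] [FiniteDimensional ℚ_[q] K] [FiniteDimensional ℚ_[q] L]

/-- the valuation is determined by the norm -/
theorem h3lb_padicVal_eq_of_snorm_eq {x : K} {y : L} (h : snorm q K x = snorm q L y) :
    (padicVal q K x = 1 ↔ padicVal q L y = 1) := by
  have key : ∀ {F : Type} [Field F] [Algebra ℚ_[q] F] [FiniteDimensional ℚ_[q] F] (z : F),
      padicVal q F z = 1 ↔ snorm q F z = 1 := by
    intro F _ _ _ z
    by_cases hz : z = 0
    · subst hz
      rw [map_zero, h3lb_snorm_zero]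
      constructor
      · intro h0; exact absurd h0 zero_ne_one
      · intro h0; exact absurd h0 zero_ne_one
    have h1 := h3lb_padicVal_le_iff q (one_ne_zero : (1 : F) ≠ 0) (x := z)
    have h2 := h3lb_padicVal_le_iff q hz (x := (1 : F))
    rw [map_one, h3lb_snorm_one] at h1 h2
    constructor
    · intro h0
      exact le_antisymm (h1.mp h0.le) (h2.mp h0.ge)
    · intro h0
      exact le_antisymm (h1.mpr h0.le) (h2.mpr h0.ge)
  rw [key, key, h]

variable [Algebra K L] [IsScalarTower ℚ_[q] K L]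

theorem h3lb_snorm_tower (x : K) : snorm q L (algebraMap K L x) = snorm q K x :=
  (spectralNorm.eq_of_tower (K := ℚ_[q]) (E := K) (L := L) x).symm

theorem h3lb_snorm_algEquiv (σ : L ≃ₐ[K] L) (x : L) : snorm q L (σ x) = snorm q L x :=
  (spectralNorm_eq_of_equiv (K := ℚ_[q]) (σ.restrictScalars ℚ_[q]) x).symm

theorem h3lb_padicVal_algEquiv (σ : L ≃ₐ[K] L) (x : L) :
    padicVal q L (σ x) = padicVal q L x := by
  by_cases hx : x = 0
  · rw [hx, map_zero]
  have hσx : σ x ≠ 0 := by rwa [Ne, map_eq_zero_iff σ σ.injective]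
  apply le_antisymm
  · rw [h3lb_padicVal_le_iff q hx, h3lb_snorm_algEquiv]
  · rw [h3lb_padicVal_le_iff q hσx, h3lb_snorm_algEquiv]

/-- the ramification index -/
theorem h3lb_exists_ramification :
    ∃ e : ℕ, 0 < e ∧ ∀ x : K, padicVal q L (algebraMap K L x) = padicVal q K x ^ e := by
  obtain ⟨π, hπ, hπ'⟩ := h3lb_exists_unif q K
  have hπ1 := h3lb_padicVal_unif q hπ hπ'
  have hπL : algebraMap K L π ≠ 0 := by rwa [Ne, map_eq_zero]
  -- `e := ord_L π`
  have hlt : padicVal q L (algebraMap K L π) < 1 := by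
    have h1 : padicVal q L (algebraMap K L π) < padicVal q L 1 := by
      rw [h3lb_padicVal_lt_iff q hπL, h3lb_snorm_tower, h3lb_snorm_one]
      exact h3lb_snorm_unif_lt_one q hπ hπ'
    rwa [map_one] at h1
  rw [h3lb_padicVal_apply q hπL, ← WithZero.exp_zero, WithZero.exp_lt_exp] at hlt
  have hpos : 0 < ordL q (algebraMap K L π) := by omega
  refine ⟨(ordL q (algebraMap K L π)).toNat, by omega, fun x => ?_⟩
  have he : ((ordL q (algebraMap K L π)).toNat : ℤ) = ordL q (algebraMap K L π) :=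
    Int.toNat_of_nonneg hpos.le
  by_cases hx : x = 0
  · rw [hx, map_zero, map_zero, map_zero, zero_pow (by omega)]
  set k := ordL q x with hk
  set y := x * π ^ (-k) with hy
  have hy0 : y ≠ 0 := mul_ne_zero hx (zpow_ne_zero _ hπ)
  have hvy : padicVal q K y = 1 := by
    rw [hy, map_mul, map_zpow₀, hπ1, h3lb_padicVal_apply q hx, ← WithZero.exp_zsmul,
      ← WithZero.exp_add, smul_eq_mul, ← hk, ← WithZero.exp_zero]
    congr 1
    ring
  have hvyL : padicVal q L (algebraMap K L y) = 1 :=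
    (h3lb_padicVal_eq_of_snorm_eq q (h3lb_snorm_tower q y).symm).mp hvy
  have hx' : x = y * π ^ k := by
    rw [hy, mul_assoc, ← zpow_add₀ hπ, neg_add_cancel, zpow_zero, mul_one]
  have h1 : padicVal q L (algebraMap K L x) = WithZero.exp (-(k * ordL q (algebraMap K L π))) := by
    conv_lhs => rw [hx']
    rw [map_mul, map_mul, hvyL, one_mul, map_zpow₀, map_zpow₀, h3lb_padicVal_apply q hπL,
      ← WithZero.exp_zsmul, smul_eq_mul, mul_neg]
  rw [h1, h3lb_padicVal_apply q hx, ← WithZero.exp_nsmul, nsmul_eq_mul, he, ← hk]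
  congr 1
  ring

/-- **(BΩ)** a finite Galois extension of finite extensions of `ℚ_[q]` is a local extension. -/
theorem h3lb_exists_isLocalExt [IsGalois K L] :
    ∃ e : ℕ, IsLocalExt (padicVal q K) (padicVal q L) e := by
  obtain ⟨e, he, hext⟩ := h3lb_exists_ramification q (K := K) (L := L)
  haveI : FiniteDimensional K L := FiniteDimensional.right ℚ_[q] K L
  exact ⟨e, { hv := h3lb_isLocalVal q K
              hw := h3lb_isLocalVal q L
              fin := inferInstance
              gal := inferInstance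
              e_pos := he
              ext := hext
              inv := h3lb_padicVal_algEquiv q }⟩

end tower

end H3LB
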