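/-
W2-C (S55) block B (helper3, architect): local class field theory — INTERFACE, part 2.
Exact statements of the slices BS-EF, BP, B3, UnrFrob, B5a, B5b (UnrInv), B5, B6.
`q`-adic field = field `K` with `[Algebra ℚ_[q] K] [FiniteDimensional ℚ_[q] K]`, valuation `padicVal q K`
(slice BΩ, `Omega_helper3.lean`: `h3lb_isLocalVal`, `h3lb_exists_isLocalExt`).
-/
import Mathlib
import Fermat.Agent.CFT2.B.Defs
import Fermat.Agent.CFT2.B.Omega_helper3
import Fermat.Agent.CFT2.A.Defs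

set_option autoImplicit false

namespace H3LB

open scoped WithZero
open groupCohomology

section defs2

/-- `ord = -log w` on units, as a function on the additive module `Additive Lˣ` -/
noncomputable def ordAdd {L : Type} [Field L] (w : Valuation L ℤᵐ⁰) (a : Additive Lˣ) : ℤ :=
  - WithZero.log (w ((Additive.toMul a : Lˣ) : L))

/-- `φ` is a Frobenius of `L/K`: `φ x ≡ x ^ N mod 𝔪_L` on integers, `N = |k_K|`. -/
def IsFrob {K L : Type} [Field K] [Field L] [Algebra K L] (v : Valuation K ℤᵐ⁰)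
    (w : Valuation L ℤᵐ⁰) (φ : L ≃ₐ[K] L) : Prop :=
  ∀ x : L, w x ≤ 1 →
    w (φ x - x ^ Nat.card (IsLocalRing.ResidueField v.valuationSubring)) < 1

end defs2

section slices2

/-- **(UnrFrob)** an unramified extension has a Frobenius, and it generates the Galois group. -/
def UnrFrob : Prop :=
  ∀ (K L : Type) [Field K] [Field L] [Algebra K L] (v : Valuation K ℤᵐ⁰) (w : Valuation L ℤᵐ⁰),
    IsLocalExt v w 1 → ∃ φ : L ≃ₐ[K] L, IsFrob v w φ ∧ ∀ g : L ≃ₐ[K] L, g ∈ Subgroup.zpowers φ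

/-- **(B5b) the invariant of an unramified extension**: `inv [c] = ∑_k ord c(φ, k) mod n` is a
well defined isomorphism `H²(Gal(L/K), Lˣ) ≅ ℤ/n`  (`φ` the Frobenius, `n = [L:K]`). -/
def UnrInv : Prop :=
  ∀ (K L : Type) [Field K] [Field L] [Algebra K L] (v : Valuation K ℤᵐ⁰) (w : Valuation L ℤᵐ⁰),
    IsLocalExt v w 1 → ∀ φ : L ≃ₐ[K] L, IsFrob v w φ →
    ∃ inv : groupCohomology.H2 (Rep.ofAlgebraAutOnUnits K L) →+ ZMod (Module.finrank K L),
      Function.Bijective inv ∧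
      ∀ c : groupCohomology.cocycles₂ (Rep.ofAlgebraAutOnUnits K L),
        inv (groupCohomology.H2π _ c) =
          ((∑ᶠ k : L ≃ₐ[K] L, ordAdd w (Rep.toAdditive (c.1 (φ, k))) : ℤ) :
            ZMod (Module.finrank K L))

/-- **(BS-EF) `e · f = n`** in the form `|k_L| ^ e = |k_K| ^ [L:K]`. -/
def RamResDegree : Prop :=
  ∀ (K L : Type) [Field K] [Field L] [Algebra K L] (v : Valuation K ℤᵐ⁰) (w : Valuation L ℤᵐ⁰)
    (e : ℕ), IsLocalExt v w e →
    Nat.card (IsLocalRing.ResidueField w.valuationSubring) ^ e =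
      Nat.card (IsLocalRing.ResidueField v.valuationSubring) ^ Module.finrank K L

/-- **(BP) `n`-th powers are open**: `1 + π^m 𝒪 ⊆ (Kˣ)ⁿ` for `m` large (`n ≠ 0` in `K`). -/
def PowOpen : Prop :=
  ∀ (K : Type) [Field K] (v : Valuation K ℤᵐ⁰), IsLocalVal v → ∀ n : ℕ, (n : K) ≠ 0 →
    ∃ m : ℕ, ∀ u : K, v (u - 1) ≤ WithZero.exp (-(m : ℤ)) → ∃ y : K, y ^ n = u

/-- **(B3) unramified extensions of every degree exist** inside any algebraically closed
overfield `Ω` of a `q`-adic field `K`. -/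
def UnrExists : Prop :=
  ∀ (q : ℕ) [Fact q.Prime] (K Ω : Type) [Field K] [Field Ω] [Algebra ℚ_[q] K]
    [FiniteDimensional ℚ_[q] K] [Algebra ℚ_[q] Ω] [Algebra K Ω] [IsScalarTower ℚ_[q] K Ω]
    [IsAlgClosed Ω] (n : ℕ), 0 < n →
    ∃ (E : IntermediateField K Ω) (_ : FiniteDimensional ℚ_[q] E),
      IsGalois K E ∧ Module.finrank K E = n ∧ IsLocalExt (padicVal q K) (padicVal q E) 1

/-- **(B5a)** `|H²(Gal(L/K), Lˣ)| ≤ [L:K]` for every finite Galois extension of `q`-adic fields. -/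
def H2CardLe : Prop :=
  ∀ (q : ℕ) [Fact q.Prime] (K L : Type) [Field K] [Field L] [Algebra ℚ_[q] K] [Algebra ℚ_[q] L]
    [Algebra K L] [IsScalarTower ℚ_[q] K L] [FiniteDimensional ℚ_[q] L] [IsGalois K L],
    Finite (groupCohomology (Rep.ofAlgebraAutOnUnits K L) 2) ∧
    Nat.card (groupCohomology (Rep.ofAlgebraAutOnUnits K L) 2) ≤ Module.finrank K L

/-- **(B5)** `H²(Gal(L/K), Lˣ)` is cyclic of order `[L:K]`. -/
def H2Card : Prop :=
  ∀ (q : ℕ) [Fact q.Prime] (K L : Type) [Field K] [Field L] [Algebra ℚ_[q] K] [Algebra ℚ_[q] L]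
    [Algebra K L] [IsScalarTower ℚ_[q] K L] [FiniteDimensional ℚ_[q] L] [IsGalois K L],
    Nat.card (groupCohomology (Rep.ofAlgebraAutOnUnits K L) 2) = Module.finrank K L ∧
    IsAddCyclic (groupCohomology (Rep.ofAlgebraAutOnUnits K L) 2)

/-- **(B6) the local class module**. -/
def LocalClassModule : Prop :=
  ∀ (q : ℕ) [Fact q.Prime] (K L : Type) [Field K] [Field L] [Algebra ℚ_[q] K] [Algebra ℚ_[q] L]
    [Algebra K L] [IsScalarTower ℚ_[q] K L] [FiniteDimensional ℚ_[q] L] [IsGalois K L],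
    ∃ γ : groupCohomology (Rep.ofAlgebraAutOnUnits K L) 2,
      H20A.IsClassModule (Rep.ofAlgebraAutOnUnits K L) γ

end slices2

end H3LB
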