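/-
W2-C (S55) block B (helper3, architect): local class field theory — INTERFACE, part 3.
Field-theoretic inflation / restriction maps on `Hⁿ(Gal(L/K), Lˣ)`, and the exact statements of the
slices BT (InfResField), FrobRestrict, UnrRoots, UnrCompositum (B3+), and the final deliverable
`LocalInvExists` (canonical local invariants).
-/
import Mathlib
import Fermat.Agent.CFT2.B.Defs2

set_option autoImplicit false

namespace H3LB

open scoped WithZero
open groupCohomology CategoryTheory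

section fieldmaps

variable (K L E : Type) [Field K] [Field L] [Field E] [Algebra K L] [Algebra L E] [Algebra K E]
  [IsScalarTower K L E]

/-- `Gal(E/L) → Gal(E/K)` -/
def galRes : (E ≃ₐ[L] E) →* (E ≃ₐ[K] E) where
  toFun σ := σ.restrictScalars K
  map_one' := rfl
  map_mul' _ _ := rfl

/-- the identity of `Eˣ` as a morphism `res (Gal(E/L) → Gal(E/K)) Eˣ ⟶ Eˣ` -/
noncomputable def resFieldHom :
    Rep.res (galRes K L E) (Rep.ofAlgebraAutOnUnits K E) ⟶ Rep.ofAlgebraAutOnUnits L E :=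
  Rep.ofHom ⟨LinearMap.id, fun g => by ext v; rfl⟩

/-- restriction `Hⁿ(Gal(E/K), Eˣ) → Hⁿ(Gal(E/L), Eˣ)`; on cocycles `c ↦ c ∘ (galRes × galRes)` -/
noncomputable def resField (n : ℕ) :
    groupCohomology (Rep.ofAlgebraAutOnUnits K E) n →+
      groupCohomology (Rep.ofAlgebraAutOnUnits L E) n :=
  (groupCohomology.map (galRes K L E) (resFieldHom K L E) n).hom.toAddMonoidHom

variable [Normal K L]

/-- `Lˣ → Eˣ` as a morphism `res (Gal(E/K) → Gal(L/K)) Lˣ ⟶ Eˣ` -/
noncomputable def infFieldHom :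
    Rep.res (AlgEquiv.restrictNormalHom (F := K) (K₁ := E) L) (Rep.ofAlgebraAutOnUnits K L) ⟶
      Rep.ofAlgebraAutOnUnits K E :=
  Rep.ofHom ⟨(MonoidHom.toAdditive (Units.map (algebraMap L E : L →* E))).toIntLinearMap,
    fun g => by
      ext v
      exact AlgEquiv.restrictNormal_commutes g L ((Additive.toMul v : Lˣ) : L)⟩

/-- inflation `Hⁿ(Gal(L/K), Lˣ) → Hⁿ(Gal(E/K), Eˣ)`; on cocycles
`c ↦ (algebraMap L E) ∘ c ∘ (restrictNormalHom × restrictNormalHom)` -/
noncomputable def infField (n : ℕ) :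
    groupCohomology (Rep.ofAlgebraAutOnUnits K L) n →+
      groupCohomology (Rep.ofAlgebraAutOnUnits K E) n :=
  (groupCohomology.map (AlgEquiv.restrictNormalHom (F := K) (K₁ := E) L)
    (infFieldHom K L E) n).hom.toAddMonoidHom

end fieldmaps

section basechange

variable (K M U E : Type) [Field K] [Field M] [Field U] [Field E] [Algebra K M] [Algebra K U]
  [Algebra K E] [Algebra M E] [Algebra U E] [IsScalarTower K M E] [IsScalarTower K U E]
  [Normal K U]

/-- `Gal(E/M) → Gal(U/K)`, `σ ↦ σ|_U` -/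
noncomputable def galResNormal : (E ≃ₐ[M] E) →* (U ≃ₐ[K] U) :=
  (AlgEquiv.restrictNormalHom (F := K) (K₁ := E) U).comp (galRes K M E)

end basechange

/-- `ℚ/ℤ` -/
abbrev QZ : Type := AddCircle (1 : ℚ)

section slices3

/-- **(BT) inflation–restriction for fields**, degree 2: for a tower `K ⊆ L ⊆ E`, `E/K` and `L/K`
finite Galois, `0 → H²(L/K) → H²(E/K) → H²(E/L)` is exact.
(Block A slice AF `H20A.InfResStatement (E ≃ₐ[K] E) 2` + Hilbert 90 + identification of
`ker (restrictNormalHom L)` with `Gal(E/L)` and of its invariants in `Eˣ` with `Lˣ`.) -/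
def InfResField : Prop :=
  ∀ (K L E : Type) [Field K] [Field L] [Field E] [Algebra K L] [Algebra L E] [Algebra K E]
    [IsScalarTower K L E] [FiniteDimensional K E] [IsGalois K E] [IsGalois K L],
    Function.Injective (infField K L E 2) ∧
    ∀ x, resField K L E 2 x = 0 ↔ ∃ y, infField K L E 2 y = x

/-- **(FrobRestrict)** the Frobenius of `E/M` restricts to the `f`-th power of the Frobenius of
`U/K` (`|k_M| = |k_K|^f`; `U/K`, `E/M` unramified, `K ⊆ M ⊆ E`, `K ⊆ U ⊆ E`). -/
def FrobRestrict : Prop :=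
  ∀ (K M U E : Type) [Field K] [Field M] [Field U] [Field E] [Algebra K M] [Algebra K U]
    [Algebra K E] [Algebra M E] [Algebra U E] [IsScalarTower K M E] [IsScalarTower K U E]
    [IsGalois K U]
    (vK : Valuation K ℤᵐ⁰) (vM : Valuation M ℤᵐ⁰) (vU : Valuation U ℤᵐ⁰) (vE : Valuation E ℤᵐ⁰)
    (e f : ℕ), IsLocalExt vK vU 1 → IsLocalExt vM vE 1 → 0 < e →
    (∀ x : U, vE (algebraMap U E x) = vU x ^ e) →
    Nat.card (IsLocalRing.ResidueField vM.valuationSubring) =
      Nat.card (IsLocalRing.ResidueField vK.valuationSubring) ^ f →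
    ∀ (φK : U ≃ₐ[K] U) (φM : E ≃ₐ[M] E), IsFrob vK vU φK → IsFrob vM vE φM →
      galResNormal K M U E φM = φK ^ f

/-- **(UnrRoots)** adjoining a root of unity of order prime to `q` gives an unramified Galois
extension. -/
def UnrRoots : Prop :=
  ∀ (q : ℕ) [Fact q.Prime] (K L : Type) [Field K] [Field L] [Algebra ℚ_[q] K] [Algebra ℚ_[q] L]
    [Algebra K L] [IsScalarTower ℚ_[q] K L] [FiniteDimensional ℚ_[q] K]
    [FiniteDimensional ℚ_[q] L] (r : ℕ) (ζ : L),
    ¬ q ∣ r → ζ ^ r = 1 → Algebra.adjoin K {ζ} = ⊤ →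
    IsGalois K L ∧ IsLocalExt (padicVal q K) (padicVal q L) 1

/-- **(B3+) unramified compositum**: for a finite Galois extension `L/K` of `q`-adic fields and
`m > 0` there are `q`-adic fields `U`, `E` with `K ⊆ U ⊆ E`, `K ⊆ L ⊆ E`, `E/K` Galois,
`U/K` unramified Galois of degree `m`, `E/L` unramified Galois. -/
def UnrCompositum : Prop :=
  ∀ (q : ℕ) [Fact q.Prime] (K L : Type) [Field K] [Field L] [Algebra ℚ_[q] K] [Algebra ℚ_[q] L]
    [Algebra K L] [IsScalarTower ℚ_[q] K L] [FiniteDimensional ℚ_[q] K]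
    [FiniteDimensional ℚ_[q] L] [IsGalois K L] (m : ℕ), 0 < m →
    ∃ (U E : Type) (_ : Field U) (_ : Field E) (_ : Algebra ℚ_[q] U) (_ : Algebra ℚ_[q] E)
      (_ : Algebra K U) (_ : Algebra K E) (_ : Algebra L E) (_ : Algebra U E)
      (_ : IsScalarTower ℚ_[q] K U) (_ : IsScalarTower ℚ_[q] K E) (_ : IsScalarTower ℚ_[q] L E)
      (_ : IsScalarTower ℚ_[q] U E) (_ : IsScalarTower K L E) (_ : IsScalarTower K U E)
      (_ : FiniteDimensional ℚ_[q] U) (_ : FiniteDimensional ℚ_[q] E)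
      (_ : IsGalois K U) (_ : IsGalois K E) (_ : IsGalois L E),
      Module.finrank K U = m ∧ IsLocalExt (padicVal q K) (padicVal q U) 1 ∧
        IsLocalExt (padicVal q L) (padicVal q E) 1

/-- the type of a family of invariant maps `inv_{L/K} : H²(Gal(L/K), Lˣ) → ℚ/ℤ` on all finite
Galois extensions of `q`-adic fields -/
abbrev InvFamily : Type 1 :=
  ∀ (q : ℕ) [Fact q.Prime] (K L : Type) [Field K] [Field L] [Algebra ℚ_[q] K] [Algebra ℚ_[q] L]
    [Algebra K L] [IsScalarTower ℚ_[q] K L] [FiniteDimensional ℚ_[q] L] [IsGalois K L],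
    groupCohomology (Rep.ofAlgebraAutOnUnits K L) 2 →+ QZ

/-- the axioms of the local invariant maps -/
structure IsLocalInvFamily (inv : InvFamily) : Prop where
  /-- `inv` is injective -/
  inj : ∀ (q : ℕ) [Fact q.Prime] (K L : Type) [Field K] [Field L] [Algebra ℚ_[q] K]
    [Algebra ℚ_[q] L] [Algebra K L] [IsScalarTower ℚ_[q] K L] [FiniteDimensional ℚ_[q] L]
    [IsGalois K L], Function.Injective (inv q K L)
  /-- the image of `inv` is `(1/n)ℤ/ℤ`, `n = [L:K]` -/
  range : ∀ (q : ℕ) [Fact q.Prime] (K L : Type) [Field K] [Field L] [Algebra ℚ_[q] K]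
    [Algebra ℚ_[q] L] [Algebra K L] [IsScalarTower ℚ_[q] K L] [FiniteDimensional ℚ_[q] L]
    [IsGalois K L] (t : QZ), (∃ x, inv q K L x = t) ↔ Module.finrank K L • t = 0
  /-- compatibility with inflation -/
  inf : ∀ (q : ℕ) [Fact q.Prime] (K L E : Type) [Field K] [Field L] [Field E] [Algebra ℚ_[q] K]
    [Algebra ℚ_[q] L] [Algebra ℚ_[q] E] [Algebra K L] [Algebra L E] [Algebra K E]
    [IsScalarTower ℚ_[q] K L] [IsScalarTower ℚ_[q] K E] [IsScalarTower K L E]
    [FiniteDimensional ℚ_[q] L] [FiniteDimensional ℚ_[q] E] [IsGalois K L] [IsGalois K E]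
    (x : groupCohomology (Rep.ofAlgebraAutOnUnits K L) 2),
    inv q K E (infField K L E 2 x) = inv q K L x
  /-- compatibility with restriction: `inv_{E/L} ∘ res = [L:K] · inv_{E/K}` -/
  res : ∀ (q : ℕ) [Fact q.Prime] (K L E : Type) [Field K] [Field L] [Field E] [Algebra ℚ_[q] K]
    [Algebra ℚ_[q] L] [Algebra ℚ_[q] E] [Algebra K L] [Algebra L E] [Algebra K E]
    [IsScalarTower ℚ_[q] K L] [IsScalarTower ℚ_[q] K E] [IsScalarTower ℚ_[q] L E]
    [IsScalarTower K L E]
    [FiniteDimensional ℚ_[q] L] [FiniteDimensional ℚ_[q] E] [IsGalois K E] [IsGalois L E]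
    (x : groupCohomology (Rep.ofAlgebraAutOnUnits K E) 2),
    inv q L E (resField K L E 2 x) = Module.finrank K L • inv q K E x
  /-- normalization on unramified extensions: `inv [c] = (1/n) ∑_k ord c(φ, k)`, `φ` Frobenius -/
  unr : ∀ (q : ℕ) [Fact q.Prime] (K L : Type) [Field K] [Field L] [Algebra ℚ_[q] K]
    [Algebra ℚ_[q] L] [Algebra K L] [IsScalarTower ℚ_[q] K L] [FiniteDimensional ℚ_[q] K]
    [FiniteDimensional ℚ_[q] L] [IsGalois K L], IsLocalExt (padicVal q K) (padicVal q L) 1 →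
    ∀ φ : L ≃ₐ[K] L, IsFrob (padicVal q K) (padicVal q L) φ →
    ∀ c : groupCohomology.cocycles₂ (Rep.ofAlgebraAutOnUnits K L),
      inv q K L (groupCohomology.H2π _ c) =
        (((∑ᶠ k : L ≃ₐ[K] L, ordAdd (padicVal q L) (Rep.toAdditive (c.1 (φ, k))) : ℤ) : ℚ) /
          (Module.finrank K L : ℚ) : ℚ)

/-- **(B6) canonical local invariants exist.** -/
def LocalInvExists : Prop := ∃ inv : InvFamily, IsLocalInvFamily inv

end slices3

end H3LB
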