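/-
W2-C (S55) block B (helper3, architect): local class field theory — INTERFACE, part 4:
the sub-slices of the assembly of `H3LB.H2Card` and `H3LB.LocalInvExists`.
See NOTES/W2C-B.md (plan v3) for the proofs.
-/
import Mathlib
import Fermat.Agent.CFT2.B.Defs3

set_option autoImplicit false

namespace H3LB

open scoped WithZero
open groupCohomology CategoryTheory

section unr

variable {K L : Type} [Field K] [Field L] [Algebra K L]

/-- `∑_k ord c(φ, k)` for a 2-cochain `c` of `Gal(L/K)` with values in `Lˣ` -/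
noncomputable def unrSum (w : Valuation L ℤᵐ⁰) (φ : L ≃ₐ[K] L)
    (c : (L ≃ₐ[K] L) × (L ≃ₐ[K] L) → Rep.ofAlgebraAutOnUnits K L) : ℤ :=
  ∑ᶠ k : L ≃ₐ[K] L, ordAdd w (Rep.toAdditive (c (φ, k)))

/-- `(1/[L:K]) ∑_k ord c(φ, k)` in `ℚ/ℤ` -/
noncomputable def unrInvQ (w : Valuation L ℤᵐ⁰) (φ : L ≃ₐ[K] L)
    (c : (L ≃ₐ[K] L) × (L ≃ₐ[K] L) → Rep.ofAlgebraAutOnUnits K L) : QZ :=
  (((unrSum w φ c : ℤ) : ℚ) / (Module.finrank K L : ℚ) : ℚ)

end unr

section maps

variable (K M U E : Type) [Field K] [Field M] [Field U] [Field E] [Algebra K M] [Algebra K U]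
  [Algebra K E] [Algebra M E] [Algebra U E] [IsScalarTower K M E] [IsScalarTower K U E]
  [Normal K U]

/-- base change `Hⁿ(Gal(U/K), Uˣ) → Hⁿ(Gal(E/K), Eˣ) → Hⁿ(Gal(E/M), Eˣ)`; on cocycles
`c ↦ (algebraMap U E) ∘ c ∘ (galResNormal × galResNormal)` -/
noncomputable def bcField (n : ℕ) :
    groupCohomology (Rep.ofAlgebraAutOnUnits K U) n →+
      groupCohomology (Rep.ofAlgebraAutOnUnits M E) n :=
  (resField K M E n).comp (infField K U E n)

end maps

section slices4

/-- **(S2) UnrInfCompat**: the explicit invariant of unramified extensions is compatible with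
inflation `K ⊆ L ⊆ E`, `L/K` and `E/K` unramified. -/
def UnrInfCompat : Prop :=
  ∀ (K L E : Type) [Field K] [Field L] [Field E] [Algebra K L] [Algebra L E] [Algebra K E]
    [IsScalarTower K L E] [IsGalois K L]
    (vK : Valuation K ℤᵐ⁰) (vL : Valuation L ℤᵐ⁰) (vE : Valuation E ℤᵐ⁰),
    IsLocalExt vK vL 1 → IsLocalExt vK vE 1 → (∀ x : L, vE (algebraMap L E x) = vL x) →
    ∀ (φL : L ≃ₐ[K] L) (φE : E ≃ₐ[K] E), IsFrob vK vL φL → IsFrob vK vE φE →
    ∀ (c : cocycles₂ (Rep.ofAlgebraAutOnUnits K L)) (c' : cocycles₂ (Rep.ofAlgebraAutOnUnits K E)),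
      H2π _ c' = infField K L E 2 (H2π _ c) → unrInvQ vE φE c'.1 = unrInvQ vL φL c.1

/-- **(S3) UnrBaseChange**: `inv_{E/M}(bc y) = [M:K] · inv_{U/K}(y)` for `U/K`, `E/M` unramified,
`K ⊆ M ⊆ E`, `K ⊆ U ⊆ E`.  (`e`, `f` = ramification index and residue degree of `M/K`.) -/
def UnrBaseChange : Prop :=
  ∀ (K M U E : Type) [Field K] [Field M] [Field U] [Field E] [Algebra K M] [Algebra K U]
    [Algebra K E] [Algebra M E] [Algebra U E] [IsScalarTower K M E] [IsScalarTower K U E]
    [IsGalois K U]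
    (vK : Valuation K ℤᵐ⁰) (vM : Valuation M ℤᵐ⁰) (vU : Valuation U ℤᵐ⁰) (vE : Valuation E ℤᵐ⁰)
    (e f : ℕ), IsLocalExt vK vU 1 → IsLocalExt vM vE 1 → 0 < e →
    (∀ x : U, vE (algebraMap U E x) = vU x ^ e) →
    Nat.card (IsLocalRing.ResidueField vM.valuationSubring) =
      Nat.card (IsLocalRing.ResidueField vK.valuationSubring) ^ f →
    e * f = Module.finrank K M →
    ∀ (φK : U ≃ₐ[K] U) (φM : E ≃ₐ[M] E), IsFrob vK vU φK → IsFrob vM vE φM →
    ∀ (c : cocycles₂ (Rep.ofAlgebraAutOnUnits K U)) (c' : cocycles₂ (Rep.ofAlgebraAutOnUnits M E)),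
      H2π _ c' = bcField K M U E 2 (H2π _ c) →
        unrInvQ vE φM c'.1 = Module.finrank K M • unrInvQ vU φK c.1

/-- **(S4a) functoriality of inflation**: `inf_{L→F} = inf_{E→F} ∘ inf_{L→E}`. -/
def InfFieldComp : Prop :=
  ∀ (K L E F : Type) [Field K] [Field L] [Field E] [Field F] [Algebra K L] [Algebra K E]
    [Algebra K F] [Algebra L E] [Algebra L F] [Algebra E F] [IsScalarTower K L E]
    [IsScalarTower K L F] [IsScalarTower K E F] [IsScalarTower L E F] [Normal K L] [Normal K E]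
    (n : ℕ), infField K L F n = (infField K E F n).comp (infField K L E n)

/-- **(S4b) functoriality of restriction**: `res_{F/K → F/M} = res_{F/L → F/M} ∘ res_{F/K → F/L}`. -/
def ResFieldComp : Prop :=
  ∀ (K L M F : Type) [Field K] [Field L] [Field M] [Field F] [Algebra K L] [Algebra K M]
    [Algebra K F] [Algebra L M] [Algebra L F] [Algebra M F] [IsScalarTower K L F]
    [IsScalarTower K M F] [IsScalarTower L M F] [IsScalarTower K L M]
    (n : ℕ), resField K M F n = (resField L M F n).comp (resField K L F n)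

/-- **(S4c) restriction commutes with inflation**:
`res_{F/K → F/L} ∘ inf_{E→F} = inf_{E→F} ∘ res_{E/K → E/L}` for `K ⊆ L ⊆ E ⊆ F`. -/
def ResInfComm : Prop :=
  ∀ (K L E F : Type) [Field K] [Field L] [Field E] [Field F] [Algebra K L] [Algebra K E]
    [Algebra K F] [Algebra L E] [Algebra L F] [Algebra E F] [IsScalarTower K L E]
    [IsScalarTower K L F] [IsScalarTower K E F] [IsScalarTower L E F] [Normal K E] [Normal L E]
    (n : ℕ), (resField K L F n).comp (infField K E F n) =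
      (infField L E F n).comp (resField K L E n)

/-- **(S4d) isomorphism invariance**: `inf_{L→E}` is bijective when `L → E` is bijective. -/
def InfFieldIso : Prop :=
  ∀ (K L E : Type) [Field K] [Field L] [Field E] [Algebra K L] [Algebra L E] [Algebra K E]
    [IsScalarTower K L E] [Normal K L] (n : ℕ),
    Function.Bijective (algebraMap L E) → Function.Bijective (infField K L E n)

/-- **(S5) UnrSplit**: for a finite Galois extension `L/K` of `q`-adic fields of degree `n` and an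
unramified compositum datum `(U, E)` with `[U:K] = n` (see `UnrCompositum`): the images of
`H²(L/K)` and `H²(U/K)` in `H²(E/K)` coincide.  (Proof: `UnrBaseChange` with `M = L` + injectivity of
the unramified invariant of `E/L` give `res_{E/L} ∘ inf_U = 0`; `InfResField`; `H2CardLe`; `UnrInv`.) -/
def UnrSplit : Prop :=
  ∀ (q : ℕ) [Fact q.Prime] (K L U E : Type) [Field K] [Field L] [Field U] [Field E]
    [Algebra ℚ_[q] K] [Algebra ℚ_[q] L] [Algebra ℚ_[q] U] [Algebra ℚ_[q] E]
    [Algebra K L] [Algebra K U] [Algebra K E] [Algebra L E] [Algebra U E]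
    [IsScalarTower ℚ_[q] K L] [IsScalarTower ℚ_[q] K U] [IsScalarTower ℚ_[q] K E]
    [IsScalarTower ℚ_[q] L E] [IsScalarTower ℚ_[q] U E] [IsScalarTower K L E] [IsScalarTower K U E]
    [FiniteDimensional ℚ_[q] K] [FiniteDimensional ℚ_[q] L] [FiniteDimensional ℚ_[q] U]
    [FiniteDimensional ℚ_[q] E] [IsGalois K L] [IsGalois K U] [IsGalois K E] [IsGalois L E],
    Module.finrank K U = Module.finrank K L →
    IsLocalExt (padicVal q K) (padicVal q U) 1 → IsLocalExt (padicVal q L) (padicVal q E) 1 →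
    Set.range (infField K L E 2) = Set.range (infField K U E 2)

section via

variable (q : ℕ) [Fact q.Prime] (K L U E : Type) [Field K] [Field L] [Field U] [Field E]
    [Algebra ℚ_[q] K] [Algebra ℚ_[q] U]
    [Algebra K L] [Algebra K U] [Algebra K E] [Algebra L E] [Algebra U E]
    [IsScalarTower ℚ_[q] K U] [IsScalarTower K L E] [IsScalarTower K U E]
    [FiniteDimensional ℚ_[q] K] [FiniteDimensional ℚ_[q] U] [Normal K L] [Normal K U]

/-- the class `x ∈ H²(L/K)` has invariant `t`, computed through the unramified extension `U/K`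
inside a common overfield `E` of `L` and `U`:  `inf_{L→E} x = inf_{U→E} [c]` and
`t = (1/[U:K]) ∑_k ord c(φ, k)`. -/
def IsInvVia (x : groupCohomology (Rep.ofAlgebraAutOnUnits K L) 2) (t : QZ) : Prop :=
  IsLocalExt (padicVal q K) (padicVal q U) 1 ∧
    ∃ (φ : U ≃ₐ[K] U) (c : cocycles₂ (Rep.ofAlgebraAutOnUnits K U)),
      IsFrob (padicVal q K) (padicVal q U) φ ∧
      infField K U E 2 (H2π _ c) = infField K L E 2 x ∧
      unrInvQ (padicVal q U) φ c.1 = t

end via

/-- **(S7) independence of the unramified compositum**: the invariant computed through `(U₁, E₁)`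
equals the invariant computed through `(U₂, E₂)`. -/
def InvIndep : Prop :=
  ∀ (q : ℕ) [Fact q.Prime] (K L U₁ E₁ U₂ E₂ : Type) [Field K] [Field L] [Field U₁] [Field E₁]
    [Field U₂] [Field E₂]
    [Algebra ℚ_[q] K] [Algebra ℚ_[q] L] [Algebra ℚ_[q] U₁] [Algebra ℚ_[q] U₂]
    [Algebra ℚ_[q] E₁] [Algebra ℚ_[q] E₂]
    [Algebra K L] [Algebra K U₁] [Algebra K E₁] [Algebra L E₁] [Algebra U₁ E₁]
    [Algebra K U₂] [Algebra K E₂] [Algebra L E₂] [Algebra U₂ E₂]
    [IsScalarTower ℚ_[q] K L] [IsScalarTower ℚ_[q] K U₁] [IsScalarTower ℚ_[q] K U₂]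
    [IsScalarTower ℚ_[q] K E₁] [IsScalarTower ℚ_[q] K E₂]
    [IsScalarTower K L E₁] [IsScalarTower K U₁ E₁] [IsScalarTower K L E₂] [IsScalarTower K U₂ E₂]
    [FiniteDimensional ℚ_[q] K] [FiniteDimensional ℚ_[q] L] [FiniteDimensional ℚ_[q] U₁]
    [FiniteDimensional ℚ_[q] U₂] [FiniteDimensional ℚ_[q] E₁] [FiniteDimensional ℚ_[q] E₂]
    [IsGalois K L] [IsGalois K U₁] [IsGalois K U₂] [IsGalois K E₁] [IsGalois K E₂]
    (x : groupCohomology (Rep.ofAlgebraAutOnUnits K L) 2) (t₁ t₂ : QZ),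
    IsInvVia q K L U₁ E₁ x t₁ → IsInvVia q K L U₂ E₂ x t₂ → t₁ = t₂

end slices4

end H3LB
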