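/-
W2-C (S55) block B (helper3, architect): local class field theory — INTERFACE, part 5:
the local invariant `localInvFun` and the slices proving that it is a local invariant family.
-/
import Mathlib
import Fermat.Agent.CFT2.B.Defs4

set_option autoImplicit false
set_option linter.style.haveILetI false

namespace H3LB

open scoped WithZero
open groupCohomology CategoryTheory

section hasinv

variable (q : ℕ) [Fact q.Prime] (K L : Type) [Field K] [Field L] [Algebra ℚ_[q] K] [Algebra K L]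
  [FiniteDimensional ℚ_[q] K] [Normal K L]

/-- `x ∈ H²(Gal(L/K), Lˣ)` has invariant `t`: there are a `q`-adic field `E ⊇ L`, finite Galois
over `K`, and an unramified Galois extension `U/K` inside `E`, such that
`inf_{L→E} x = inf_{U→E} [c]` and `t = (1/[U:K]) ∑_k ord c(Frob, k)`  (see `IsInvVia`). -/
def HasInv (x : groupCohomology (Rep.ofAlgebraAutOnUnits K L) 2) (t : QZ) : Prop :=
  ∃ (U E : Type) (_ : Field U) (_ : Field E) (_ : Algebra ℚ_[q] U) (_ : Algebra ℚ_[q] E)
    (_ : Algebra K U) (_ : Algebra K E) (_ : Algebra L E) (_ : Algebra U E)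
    (_ : IsScalarTower ℚ_[q] K U) (_ : IsScalarTower ℚ_[q] K E)
    (_ : IsScalarTower K L E) (_ : IsScalarTower K U E)
    (_ : FiniteDimensional ℚ_[q] U) (_ : FiniteDimensional ℚ_[q] E)
    (_ : IsGalois K U) (_ : IsGalois K E),
    IsInvVia q K L U E x t

open Classical in
/-- **the local invariant** `inv_{L/K} : H²(Gal(L/K), Lˣ) → ℚ/ℤ` (as a function) -/
noncomputable def localInvFun (x : groupCohomology (Rep.ofAlgebraAutOnUnits K L) 2) : QZ :=
  if h : ∃ t, HasInv q K L x t then h.choose else 0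

end hasinv

section slices5

/-- **(S8a)** every class has an invariant; one datum `(U, E)` works for all classes, so the
invariant is additive. -/
def HasInvExists : Prop :=
  ∀ (q : ℕ) [Fact q.Prime] (K L : Type) [Field K] [Field L] [Algebra ℚ_[q] K] [Algebra ℚ_[q] L]
    [Algebra K L] [IsScalarTower ℚ_[q] K L] [FiniteDimensional ℚ_[q] K]
    [FiniteDimensional ℚ_[q] L] [IsGalois K L],
    (∀ x : groupCohomology (Rep.ofAlgebraAutOnUnits K L) 2, ∃ t, HasInv q K L x t) ∧
    (∀ x y : groupCohomology (Rep.ofAlgebraAutOnUnits K L) 2, ∃ t s,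
      HasInv q K L x t ∧ HasInv q K L y s ∧ HasInv q K L (x + y) (t + s))

/-- **(S8b)** the invariant is unique (`InvIndep` repackaged). -/
def HasInvUnique : Prop :=
  ∀ (q : ℕ) [Fact q.Prime] (K L : Type) [Field K] [Field L] [Algebra ℚ_[q] K] [Algebra ℚ_[q] L]
    [Algebra K L] [IsScalarTower ℚ_[q] K L] [FiniteDimensional ℚ_[q] K]
    [FiniteDimensional ℚ_[q] L] [IsGalois K L]
    (x : groupCohomology (Rep.ofAlgebraAutOnUnits K L) 2) (t₁ t₂ : QZ),
    HasInv q K L x t₁ → HasInv q K L x t₂ → t₁ = t₂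

/-- **(S8c)** injectivity: invariant `0` implies `x = 0`. -/
def HasInvInj : Prop :=
  ∀ (q : ℕ) [Fact q.Prime] (K L : Type) [Field K] [Field L] [Algebra ℚ_[q] K] [Algebra ℚ_[q] L]
    [Algebra K L] [IsScalarTower ℚ_[q] K L] [FiniteDimensional ℚ_[q] K]
    [FiniteDimensional ℚ_[q] L] [IsGalois K L]
    (x : groupCohomology (Rep.ofAlgebraAutOnUnits K L) 2), HasInv q K L x 0 → x = 0

/-- **(S8d)** the invariants of the classes of `H²(L/K)` are exactly the `t` with `[L:K] • t = 0`. -/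
def HasInvRange : Prop :=
  ∀ (q : ℕ) [Fact q.Prime] (K L : Type) [Field K] [Field L] [Algebra ℚ_[q] K] [Algebra ℚ_[q] L]
    [Algebra K L] [IsScalarTower ℚ_[q] K L] [FiniteDimensional ℚ_[q] K]
    [FiniteDimensional ℚ_[q] L] [IsGalois K L] (t : QZ),
    (∃ x, HasInv q K L x t) ↔ Module.finrank K L • t = 0

/-- **(S8e)** compatibility with inflation. -/
def HasInvInf : Prop :=
  ∀ (q : ℕ) [Fact q.Prime] (K L E : Type) [Field K] [Field L] [Field E] [Algebra ℚ_[q] K]
    [Algebra ℚ_[q] L] [Algebra ℚ_[q] E] [Algebra K L] [Algebra L E] [Algebra K E]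
    [IsScalarTower ℚ_[q] K L] [IsScalarTower ℚ_[q] K E] [IsScalarTower K L E]
    [FiniteDimensional ℚ_[q] K] [FiniteDimensional ℚ_[q] L] [FiniteDimensional ℚ_[q] E]
    [IsGalois K L] [IsGalois K E]
    (x : groupCohomology (Rep.ofAlgebraAutOnUnits K L) 2) (t : QZ),
    HasInv q K L x t → HasInv q K E (infField K L E 2 x) t

/-- **(S8f)** compatibility with restriction: `inv_{E/L}(res x) = [L:K] · inv_{E/K}(x)`
(`L/K` need not be Galois). -/
def HasInvRes : Prop :=
  ∀ (q : ℕ) [Fact q.Prime] (K L E : Type) [Field K] [Field L] [Field E] [Algebra ℚ_[q] K]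
    [Algebra ℚ_[q] L] [Algebra ℚ_[q] E] [Algebra K L] [Algebra L E] [Algebra K E]
    [IsScalarTower ℚ_[q] K L] [IsScalarTower ℚ_[q] K E] [IsScalarTower ℚ_[q] L E]
    [IsScalarTower K L E]
    [FiniteDimensional ℚ_[q] K] [FiniteDimensional ℚ_[q] L] [FiniteDimensional ℚ_[q] E]
    [IsGalois K E] [IsGalois L E]
    (x : groupCohomology (Rep.ofAlgebraAutOnUnits K E) 2) (t : QZ),
    HasInv q K E x t → HasInv q L E (resField K L E 2 x) (Module.finrank K L • t)

/-- **(S8g)** normalization on unramified extensions. -/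
def HasInvUnr : Prop :=
  ∀ (q : ℕ) [Fact q.Prime] (K L : Type) [Field K] [Field L] [Algebra ℚ_[q] K] [Algebra ℚ_[q] L]
    [Algebra K L] [IsScalarTower ℚ_[q] K L] [FiniteDimensional ℚ_[q] K]
    [FiniteDimensional ℚ_[q] L] [IsGalois K L],
    IsLocalExt (padicVal q K) (padicVal q L) 1 →
    ∀ φ : L ≃ₐ[K] L, IsFrob (padicVal q K) (padicVal q L) φ →
    ∀ c : cocycles₂ (Rep.ofAlgebraAutOnUnits K L),
      HasInv q K L (H2π _ c) (unrInvQ (padicVal q L) φ c.1)

/-- **(UnrGen)** an unramified extension is generated by a root of unity of order prime to `q`. -/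
def UnrGen : Prop :=
  ∀ (q : ℕ) [Fact q.Prime] (K L : Type) [Field K] [Field L] [Algebra ℚ_[q] K] [Algebra ℚ_[q] L]
    [Algebra K L] [IsScalarTower ℚ_[q] K L] [FiniteDimensional ℚ_[q] K]
    [FiniteDimensional ℚ_[q] L],
    IsLocalExt (padicVal q K) (padicVal q L) 1 →
    ∃ (r : ℕ) (ζ : L), ¬ q ∣ r ∧ ζ ^ r = 1 ∧ Algebra.adjoin K {ζ} = ⊤

/-- **(S4e)** `inf_{U'→E} ∘ bc_{U→U'} = bc_{U→E}` for `K ⊆ L ⊆ U' ⊆ E`, `K ⊆ U ⊆ U'`. -/
def BcInfComp : Prop :=
  ∀ (K L U U' E : Type) [Field K] [Field L] [Field U] [Field U'] [Field E]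
    [Algebra K L] [Algebra K U] [Algebra K U'] [Algebra K E] [Algebra L U'] [Algebra L E]
    [Algebra U U'] [Algebra U E] [Algebra U' E]
    [IsScalarTower K L U'] [IsScalarTower K L E] [IsScalarTower K U U'] [IsScalarTower K U E]
    [IsScalarTower L U' E] [IsScalarTower U U' E] [Normal K U] [Normal L U'] (n : ℕ),
    (infField L U' E n).comp (bcField K L U U' n) = bcField K L U E n

end slices5

section assembly

/-- **assembly**: the slices S8a–S8g give the canonical local invariants. -/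
theorem h3lb_localInvExists_of_slices (h1 : HasInvExists) (h2 : HasInvUnique) (h3 : HasInvInj)
    (h4 : HasInvRange) (h5 : HasInvInf) (h6 : HasInvRes) (h7 : HasInvUnr) : LocalInvExists := by
  classical
  -- the value of `localInvFun` is characterised by `HasInv`
  have key : ∀ (q : ℕ) [Fact q.Prime] (K L : Type) [Field K] [Field L] [Algebra ℚ_[q] K]
      [Algebra ℚ_[q] L] [Algebra K L] [IsScalarTower ℚ_[q] K L] [FiniteDimensional ℚ_[q] K]
      [FiniteDimensional ℚ_[q] L] [IsGalois K L]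
      (x : groupCohomology (Rep.ofAlgebraAutOnUnits K L) 2) (t : QZ),
      HasInv q K L x t → localInvFun q K L x = t := by
    intro q _ K L _ _ _ _ _ _ _ _ _ x t ht
    have hex : ∃ t, HasInv q K L x t := ⟨t, ht⟩
    unfold localInvFun
    rw [dif_pos hex]
    exact h2 q K L x _ _ hex.choose_spec ht
  have spec : ∀ (q : ℕ) [Fact q.Prime] (K L : Type) [Field K] [Field L] [Algebra ℚ_[q] K]
      [Algebra ℚ_[q] L] [Algebra K L] [IsScalarTower ℚ_[q] K L] [FiniteDimensional ℚ_[q] K]
      [FiniteDimensional ℚ_[q] L] [IsGalois K L]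
      (x : groupCohomology (Rep.ofAlgebraAutOnUnits K L) 2),
      HasInv q K L x (localInvFun q K L x) := by
    intro q _ K L _ _ _ _ _ _ _ _ _ x
    obtain ⟨t, ht⟩ := (h1 q K L).1 x
    rw [key q K L x t ht]
    exact ht
  have fdK : ∀ (q : ℕ) [Fact q.Prime] (K L : Type) [Field K] [Field L] [Algebra ℚ_[q] K]
      [Algebra ℚ_[q] L] [Algebra K L] [IsScalarTower ℚ_[q] K L]
      [FiniteDimensional ℚ_[q] L], FiniteDimensional ℚ_[q] K := by
    intro q _ K L _ _ _ _ _ _ _
    exact FiniteDimensional.left ℚ_[q] K L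
  refine ⟨fun q _ K L _ _ _ _ _ _ _ _ =>
    haveI := fdK q K L
    AddMonoidHom.mk' (localInvFun q K L) (fun x y => by
      obtain ⟨t, s, ht, hs, hts⟩ := (h1 q K L).2 x y
      rw [key q K L x t ht, key q K L y s hs, key q K L (x + y) (t + s) hts]), ?_⟩
  refine ⟨?_, ?_, ?_, ?_, ?_⟩
  · intro q _ K L _ _ _ _ _ _ _ _
    haveI := fdK q K L
    rw [injective_iff_map_eq_zero]
    intro x hx
    apply h3 q K L x
    have := spec q K L x
    rw [AddMonoidHom.mk'_apply] at hx
    rwa [hx] at this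
  · intro q _ K L _ _ _ _ _ _ _ _ t
    haveI := fdK q K L
    rw [← h4 q K L t]
    constructor
    · rintro ⟨x, hx⟩
      refine ⟨x, ?_⟩
      rw [AddMonoidHom.mk'_apply] at hx
      rw [← hx]
      exact spec q K L x
    · rintro ⟨x, hx⟩
      exact ⟨x, by rw [AddMonoidHom.mk'_apply]; exact key q K L x t hx⟩
  · intro q _ K L E _ _ _ _ _ _ _ _ _ _ _ _ _ _ _ _ x
    haveI := fdK q K L
    rw [AddMonoidHom.mk'_apply, AddMonoidHom.mk'_apply]
    exact key q K E _ _ (h5 q K L E x _ (spec q K L x))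
  · intro q _ K L E _ _ _ _ _ _ _ _ _ _ _ _ _ _ _ _ _ x
    haveI := fdK q K L
    rw [AddMonoidHom.mk'_apply, AddMonoidHom.mk'_apply]
    exact key q L E _ _ (h6 q K L E x _ (spec q K E x))
  · intro q _ K L _ _ _ _ _ _ _ _ _ hunr φ hφ c
    rw [AddMonoidHom.mk'_apply]
    exact key q K L _ _ (h7 q K L hunr φ hφ c)

end assembly

end H3LB
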