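/-
W2-C (S55) block B, slice S4e (helper24): `inf_{U'→E} ∘ bc_{U→U'} = bc_{U→E}`:
`h24lb_bcInfComp : H3LB.BcInfComp`.
-/
import Mathlib
import Fermat.Agent.CFT2.B.Defs5

set_option autoImplicit false
set_option linter.style.haveILetI false
set_option linter.unusedSectionVars false
set_option linter.unusedVariables false

noncomputable section

namespace H24LB

open scoped WithZero
open H3LB groupCohomology CategoryTheory

/-- **(S4e)** -/
theorem h24lb_bcInfComp : H3LB.BcInfComp := by
  intro K L U U' E _ _ _ _ _ _ _ _ _ _ _ _ _ _ _ _ _ _ _ _ _ _ n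
  unfold bcField resField infField
  have h1 := groupCohomology.map_comp (k := ℤ)
    (A := Rep.ofAlgebraAutOnUnits K U) (B := Rep.ofAlgebraAutOnUnits K U')
    (C := Rep.ofAlgebraAutOnUnits L U')
    (AlgEquiv.restrictNormalHom (F := K) (K₁ := U') U) (galRes K L U')
    (infFieldHom K U U') (resFieldHom K L U') n
  have h2 := groupCohomology.map_comp (k := ℤ)
    (A := Rep.ofAlgebraAutOnUnits K U) (B := Rep.ofAlgebraAutOnUnits L U')
    (C := Rep.ofAlgebraAutOnUnits L E)
    ((AlgEquiv.restrictNormalHom (F := K) (K₁ := U') U).comp (galRes K L U'))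
    (AlgEquiv.restrictNormalHom (F := L) (K₁ := E) U')
    ((Rep.resFunctor (galRes K L U')).map (infFieldHom K U U') ≫ resFieldHom K L U')
    (infFieldHom L U' E) n
  have h3 := groupCohomology.map_comp (k := ℤ)
    (A := Rep.ofAlgebraAutOnUnits K U) (B := Rep.ofAlgebraAutOnUnits K E)
    (C := Rep.ofAlgebraAutOnUnits L E)
    (AlgEquiv.restrictNormalHom (F := K) (K₁ := E) U) (galRes K L E)
    (infFieldHom K U E) (resFieldHom K L E) n
  have h4 : (groupCohomology.map (AlgEquiv.restrictNormalHom (F := K) (K₁ := U') U)
        (infFieldHom K U U') n ≫ groupCohomology.map (galRes K L U') (resFieldHom K L U') n) ≫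
        groupCohomology.map (AlgEquiv.restrictNormalHom (F := L) (K₁ := E) U')
          (infFieldHom L U' E) n
      = groupCohomology.map (AlgEquiv.restrictNormalHom (F := K) (K₁ := E) U)
          (infFieldHom K U E) n ≫ groupCohomology.map (galRes K L E) (resFieldHom K L E) n := by
    rw [← h1, ← h2, ← h3]
    refine groupCohomology.map_congr ?_ ?_ n
    · ext σ x
      apply (algebraMap U E).injective
      refine Eq.trans ?_ (AlgEquiv.restrictNormal_commutes (σ.restrictScalars K) U x).symm
      change algebraMap U E ((AlgEquiv.restrictNormal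
        ((AlgEquiv.restrictNormal σ U').restrictScalars K) U) x) = σ (algebraMap U E x)
      rw [IsScalarTower.algebraMap_apply U U' E,
        AlgEquiv.restrictNormal_commutes ((AlgEquiv.restrictNormal σ U').restrictScalars K) U x]
      change algebraMap U' E ((AlgEquiv.restrictNormal σ U') (algebraMap U U' x)) = _
      rw [AlgEquiv.restrictNormal_commutes σ U', ← IsScalarTower.algebraMap_apply U U' E]
    · ext v
      change Additive.ofMul (Units.map (algebraMap U' E : U' →* E)
          (Units.map (algebraMap U U' : U →* U') (Additive.toMul v)))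
        = Additive.ofMul (Units.map (algebraMap U E : U →* E) (Additive.toMul v))
      refine congrArg Additive.ofMul (Units.ext ?_)
      exact (IsScalarTower.algebraMap_apply U U' E _).symm
  ext x
  exact congrArg (fun f => f x) h4

end H24LB

end
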