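/-
W2-C (S55) block B (helper3, architect): local class field theory — INTERFACE, part 6:
the local class module (input of Nakayama–Tate, master plan (TNL)) and the index of `p`-th powers
(input of the existence theorem mod `p`, master plan C3).
-/
import Mathlib
import Fermat.Agent.CFT2.B.Defs5

set_option autoImplicit false

namespace H3LB

open scoped WithZero
open groupCohomology CategoryTheory

section slices6

/-- **(S9a) subgroups ↔ fixed fields**: for `H ≤ Gal(L/K)` and `M = L^H`, the cohomology of the
restriction of `Lˣ` to `H` is the cohomology of `Gal(L/M)`, compatibly with the restriction maps. -/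
def ResSubField : Prop :=
  ∀ (K L : Type) [Field K] [Field L] [Algebra K L] [FiniteDimensional K L] [IsGalois K L]
    (H : Subgroup (L ≃ₐ[K] L)) (n : ℕ),
    ∃ e : groupCohomology (H20A.resSub (Rep.ofAlgebraAutOnUnits K L) H) n ≃+
        groupCohomology (Rep.ofAlgebraAutOnUnits (IntermediateField.fixedField H) L) n,
      ∀ x : groupCohomology (Rep.ofAlgebraAutOnUnits K L) n,
        e (H20A.resCoh (Rep.ofAlgebraAutOnUnits K L) H n x) =
          resField K (IntermediateField.fixedField H) L n x

/-- **(S9) the local class module**: for any local invariant family `inv`, the class `γ` with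
`inv γ = 1/[L:K]` makes `Lˣ` a class module for `Gal(L/K)` (block A, `H20A.IsClassModule`). -/
def LocalClassModuleInv : Prop :=
  ∀ inv : InvFamily, IsLocalInvFamily inv →
  ∀ (q : ℕ) [Fact q.Prime] (K L : Type) [Field K] [Field L] [Algebra ℚ_[q] K] [Algebra ℚ_[q] L]
    [Algebra K L] [IsScalarTower ℚ_[q] K L] [FiniteDimensional ℚ_[q] L] [IsGalois K L]
    (γ : groupCohomology (Rep.ofAlgebraAutOnUnits K L) 2),
    inv q K L γ = (((Module.finrank K L : ℚ)⁻¹ : ℚ) : QZ) →
    H20A.IsClassModule (Rep.ofAlgebraAutOnUnits K L) γ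

/-- **(BPI) the index of `p`-th powers** in a local field: `[Kˣ : Kˣᵖ] = p · |μ_p(K)| · |𝒪/p𝒪|`,
`|𝒪/p𝒪| = |k| ^ ord(p)`. -/
def PowIndex : Prop :=
  ∀ (K : Type) [Field K] (v : Valuation K ℤᵐ⁰), IsLocalVal v → ∀ p : ℕ, p.Prime → (p : K) ≠ 0 →
    (powMonoidHom p : Kˣ →* Kˣ).range.index =
      p * Nat.card (rootsOfUnity p K) *
        Nat.card (IsLocalRing.ResidueField v.valuationSubring) ^
          Int.toNat (- WithZero.log (v (p : K)))

end slices6

end H3LB
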