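/-
W2-C (S55) block B, slices S6 (H2Card) and S9 (LocalClassModuleInv), helper3:
from a local invariant family to `H²` cyclic of order `[L:K]` and to the local class module.
-/
import Mathlib
import Fermat.Agent.CFT2.B.Defs6

set_option autoImplicit false
set_option linter.style.haveILetI false
set_option linter.unusedSectionVars false
set_option linter.unusedVariables false

namespace H3LB

open groupCohomology CategoryTheory

/-- a class of `ℚ/ℤ` killed by `m > 0` is an integer multiple of `1/m` -/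
theorem h3cm_qz_torsion (m : ℕ) (hm : 0 < m) (t : QZ) (ht : m • t = 0) :
    ∃ k : ℤ, t = k • (((m : ℚ)⁻¹ : ℚ) : QZ) := by
  obtain ⟨r, rfl⟩ := QuotientAddGroup.mk_surjective t
  have h1 : ((m • r : ℚ) : QZ) = 0 := ht
  rw [show ((m • r : ℚ) : QZ) = QuotientAddGroup.mk (m • r) from rfl,
    QuotientAddGroup.eq_zero_iff] at h1
  obtain ⟨k, hk⟩ := AddSubgroup.mem_zmultiples_iff.mp h1
  refine ⟨k, ?_⟩
  have hm' : (m : ℚ) ≠ 0 := by exact_mod_cast hm.ne'
  have : r = k • ((m : ℚ)⁻¹ : ℚ) := by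
    have h2 : (k : ℚ) = m * r := by
      simpa [zsmul_eq_mul, nsmul_eq_mul] using hk
    rw [zsmul_eq_mul, h2]
    field_simp
  rw [this]
  rfl

theorem h3cm_qz_inv_torsion (m : ℕ) (hm : 0 < m) : m • (((m : ℚ)⁻¹ : ℚ) : QZ) = 0 := by
  have hm' : (m : ℚ) ≠ 0 := by exact_mod_cast hm.ne'
  have h1 : m • (((m : ℚ)⁻¹ : ℚ) : QZ) = (((m • (m : ℚ)⁻¹ : ℚ)) : QZ) := rfl
  rw [h1, nsmul_eq_mul, mul_inv_cancel₀ hm']
  exact (QuotientAddGroup.eq_zero_iff _).mpr (AddSubgroup.mem_zmultiples _)

theorem h3cm_qz_addOrderOf (m : ℕ) (hm : 0 < m) : addOrderOf (((m : ℚ)⁻¹ : ℚ) : QZ) = m := by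
  have := AddCircle.addOrderOf_period_div (p := (1 : ℚ)) (n := m) hm
  rwa [one_div] at this

/-- abstract form: an injective additive map to `ℚ/ℤ` with image the `m`-torsion -/
theorem h3cm_cyclic_of_inv {A : Type*} [AddCommGroup A] (f : A →+ QZ) (m : ℕ) (hm : 0 < m)
    (hinj : Function.Injective f) (hrange : ∀ t : QZ, (∃ x, f x = t) ↔ m • t = 0)
    (x₀ : A) (hx₀ : f x₀ = (((m : ℚ)⁻¹ : ℚ) : QZ)) :
    (∀ x : A, ∃ k : ℤ, x = k • x₀) ∧ Nat.card A = m := by
  have hgen : ∀ x : A, ∃ k : ℤ, x = k • x₀ := by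
    intro x
    obtain ⟨k, hk⟩ := h3cm_qz_torsion m hm (f x) ((hrange _).mp ⟨x, rfl⟩)
    refine ⟨k, hinj ?_⟩
    rw [hk, map_zsmul, hx₀]
  refine ⟨hgen, ?_⟩
  have htop : AddSubgroup.zmultiples x₀ = ⊤ := by
    rw [eq_top_iff]
    intro x _
    obtain ⟨k, rfl⟩ := hgen x
    exact AddSubgroup.mem_zmultiples_iff.mpr ⟨k, rfl⟩
  have h1 : Nat.card A = Nat.card (AddSubgroup.zmultiples x₀) := by
    rw [htop]
    exact (Nat.card_congr (Equiv.Set.univ A)).symm
  rw [h1, Nat.card_zmultiples, ← h3cm_qz_addOrderOf m hm, ← hx₀]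
  exact (addOrderOf_injective f hinj x₀).symm

/-- **(S6) H2Card** from a local invariant family. -/
theorem h3cm_h2Card (h : LocalInvExists) : H2Card := by
  obtain ⟨inv, hinv⟩ := h
  intro q _ K L _ _ _ _ _ _ _ _
  have hm : 0 < Module.finrank K L := by
    haveI : FiniteDimensional K L := FiniteDimensional.right ℚ_[q] K L
    exact Module.finrank_pos
  obtain ⟨x₀, hx₀⟩ := (hinv.range q K L _).mpr (h3cm_qz_inv_torsion _ hm)
  obtain ⟨hgen, hcard⟩ := h3cm_cyclic_of_inv (inv q K L) _ hm (hinv.inj q K L)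
    (hinv.range q K L) x₀ hx₀
  refine ⟨hcard, ⟨x₀, fun x => ?_⟩⟩
  obtain ⟨k, rfl⟩ := hgen x
  exact AddSubgroup.mem_zmultiples_iff.mpr ⟨k, rfl⟩

theorem h3cm_qz_index (a b : ℕ) (ha : 0 < a) (hb : 0 < b) :
    a • ((((a * b : ℕ) : ℚ)⁻¹ : ℚ) : QZ) = (((b : ℚ)⁻¹ : ℚ) : QZ) := by
  have h1 : a • ((((a * b : ℕ) : ℚ)⁻¹ : ℚ) : QZ) = ((a • (((a * b : ℕ) : ℚ)⁻¹ : ℚ) : ℚ) : QZ) := rfl
  rw [h1]
  congr 1
  have ha' : (a : ℚ) ≠ 0 := by exact_mod_cast ha.ne'
  have hb' : (b : ℚ) ≠ 0 := by exact_mod_cast hb.ne'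
  push_cast
  rw [nsmul_eq_mul]
  field_simp

/-- **(S9)** the local class module, from the axioms of a local invariant family. -/
theorem h3cm_localClassModuleInv (hRS : ResSubField) : LocalClassModuleInv := by
  intro inv hinv q _ K L _ _ _ _ _ _ _ _ γ hγ
  haveI : FiniteDimensional K L := FiniteDimensional.right ℚ_[q] K L
  have key : ∀ H : Subgroup (L ≃ₐ[K] L),
      Nat.card (groupCohomology (H20A.resSub (Rep.ofAlgebraAutOnUnits K L) H) 2) = Nat.card H ∧
      ∀ x : groupCohomology (H20A.resSub (Rep.ofAlgebraAutOnUnits K L) H) 2,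
        ∃ k : ℤ, x = k • H20A.resCoh (Rep.ofAlgebraAutOnUnits K L) H 2 γ := by
    intro H
    obtain ⟨e, he⟩ := hRS K L H 2
    haveI : IsScalarTower ℚ_[q] (IntermediateField.fixedField H) L :=
      IsScalarTower.of_algebraMap_eq (fun x => rfl)
    haveI : FiniteDimensional ℚ_[q] (IntermediateField.fixedField H) :=
      FiniteDimensional.left ℚ_[q] (IntermediateField.fixedField H) L
    have hres := hinv.res q K (IntermediateField.fixedField H) L γ
    have hm : 0 < Module.finrank (IntermediateField.fixedField H) L := Module.finrank_pos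
    have hm2 : 0 < Module.finrank K (IntermediateField.fixedField H) := Module.finrank_pos
    have hmul : Module.finrank K L = Module.finrank K (IntermediateField.fixedField H) *
        Module.finrank (IntermediateField.fixedField H) L :=
      (Module.finrank_mul_finrank K (IntermediateField.fixedField H) L).symm
    have h1 : inv q (IntermediateField.fixedField H) L
        (resField K (IntermediateField.fixedField H) L 2 γ) =
        ((((Module.finrank (IntermediateField.fixedField H) L : ℕ) : ℚ)⁻¹ : ℚ) : QZ) := by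
      rw [hres, hγ, hmul]
      exact h3cm_qz_index _ _ hm2 hm
    obtain ⟨hgen, hcard⟩ := h3cm_cyclic_of_inv (inv q (IntermediateField.fixedField H) L) _ hm
      (hinv.inj q (IntermediateField.fixedField H) L)
      (hinv.range q (IntermediateField.fixedField H) L)
      (resField K (IntermediateField.fixedField H) L 2 γ) h1
    constructor
    · rw [Nat.card_congr e.toEquiv, hcard]
      exact IntermediateField.finrank_fixedField_eq_card H
    · intro x
      obtain ⟨k, hk⟩ := hgen (e x)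
      refine ⟨k, e.injective ?_⟩
      rw [hk, map_zsmul, he]
  refine ⟨?_, fun H => (key H).1, fun H => (key H).2⟩
  intro H
  obtain ⟨e, -⟩ := hRS K L H 1
  haveI : Subsingleton (groupCohomology
      (Rep.ofAlgebraAutOnUnits (IntermediateField.fixedField H) L) 1) :=
    (groupCohomology.H1ofAutOnUnitsUnique (IntermediateField.fixedField H) L).instSubsingleton
  haveI : Subsingleton (groupCohomology (H20A.resSub (Rep.ofAlgebraAutOnUnits K L) H) 1) :=
    e.injective.subsingleton
  exact ModuleCat.isZero_of_subsingleton _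

/-- **(B6)** the local class module exists. -/
theorem h3cm_localClassModule (h : LocalInvExists) (hRS : ResSubField) : LocalClassModule := by
  obtain ⟨inv, hinv⟩ := h
  intro q _ K L _ _ _ _ _ _ _ _
  have hm : 0 < Module.finrank K L := by
    haveI : FiniteDimensional K L := FiniteDimensional.right ℚ_[q] K L
    exact Module.finrank_pos
  obtain ⟨γ, hγ⟩ := (hinv.range q K L _).mpr (h3cm_qz_inv_torsion _ hm)
  exact ⟨γ, h3cm_localClassModuleInv hRS inv hinv q K L γ hγ⟩

end H3LB
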