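/-
W2-C (S55) block B (helper3): common overfields (pure field theory), used for the independence
of the local invariant of the choice of the unramified compositum (slice S8b).
-/
import Mathlib

set_option autoImplicit false
set_option linter.style.haveILetI false
set_option linter.unusedSectionVars false
set_option linter.unusedVariables false

namespace H3LB

/-- **common overfield**: two finite Galois extensions `E₁`, `E₂` of `K`, both containing `L`,
embed over `L` into a finite Galois extension `E₃` of `K`. -/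
theorem h3ce_commonExt (K L E₁ E₂ : Type) [Field K] [Field L] [Field E₁] [Field E₂]
    [Algebra K L] [Algebra K E₁] [Algebra K E₂] [Algebra L E₁] [Algebra L E₂]
    [IsScalarTower K L E₁] [IsScalarTower K L E₂] [FiniteDimensional K E₁]
    [FiniteDimensional K E₂] [IsGalois K E₁] [IsGalois K E₂] :
    ∃ (E₃ : Type) (_ : Field E₃) (_ : Algebra K E₃) (_ : Algebra L E₃) (_ : Algebra E₁ E₃)
      (_ : Algebra E₂ E₃) (_ : IsScalarTower K L E₃) (_ : IsScalarTower K E₁ E₃)
      (_ : IsScalarTower K E₂ E₃) (_ : IsScalarTower L E₁ E₃) (_ : IsScalarTower L E₂ E₃)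
      (_ : FiniteDimensional K E₃), IsGalois K E₃ := by
  -- the ambient algebraically closed field
  let Ω := AlgebraicClosure E₁
  haveI : FiniteDimensional L E₂ := FiniteDimensional.right K L E₂
  haveI : Algebra.IsAlgebraic L E₂ := Algebra.IsAlgebraic.of_finite L E₂
  let j₂ : E₂ →ₐ[L] Ω := IsAlgClosed.lift
  let i₁ : E₁ →ₐ[K] Ω := IsScalarTower.toAlgHom K E₁ Ω
  let i₂ : E₂ →ₐ[K] Ω := j₂.restrictScalars K
  let F₁ : IntermediateField K Ω := i₁.fieldRange
  let F₂ : IntermediateField K Ω := i₂.fieldRange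
  let e₁ : E₁ ≃ₐ[K] F₁ := AlgEquiv.ofInjectiveField i₁
  let e₂ : E₂ ≃ₐ[K] F₂ := AlgEquiv.ofInjectiveField i₂
  haveI : IsGalois K F₁ := IsGalois.of_algEquiv e₁
  haveI : IsGalois K F₂ := IsGalois.of_algEquiv e₂
  haveI : FiniteDimensional K F₁ := LinearEquiv.finiteDimensional e₁.toLinearEquiv
  haveI : FiniteDimensional K F₂ := LinearEquiv.finiteDimensional e₂.toLinearEquiv
  let E₃ : IntermediateField K Ω := F₁ ⊔ F₂
  have h1 : ∀ x : E₁, algebraMap E₁ Ω x ∈ E₃ := fun x =>
    (le_sup_left : F₁ ≤ E₃) ⟨x, rfl⟩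
  have h2 : ∀ x : E₂, j₂ x ∈ E₃ := fun x =>
    (le_sup_right : F₂ ≤ E₃) ⟨x, rfl⟩
  let r₁ : E₁ →+* E₃ := (algebraMap E₁ Ω).codRestrict E₃.toSubfield.toSubring h1
  let r₂ : E₂ →+* E₃ := (j₂ : E₂ →+* Ω).codRestrict E₃.toSubfield.toSubring h2
  letI a₁ : Algebra E₁ E₃ := r₁.toAlgebra
  letI a₂ : Algebra E₂ E₃ := r₂.toAlgebra
  letI aL : Algebra L E₃ := (r₁.comp (algebraMap L E₁)).toAlgebra
  have t1 : IsScalarTower K E₁ E₃ := IsScalarTower.of_algebraMap_eq (fun x => by
    apply Subtype.ext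
    show algebraMap K Ω x = algebraMap E₁ Ω (algebraMap K E₁ x)
    exact IsScalarTower.algebraMap_apply K E₁ Ω x)
  have t2 : IsScalarTower K E₂ E₃ := IsScalarTower.of_algebraMap_eq (fun x => by
    apply Subtype.ext
    show algebraMap K Ω x = j₂ (algebraMap K E₂ x)
    rw [IsScalarTower.algebraMap_apply K L E₂, j₂.commutes]
    exact IsScalarTower.algebraMap_apply K L Ω x)
  have t3 : IsScalarTower L E₁ E₃ := IsScalarTower.of_algebraMap_eq (fun x => rfl)
  have t4 : IsScalarTower L E₂ E₃ := IsScalarTower.of_algebraMap_eq (fun x => by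
    apply Subtype.ext
    show algebraMap E₁ Ω (algebraMap L E₁ x) = j₂ (algebraMap L E₂ x)
    rw [j₂.commutes]
    exact (IsScalarTower.algebraMap_apply L E₁ Ω x).symm)
  have t5 : IsScalarTower K L E₃ := IsScalarTower.of_algebraMap_eq (fun x => by
    apply Subtype.ext
    show algebraMap K Ω x = algebraMap E₁ Ω (algebraMap L E₁ (algebraMap K L x))
    rw [← IsScalarTower.algebraMap_apply K L E₁]
    exact IsScalarTower.algebraMap_apply K E₁ Ω x)
  exact ⟨E₃, inferInstance, inferInstance, aL, a₁, a₂, t5, t1, t2, t3, t4, inferInstance,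
    inferInstance⟩

end H3LB
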