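/-
W2-C (S55) block B, slice B4 = `H3LB.NormIndexCyclic` (helper6): INTERFACE of the three sub-slices.

Math: `L/K` cyclic local of degree `n`, `G = ⟨σ⟩`.  Herbrand quotient `h(A) = [ker(σ-1) : im N] / [ker N : im(σ-1)]`.
* `h(Lˣ) = [Kˣ : N Lˣ] / 1` (Hilbert 90), `h(ℤ) = n`, `0 → U_L → Lˣ → ℤ → 0`  ⇒  `[Kˣ : N Lˣ] = n · h(U_L)`;
* `h(U_L) = h(V) = 1` for a `G`-stable subgroup `V ≤ U_L` of finite index with `Ĥ⁰(V) = Ĥ⁻¹(V) = 0`;
* `V = 1 + M i₀`, `M i = π^i 𝒪_K[G] θ` (`θ` a normal basis generator), by successive approximation.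

Sub-slices:
* (I)   `FiltExists`   : the filtration `M i` exists (normal basis, trace form dual basis, coordinates);
* (II)  `UnitSubgroup` : `Filt` ⇒ `V` (completeness, successive approximation, finite index);
* (III) `Assembly`     : `V` ⇒ `NormIndexCyclic` (Herbrand quotient `H25Herb`, Hilbert 90).
-/
import Fermat.Agent.CFT2.B.Defs

set_option autoImplicit false

namespace H6NI

open scoped WithZero
open H3LB

section defs

variable {K L : Type} [Field K] [Field L] [Algebra K L] [FiniteDimensional K L]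

/-- a `G`-stable filtration of `L` by lattices `M i` (`= π^i 𝒪_K[G]θ`), with the properties used
in the successive approximation -/
structure Filt (v : Valuation K ℤᵐ⁰) (w : Valuation L ℤᵐ⁰) (σ : L ≃ₐ[K] L) where
  /-- the lattices -/
  M : ℕ → AddSubgroup L
  /-- the loss in products -/
  a : ℕ
  /-- the size of `M 0` -/
  t : ℕ
  anti : ∀ i j : ℕ, i ≤ j → M j ≤ M i
  stable : ∀ (i : ℕ) (τ : L ≃ₐ[K] L) (x : L), x ∈ M i → τ x ∈ M i
  mul : ∀ (i j : ℕ) (x y : L), x ∈ M i → y ∈ M j → a ≤ i + j → x * y ∈ M (i + j - a)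
  small : ∀ (i : ℕ) (x : L), x ∈ M i → w x ≤ WithZero.exp ((t : ℤ) - i)
  opn : ∀ i : ℕ, ∃ j : ℕ, ∀ x : L, w x ≤ WithZero.exp (-(j : ℤ)) → x ∈ M i
  smul : ∀ (i : ℕ) (c : K) (x : L), v c ≤ 1 → x ∈ M i → algebraMap K L c * x ∈ M i
  t0 : ∀ (i : ℕ) (x : L), x ∈ M i → σ x = x → ∃ y ∈ M i, ∑ τ : L ≃ₐ[K] L, τ y = x
  t1 : ∀ (i : ℕ) (x : L), x ∈ M i → (∑ τ : L ≃ₐ[K] L, τ x) ∈ M (i + 1) →
    ∃ z ∈ M i, x - (σ z - z) ∈ M (i + 1)

/-- the output of (II): a cohomologically trivial `G`-stable subgroup of finite index in `U_L` -/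
def GoodUnits (w : Valuation L ℤᵐ⁰) (σ : L ≃ₐ[K] L) : Prop :=
  ∃ V : Subgroup Lˣ, V ≤ unitGroup w ∧ V.relIndex (unitGroup w) ≠ 0 ∧
    (∀ (τ : L ≃ₐ[K] L), ∀ u ∈ V, Units.map (τ : L →* L) u ∈ V) ∧
    (∀ u ∈ V, σ (u : L) = u → ∃ y ∈ V, ∏ τ : L ≃ₐ[K] L, τ (y : L) = u) ∧
    (∀ u ∈ V, ∏ τ : L ≃ₐ[K] L, τ (u : L) = 1 → ∃ y ∈ V, (u : L) = σ (y : L) / y)

end defs

section slices

/-- **(I)** the normal basis filtration exists -/
def FiltExists : Prop :=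
  ∀ (K L : Type) [Field K] [Field L] [Algebra K L] [FiniteDimensional K L]
    (v : Valuation K ℤᵐ⁰) (w : Valuation L ℤᵐ⁰) (e : ℕ), IsLocalExt v w e →
    ∀ σ : L ≃ₐ[K] L, (∀ τ : L ≃ₐ[K] L, τ ∈ Subgroup.zpowers σ) → Nonempty (Filt v w σ)

/-- **(II)** successive approximation -/
def UnitSubgroup : Prop :=
  ∀ (K L : Type) [Field K] [Field L] [Algebra K L] [FiniteDimensional K L]
    (v : Valuation K ℤᵐ⁰) (w : Valuation L ℤᵐ⁰) (e : ℕ), IsLocalExt v w e →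
    ∀ σ : L ≃ₐ[K] L, Nonempty (Filt v w σ) → GoodUnits w σ

/-- **(III)** Herbrand quotient + Hilbert 90 -/
def Assembly : Prop :=
  ∀ (K L : Type) [Field K] [Field L] [Algebra K L] [FiniteDimensional K L]
    (v : Valuation K ℤᵐ⁰) (w : Valuation L ℤᵐ⁰) (e : ℕ), IsLocalExt v w e →
    ∀ σ : L ≃ₐ[K] L, (∀ τ : L ≃ₐ[K] L, τ ∈ Subgroup.zpowers σ) → GoodUnits w σ →
    (normUnits K L).range.index = Module.finrank K L

/-- the three sub-slices give B4 -/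
theorem normIndexCyclic_of_slices (h1 : FiltExists) (h2 : UnitSubgroup) (h3 : Assembly) :
    NormIndexCyclic := by
  intro K L _ _ _ v w e h hcyc
  have := h.fin
  obtain ⟨σ, hσ⟩ := hcyc.exists_generator
  exact h3 K L v w e h σ hσ (h2 K L v w e h σ (h1 K L v w e h σ hσ))

end slices

end H6NI
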