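/-
W2-C (S55) block B, slice B4 (II) (helper6): `H6NI.h6ni_unitSubgroup : H6NI.UnitSubgroup`.
From a filtration `Filt v w σ` we build `V = 1 + M i₀ ≤ U_L`, `G`-stable of finite index, with
`Ĥ⁰(V) = Ĥ⁻¹(V) = 0` (successive approximation `h6ni_sa`, using `IsLocalVal.complete`).
-/
import Fermat.Agent.CFT2.B.NormIndexDefs_helper6

set_option autoImplicit false

namespace H6NI

open scoped WithZero
open H3LB

section basic

variable {K L : Type} [Field K] [Field L] [Algebra K L] [FiniteDimensional K L]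
  {v : Valuation K ℤᵐ⁰} {w : Valuation L ℤᵐ⁰} {σ : L ≃ₐ[K] L} (F : Filt v w σ)

/-- the base index -/
def Filt.i₀ : ℕ := max (F.a + 1) (F.t + 1)

/-- the shifted lattices `N k = M (i₀ + k)` -/
def Filt.N (k : ℕ) : AddSubgroup L := F.M (F.i₀ + k)

theorem h6ni_N_anti {j k : ℕ} (h : j ≤ k) : F.N k ≤ F.N j :=
  F.anti _ _ (by omega)

theorem h6ni_N_mul {j k : ℕ} {x y : L} (hx : x ∈ F.N j) (hy : y ∈ F.N k) :
    x * y ∈ F.N (k + 1) := by
  have h1 := F.mul _ _ x y hx hy (by unfold Filt.i₀; omega)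
  refine F.anti _ _ ?_ h1
  unfold Filt.i₀
  omega

theorem h6ni_N_mul' {j k : ℕ} {x y : L} (hx : x ∈ F.N j) (hy : y ∈ F.N k) :
    x * y ∈ F.N (j + 1) := by
  rw [mul_comm]
  exact h6ni_N_mul F hy hx

theorem h6ni_N_small {k : ℕ} {x : L} (hx : x ∈ F.N k) : w x ≤ WithZero.exp (-(k : ℤ) - 1) := by
  refine (F.small _ x hx).trans ?_
  rw [WithZero.exp_le_exp]
  unfold Filt.i₀
  push_cast
  have : (F.t : ℤ) + 1 ≤ max ((F.a : ℤ) + 1) ((F.t : ℤ) + 1) := le_max_right _ _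
  linarith

theorem h6ni_N_lt_one {k : ℕ} {x : L} (hx : x ∈ F.N k) : w x < 1 := by
  refine (h6ni_N_small F hx).trans_lt ?_
  rw [← WithZero.exp_zero, WithZero.exp_lt_exp]
  omega

theorem h6ni_N_le {k : ℕ} {x : L} (hx : x ∈ F.N k) : w x ≤ WithZero.exp (-(k : ℤ)) := by
  refine (h6ni_N_small F hx).trans ?_
  rw [WithZero.exp_le_exp]
  omega

theorem h6ni_eq_zero {x : L} (hx : ∀ k, x ∈ F.N k) : x = 0 := by
  by_contra hne
  have hw : w x ≠ 0 := (Valuation.ne_zero_iff w).mpr hne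
  have h1 : ∀ k : ℕ, WithZero.log (w x) ≤ -(k : ℤ) := fun k =>
    (WithZero.log_le_iff_le_exp hw).mpr (h6ni_N_le F (hx k))
  have := h1 ((-WithZero.log (w x)).toNat + 1)
  have h2 := Int.self_le_toNat (-WithZero.log (w x))
  push_cast at this
  omega

theorem h6ni_N_stable (k : ℕ) (τ : L ≃ₐ[K] L) {x : L} (hx : x ∈ F.N k) : τ x ∈ F.N k :=
  F.stable _ τ x hx

theorem h6ni_N_opn (k : ℕ) : ∃ j : ℕ, ∀ x : L, w x ≤ WithZero.exp (-(j : ℤ)) → x ∈ F.N k :=
  F.opn _

theorem h6ni_one_add_ne_zero {k : ℕ} {x : L} (hx : x ∈ F.N k) : 1 + x ≠ 0 := by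
  intro h
  have h1 : w (1 + x) = 1 := w.map_one_add_of_lt (h6ni_N_lt_one F hx)
  rw [h, map_zero] at h1
  exact zero_ne_one h1


/-- `(1 + N j) · N k ⊆ N k` -/
theorem h6ni_unit_mul {j k : ℕ} {u y : L} (hu : u - 1 ∈ F.N j) (hy : y ∈ F.N k) :
    u * y ∈ F.N k := by
  have h1 : u * y = y + (u - 1) * y := by ring
  rw [h1]
  exact (F.N k).add_mem hy (h6ni_N_anti F (Nat.le_succ k) (h6ni_N_mul F hu hy))

/-- `(1 + N k)(1 + N k) ⊆ 1 + N k` -/
theorem h6ni_mul_mem {j k : ℕ} {u u' : L} (hu : u - 1 ∈ F.N j) (hu' : u' - 1 ∈ F.N k) :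
    u * u' - 1 ∈ F.N (min j k) := by
  have h1 : u * u' - 1 = u * (u' - 1) + (u - 1) := by ring
  rw [h1]
  exact (F.N _).add_mem (h6ni_N_anti F (min_le_right j k) (h6ni_unit_mul F hu hu'))
    (h6ni_N_anti F (min_le_left j k) hu)

theorem h6ni_mul_mem' {k : ℕ} {u u' : L} (hu : u - 1 ∈ F.N k) (hu' : u' - 1 ∈ F.N k) :
    u * u' - 1 ∈ F.N k := by
  have := h6ni_mul_mem F hu hu'
  rwa [min_self] at this

theorem h6ni_prod_mem {ι : Type} (S : Finset ι) (k : ℕ) (u : ι → L)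
    (hu : ∀ i ∈ S, u i - 1 ∈ F.N k) : (∏ i ∈ S, u i) - 1 ∈ F.N k := by
  classical
  induction S using Finset.induction_on with
  | empty => simp
  | insert a S ha ih =>
    rw [Finset.prod_insert ha]
    exact h6ni_mul_mem' F (hu a (Finset.mem_insert_self a S))
      (ih fun i hi => hu i (Finset.mem_insert_of_mem hi))

/-- `∏ (1 + x_i) ≡ 1 + ∑ x_i` modulo `N (k+1)` -/
theorem h6ni_prod_one_add {ι : Type} (S : Finset ι) (k : ℕ) (x : ι → L)
    (hx : ∀ i ∈ S, x i ∈ F.N k) :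
    (∏ i ∈ S, (1 + x i)) - 1 - ∑ i ∈ S, x i ∈ F.N (k + 1) := by
  classical
  induction S using Finset.induction_on with
  | empty => simp
  | insert a S ha ih =>
    rw [Finset.prod_insert ha, Finset.sum_insert ha]
    have hS : ∀ i ∈ S, x i ∈ F.N k := fun i hi => hx i (Finset.mem_insert_of_mem hi)
    have hxa : x a ∈ F.N k := hx a (Finset.mem_insert_self a S)
    have h1 := ih hS
    have h2 : (∏ i ∈ S, (1 + x i)) - 1 ∈ F.N k :=
      h6ni_prod_mem F S k _ (fun i hi => by simpa using hS i hi)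
    have h3 : (1 + x a) * ∏ i ∈ S, (1 + x i) - 1 - (x a + ∑ i ∈ S, x i)
        = ((∏ i ∈ S, (1 + x i)) - 1 - ∑ i ∈ S, x i) + x a * ((∏ i ∈ S, (1 + x i)) - 1) := by
      ring
    rw [h3]
    exact (F.N _).add_mem h1 (h6ni_N_mul F hxa h2)

end basic

section units

variable {K L : Type} [Field K] [Field L] [Algebra K L] [FiniteDimensional K L]
  {v : Valuation K ℤᵐ⁰} {w : Valuation L ℤᵐ⁰} {σ : L ≃ₐ[K] L} (F : Filt v w σ)
  {e : ℕ} (h : IsLocalExt v w e)

omit [FiniteDimensional K L] in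
include h in
theorem h6ni_v_eq_one_of_w {c : K} (hc : w (algebraMap K L c) = 1) : v c = 1 := by
  rw [h.ext] at hc
  rcases lt_trichotomy (v c) 1 with h1 | h1 | h1
  · exact absurd hc (pow_lt_one₀ zero_le h1 h.e_pos.ne').ne
  · exact h1
  · exact absurd hc (one_lt_pow₀ h1 h.e_pos.ne').ne'

include h in
/-- inverses: `(1 + N k)⁻¹ ⊆ 1 + N k` (via the norm) -/
theorem h6ni_inv_mem {k : ℕ} {u : L} (hu : u - 1 ∈ F.N k) : u⁻¹ - 1 ∈ F.N k := by
  classical
  have := h.gal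
  have hu0 : u ≠ 0 := by
    have := h6ni_one_add_ne_zero F hu
    rwa [add_sub_cancel] at this
  -- q = product of the other conjugates
  set q : L := ∏ τ ∈ (Finset.univ : Finset (L ≃ₐ[K] L)).erase 1, τ u with hq
  have hqm : q - 1 ∈ F.N k := by
    refine h6ni_prod_mem F _ k _ (fun τ _ => ?_)
    have : τ u - 1 = τ (u - 1) := by simp
    rw [this]
    exact h6ni_N_stable F k τ hu
  have hprod : u * q = algebraMap K L (Algebra.norm K u) := by
    rw [Algebra.norm_eq_prod_automorphisms, hq,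
      ← Finset.mul_prod_erase Finset.univ (fun τ : L ≃ₐ[K] L => τ u) (Finset.mem_univ 1)]
    simp
  set c₀ : K := Algebra.norm K u with hc₀
  have hcm : algebraMap K L c₀ - 1 ∈ F.N k := by
    rw [← hprod]
    exact h6ni_mul_mem' F hu hqm
  have hwc : w (algebraMap K L c₀) = 1 := by
    have h1 : w (1 + (algebraMap K L c₀ - 1)) = 1 :=
      w.map_one_add_of_lt (h6ni_N_lt_one F hcm)
    rwa [add_sub_cancel] at h1
  have hvc : v c₀ = 1 := h6ni_v_eq_one_of_w h hwc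
  have hc0 : c₀ ≠ 0 := by
    intro h0
    rw [h0, map_zero] at hvc
    exact zero_ne_one hvc
  have hcL : algebraMap K L c₀ ≠ 0 := by
    simpa using hc0
  have hq0 : q ≠ 0 := by
    intro h0
    rw [h0, mul_zero] at hprod
    exact hcL hprod.symm
  have hinv : u⁻¹ = algebraMap K L c₀⁻¹ * q := by
    rw [map_inv₀, ← hprod]
    field_simp
  have hkey : u⁻¹ - 1 = algebraMap K L c₀⁻¹ * ((q - 1) - (algebraMap K L c₀ - 1)) := by
    rw [hinv, map_inv₀]
    field_simp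
    ring
  rw [hkey]
  refine F.smul _ _ _ ?_ ((F.N k).sub_mem hqm hcm)
  rw [map_inv₀, hvc, inv_one]

/-- the unit subgroups `V k = 1 + N k` -/
def Filt.V (k : ℕ) : Subgroup Lˣ where
  carrier := {u | (u : L) - 1 ∈ F.N k}
  mul_mem' := by
    intro a b ha hb
    simp only [Set.mem_ofPred_eq] at ha hb ⊢
    rw [Units.val_mul]
    exact h6ni_mul_mem' F ha hb
  one_mem' := by simp
  inv_mem' := by
    intro a ha
    simp only [Set.mem_ofPred_eq] at ha ⊢
    rw [Units.val_inv_eq_inv_val]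
    exact h6ni_inv_mem F h ha

theorem h6ni_mem_V {k : ℕ} {u : Lˣ} : u ∈ F.V h k ↔ (u : L) - 1 ∈ F.N k := Iff.rfl


theorem h6ni_V_anti {j k : ℕ} (hjk : j ≤ k) : F.V h k ≤ F.V h j :=
  fun _ hu => h6ni_N_anti F hjk hu

theorem h6ni_V_stable (k : ℕ) (τ : L ≃ₐ[K] L) {u : Lˣ} (hu : u ∈ F.V h k) :
    Units.map (τ : L →* L) u ∈ F.V h k := by
  rw [h6ni_mem_V] at hu ⊢
  have : ((Units.map (τ : L →* L) u : Lˣ) : L) - 1 = τ ((u : L) - 1) := by simp
  rw [this]
  exact h6ni_N_stable F k τ hu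

include h in
/-- limits of sequences adapted to the filtration -/
theorem h6ni_limit (x : ℕ → L) (hx : ∀ k, x (k + 1) - x k ∈ F.N k) :
    ∃ y : L, ∀ k, y - x k ∈ F.N k := by
  obtain ⟨y, hy⟩ := h.hw.complete x (fun n => h6ni_N_le F (hx n))
  refine ⟨y, fun k => ?_⟩
  obtain ⟨j, hj⟩ := h6ni_N_opn F k
  have htel : ∀ m, k ≤ m → x m - x k ∈ F.N k := by
    intro m hm
    induction m, hm using Nat.le_induction with
    | base => simp
    | succ m hm ih =>
      have : x (m + 1) - x k = (x (m + 1) - x m) + (x m - x k) := by ring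
      rw [this]
      exact (F.N k).add_mem (h6ni_N_anti F hm (hx m)) ih
  have h1 : y - x (max j k) ∈ F.N k := by
    refine hj _ ((hy _).trans ?_)
    rw [WithZero.exp_le_exp]
    have : (j : ℤ) ≤ ((max j k : ℕ) : ℤ) := by exact_mod_cast le_max_left j k
    omega
  have h2 := htel (max j k) (le_max_right j k)
  have : y - x k = (y - x (max j k)) + (x (max j k) - x k) := by ring
  rw [this]
  exact (F.N k).add_mem h1 h2

/-- **successive approximation** -/
theorem h6ni_sa (Φ : Lˣ →* Lˣ) (T : Set Lˣ)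
    (hΦV : ∀ k, ∀ y ∈ F.V h k, Φ y ∈ F.V h k)
    (step : ∀ k, ∀ u ∈ T, u ∈ F.V h k →
      ∃ y ∈ F.V h k, u / Φ y ∈ T ∧ u / Φ y ∈ F.V h (k + 1))
    (u : Lˣ) (huT : u ∈ T) (hu : u ∈ F.V h 0) : ∃ y ∈ F.V h 0, Φ y = u := by
  classical
  have hstep' : ∀ (k : ℕ) (u' : Lˣ), ∃ y : Lˣ, (u' ∈ T ∧ u' ∈ F.V h k) →
      (y ∈ F.V h k ∧ u' / Φ y ∈ T ∧ u' / Φ y ∈ F.V h (k + 1)) := by
    intro k u'
    by_cases hc : u' ∈ T ∧ u' ∈ F.V h k
    · obtain ⟨y, hy⟩ := step k u' hc.1 hc.2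
      exact ⟨y, fun _ => hy⟩
    · exact ⟨1, fun hc' => absurd hc' hc⟩
  choose Y hY using hstep'
  let U : ℕ → Lˣ := fun k => Nat.rec u (fun k u' => u' / Φ (Y k u')) k
  have hUs : ∀ k, U (k + 1) = U k / Φ (Y k (U k)) := fun k => rfl
  have hUinv : ∀ k, U k ∈ T ∧ U k ∈ F.V h k := by
    intro k
    induction k with
    | zero => exact ⟨huT, hu⟩
    | succ k ih =>
      rw [hUs]
      exact (hY k (U k) ih).2
  have hy : ∀ k, Y k (U k) ∈ F.V h k := fun k => (hY k (U k) (hUinv k)).1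
  let P : ℕ → Lˣ := fun k => ∏ j ∈ Finset.range k, Y j (U j)
  have hPs : ∀ k, P (k + 1) = P k * Y k (U k) := fun k => Finset.prod_range_succ _ k
  have hPu : ∀ k, u = Φ (P k) * U k := by
    intro k
    induction k with
    | zero => simp [P, U]
    | succ k ih =>
      rw [hPs, hUs, map_mul, mul_assoc, mul_div_cancel]
      exact ih
  have hPV : ∀ k, P k ∈ F.V h 0 := fun k =>
    Subgroup.prod_mem _ (fun j _ => h6ni_V_anti F h (Nat.zero_le j) (hy j))
  have hdiff : ∀ k, ((P (k + 1) : Lˣ) : L) - (P k : L) ∈ F.N k := by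
    intro k
    rw [hPs, Units.val_mul]
    have : (P k : L) * (Y k (U k) : L) - (P k : L) = (P k : L) * ((Y k (U k) : L) - 1) := by ring
    rw [this]
    exact h6ni_unit_mul F (hPV k) (hy k)
  obtain ⟨p, hp⟩ := h6ni_limit F h (fun k => (P k : L)) hdiff
  have hp1 : p - 1 ∈ F.N 0 := by
    have := hp 0
    simpa [P] using this
  have hp0 : p ≠ 0 := by
    have := h6ni_one_add_ne_zero F hp1
    rwa [add_sub_cancel] at this
  refine ⟨Units.mk0 p hp0, hp1, ?_⟩
  have hquot : ∀ k, Units.mk0 p hp0 / P k ∈ F.V h k := by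
    intro k
    rw [h6ni_mem_V, Units.val_div_eq_div_val, Units.val_mk0]
    have : p / (P k : L) - 1 = ((P k : L))⁻¹ * (p - (P k : L)) := by
      have hne : (P k : L) ≠ 0 := (P k).ne_zero
      field_simp
    rw [this]
    refine h6ni_unit_mul F (j := 0) ?_ (hp k)
    have := (F.V h 0).inv_mem (hPV k)
    rw [h6ni_mem_V, Units.val_inv_eq_inv_val] at this
    exact this
  have hfin : ∀ k, u / Φ (Units.mk0 p hp0) ∈ F.V h k := by
    intro k
    have h1 : u / Φ (Units.mk0 p hp0) = U k * (Φ (Units.mk0 p hp0 / P k))⁻¹ := by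
      rw [map_div, inv_div, mul_div_assoc', mul_comm (U k)]
      rw [← hPu k]
    rw [h1]
    exact (F.V h k).mul_mem (hUinv k).2 ((F.V h k).inv_mem (hΦV k _ (hquot k)))
  have hone : ((u / Φ (Units.mk0 p hp0) : Lˣ) : L) - 1 = 0 :=
    h6ni_eq_zero F (fun k => hfin k)
  have hone' : u / Φ (Units.mk0 p hp0) = 1 := by
    apply Units.ext
    rw [Units.val_one]
    exact sub_eq_zero.mp hone
  exact (div_eq_one.mp hone').symm


/-- the norm `∏_τ τ` on units -/
noncomputable def h6ni_normHom (K L : Type) [Field K] [Field L] [Algebra K L]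
    [FiniteDimensional K L] : Lˣ →* Lˣ :=
  ∏ τ : L ≃ₐ[K] L, Units.map (τ : L →* L)

omit [FiniteDimensional K L] in
theorem h6ni_units_map_val (τ : L ≃ₐ[K] L) (u : Lˣ) :
    ((Units.map (τ : L →* L) u : Lˣ) : L) = τ (u : L) := rfl

theorem h6ni_normHom_val (u : Lˣ) :
    ((h6ni_normHom K L u : Lˣ) : L) = ∏ τ : L ≃ₐ[K] L, τ (u : L) := by
  unfold h6ni_normHom
  rw [MonoidHom.finsetProd_apply, Units.coe_prod]
  rfl

theorem h6ni_normHom_map (ρ : L ≃ₐ[K] L) (u : Lˣ) :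
    h6ni_normHom K L (Units.map (ρ : L →* L) u) = h6ni_normHom K L u := by
  apply Units.ext
  rw [h6ni_normHom_val, h6ni_normHom_val]
  simp only [h6ni_units_map_val]
  exact Fintype.prod_equiv (Equiv.mulRight ρ) _ _ (fun τ => rfl)

theorem h6ni_map_normHom (ρ : L ≃ₐ[K] L) (u : Lˣ) :
    ρ ((h6ni_normHom K L u : Lˣ) : L) = (h6ni_normHom K L u : Lˣ) := by
  rw [h6ni_normHom_val, map_prod]
  exact Fintype.prod_equiv (Equiv.mulLeft ρ) _ _ (fun τ => rfl)

theorem h6ni_normHom_mem (k : ℕ) {u : Lˣ} (hu : u ∈ F.V h k) : h6ni_normHom K L u ∈ F.V h k := by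
  unfold h6ni_normHom
  rw [MonoidHom.finsetProd_apply]
  exact Subgroup.prod_mem _ (fun τ _ => h6ni_V_stable F h k τ hu)

/-- `Ĥ⁰(V) = 0` -/
theorem h6ni_H0 (u : Lˣ) (hu : u ∈ F.V h 0) (hσ : σ (u : L) = u) :
    ∃ y ∈ F.V h 0, ∏ τ : L ≃ₐ[K] L, τ (y : L) = u := by
  have key := h6ni_sa F h (h6ni_normHom K L) {u : Lˣ | σ (u : L) = u}
    (fun k y hy => h6ni_normHom_mem F h k hy) ?_ u hσ hu
  · obtain ⟨y, hy, hyu⟩ := key
    refine ⟨y, hy, ?_⟩
    rw [← h6ni_normHom_val, hyu]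
  · intro k u hu hk
    simp only [Set.mem_ofPred_eq] at hu
    rw [h6ni_mem_V] at hk
    have hx : σ ((u : L) - 1) = (u : L) - 1 := by simp [hu]
    obtain ⟨y', hy', hsum⟩ := F.t0 _ _ hk hx
    have hy'N : y' ∈ F.N k := hy'
    have hy0 : 1 + y' ≠ 0 := h6ni_one_add_ne_zero F hy'N
    have hyV : Units.mk0 (1 + y') hy0 ∈ F.V h k := by
      rw [h6ni_mem_V, Units.val_mk0]
      simpa using hy'N
    refine ⟨Units.mk0 (1 + y') hy0, hyV, ?_, ?_⟩
    · simp only [Set.mem_ofPred_eq, Units.val_div_eq_div_val, map_div₀, hu, h6ni_map_normHom]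
    · rw [h6ni_mem_V, Units.val_div_eq_div_val]
      have hNV := h6ni_normHom_mem F h k hyV
      have hNinv := (F.V h k).inv_mem hNV
      rw [h6ni_mem_V, Units.val_inv_eq_inv_val] at hNinv
      have hne : ((h6ni_normHom K L (Units.mk0 (1 + y') hy0) : Lˣ) : L) ≠ 0 := Units.ne_zero _
      have hdiff : (u : L) - ((h6ni_normHom K L (Units.mk0 (1 + y') hy0) : Lˣ) : L)
          ∈ F.N (k + 1) := by
        have h1 := h6ni_prod_one_add F (Finset.univ : Finset (L ≃ₐ[K] L)) k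
          (fun τ => τ y') (fun τ _ => h6ni_N_stable F k τ hy'N)
        rw [hsum] at h1
        have h2 : ((h6ni_normHom K L (Units.mk0 (1 + y') hy0) : Lˣ) : L)
            = ∏ τ : L ≃ₐ[K] L, (1 + τ y') := by
          rw [h6ni_normHom_val]
          simp
        rw [h2]
        have := (F.N (k + 1)).neg_mem h1
        convert this using 1
        ring
      have heq : (u : L) / ((h6ni_normHom K L (Units.mk0 (1 + y') hy0) : Lˣ) : L) - 1
          = (((h6ni_normHom K L (Units.mk0 (1 + y') hy0) : Lˣ) : L))⁻¹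
            * ((u : L) - ((h6ni_normHom K L (Units.mk0 (1 + y') hy0) : Lˣ) : L)) := by
        field_simp
      rw [heq]
      exact h6ni_unit_mul F hNinv hdiff

/-- the map `u ↦ σ u / u` on units -/
noncomputable def h6ni_sigmaHom (σ : L ≃ₐ[K] L) : Lˣ →* Lˣ :=
  Units.map (σ : L →* L) / MonoidHom.id Lˣ

omit [FiniteDimensional K L] in
theorem h6ni_sigmaHom_val (u : Lˣ) :
    ((h6ni_sigmaHom σ u : Lˣ) : L) = σ (u : L) / u := by
  unfold h6ni_sigmaHom
  rw [MonoidHom.div_apply, Units.val_div_eq_div_val]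
  rfl

theorem h6ni_normHom_sigmaHom (u : Lˣ) : h6ni_normHom K L (h6ni_sigmaHom σ u) = 1 := by
  unfold h6ni_sigmaHom
  rw [MonoidHom.div_apply, map_div, h6ni_normHom_map, MonoidHom.id_apply, div_self']

/-- `Ĥ⁻¹(V) = 0` -/
theorem h6ni_H1 (u : Lˣ) (hu : u ∈ F.V h 0) (hN : ∏ τ : L ≃ₐ[K] L, τ (u : L) = 1) :
    ∃ y ∈ F.V h 0, (u : L) = σ (y : L) / y := by
  have hT : ∀ u : Lˣ, (∏ τ : L ≃ₐ[K] L, τ (u : L) = 1) ↔ h6ni_normHom K L u = 1 := by
    intro u
    rw [← h6ni_normHom_val]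
    exact ⟨fun h1 => Units.ext h1, fun h1 => by rw [h1]; rfl⟩
  have key := h6ni_sa F h (h6ni_sigmaHom σ) {u : Lˣ | h6ni_normHom K L u = 1}
    (fun k y hy => ?_) ?_ u ((hT u).mp hN) hu
  · obtain ⟨y, hy, hyu⟩ := key
    refine ⟨y, hy, ?_⟩
    rw [← h6ni_sigmaHom_val, hyu]
  · unfold h6ni_sigmaHom
    rw [MonoidHom.div_apply]
    exact (F.V h k).div_mem (h6ni_V_stable F h k σ hy) hy
  · intro k u hu hk
    simp only [Set.mem_ofPred_eq] at hu
    rw [h6ni_mem_V] at hk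
    set x : L := (u : L) - 1 with hx
    have hsum : ∑ τ : L ≃ₐ[K] L, τ x ∈ F.N (k + 1) := by
      have h1 := h6ni_prod_one_add F (Finset.univ : Finset (L ≃ₐ[K] L)) k
        (fun τ => τ x) (fun τ _ => h6ni_N_stable F k τ hk)
      have h2 : ∏ τ : L ≃ₐ[K] L, (1 + τ x) = 1 := by
        have h3 : ∀ τ : L ≃ₐ[K] L, 1 + τ x = τ (u : L) := fun τ => by simp [hx]
        simp only [h3]
        exact (hT u).mpr hu
      rw [h2] at h1
      have := (F.N (k + 1)).neg_mem h1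
      convert this using 1
      ring
    obtain ⟨z, hz, hzx⟩ := F.t1 _ x hk hsum
    have hzN : z ∈ F.N k := hz
    have hz0 : 1 + z ≠ 0 := h6ni_one_add_ne_zero F hzN
    have hyV : Units.mk0 (1 + z) hz0 ∈ F.V h k := by
      rw [h6ni_mem_V, Units.val_mk0]
      simpa using hzN
    have hσz : σ z ∈ F.N k := h6ni_N_stable F k σ hzN
    have hσz0 : 1 + σ z ≠ 0 := h6ni_one_add_ne_zero F hσz
    refine ⟨Units.mk0 (1 + z) hz0, hyV, ?_, ?_⟩
    · simp only [Set.mem_ofPred_eq]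
      rw [map_div, hu, h6ni_normHom_sigmaHom, div_one]
    · rw [h6ni_mem_V, Units.val_div_eq_div_val, h6ni_sigmaHom_val, Units.val_mk0]
      have hinv : (1 + σ z)⁻¹ - 1 ∈ F.N k :=
        h6ni_inv_mem F h (by simpa using hσz)
      have hnum : (x - (σ z - z)) + x * z ∈ F.N (k + 1) :=
        (F.N (k + 1)).add_mem hzx (h6ni_N_mul' F hk hzN)
      have heq : (u : L) / (σ (1 + z) / (1 + z)) - 1
          = (1 + σ z)⁻¹ * ((x - (σ z - z)) + x * z) := by
        have hu' : (u : L) = 1 + x := by rw [hx]; ring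
        rw [hu', map_add, map_one]
        field_simp
        ring
      rw [heq]
      exact h6ni_unit_mul F hinv hnum

end units


section finiteIndex

variable {L : Type} [Field L] {w : Valuation L ℤᵐ⁰}

theorem h6ni_le_exp_neg_one {x : ℤᵐ⁰} (hx : x < 1) : x ≤ WithZero.exp (-1) := by
  by_cases h0 : x = 0
  · rw [h0]
    exact zero_le
  · rw [← WithZero.log_le_iff_le_exp h0]
    have : WithZero.log x < 0 := by
      rw [WithZero.log_lt_iff_lt_exp h0, WithZero.exp_zero]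
      exact hx
    omega

/-- finite sets of approximations modulo `𝔪^j` -/
theorem h6ni_approx (hw : IsLocalVal w) (j : ℕ) :
    ∃ S : Finset L, ∀ x : L, w x ≤ 1 → ∃ s ∈ S, w (x - s) ≤ WithZero.exp (-(j : ℤ)) := by
  classical
  obtain ⟨ϖ, hϖ⟩ := hw.surj (WithZero.exp (-1))
  obtain ⟨R, hR⟩ := hw.finite
  have hϖ0 : ϖ ≠ 0 := by
    intro h0
    rw [h0, map_zero] at hϖ
    exact WithZero.exp_ne_zero hϖ.symm
  induction j with
  | zero =>
    refine ⟨{0}, fun x hx => ⟨0, by simp, ?_⟩⟩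
    simpa using hx
  | succ j ih =>
    obtain ⟨S, hS⟩ := ih
    refine ⟨(R ×ˢ S).image (fun p => p.1 + ϖ * p.2), fun x hx => ?_⟩
    obtain ⟨r, hr, hxr⟩ := hR x hx
    have h1 : w ((x - r) / ϖ) ≤ 1 := by
      rw [map_div₀, hϖ]
      have := h6ni_le_exp_neg_one hxr
      exact div_le_one_of_le₀ this zero_le
    obtain ⟨s, hs, hxs⟩ := hS _ h1
    refine ⟨r + ϖ * s, Finset.mem_image.mpr ⟨(r, s), Finset.mem_product.mpr ⟨hr, hs⟩, rfl⟩, ?_⟩
    have h2 : x - (r + ϖ * s) = ϖ * ((x - r) / ϖ - s) := by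
      field_simp
      ring
    rw [h2, map_mul, hϖ]
    have h3 : WithZero.exp (-((j + 1 : ℕ) : ℤ)) = WithZero.exp (-1) * WithZero.exp (-(j : ℤ)) := by
      rw [← WithZero.exp_add]
      congr 1
      push_cast
      ring
    rw [h3]
    exact mul_le_mul_right hxs _

/-- a subgroup of units containing `1 + 𝔪^j` has finite index in the unit group -/
theorem h6ni_finite_index (hw : IsLocalVal w) (V : Subgroup Lˣ) (j : ℕ)
    (hV : ∀ u : Lˣ, w ((u : L) - 1) ≤ WithZero.exp (-(j : ℤ)) → u ∈ V) :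
    V.relIndex (unitGroup w) ≠ 0 := by
  classical
  obtain ⟨S, hS⟩ := h6ni_approx hw j
  have hf : ∀ u : unitGroup w, ∃ s : S, w (((u : Lˣ) : L) - (s : L)) ≤ WithZero.exp (-(j : ℤ)) := by
    intro u
    obtain ⟨s, hs, hus⟩ := hS ((u : Lˣ) : L) (le_of_eq u.2)
    exact ⟨⟨s, hs⟩, hus⟩
  choose f hf' using hf
  have hkey : ∀ u u' : unitGroup w, f u = f u' → u⁻¹ * u' ∈ V.subgroupOf (unitGroup w) := by
    intro u u' hfu
    rw [Subgroup.mem_subgroupOf]
    apply hV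
    have hwu : w ((u : Lˣ) : L) = 1 := u.2
    have h1 : (((u⁻¹ * u' : unitGroup w) : Lˣ) : L) - 1
        = (((u : Lˣ) : L))⁻¹ * ((((u' : Lˣ) : L) - (f u' : L)) - (((u : Lˣ) : L) - (f u : L))) := by
      rw [hfu]
      have hne : ((u : Lˣ) : L) ≠ 0 := Units.ne_zero _
      push_cast
      field_simp
      ring
    rw [h1, map_mul, map_inv₀, hwu, inv_one, one_mul]
    exact (w.map_sub _ _).trans (max_le (hf' u') (hf' u))
  have hfin : Finite (↥(unitGroup w) ⧸ V.subgroupOf (unitGroup w)) := by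
    refine Finite.of_injective (fun q => f (Quotient.out q)) (fun q q' hq => ?_)
    have := hkey _ _ hq
    rw [← QuotientGroup.eq] at this
    rwa [QuotientGroup.out_eq', QuotientGroup.out_eq'] at this
  exact Subgroup.index_ne_zero_of_finite

end finiteIndex

section main

/-- **(II)** -/
theorem h6ni_unitSubgroup : UnitSubgroup := by
  intro K L _ _ _ _ v w e h σ ⟨F⟩
  refine ⟨F.V h 0, ?_, ?_, ?_, ?_, ?_⟩
  · intro u hu
    rw [h6ni_mem_V] at hu
    have h1 : w (1 + ((u : L) - 1)) = 1 := w.map_one_add_of_lt (h6ni_N_lt_one F hu)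
    rw [add_sub_cancel] at h1
    exact h1
  · obtain ⟨j, hj⟩ := h6ni_N_opn F 0
    exact h6ni_finite_index h.hw _ j (fun u hu => hj _ hu)
  · intro τ u hu
    exact h6ni_V_stable F h 0 τ hu
  · intro u hu hσ
    exact h6ni_H0 F h u hu hσ
  · intro u hu hN
    exact h6ni_H1 F h u hu hN

end main

end H6NI
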