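/-
W2-C (S55) block B, slice B4 (III) (helper6): `H6NI.h6ni_assembly : H6NI.Assembly`.
Herbrand quotient (helper25's `H25Herb`) of `0 → U_L → Lˣ → ℤ → 0` + Hilbert 90 + `h(U_L) = h(V) = 1`
⇒ `[Kˣ : N Lˣ] = [L : K]` for cyclic local extensions.
-/
import Fermat.Agent.CFT2.B.NormIndexUnits_helper6
import Fermat.Agent.CFT2.A.H25Herbrand

set_option autoImplicit false

namespace H6NI

open scoped WithZero
open H3LB H25Herb

section general

variable {G : Type} [CommGroup G]

theorem h6ni_h0_toAdditive (f g : G →* G) :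
    h0 (MonoidHom.toAdditive f) (MonoidHom.toAdditive g) = g.range.relIndex f.ker := rfl

theorem h6ni_h1_toAdditive (f g : G →* G) :
    h1 (MonoidHom.toAdditive f) (MonoidHom.toAdditive g) = f.range.relIndex g.ker := rfl

end general

section ord

variable {L : Type} [Field L] (w : Valuation L ℤᵐ⁰)

/-- the order homomorphism `Lˣ → ℤ` -/
noncomputable def h6ni_ord : Additive Lˣ →+ ℤ where
  toFun u := WithZero.log (w ((Additive.toMul u : Lˣ) : L))
  map_zero' := by simp
  map_add' := by
    intro a b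
    have ha : w ((Additive.toMul a : Lˣ) : L) ≠ 0 := (Valuation.ne_zero_iff w).mpr (Units.ne_zero _)
    have hb : w ((Additive.toMul b : Lˣ) : L) ≠ 0 := (Valuation.ne_zero_iff w).mpr (Units.ne_zero _)
    simp only [toMul_add, Units.val_mul, map_mul]
    exact WithZero.log_mul ha hb

theorem h6ni_ord_apply (u : Lˣ) : h6ni_ord w (Additive.ofMul u) = WithZero.log (w (u : L)) := rfl

theorem h6ni_ord_eq_zero_iff (u : Lˣ) : h6ni_ord w (Additive.ofMul u) = 0 ↔ w (u : L) = 1 := by
  have hu : w (u : L) ≠ 0 := (Valuation.ne_zero_iff w).mpr (Units.ne_zero _)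
  rw [h6ni_ord_apply]
  constructor
  · intro h
    rw [← WithZero.exp_log hu, h, WithZero.exp_zero]
  · intro h
    rw [h, WithZero.log_one]

theorem h6ni_ord_surjective (hw : IsLocalVal w) : Function.Surjective (h6ni_ord w) := by
  intro m
  obtain ⟨x, hx⟩ := hw.surj (WithZero.exp m)
  have hx0 : x ≠ 0 := by
    intro h0
    rw [h0, map_zero] at hx
    exact WithZero.exp_ne_zero hx.symm
  refine ⟨Additive.ofMul (Units.mk0 x hx0), ?_⟩
  rw [h6ni_ord_apply, Units.val_mk0, hx, WithZero.log_exp]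

end ord


section assembly

variable {K L : Type} [Field K] [Field L] [Algebra K L] [FiniteDimensional K L]
  {v : Valuation K ℤᵐ⁰} {w : Valuation L ℤᵐ⁰} {e : ℕ} {σ : L ≃ₐ[K] L}

omit [FiniteDimensional K L] in
/-- an element fixed by a generator is fixed by the whole group -/
theorem h6ni_fixed_all (hσ : ∀ τ : L ≃ₐ[K] L, τ ∈ Subgroup.zpowers σ) {x : L} (hx : σ x = x)
    (τ : L ≃ₐ[K] L) : τ x = x := by
  have hle : Subgroup.zpowers σ ≤ MulAction.stabilizer (L ≃ₐ[K] L) x := by
    rw [Subgroup.zpowers_le]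
    exact hx
  exact hle (hσ τ)

omit [FiniteDimensional K L] in
theorem h6ni_sigmaHom_eq_one_iff (u : Lˣ) : h6ni_sigmaHom σ u = 1 ↔ σ (u : L) = u := by
  rw [← Units.val_inj, h6ni_sigmaHom_val, Units.val_one, div_eq_one_iff_eq (Units.ne_zero u)]

/-- the inclusion `Kˣ → Lˣ` -/
noncomputable def h6ni_incl (K L : Type) [Field K] [Field L] [Algebra K L] : Kˣ →* Lˣ :=
  Units.map (algebraMap K L : K →* L)

omit [FiniteDimensional K L] in
theorem h6ni_incl_injective : Function.Injective (h6ni_incl K L) := by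
  intro a b hab
  apply Units.ext
  have := congrArg (fun u : Lˣ => (u : L)) hab
  exact (algebraMap K L).injective this

theorem h6ni_normHom_eq [IsGalois K L] :
    h6ni_normHom K L = (h6ni_incl K L).comp (normUnits K L) := by
  ext u
  rw [h6ni_normHom_val, MonoidHom.comp_apply]
  change _ = algebraMap K L (Algebra.norm K (u : L))
  rw [Algebra.norm_eq_prod_automorphisms]

theorem h6ni_ker_sigmaHom [IsGalois K L] (hσ : ∀ τ : L ≃ₐ[K] L, τ ∈ Subgroup.zpowers σ) :
    (h6ni_sigmaHom σ).ker = Subgroup.map (h6ni_incl K L) ⊤ := by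
  ext u
  rw [MonoidHom.mem_ker, h6ni_sigmaHom_eq_one_iff, Subgroup.mem_map]
  constructor
  · intro hu
    have hfix := (IsGalois.mem_range_algebraMap_iff_fixed (F := K) (u : L)).mpr
      (h6ni_fixed_all hσ hu)
    obtain ⟨c, hc⟩ := hfix
    have hc0 : c ≠ 0 := by
      intro h0
      rw [h0, map_zero] at hc
      exact Units.ne_zero u hc.symm
    refine ⟨Units.mk0 c hc0, Subgroup.mem_top _, ?_⟩
    apply Units.ext
    exact hc
  · rintro ⟨c, -, rfl⟩
    change σ (algebraMap K L (c : K)) = algebraMap K L (c : K)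
    exact σ.commutes _

/-- `[ker(σ-1) : im N] = [Kˣ : N Lˣ]` -/
theorem h6ni_h0_units [IsGalois K L] (hσ : ∀ τ : L ≃ₐ[K] L, τ ∈ Subgroup.zpowers σ) :
    (h6ni_normHom K L).range.relIndex (h6ni_sigmaHom σ).ker = (normUnits K L).range.index := by
  rw [h6ni_ker_sigmaHom hσ, h6ni_normHom_eq, MonoidHom.range_comp,
    Subgroup.relIndex_map_map_of_injective _ _ h6ni_incl_injective, Subgroup.relIndex_top_right]

/-- Hilbert 90: `[ker N : im(σ-1)] = 1` -/
theorem h6ni_h1_units [IsGalois K L] (hσ : ∀ τ : L ≃ₐ[K] L, τ ∈ Subgroup.zpowers σ) :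
    (h6ni_sigmaHom σ).range.relIndex (h6ni_normHom K L).ker = 1 := by
  rw [Subgroup.relIndex_eq_one]
  intro u hu
  rw [MonoidHom.mem_ker, h6ni_normHom_eq, MonoidHom.comp_apply] at hu
  have hN : Algebra.norm K (u : L) = 1 := by
    have h1 := congrArg (fun x : Lˣ => (x : L)) hu
    have h2 : algebraMap K L (Algebra.norm K (u : L)) = 1 := h1
    exact (algebraMap K L).injective (by rw [h2, map_one])
  have : IsCyclic (L ≃ₐ[K] L) := ⟨σ, hσ⟩
  obtain ⟨y, hy⟩ := groupCohomology.exists_div_of_norm_eq_one hσ hN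
  refine ⟨y⁻¹, ?_⟩
  apply Units.ext
  rw [h6ni_sigmaHom_val, ← hy]
  simp only [Units.val_inv_eq_inv_val, map_inv₀]
  have h1 : (y : L) ≠ 0 := Units.ne_zero y
  have h2 : σ (y : L) ≠ 0 := by simp
  field_simp


/-- **(III)** -/
theorem h6ni_assembly : Assembly := by
  intro K L _ _ _ _ v w e h σ hσ ⟨V, hVU, hVfin, hVst, hV0, hV1⟩
  have hgal := h.gal
  classical
  have hwτ : ∀ (τ : L ≃ₐ[K] L) (u : Lˣ), w (τ (u : L)) = w (u : L) := fun τ u => h.inv τ u
  have hwne : ∀ u : Lˣ, w (u : L) ≠ 0 := fun u => (Valuation.ne_zero_iff w).mpr (Units.ne_zero _)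
  have hwN : ∀ u : Lˣ, w ((h6ni_normHom K L u : Lˣ) : L) = w (u : L) ^ Fintype.card (L ≃ₐ[K] L) := by
    intro u
    rw [h6ni_normHom_val, map_prod]
    simp only [hwτ]
    rw [Finset.prod_const, Finset.card_univ]
  have hwS : ∀ u : Lˣ, w ((h6ni_sigmaHom σ u : Lˣ) : L) = 1 := by
    intro u
    rw [h6ni_sigmaHom_val, map_div₀, hwτ, div_self (hwne u)]
  have hsU : ∀ u : Lˣ, h6ni_sigmaHom σ u ∈ unitGroup w := fun u => hwS u
  have hnU : ∀ u : Lˣ, u ∈ unitGroup w → h6ni_normHom K L u ∈ unitGroup w := by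
    intro u hu
    change w _ = 1
    rw [hwN, show w (u : L) = 1 from hu, one_pow]
  have hsV : ∀ u : Lˣ, u ∈ V → h6ni_sigmaHom σ u ∈ V := by
    intro u hu
    unfold h6ni_sigmaHom
    rw [MonoidHom.div_apply]
    exact V.div_mem (hVst σ u hu) hu
  have hnV : ∀ u : Lˣ, u ∈ V → h6ni_normHom K L u ∈ V := by
    intro u hu
    unfold h6ni_normHom
    rw [MonoidHom.finsetProd_apply]
    exact Subgroup.prod_mem _ (fun τ _ => hVst τ u hu)
  -- the restricted endomorphisms
  let sU : ↥(unitGroup w) →* ↥(unitGroup w) :=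
    ((h6ni_sigmaHom σ).comp (unitGroup w).subtype).codRestrict (unitGroup w) (fun u => hsU u)
  let nU : ↥(unitGroup w) →* ↥(unitGroup w) :=
    ((h6ni_normHom K L).comp (unitGroup w).subtype).codRestrict (unitGroup w)
      (fun u => hnU u u.2)
  let sV : ↥V →* ↥V :=
    ((h6ni_sigmaHom σ).comp V.subtype).codRestrict V (fun u => hsV u u.2)
  let nV : ↥V →* ↥V :=
    ((h6ni_normHom K L).comp V.subtype).codRestrict V (fun u => hnV u u.2)
  -- relations
  have hfgB : ∀ u : Lˣ, h6ni_sigmaHom σ (h6ni_normHom K L u) = 1 := by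
    intro u
    rw [h6ni_sigmaHom_eq_one_iff]
    exact h6ni_map_normHom σ u
  have hgfB : ∀ u : Lˣ, h6ni_normHom K L (h6ni_sigmaHom σ u) = 1 := fun u =>
    h6ni_normHom_sigmaHom u
  -- Herbrand quotient of V
  have hV0' : nV.range.relIndex sV.ker = 1 := by
    rw [Subgroup.relIndex_eq_one]
    intro u hu
    rw [MonoidHom.mem_ker] at hu
    have hu' : h6ni_sigmaHom σ (u : Lˣ) = 1 := congrArg Subtype.val hu
    rw [h6ni_sigmaHom_eq_one_iff] at hu'
    obtain ⟨y, hy, hyu⟩ := hV0 u u.2 hu'
    refine ⟨⟨y, hy⟩, ?_⟩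
    apply Subtype.ext
    apply Units.ext
    change ((h6ni_normHom K L y : Lˣ) : L) = _
    rw [h6ni_normHom_val, hyu]
  have hV1' : sV.range.relIndex nV.ker = 1 := by
    rw [Subgroup.relIndex_eq_one]
    intro u hu
    rw [MonoidHom.mem_ker] at hu
    have hu' : h6ni_normHom K L (u : Lˣ) = 1 := congrArg Subtype.val hu
    have hu'' : ∏ τ : L ≃ₐ[K] L, τ ((u : Lˣ) : L) = 1 := by
      rw [← h6ni_normHom_val, hu']
      rfl
    obtain ⟨y, hy, hyu⟩ := hV1 u u.2 hu''
    refine ⟨⟨y, hy⟩, ?_⟩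
    apply Subtype.ext
    apply Units.ext
    change ((h6ni_sigmaHom σ y : Lˣ) : L) = _
    rw [h6ni_sigmaHom_val, hyu]
  -- V ⊆ U, finite index
  have hfinU := h25herb_finiteIndex (MonoidHom.toAdditive sV) (MonoidHom.toAdditive nV)
    (MonoidHom.toAdditive sU) (MonoidHom.toAdditive nU)
    (MonoidHom.toAdditive (Subgroup.inclusion hVU))
    (fun x => by
      induction x using Additive.rec with
      | ofMul u =>
        change Additive.ofMul (sU (nU u)) = 0
        rw [show sU (nU u) = 1 from Subtype.ext (hfgB (u : Lˣ))]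
        rfl)
    (fun x => by
      induction x using Additive.rec with
      | ofMul u =>
        change Additive.ofMul (nU (sU u)) = 0
        rw [show nU (sU u) = 1 from Subtype.ext (hgfB (u : Lˣ))]
        rfl)
    (fun a b hab => by
      have : Function.Injective (Subgroup.inclusion hVU) := Subgroup.inclusion_injective hVU
      exact this hab)
    (fun a => rfl) (fun a => rfl)
    (by
      rw [MonoidHom.coe_toAdditive_range, Subgroup.index_toAddSubgroup,
        Subgroup.inclusion_range]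
      exact hVfin)
  obtain ⟨hU1, hU2⟩ := hfinU
  rw [h6ni_h0_toAdditive, h6ni_h1_toAdditive, h6ni_h0_toAdditive, h6ni_h1_toAdditive,
    hV0', hV1', mul_one, mul_one] at hU1
  have hDefV : Defined (MonoidHom.toAdditive sV) (MonoidHom.toAdditive nV) := by
    unfold Defined
    rw [h6ni_h0_toAdditive, h6ni_h1_toAdditive, hV0', hV1']
    exact ⟨one_ne_zero, one_ne_zero⟩
  have hDefU := hU2.mp hDefV
  unfold Defined at hDefU
  rw [h6ni_h0_toAdditive, h6ni_h1_toAdditive] at hDefU
  -- the exact sequence 0 → U → Lˣ → ℤ → 0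
  have hn : Fintype.card (L ≃ₐ[K] L) ≠ 0 := Fintype.card_ne_zero
  have hmul := h25herb_mul (MonoidHom.toAdditive sU) (MonoidHom.toAdditive nU)
    (MonoidHom.toAdditive (h6ni_sigmaHom σ)) (MonoidHom.toAdditive (h6ni_normHom K L))
    (0 : ℤ →+ ℤ) (Fintype.card (L ≃ₐ[K] L) • AddMonoidHom.id ℤ)
    (MonoidHom.toAdditive (unitGroup w).subtype) (h6ni_ord w)
    (fun x => by
      induction x using Additive.rec with
      | ofMul u =>
        change Additive.ofMul (h6ni_sigmaHom σ (h6ni_normHom K L u)) = 0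
        rw [hfgB]
        rfl)
    (fun x => by
      induction x using Additive.rec with
      | ofMul u =>
        change Additive.ofMul (h6ni_normHom K L (h6ni_sigmaHom σ u)) = 0
        rw [hgfB]
        rfl)
    (fun a b hab => by
      have : Function.Injective (unitGroup w).subtype := Subgroup.subtype_injective _
      exact this hab)
    (h6ni_ord_surjective w h.hw)
    (by
      ext x
      induction x using Additive.rec with
      | ofMul u =>
        rw [AddMonoidHom.mem_ker, h6ni_ord_eq_zero_iff, MonoidHom.coe_toAdditive_range,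
          Subgroup.range_subtype]
        rfl)
    (fun a => rfl) (fun a => rfl)
    (fun b => by
      induction b using Additive.rec with
      | ofMul u =>
        change h6ni_ord w (Additive.ofMul (h6ni_sigmaHom σ u)) = 0
        rw [h6ni_ord_eq_zero_iff]
        exact hwS u)
    (fun b => by
      induction b using Additive.rec with
      | ofMul u =>
        change h6ni_ord w (Additive.ofMul (h6ni_normHom K L u))
          = Fintype.card (L ≃ₐ[K] L) • h6ni_ord w (Additive.ofMul u)
        rw [h6ni_ord_apply, h6ni_ord_apply, hwN, WithZero.log_pow])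
  obtain ⟨hint0, hint1⟩ := h25herb_int (Fintype.card (L ≃ₐ[K] L)) hn
  rw [hint0, hint1, mul_one, h6ni_h0_toAdditive, h6ni_h1_toAdditive, h6ni_h0_toAdditive,
    h6ni_h1_toAdditive, h6ni_h1_units hσ, h6ni_h0_units hσ, one_mul, ← hU1] at hmul
  have hfinal : (normUnits K L).range.index = Fintype.card (L ≃ₐ[K] L) := by
    have h1 : nU.range.relIndex sU.ker ≠ 0 := hDefU.1
    exact Nat.eq_of_mul_eq_mul_right (Nat.pos_of_ne_zero h1) (hmul.trans (mul_comm _ _))
  rw [hfinal, ← Nat.card_eq_fintype_card]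
  exact IsGalois.card_aut_eq_finrank K L

end assembly

end H6NI
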