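/-
W2-C (S55) block B, slice B4 (I) (helper6): `H6NI.h6ni_filtExists : H6NI.FiltExists`.
The lattices `M i = {x | all normal-basis coordinates of x have valuation ≤ exp(-i)}`:
`G`-stable, open (trace-form dual basis), multiplicative up to a shift, with `Ĥ⁰ = Ĥ⁻¹ = 0`
additively (coordinates; telescoping formula for the cyclic group).
-/
import Fermat.Agent.CFT2.B.NormIndexDefs_helper6

set_option autoImplicit false

namespace H6NI

open scoped WithZero
open H3LB Module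

section lattice

variable {K L : Type} [Field K] [Field L] [Algebra K L] [FiniteDimensional K L] [IsGalois K L]
  (v : Valuation K ℤᵐ⁰)

/-- the lattice `π^i 𝒪_K[G] θ`, `θ` the normal basis generator -/
noncomputable def h6ni_lat (i : ℕ) : AddSubgroup L where
  carrier := {x | ∀ τ : L ≃ₐ[K] L,
    v ((IsGalois.normalBasis K L).repr x τ) ≤ WithZero.exp (-(i : ℤ))}
  zero_mem' := by
    intro τ
    simp
  add_mem' := by
    intro a b ha hb τ
    rw [map_add, Finsupp.add_apply]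
    exact (v.map_add _ _).trans (max_le (ha τ) (hb τ))
  neg_mem' := by
    intro a ha τ
    rw [map_neg, Finsupp.neg_apply, Valuation.map_neg]
    exact ha τ

variable {v}

theorem h6ni_mem_lat {i : ℕ} {x : L} : x ∈ h6ni_lat v i ↔
    ∀ τ : L ≃ₐ[K] L, v ((IsGalois.normalBasis K L).repr x τ) ≤ WithZero.exp (-(i : ℤ)) :=
  Iff.rfl

omit [FiniteDimensional K L] [IsGalois K L] in
theorem h6ni_nb_apply [FiniteDimensional K L] [IsGalois K L] (τ ρ : L ≃ₐ[K] L) :
    τ (IsGalois.normalBasis K L ρ) = IsGalois.normalBasis K L (τ * ρ) := by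
  rw [IsGalois.normalBasis_apply ρ, IsGalois.normalBasis_apply (τ * ρ)]
  rfl

/-- coordinates of a conjugate -/
theorem h6ni_repr_map (τ ρ : L ≃ₐ[K] L) (x : L) :
    (IsGalois.normalBasis K L).repr (τ x) ρ = (IsGalois.normalBasis K L).repr x (τ⁻¹ * ρ) := by
  set b := IsGalois.normalBasis K L with hb
  have hτb : ∀ ρ' : L ≃ₐ[K] L, τ (b ρ') = b (τ * ρ') := fun ρ' => h6ni_nb_apply τ ρ'
  have hx : τ x = ∑ ρ' : L ≃ₐ[K] L, (b.repr x (τ⁻¹ * ρ')) • b ρ' := by
    conv_lhs => rw [← b.sum_repr x]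
    rw [map_sum]
    simp only [map_smul, hτb]
    exact Fintype.sum_equiv (Equiv.mulLeft τ) _ _ (fun ρ' => by simp)
  rw [hx, b.repr_sum_self]

theorem h6ni_smul_basis_mem {i : ℕ} {c : K} (hc : v c ≤ WithZero.exp (-(i : ℤ)))
    (ρ : L ≃ₐ[K] L) : c • IsGalois.normalBasis K L ρ ∈ h6ni_lat v i := by
  classical
  intro τ
  rw [map_smul, Basis.repr_self, Finsupp.smul_apply, Finsupp.single_apply, smul_eq_mul]
  split_ifs
  · simpa using hc
  · simp

theorem h6ni_lat_anti {i j : ℕ} (hij : i ≤ j) : h6ni_lat (L := L) v j ≤ h6ni_lat v i := by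
  intro x hx τ
  refine (hx τ).trans ?_
  rw [WithZero.exp_le_exp]
  omega

theorem h6ni_lat_stable (i : ℕ) (τ : L ≃ₐ[K] L) {x : L} (hx : x ∈ h6ni_lat v i) :
    τ x ∈ h6ni_lat v i := by
  intro ρ
  rw [h6ni_repr_map]
  exact hx _

theorem h6ni_lat_smul (i : ℕ) (c : K) {x : L} (hc : v c ≤ 1) (hx : x ∈ h6ni_lat v i) :
    algebraMap K L c * x ∈ h6ni_lat v i := by
  intro τ
  rw [← Algebra.smul_def, map_smul, Finsupp.smul_apply, smul_eq_mul, map_mul]
  exact (mul_le_mul' hc (hx τ)).trans (by rw [one_mul])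


end lattice

section bounds

open scoped Classical

variable {K L : Type} [Field K] [Field L] [Algebra K L] [FiniteDimensional K L] [IsGalois K L]
  {v : Valuation K ℤᵐ⁰} {w : Valuation L ℤᵐ⁰} {e : ℕ} (h : IsLocalExt v w e)

omit [Algebra K L] [FiniteDimensional K L] [IsGalois K L] in
theorem h6ni_exists_bound (y : L) : ∃ t : ℕ, w y ≤ WithZero.exp (t : ℤ) := by
  by_cases h0 : w y = 0
  · exact ⟨0, by rw [h0]; exact zero_le⟩
  · refine ⟨(WithZero.log (w y)).toNat, ?_⟩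
    rw [← WithZero.log_le_iff_le_exp h0]
    exact Int.self_le_toNat _

omit [Algebra K L] [FiniteDimensional K L] [IsGalois K L] in
theorem h6ni_exists_bound_fin {ι : Type} [Fintype ι] (y : ι → L) :
    ∃ t : ℕ, ∀ i, w (y i) ≤ WithZero.exp (t : ℤ) := by
  classical
  choose t ht using fun i => h6ni_exists_bound (w := w) (y i)
  refine ⟨Finset.univ.sup t, fun i => (ht i).trans ?_⟩
  rw [WithZero.exp_le_exp]
  exact_mod_cast Finset.le_sup (f := t) (Finset.mem_univ i)

theorem h6ni_exp_pow (i e : ℕ) :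
    (WithZero.exp (-(i : ℤ)) : ℤᵐ⁰) ^ e = WithZero.exp (-((e : ℤ) * i)) := by
  rw [← WithZero.exp_nsmul]
  congr 1
  simp

include h in
theorem h6ni_lat_small_strong (t : ℕ)
    (ht : w (IsGalois.normalBasis K L 1) ≤ WithZero.exp (t : ℤ)) {i : ℕ} {x : L}
    (hx : x ∈ h6ni_lat v i) : w x ≤ WithZero.exp ((t : ℤ) - (e : ℤ) * i) := by
  rw [← (IsGalois.normalBasis K L).sum_repr x]
  refine Valuation.map_sum_le w (fun ρ _ => ?_)
  rw [Algebra.smul_def, map_mul, h.ext, IsGalois.normalBasis_apply ρ, h.inv]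
  have h1 : v ((IsGalois.normalBasis K L).repr x ρ) ^ e ≤ WithZero.exp (-((e : ℤ) * i)) := by
    rw [← h6ni_exp_pow]
    exact pow_le_pow_left₀ zero_le (hx ρ) e
  have h2 : (WithZero.exp ((t : ℤ) - (e : ℤ) * i) : ℤᵐ⁰)
      = WithZero.exp (-((e : ℤ) * i)) * WithZero.exp (t : ℤ) := by
    rw [← WithZero.exp_add]
    congr 1
    ring
  rw [h2]
  exact mul_le_mul' h1 ht

/-- coordinates via the trace form -/
theorem h6ni_repr_eq_trace (x : L) (τ : L ≃ₐ[K] L) :
    (IsGalois.normalBasis K L).repr x τ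
      = Algebra.trace K L (x * (Algebra.traceForm K L).dualBasis
          (traceForm_nondegenerate K L) (IsGalois.normalBasis K L) τ) := by
  have h1 := LinearMap.BilinForm.dualBasis_repr_apply (traceForm_nondegenerate K L)
    ((Algebra.traceForm K L).dualBasis (traceForm_nondegenerate K L) (IsGalois.normalBasis K L))
    x τ
  rw [LinearMap.BilinForm.dualBasis_dualBasis (traceForm_nondegenerate K L)
    (Algebra.traceForm_isSymm K)] at h1
  rw [h1, Algebra.traceForm_apply]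

include h in
theorem h6ni_lat_opn_strong (t₂ : ℕ)
    (ht₂ : ∀ τ : L ≃ₐ[K] L, w ((Algebra.traceForm K L).dualBasis
      (traceForm_nondegenerate K L) (IsGalois.normalBasis K L) τ) ≤ WithZero.exp (t₂ : ℤ))
    {i : ℕ} {x : L} (hx : w x ≤ WithZero.exp (-((t₂ : ℤ) + (e : ℤ) * i))) :
    x ∈ h6ni_lat v i := by
  intro τ
  set d := (Algebra.traceForm K L).dualBasis (traceForm_nondegenerate K L)
    (IsGalois.normalBasis K L) with hd
  have h1 : v ((IsGalois.normalBasis K L).repr x τ) ^ e ≤ WithZero.exp (-((e : ℤ) * i)) := by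
    rw [← h.ext, h6ni_repr_eq_trace, trace_eq_sum_automorphisms]
    refine Valuation.map_sum_le w (fun ρ _ => ?_)
    rw [h.inv, map_mul]
    have h2 : (WithZero.exp (-((e : ℤ) * i)) : ℤᵐ⁰)
        = WithZero.exp (-((t₂ : ℤ) + (e : ℤ) * i)) * WithZero.exp (t₂ : ℤ) := by
      rw [← WithZero.exp_add]
      congr 1
      ring
    rw [h2]
    exact mul_le_mul' hx (ht₂ τ)
  rw [← h6ni_exp_pow] at h1
  by_contra hlt
  rw [not_le] at hlt
  exact absurd h1 (not_le.mpr (pow_lt_pow_left₀ hlt zero_le h.e_pos.ne'))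

include h in
theorem h6ni_lat_mul (t t₂ : ℕ)
    (ht : w (IsGalois.normalBasis K L 1) ≤ WithZero.exp (t : ℤ))
    (ht₂ : ∀ τ : L ≃ₐ[K] L, w ((Algebra.traceForm K L).dualBasis
      (traceForm_nondegenerate K L) (IsGalois.normalBasis K L) τ) ≤ WithZero.exp (t₂ : ℤ))
    {i j : ℕ} {x y : L} (hx : x ∈ h6ni_lat v i) (hy : y ∈ h6ni_lat v j)
    (ha : 2 * t + t₂ ≤ i + j) : x * y ∈ h6ni_lat v (i + j - (2 * t + t₂)) := by
  refine h6ni_lat_opn_strong h t₂ ht₂ ?_
  rw [map_mul]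
  refine (mul_le_mul' (h6ni_lat_small_strong h t ht hx) (h6ni_lat_small_strong h t ht hy)).trans ?_
  rw [← WithZero.exp_add, WithZero.exp_le_exp]
  have he : (1 : ℤ) ≤ e := by exact_mod_cast h.e_pos
  have hsub : ((i + j - (2 * t + t₂) : ℕ) : ℤ) = (i : ℤ) + j - (2 * t + t₂) := by
    rw [Nat.cast_sub ha]
    push_cast
    ring
  rw [hsub]
  have h0 : (0 : ℤ) ≤ 2 * (t : ℤ) + t₂ := by positivity
  nlinarith

end bounds


section cyclic

open scoped Classical

variable {K L : Type} [Field K] [Field L] [Algebra K L] [FiniteDimensional K L] [IsGalois K L]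
  {v : Valuation K ℤᵐ⁰} {σ : L ≃ₐ[K] L}

omit [FiniteDimensional K L] [IsGalois K L] in
theorem h6ni_fixed_all' (hσ : ∀ τ : L ≃ₐ[K] L, τ ∈ Subgroup.zpowers σ) {x : L} (hx : σ x = x)
    (τ : L ≃ₐ[K] L) : τ x = x := by
  have hle : Subgroup.zpowers σ ≤ MulAction.stabilizer (L ≃ₐ[K] L) x := by
    rw [Subgroup.zpowers_le]
    exact hx
  exact hle (hσ τ)

omit [IsGalois K L] in
/-- reindexing a sum over the cyclic group by the powers of the generator -/
theorem h6ni_sum_pow {M : Type} [AddCommMonoid M] (hσ : ∀ τ : L ≃ₐ[K] L, τ ∈ Subgroup.zpowers σ)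
    (f : (L ≃ₐ[K] L) → M) :
    ∑ τ : L ≃ₐ[K] L, f τ = ∑ k ∈ Finset.range (orderOf σ), f (σ ^ k) := by
  rw [← IsCyclic.image_range_orderOf hσ, Finset.sum_image]
  intro a ha b hb hab
  exact pow_injOn_Iio_orderOf (by simpa using ha) (by simpa using hb) hab

theorem h6ni_lat_t0 (hσ : ∀ τ : L ≃ₐ[K] L, τ ∈ Subgroup.zpowers σ) (i : ℕ) (x : L)
    (hx : x ∈ h6ni_lat v i) (hfix : σ x = x) :
    ∃ y ∈ h6ni_lat v i, ∑ τ : L ≃ₐ[K] L, τ y = x := by
  set b := IsGalois.normalBasis K L with hb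
  have hc : ∀ ρ : L ≃ₐ[K] L, b.repr x ρ = b.repr x 1 := by
    intro ρ
    have h1 := h6ni_repr_map ρ ρ x
    rw [h6ni_fixed_all' hσ hfix ρ, inv_mul_cancel] at h1
    exact h1
  refine ⟨b.repr x 1 • b 1, h6ni_smul_basis_mem (hx 1) 1, ?_⟩
  conv_rhs => rw [← b.sum_repr x]
  refine Finset.sum_congr rfl (fun τ _ => ?_)
  rw [map_smul, hc τ, hb, IsGalois.normalBasis_apply τ]

/-- the telescoping identity -/
theorem h6ni_telescope {M : Type} [AddCommGroup M] [Module K M] (c : ℕ → K) (β : ℕ → M) (m : ℕ) :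
    ∑ k ∈ Finset.range (m + 1), (-∑ j ∈ Finset.range k, c (j + 1)) • (β (k + 1) - β k)
      = (-∑ j ∈ Finset.range m, c (j + 1)) • β (m + 1)
        + ∑ k ∈ Finset.range m, c (k + 1) • β (k + 1) := by
  induction m with
  | zero => simp
  | succ m ih =>
    rw [Finset.sum_range_succ, ih, Finset.sum_range_succ (fun j => c (j + 1)) m,
      Finset.sum_range_succ (fun k => c (k + 1) • β (k + 1)) m]
    module

theorem h6ni_lat_t1 (hσ : ∀ τ : L ≃ₐ[K] L, τ ∈ Subgroup.zpowers σ) (i : ℕ) (x : L)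
    (hx : x ∈ h6ni_lat v i) (hT : (∑ τ : L ≃ₐ[K] L, τ x) ∈ h6ni_lat v (i + 1)) :
    ∃ z ∈ h6ni_lat v i, x - (σ z - z) ∈ h6ni_lat v (i + 1) := by
  set b := IsGalois.normalBasis K L with hb
  -- the coordinate sum
  have hs : v (∑ ρ : L ≃ₐ[K] L, b.repr x ρ) ≤ WithZero.exp (-((i + 1 : ℕ) : ℤ)) := by
    have h1 := hT 1
    rw [map_sum, Finsupp.finsetSum_apply] at h1
    simp only [h6ni_repr_map, mul_one] at h1
    have h2 : ∑ τ : L ≃ₐ[K] L, b.repr x τ⁻¹ = ∑ ρ : L ≃ₐ[K] L, b.repr x ρ :=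
      Fintype.sum_equiv (Equiv.inv _) _ _ (fun _ => rfl)
    rw [← h2]
    exact h1
  obtain ⟨m, hm⟩ : ∃ m, orderOf σ = m + 1 :=
    Nat.exists_eq_succ_of_ne_zero (orderOf_pos σ).ne'
  set c : ℕ → K := fun k => b.repr x (σ ^ k) with hc
  set β : ℕ → L := fun k => b (σ ^ k) with hβ
  have hxsum : x = ∑ k ∈ Finset.range (m + 1), c k • β k := by
    conv_lhs => rw [← b.sum_repr x]
    rw [h6ni_sum_pow hσ, hm]
  have hssum : ∑ ρ : L ≃ₐ[K] L, b.repr x ρ = ∑ k ∈ Finset.range (m + 1), c k := by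
    rw [h6ni_sum_pow hσ, hm]
  have hcv : ∀ k, v (c k) ≤ WithZero.exp (-(i : ℤ)) := fun k => hx _
  have hDv : ∀ k, v (-∑ j ∈ Finset.range k, c (j + 1)) ≤ WithZero.exp (-(i : ℤ)) := by
    intro k
    rw [Valuation.map_neg]
    exact Valuation.map_sum_le v (fun j _ => hcv _)
  have hβσ : ∀ k, σ (β k) = β (k + 1) := by
    intro k
    simp only [hβ, hb]
    rw [h6ni_nb_apply, pow_succ']
  have hβm : β (m + 1) = β 0 := by
    simp only [hβ]
    rw [← hm, pow_orderOf_eq_one, pow_zero]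
  refine ⟨∑ k ∈ Finset.range (m + 1), (-∑ j ∈ Finset.range k, c (j + 1)) • β k, ?_, ?_⟩
  · exact AddSubgroup.sum_mem _ (fun k _ => h6ni_smul_basis_mem (hDv k) _)
  · have hσz : σ (∑ k ∈ Finset.range (m + 1), (-∑ j ∈ Finset.range k, c (j + 1)) • β k)
        - ∑ k ∈ Finset.range (m + 1), (-∑ j ∈ Finset.range k, c (j + 1)) • β k
        = ∑ k ∈ Finset.range (m + 1),
            (-∑ j ∈ Finset.range k, c (j + 1)) • (β (k + 1) - β k) := by
      rw [map_sum, ← Finset.sum_sub_distrib]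
      refine Finset.sum_congr rfl (fun k _ => ?_)
      rw [map_smul, hβσ, smul_sub]
    have hkey : x - (σ (∑ k ∈ Finset.range (m + 1), (-∑ j ∈ Finset.range k, c (j + 1)) • β k)
        - ∑ k ∈ Finset.range (m + 1), (-∑ j ∈ Finset.range k, c (j + 1)) • β k)
        = (∑ k ∈ Finset.range (m + 1), c k) • b 1 := by
      rw [hσz, h6ni_telescope, hβm]
      conv_lhs => rw [hxsum]
      rw [Finset.sum_range_succ' (fun k => c k • β k) m, Finset.sum_range_succ' c m]
      have hβ0 : β 0 = b 1 := by simp [hβ]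
      rw [hβ0]
      module
    rw [hkey, ← hssum]
    exact h6ni_smul_basis_mem hs 1

end cyclic

section main

open scoped Classical

/-- **(I)** -/
theorem h6ni_filtExists : FiltExists := by
  intro K L _ _ _ _ v w e h σ hσ
  have hgal := h.gal
  obtain ⟨t, ht⟩ := h6ni_exists_bound (w := w) (IsGalois.normalBasis K L 1)
  obtain ⟨t₂, ht₂⟩ := h6ni_exists_bound_fin (w := w)
    (fun τ : L ≃ₐ[K] L => (Algebra.traceForm K L).dualBasis
      (traceForm_nondegenerate K L) (IsGalois.normalBasis K L) τ)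
  have he : (1 : ℤ) ≤ e := by exact_mod_cast h.e_pos
  exact ⟨{
    M := h6ni_lat v
    a := 2 * t + t₂
    t := t
    anti := fun i j hij => h6ni_lat_anti hij
    stable := fun i τ x hx => h6ni_lat_stable i τ hx
    mul := fun i j x y hx hy ha => h6ni_lat_mul h t t₂ ht ht₂ hx hy ha
    small := fun i x hx => by
      refine (h6ni_lat_small_strong h t ht hx).trans ?_
      rw [WithZero.exp_le_exp]
      have hi : (0 : ℤ) ≤ i := by positivity
      nlinarith
    opn := fun i => ⟨t₂ + e * i, fun x hx => h6ni_lat_opn_strong h t₂ ht₂ (by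
      refine hx.trans (le_of_eq ?_)
      push_cast
      rfl)⟩
    smul := fun i c x hc hx => h6ni_lat_smul i c hc hx
    t0 := fun i x hx hfix => h6ni_lat_t0 hσ i x hx hfix
    t1 := fun i x hx hT => h6ni_lat_t1 hσ i x hx hT }⟩

end main

end H6NI
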