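/-
W2-C (S55) block B, slice B4 (helper6): the local norm index theorem for cyclic extensions,
`H6NI.h6lb_normIndexCyclic : H3LB.NormIndexCyclic`  (`[Kˣ : N Lˣ] = [L : K]`).
-/
import Fermat.Agent.CFT2.B.NormIndexFilt_helper6
import Fermat.Agent.CFT2.B.NormIndexAsm_helper6

set_option autoImplicit false

namespace H6NI

/-- **(B4) the local norm index theorem** for cyclic extensions of local fields -/
theorem h6lb_normIndexCyclic : H3LB.NormIndexCyclic :=
  normIndexCyclic_of_slices h6ni_filtExists h6ni_unitSubgroup h6ni_assembly

end H6NI
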