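/-
W2-C (S55) block B, slice B5a part (1) (helper24, for helper5): the cyclic bound
`|H²(Gal(E/F), Eˣ)| = [E:F]` for a cyclic extension of `q`-adic fields
(AC2 (helper25): `|H²| = [ker(σ-1) : im N]`, Galois descent `ker(σ-1) = Fˣ`,
`im N = N_{E/F} Eˣ`, and the local norm index theorem B4 (helper6)).
-/
import Mathlib
import Fermat.Agent.CFT2.B.Defs2
import Fermat.Agent.CFT2.A.AC2_helper25
import Fermat.Agent.CFT2.B.NormIndex_helper6

set_option autoImplicit false
set_option linter.style.haveILetI false
set_option linter.unusedSectionVars false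
set_option linter.unusedVariables false

noncomputable section

namespace H24LB

open scoped WithZero
open H3LB groupCohomology

section cyc

variable (F E : Type) [Field F] [Field E] [Algebra F E] [FiniteDimensional F E] [IsGalois F E]

/-- `Fˣ → Eˣ`, additively -/
def h24lb_j : Additive Fˣ →+ Additive Eˣ :=
  MonoidHom.toAdditive (Units.map (algebraMap F E : F →* E))

theorem h24lb_j_injective : Function.Injective (h24lb_j F E) := by
  intro a b hab
  have h1 : ((Additive.toMul (h24lb_j F E a) : Eˣ) : E) = ((Additive.toMul (h24lb_j F E b) : Eˣ) : E) :=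
    congrArg (fun t : Additive Eˣ => ((Additive.toMul t : Eˣ) : E)) hab
  have h2 : ((Additive.toMul a : Fˣ) : F) = ((Additive.toMul b : Fˣ) : F) :=
    (algebraMap F E).injective h1
  exact congrArg Additive.ofMul (Units.ext h2)

/-- for a cyclic Galois extension with generator `σ`: `[ker(σ - 1) : im N] = [Fˣ : N Eˣ]` -/
theorem h24lb_relIndex_eq (σ : E ≃ₐ[F] E) (hσ : ∀ g : E ≃ₐ[F] E, g ∈ Subgroup.zpowers σ) :
    (H20A.normOf (Representation.ofMulDistribMulAction (E ≃ₐ[F] E) Eˣ)).range.relIndex
      (H20A.subOne (Representation.ofMulDistribMulAction (E ≃ₐ[F] E) Eˣ) σ).ker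
      = (normUnits F E).range.index := by
  haveI : Finite (E ≃ₐ[F] E) := inferInstance
  set ρ : Representation ℤ (E ≃ₐ[F] E) (Additive Eˣ) :=
    Representation.ofMulDistribMulAction (E ≃ₐ[F] E) Eˣ with hρ
  -- the kernel of `σ - 1`
  have hker : (H20A.subOne ρ σ).ker = AddSubgroup.map (h24lb_j F E) ⊤ := by
    ext a
    rw [AddMonoidHom.mem_ker, AddSubgroup.mem_map]
    change ρ σ a - a = 0 ↔ _
    rw [sub_eq_zero]
    constructor
    · intro h1
      have hfix : σ ((Additive.toMul a : Eˣ) : E) = ((Additive.toMul a : Eˣ) : E) :=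
        congrArg (fun t : Additive Eˣ => ((Additive.toMul t : Eˣ) : E)) h1
      have hall : ∀ g : E ≃ₐ[F] E, g ((Additive.toMul a : Eˣ) : E) = ((Additive.toMul a : Eˣ) : E) := by
        intro g
        obtain ⟨m, rfl⟩ := Subgroup.mem_zpowers_iff.1 (hσ g)
        have hstab : σ ∈ MulAction.stabilizer (E ≃ₐ[F] E) ((Additive.toMul a : Eˣ) : E) := by
          rw [MulAction.mem_stabilizer_iff]; exact hfix
        have := Subgroup.zpow_mem _ hstab m
        rw [MulAction.mem_stabilizer_iff] at this
        exact this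
      obtain ⟨x, hx⟩ := (IsGalois.mem_range_algebraMap_iff_fixed (F := F) (E := E) _).2 hall
      have hx0 : x ≠ 0 := by
        intro h0
        rw [h0, map_zero] at hx
        exact (Units.ne_zero _) hx.symm
      refine ⟨Additive.ofMul (Units.mk0 x hx0), trivial, ?_⟩
      apply Additive.toMul.injective
      apply Units.ext
      exact hx
    · rintro ⟨b, -, rfl⟩
      change Additive.ofMul (σ • Additive.toMul (h24lb_j F E b)) = h24lb_j F E b
      apply Additive.toMul.injective
      apply Units.ext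
      exact σ.commutes _
  -- the image of the norm
  have hrange : (H20A.normOf ρ).range
      = AddSubgroup.map (h24lb_j F E) (Subgroup.toAddSubgroup (normUnits F E).range) := by
    letI : Fintype (E ≃ₐ[F] E) := Fintype.ofFinite _
    have hnorm : ∀ b : Additive Eˣ, H20A.normOf ρ b
        = h24lb_j F E (Additive.ofMul (normUnits F E (Additive.toMul b))) := by
      intro b
      apply Additive.toMul.injective
      have h1 : Additive.toMul (H20A.normOf ρ b) = ∏ g : E ≃ₐ[F] E, g • (Additive.toMul b) :=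
        Representation.norm_ofMulDistribMulAction_eq (G := E ≃ₐ[F] E) (M := Eˣ) _
      rw [h1]
      apply Units.ext
      rw [Units.coe_prod]
      change _ = algebraMap F E (Algebra.norm F ((Additive.toMul b : Eˣ) : E))
      rw [Algebra.norm_eq_prod_automorphisms]
      refine Finset.prod_congr ?_ (fun g _ => rfl)
      ext g
      simp
    ext a
    rw [AddMonoidHom.mem_range, AddSubgroup.mem_map]
    constructor
    · rintro ⟨b, rfl⟩
      exact ⟨Additive.ofMul (normUnits F E (Additive.toMul b)), ⟨Additive.toMul b, rfl⟩, (hnorm b).symm⟩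
    · rintro ⟨c, ⟨y, hy⟩, rfl⟩
      refine ⟨Additive.ofMul y, ?_⟩
      rw [hnorm]
      exact congrArg (h24lb_j F E) (congrArg Additive.ofMul hy)
  rw [hker, hrange, AddSubgroup.relIndex_map_map_of_injective _ _ (h24lb_j_injective F E),
    AddSubgroup.relIndex_top_right, Subgroup.index_toAddSubgroup]

/-- `|H²(Gal(E/F), Eˣ)| = [Fˣ : N Eˣ]` for cyclic `E/F` -/
theorem h24lb_card_H2_cyclic (hcyc : IsCyclic (E ≃ₐ[F] E)) :
    Nat.card (groupCohomology (Rep.ofAlgebraAutOnUnits F E) 2) = (normUnits F E).range.index := by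
  obtain ⟨σ, hσ⟩ := hcyc.exists_generator
  have hc := (H25Herb.helper25_cyclicCard (E ≃ₐ[F] E) (Additive Eˣ)
    (Representation.ofMulDistribMulAction (E ≃ₐ[F] E) Eˣ) σ hσ).1
  change Nat.card (groupCohomology
    (Rep.of (Representation.ofMulDistribMulAction (E ≃ₐ[F] E) Eˣ)) 2) = _
  rw [hc, h24lb_relIndex_eq F E σ hσ]

end cyc

/-- **the cyclic bound** (exact statement asked by helper5 for B5a) -/
theorem h24lb_cyclicBound (hB4 : H3LB.NormIndexCyclic) (q : ℕ) [Fact q.Prime] (F E : Type)
    [Field F] [Field E] [Algebra ℚ_[q] F] [Algebra ℚ_[q] E] [Algebra F E]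
    [IsScalarTower ℚ_[q] F E] [FiniteDimensional ℚ_[q] E] [IsGalois F E]
    (hcyc : IsCyclic (E ≃ₐ[F] E)) :
    Finite (groupCohomology (Rep.ofAlgebraAutOnUnits F E) 2) ∧
    Nat.card (groupCohomology (Rep.ofAlgebraAutOnUnits F E) 2) ≤ Module.finrank F E := by
  haveI : FiniteDimensional ℚ_[q] F := FiniteDimensional.left ℚ_[q] F E
  haveI : FiniteDimensional F E := FiniteDimensional.right ℚ_[q] F E
  obtain ⟨e, he⟩ := h3lb_exists_isLocalExt q (K := F) (L := E)
  have hidx := hB4 F E (padicVal q F) (padicVal q E) e he hcyc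
  have hcard : Nat.card (groupCohomology (Rep.ofAlgebraAutOnUnits F E) 2)
      = Module.finrank F E := by
    rw [h24lb_card_H2_cyclic F E hcyc, hidx]
  refine ⟨?_, hcard.le⟩
  exact Nat.finite_of_card_ne_zero (by rw [hcard]; exact Module.finrank_pos.ne')

/-- the cyclic bound, with B4 discharged (helper6) -/
theorem h24lb_cyclicBound_final (q : ℕ) [Fact q.Prime] (F E : Type)
    [Field F] [Field E] [Algebra ℚ_[q] F] [Algebra ℚ_[q] E] [Algebra F E]
    [IsScalarTower ℚ_[q] F E] [FiniteDimensional ℚ_[q] E] [IsGalois F E]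
    (hcyc : IsCyclic (E ≃ₐ[F] E)) :
    Finite (groupCohomology (Rep.ofAlgebraAutOnUnits F E) 2) ∧
    Nat.card (groupCohomology (Rep.ofAlgebraAutOnUnits F E) 2) ≤ Module.finrank F E :=
  h24lb_cyclicBound H6NI.h6lb_normIndexCyclic q F E hcyc

end H24LB

end
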