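/-
W2-C (S55) block B, slices S4b, S4c, S4e (helper3; S4a = InfFieldComp_helper24): functoriality of the field-theoretic inflation and
restriction maps.
-/
import Mathlib
import Fermat.Agent.CFT2.B.Defs5

set_option autoImplicit false
set_option linter.style.haveILetI false
set_option linter.unusedSectionVars false
set_option linter.unusedVariables false

namespace H3LB

open groupCohomology CategoryTheory

/-- **(S4b)** -/
theorem h3fm_resFieldComp : ResFieldComp := by
  intro K L M F _ _ _ _ _ _ _ _ _ _ _ _ _ _ n
  have hf : galRes K M F = (galRes K L F).comp (galRes L M F) := by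
    ext σ x
    rfl
  have key := groupCohomology.map_comp (galRes K L F) (galRes L M F)
    (resFieldHom K L F) (resFieldHom L M F) n
  have h2 : groupCohomology.map (galRes K M F) (resFieldHom K M F) n =
      groupCohomology.map ((galRes K L F).comp (galRes L M F))
        ((Rep.resFunctor (galRes L M F)).map (resFieldHom K L F) ≫ resFieldHom L M F) n := by
    apply groupCohomology.map_congr hf
    ext a
    rfl
  unfold resField
  rw [h2, key]
  rfl

/-- **(S4c)** -/
theorem h3fm_resInfComm : ResInfComm := by
  intro K L E F _ _ _ _ _ _ _ _ _ _ _ _ _ _ _ _ n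
  have hf : (AlgEquiv.restrictNormalHom (F := K) (K₁ := F) E).comp (galRes K L F) =
      (galRes K L E).comp (AlgEquiv.restrictNormalHom (F := L) (K₁ := F) E) := by
    ext σ x
    apply (algebraMap E F).injective
    show algebraMap E F ((σ.restrictScalars K).restrictNormal E x) =
      algebraMap E F ((σ.restrictNormal E).restrictScalars K x)
    rw [AlgEquiv.restrictNormal_commutes]
    show σ (algebraMap E F x) = algebraMap E F (σ.restrictNormal E x)
    rw [AlgEquiv.restrictNormal_commutes]
  have key1 := groupCohomology.map_comp
    (AlgEquiv.restrictNormalHom (F := K) (K₁ := F) E) (galRes K L F)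
    (infFieldHom K E F) (resFieldHom K L F) n
  have key2 := groupCohomology.map_comp
    (galRes K L E) (AlgEquiv.restrictNormalHom (F := L) (K₁ := F) E)
    (resFieldHom K L E) (infFieldHom L E F) n
  have h2 : groupCohomology.map
      ((AlgEquiv.restrictNormalHom (F := K) (K₁ := F) E).comp (galRes K L F))
      ((Rep.resFunctor (galRes K L F)).map (infFieldHom K E F) ≫ resFieldHom K L F) n =
      groupCohomology.map
        ((galRes K L E).comp (AlgEquiv.restrictNormalHom (F := L) (K₁ := F) E))
        ((Rep.resFunctor (AlgEquiv.restrictNormalHom (F := L) (K₁ := F) E)).map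
          (resFieldHom K L E) ≫ infFieldHom L E F) n := by
    apply groupCohomology.map_congr hf
    ext a
    rfl
  have e1 : (resField K L F n).comp (infField K E F n) =
      (groupCohomology.map (AlgEquiv.restrictNormalHom (F := K) (K₁ := F) E)
        (infFieldHom K E F) n ≫
        groupCohomology.map (galRes K L F) (resFieldHom K L F) n).hom.toAddMonoidHom := rfl
  have e2 : (infField L E F n).comp (resField K L E n) =
      (groupCohomology.map (galRes K L E) (resFieldHom K L E) n ≫
        groupCohomology.map (AlgEquiv.restrictNormalHom (F := L) (K₁ := F) E)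
          (infFieldHom L E F) n).hom.toAddMonoidHom := rfl
  rw [e1, e2, ← key1, ← key2, h2]

/-- **(S4e)** -/
theorem h3fm_bcInfComp : BcInfComp := by
  intro K L U U' E _ _ _ _ _ _ _ _ _ _ _ _ _ _ _ _ _ _ _ _ _ _ n
  -- both sides are induced by the same pair (group hom, module hom)
  have hf : (AlgEquiv.restrictNormalHom (F := K) (K₁ := E) U).comp (galRes K L E) =
      ((AlgEquiv.restrictNormalHom (F := K) (K₁ := U') U).comp (galRes K L U')).comp
        (AlgEquiv.restrictNormalHom (F := L) (K₁ := E) U') := by
    ext σ x
    apply (algebraMap U E).injective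
    show algebraMap U E ((σ.restrictScalars K).restrictNormal U x) =
      algebraMap U E (((σ.restrictNormal U').restrictScalars K).restrictNormal U x)
    rw [AlgEquiv.restrictNormal_commutes, IsScalarTower.algebraMap_apply U U' E,
      IsScalarTower.algebraMap_apply U U' E, AlgEquiv.restrictNormal_commutes]
    show σ _ = algebraMap U' E (σ.restrictNormal U' _)
    rw [AlgEquiv.restrictNormal_commutes]
  have keyR := groupCohomology.map_comp
    (AlgEquiv.restrictNormalHom (F := K) (K₁ := E) U) (galRes K L E)
    (infFieldHom K U E) (resFieldHom K L E) n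
  have keyL1 := groupCohomology.map_comp
    (AlgEquiv.restrictNormalHom (F := K) (K₁ := U') U) (galRes K L U')
    (infFieldHom K U U') (resFieldHom K L U') n
  have keyL2 := groupCohomology.map_comp
    ((AlgEquiv.restrictNormalHom (F := K) (K₁ := U') U).comp (galRes K L U'))
    (AlgEquiv.restrictNormalHom (F := L) (K₁ := E) U')
    ((Rep.resFunctor (galRes K L U')).map (infFieldHom K U U') ≫ resFieldHom K L U')
    (infFieldHom L U' E) n
  have h2 : groupCohomology.map
      ((AlgEquiv.restrictNormalHom (F := K) (K₁ := E) U).comp (galRes K L E))
      ((Rep.resFunctor (galRes K L E)).map (infFieldHom K U E) ≫ resFieldHom K L E) n =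
      groupCohomology.map
        (((AlgEquiv.restrictNormalHom (F := K) (K₁ := U') U).comp (galRes K L U')).comp
          (AlgEquiv.restrictNormalHom (F := L) (K₁ := E) U'))
        ((Rep.resFunctor (AlgEquiv.restrictNormalHom (F := L) (K₁ := E) U')).map
          ((Rep.resFunctor (galRes K L U')).map (infFieldHom K U U') ≫ resFieldHom K L U') ≫
            infFieldHom L U' E) n := by
    apply groupCohomology.map_congr hf
    ext a
    show Additive.ofMul (Units.map (algebraMap U E : U →* E) (Additive.toMul a)) =
      Additive.ofMul (Units.map (algebraMap U' E : U' →* E)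
        (Units.map (algebraMap U U' : U →* U') (Additive.toMul a)))
    congr 1
    apply Units.ext
    exact IsScalarTower.algebraMap_apply U U' E _
  have e1 : bcField K L U E n =
      (groupCohomology.map (AlgEquiv.restrictNormalHom (F := K) (K₁ := E) U)
        (infFieldHom K U E) n ≫
        groupCohomology.map (galRes K L E) (resFieldHom K L E) n).hom.toAddMonoidHom := rfl
  have e2 : (infField L U' E n).comp (bcField K L U U' n) =
      ((groupCohomology.map (AlgEquiv.restrictNormalHom (F := K) (K₁ := U') U)
        (infFieldHom K U U') n ≫
        groupCohomology.map (galRes K L U') (resFieldHom K L U') n) ≫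
        groupCohomology.map (AlgEquiv.restrictNormalHom (F := L) (K₁ := E) U')
          (infFieldHom L U' E) n).hom.toAddMonoidHom := rfl
  rw [e1, e2, ← keyR, ← keyL1, ← keyL2, h2]

end H3LB
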