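/-
W2-C (S55) block B, slice B5a (helper5), part 2: MODELS.

`h5b_IsModel B F L`: the pair (group `Γ`, `Γ`-module `B`) is isomorphic to `(Gal(L/F), Lˣ)`.
Models transport cohomology (`h5b_isModel_iso`), satisfy Hilbert 90 (`h5b_isModel_h90`), and are
closed under restriction to subgroups (`h5b_isModel_res`, the new base field is the fixed field)
and under passing to the invariants of a normal subgroup (`h5b_isModel_quot`, the new top field
is the fixed field).
-/
import Mathlib
import Fermat.Agent.CFT2.B.H2CardLeAbs_helper5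

set_option autoImplicit false
set_option linter.style.haveILetI false

noncomputable section

open CategoryTheory groupCohomology Rep

namespace H5B

/-- the pair `(Γ, B)` is isomorphic to `(Gal(L/F), Lˣ)` -/
def h5b_IsModel {Γ : Type} [Group Γ] (B : Rep.{0} ℤ Γ) (F L : Type) [Field F] [Field L]
    [Algebra F L] : Prop :=
  ∃ (e : Γ ≃* (L ≃ₐ[F] L)) (ψ : B.V ≃+ Additive Lˣ),
    ∀ (g : Γ) (b : B.V), ψ (B.ρ g b) = Additive.ofMul (e g • (ψ b).toMul)

theorem h5b_isModel_refl (F L : Type) [Field F] [Field L] [Algebra F L] :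
    h5b_IsModel (Rep.ofAlgebraAutOnUnits F L) F L :=
  ⟨MulEquiv.refl _, AddEquiv.refl _, fun _ _ => rfl⟩

theorem h5b_isModel_iso {Γ : Type} [Group Γ] (B : Rep.{0} ℤ Γ) (F L : Type) [Field F] [Field L]
    [Algebra F L] (h : h5b_IsModel B F L) (n : ℕ) :
    Nonempty (groupCohomology B n ≅ groupCohomology (Rep.ofAlgebraAutOnUnits F L) n) := by
  obtain ⟨e, ψ, he⟩ := h
  exact ⟨groupCohomology.mapIso (A := Rep.ofAlgebraAutOnUnits F L) e ψ.toIntLinearEquiv
    (fun g => DFunLike.ext _ _ (fun b => he g b)) n⟩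

/-- Hilbert 90 for models -/
theorem h5b_isModel_h90 {Γ : Type} [Group Γ] (B : Rep.{0} ℤ Γ) (F L : Type) [Field F] [Field L]
    [Algebra F L] [FiniteDimensional F L] (h : h5b_IsModel B F L) :
    Limits.IsZero (groupCohomology B 1) := by
  obtain ⟨i⟩ := h5b_isModel_iso B F L h 1
  refine Limits.IsZero.of_iso ?_ i
  have : Subsingleton (groupCohomology (Rep.ofAlgebraAutOnUnits F L) 1) :=
    (groupCohomology.H1ofAutOnUnitsUnique F L).instSubsingleton
  exact ModuleCat.isZero_of_subsingleton _

/-- the bound is transported along models -/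
theorem h5b_isModel_bound {Γ : Type} [Group Γ] (B : Rep.{0} ℤ Γ) (F L : Type) [Field F] [Field L]
    [Algebra F L] (h : h5b_IsModel B F L)
    (hb : h5b_Bound (Rep.ofAlgebraAutOnUnits F L)) : h5b_Bound B := by
  obtain ⟨i⟩ := h5b_isModel_iso B F L h 2
  obtain ⟨e, -, -⟩ := h
  obtain ⟨hfin, hle⟩ := hb
  let j : groupCohomology B 2 ≃ groupCohomology (Rep.ofAlgebraAutOnUnits F L) 2 :=
    i.toLinearEquiv.toEquiv
  refine ⟨Finite.of_equiv _ j.symm, ?_⟩
  rw [Nat.card_congr j, Nat.card_congr e.toEquiv]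
  exact hle

open IntermediateField in
/-- models are closed under restriction to subgroups -/
theorem h5b_isModel_res {Γ : Type} [Group Γ] (B : Rep.{0} ℤ Γ) (F L : Type) [Field F] [Field L]
    [Algebra F L] [FiniteDimensional F L] (h : h5b_IsModel B F L) (H : Subgroup Γ) :
    ∃ E : IntermediateField F L, h5b_IsModel (Rep.res H.subtype B) E L := by
  obtain ⟨e, ψ, he⟩ := h
  refine ⟨fixedField (H.map e.toMonoidHom), ?_⟩
  let e' : H ≃* (L ≃ₐ[fixedField (H.map e.toMonoidHom)] L) :=
    (H.equivMapOfInjective e.toMonoidHom e.injective).trans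
      ((MulEquiv.subgroupCongr (fixingSubgroup_fixedField (H.map e.toMonoidHom)).symm).trans
        (fixingSubgroupEquiv (fixedField (H.map e.toMonoidHom))))
  refine ⟨e', ψ, ?_⟩
  intro g b
  have h1 := he g b
  have h2 : ∀ u : Lˣ, e' g • u = e (g : Γ) • u := by
    intro u
    apply Units.ext
    rfl
  rw [h2]
  exact h1

attribute [local instance 1100] Rep.hV2

set_option synthInstance.maxHeartbeats 400000 in
open IntermediateField in
/-- models are closed under passing to the invariants of a normal subgroup -/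
theorem h5b_isModel_quot {Γ : Type} [Group Γ] (B : Rep.{0} ℤ Γ) (F L : Type) [Field F] [Field L]
    [Algebra F L] [FiniteDimensional F L] [IsGalois F L] (h : h5b_IsModel B F L)
    (N : Subgroup Γ) [hN : N.Normal] :
    ∃ E : IntermediateField F L, IsGalois F E ∧ h5b_IsModel (B.quotientToInvariants N) F E := by
  obtain ⟨e, ψ, he⟩ := h
  haveI hN' : (N.map e.toMonoidHom).Normal := hN.map _ e.surjective
  refine ⟨fixedField (N.map e.toMonoidHom), inferInstance, ?_⟩
  let E := fixedField (N.map e.toMonoidHom)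
  let e₂ : Γ ⧸ N ≃* (E ≃ₐ[F] E) :=
    (QuotientGroup.congr N (N.map e.toMonoidHom) e rfl).trans
      (IsGalois.normalAutEquivQuotient (N.map e.toMonoidHom))
  have he₂ : ∀ (γ : Γ) (x : E), ((e₂ (γ : Γ ⧸ N)) x : L) = e γ (x : L) := by
    intro γ x
    exact AlgEquiv.restrictNormal_commutes (e γ) E x
  let i : Eˣ →* Lˣ := Units.map (algebraMap E L : E →* L)
  have hi : Function.Injective i := Units.map_injective (algebraMap E L).injective
  let f : Additive Eˣ →+ B.V := ψ.symm.toAddMonoidHom.comp (MonoidHom.toAdditive i)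
  have hψ : ∀ (g : Γ) (y : Additive Lˣ),
      B.ρ g (ψ.symm y) = ψ.symm (Additive.ofMul (e g • y.toMul)) := by
    intro g y
    apply ψ.injective
    rw [he, AddEquiv.apply_symm_apply, AddEquiv.apply_symm_apply]
  have hf : ∀ x, f x ∈ Representation.invariants (B.ρ.comp N.subtype) := by
    intro x g
    change B.ρ (g : Γ) (ψ.symm (Additive.ofMul (i x.toMul))) = ψ.symm (Additive.ofMul (i x.toMul))
    rw [hψ]
    congr 2
    apply Units.ext
    have hx : ((x.toMul : Eˣ) : E).1 ∈ fixedField (N.map e.toMonoidHom) := ((x.toMul : Eˣ) : E).2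
    rw [mem_fixedField_iff] at hx
    exact hx (e g) ⟨g, g.2, rfl⟩
  let χ : Additive Eˣ →+ (B.quotientToInvariants N).V :=
    f.codRestrict (Representation.invariants (B.ρ.comp N.subtype)) hf
  have hχinj : Function.Injective χ := by
    intro x y hxy
    have h1 : f x = f y := congrArg Subtype.val hxy
    have h2 : (MonoidHom.toAdditive i) x = (MonoidHom.toAdditive i) y := ψ.symm.injective h1
    exact hi h2
  have hχsurj : Function.Surjective χ := by
    rintro ⟨b, hb⟩
    -- `ψ b` is fixed by `N`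
    have hfix : ∀ σ ∈ N.map e.toMonoidHom, σ ((ψ b).toMul : L) = ((ψ b).toMul : L) := by
      rintro σ ⟨g, hg, rfl⟩
      have h1 := he g b
      have h2 : B.ρ g b = b := hb ⟨g, hg⟩
      rw [h2] at h1
      have h3 := congrArg (fun y => ((Additive.toMul y : Lˣ) : L)) h1
      exact h3.symm
    have hmem : (((ψ b).toMul : Lˣ) : L) ∈ fixedField (N.map e.toMonoidHom) := by
      rw [mem_fixedField_iff]
      exact hfix
    have hne : (⟨(((ψ b).toMul : Lˣ) : L), hmem⟩ : E) ≠ 0 := by
      intro h0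
      have := congrArg Subtype.val h0
      exact ((ψ b).toMul : Lˣ).ne_zero this
    refine ⟨Additive.ofMul (Units.mk0 _ hne), ?_⟩
    apply Subtype.ext
    change ψ.symm (Additive.ofMul (i (Units.mk0 _ hne))) = b
    rw [AddEquiv.symm_apply_eq]
    have h4 : i (Units.mk0 _ hne) = (ψ b).toMul := Units.ext rfl
    rw [h4]
    rfl
  let ψ₂ : (B.quotientToInvariants N).V ≃+ Additive Eˣ :=
    (AddEquiv.ofBijective χ ⟨hχinj, hχsurj⟩).symm
  have hψ₂ : ∀ b, χ (ψ₂ b) = b :=
    fun b => (AddEquiv.ofBijective χ ⟨hχinj, hχsurj⟩).apply_symm_apply b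
  refine ⟨e₂, ψ₂, ?_⟩
  intro g b
  induction g using QuotientGroup.induction_on with
  | H γ =>
    apply hχinj
    rw [hψ₂]
    apply Subtype.ext
    change B.ρ γ b.1 = ψ.symm (Additive.ofMul (i (e₂ (γ : Γ ⧸ N) • (ψ₂ b).toMul)))
    have hb : b.1 = ψ.symm (Additive.ofMul (i (ψ₂ b).toMul)) := by
      conv_lhs => rw [← hψ₂ b]
      rfl
    rw [hb, hψ]
    congr 2
    apply Units.ext
    exact (he₂ γ _).symm

end H5B

end
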