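/-
W2-C (S55) block B, slice B5a (helper5), part 3: ASSEMBLY.

The class of all pairs `(Γ, B)` which are modelled by `(Gal(L/F), Lˣ)`, `F` a `q`-adic subfield
of the fixed top field `L`, satisfies the hypotheses of the abstract bound, given the bound for
cyclic extensions (`h5b_CyclicBound`).  Consequently `|H²(Gal(L/K), Lˣ)| ≤ [L : K]`.
-/
import Mathlib
import Fermat.Agent.CFT2.B.Defs2
import Fermat.Agent.CFT2.B.H2CardLeModel_helper5
import Fermat.Agent.CFT2.A.ARCoh_helper26

set_option autoImplicit false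
set_option linter.style.haveILetI false

noncomputable section

open CategoryTheory groupCohomology Rep

namespace H5B

/-- the bound `|H²(Gal(E/F), Eˣ)| ≤ [E : F]` for cyclic extensions of `q`-adic fields -/
def h5b_CyclicBound (q : ℕ) [Fact q.Prime] : Prop :=
  ∀ (F E : Type) [Field F] [Field E] [Algebra ℚ_[q] F] [Algebra ℚ_[q] E] [Algebra F E]
    [IsScalarTower ℚ_[q] F E] [FiniteDimensional ℚ_[q] E] [IsGalois F E],
    IsCyclic (E ≃ₐ[F] E) →
    Finite (groupCohomology (Rep.ofAlgebraAutOnUnits F E) 2) ∧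
    Nat.card (groupCohomology (Rep.ofAlgebraAutOnUnits F E) 2) ≤ Module.finrank F E

/-- the class of pairs modelled by `(Gal(L/F), Lˣ)`, `F` a `q`-adic subfield of `L` -/
def h5b_D (q : ℕ) [Fact q.Prime] (L : Type) [Field L] [Algebra ℚ_[q] L] :
    ∀ (Γ : Type) [Group Γ], Rep.{0} ℤ Γ → Prop :=
  fun Γ _ B => ∃ (F : Type) (_ : Field F) (_ : Algebra ℚ_[q] F) (_ : Algebra F L)
    (_ : IsScalarTower ℚ_[q] F L) (_ : IsGalois F L), h5b_IsModel B F L

theorem h5b_class (q : ℕ) [Fact q.Prime] (L : Type) [Field L] [Algebra ℚ_[q] L]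
    [FiniteDimensional ℚ_[q] L] (hcyc : h5b_CyclicBound q) : h5b_Class (h5b_D q L) where
  fin := by
    rintro Γ _ B ⟨F, _, _, _, _, _, e, -, -⟩
    haveI : FiniteDimensional F L := FiniteDimensional.right ℚ_[q] F L
    exact Finite.of_equiv _ e.symm.toEquiv
  res := by
    rintro Γ _ B ⟨F, _, _, _, _, _, hm⟩ H
    haveI : FiniteDimensional F L := FiniteDimensional.right ℚ_[q] F L
    obtain ⟨E, hE⟩ := h5b_isModel_res B F L hm H
    haveI : IsScalarTower ℚ_[q] E L := IsScalarTower.of_algebraMap_eq (fun _ => rfl)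
    exact ⟨E, inferInstance, inferInstance, inferInstance, inferInstance, inferInstance, hE⟩
  h90 := by
    rintro Γ _ B ⟨F, _, _, _, _, _, hm⟩
    haveI : FiniteDimensional F L := FiniteDimensional.right ℚ_[q] F L
    exact h5b_isModel_h90 B F L hm
  cyc := by
    rintro Γ _ B ⟨F, _, _, _, _, _, hm⟩ N _ hcycΓ
    haveI : FiniteDimensional F L := FiniteDimensional.right ℚ_[q] F L
    obtain ⟨E, hgal, hE⟩ := h5b_isModel_quot B F L hm N
    haveI : IsScalarTower ℚ_[q] E L := IsScalarTower.of_algebraMap_eq (fun _ => rfl)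
    haveI : FiniteDimensional ℚ_[q] E := FiniteDimensional.left ℚ_[q] E L
    haveI : FiniteDimensional F E := FiniteDimensional.right ℚ_[q] F E
    have hcycE : IsCyclic (E ≃ₐ[F] E) := by
      obtain ⟨e₂, -, -⟩ := hE
      exact isCyclic_of_surjective e₂ e₂.surjective
    obtain ⟨hfin, hle⟩ := hcyc F E hcycE
    refine h5b_isModel_bound _ F E hE ⟨hfin, ?_⟩
    rw [IsGalois.card_aut_eq_finrank]
    exact hle

/-- **(B5a)**, given the bound for cyclic extensions -/
theorem h5b_h2CardLe_of (hcyc : ∀ (q : ℕ) [Fact q.Prime], h5b_CyclicBound q) :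
    H3LB.H2CardLe := by
  intro q _ K L _ _ _ _ _ _ _ _
  have hcl := h5b_class q L (hcyc q)
  have hD : h5b_D q L (L ≃ₐ[K] L) (Rep.ofAlgebraAutOnUnits K L) :=
    ⟨K, inferInstance, inferInstance, inferInstance, inferInstance, inferInstance,
      h5b_isModel_refl K L⟩
  obtain ⟨hfin, hle⟩ := h5b_bound hcl (fun Γ _ _ => H26AR.h26ar_indexKillsCoh Γ) _ _ hD
  haveI : FiniteDimensional K L := FiniteDimensional.right ℚ_[q] K L
  exact ⟨hfin, hle.trans (le_of_eq (IsGalois.card_aut_eq_finrank K L))⟩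

end H5B

end
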