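/-
W2-C (S55) block B, slice B5a (helper5): `H5B.h5b_h2CardLe : H3LB.H2CardLe`,
`|H²(Gal(L/K), Lˣ)| ≤ [L : K]` for every finite Galois extension of `q`-adic fields
(unconditional: abstract bound + models + cyclic bound (helper24, B4 helper6, AC2 helper25)
+ AR1 (helper26)).
-/
import Fermat.Agent.CFT2.B.H2CardLeAsm_helper5
import Fermat.Agent.CFT2.B.CyclicBound_helper24

set_option autoImplicit false

namespace H5B

/-- **(B5a)** `|H²(Gal(L/K), Lˣ)| ≤ [L : K]`. -/
theorem h5b_h2CardLe : H3LB.H2CardLe :=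
  h5b_h2CardLe_of (fun q _ F E _ _ _ _ _ _ _ _ hcyc =>
    H24LB.h24lb_cyclicBound_final q F E hcyc)

end H5B
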