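/-
W2-C (S55) block B, slice S8a (helper24): every class of `H²(Gal(L/K), Lˣ)` has an invariant, and
invariants are additive (one unramified compositum datum `(U, E)` serves all classes).
`h24lb_hasInvExists : UnrSplit → UnrFrob → UnrCompositum → HasInvExists`.
-/
import Mathlib
import Fermat.Agent.CFT2.B.Defs5

set_option autoImplicit false
set_option linter.style.haveILetI false
set_option linter.unusedSectionVars false
set_option linter.unusedVariables false

noncomputable section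

namespace H24LB

open scoped WithZero
open H3LB groupCohomology

section additivity

variable {K L : Type} [Field K] [Field L] [Algebra K L]

theorem h24lb_ordAdd_add (w : Valuation L ℤᵐ⁰) (a b : Additive Lˣ) :
    ordAdd w (a + b) = ordAdd w a + ordAdd w b := by
  unfold ordAdd
  have ha : w ((Additive.toMul a : Lˣ) : L) ≠ 0 := (Valuation.ne_zero_iff w).mpr (Units.ne_zero _)
  have hb : w ((Additive.toMul b : Lˣ) : L) ≠ 0 := (Valuation.ne_zero_iff w).mpr (Units.ne_zero _)
  rw [toMul_add, Units.val_mul, map_mul, WithZero.log_mul ha hb]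
  ring

theorem h24lb_ordAdd_zero (w : Valuation L ℤᵐ⁰) : ordAdd w (0 : Additive Lˣ) = 0 := by
  unfold ordAdd
  simp

theorem h24lb_unrSum_add [Finite (L ≃ₐ[K] L)] (w : Valuation L ℤᵐ⁰) (φ : L ≃ₐ[K] L)
    (c c' : (L ≃ₐ[K] L) × (L ≃ₐ[K] L) → Rep.ofAlgebraAutOnUnits K L) :
    unrSum w φ (c + c') = unrSum w φ c + unrSum w φ c' := by
  unfold unrSum
  rw [← finsum_add_distrib (Set.toFinite _) (Set.toFinite _)]
  refine finsum_congr (fun k => ?_)
  exact h24lb_ordAdd_add w (Rep.toAdditive (c (φ, k))) (Rep.toAdditive (c' (φ, k)))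

theorem h24lb_unrInvQ_add [Finite (L ≃ₐ[K] L)] (w : Valuation L ℤᵐ⁰) (φ : L ≃ₐ[K] L)
    (c c' : (L ≃ₐ[K] L) × (L ≃ₐ[K] L) → Rep.ofAlgebraAutOnUnits K L) :
    unrInvQ w φ (c + c') = unrInvQ w φ c + unrInvQ w φ c' := by
  unfold unrInvQ
  rw [h24lb_unrSum_add, Int.cast_add, add_div]
  rfl

end additivity

/-- `[L:K] • unrInvQ = 0` -/
theorem h24lb_unrInvQ_nsmul {K L : Type} [Field K] [Field L] [Algebra K L]
    [FiniteDimensional K L] (w : Valuation L ℤᵐ⁰) (φ : L ≃ₐ[K] L)
    (c : (L ≃ₐ[K] L) × (L ≃ₐ[K] L) → Rep.ofAlgebraAutOnUnits K L) :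
    Module.finrank K L • unrInvQ w φ c = 0 := by
  unfold unrInvQ
  have hn : (Module.finrank K L : ℚ) ≠ 0 := Nat.cast_ne_zero.mpr Module.finrank_pos.ne'
  rw [← AddCircle.coe_nsmul, AddCircle.coe_eq_zero_iff]
  refine ⟨unrSum w φ c, ?_⟩
  rw [nsmul_eq_mul, zsmul_eq_mul, mul_one, mul_div_cancel₀ _ hn]

/-- **(S8a)**, strong form: all invariants are computed through one unramified datum `(U, E)`
with `[U:K] = [L:K]`, hence are killed by `[L:K]`. -/
theorem h24lb_hasInvExists_strong (hsplit : H3LB.UnrSplit) (hfrob : H3LB.UnrFrob)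
    (hcomp : H3LB.UnrCompositum) (q : ℕ) [Fact q.Prime] (K L : Type) [Field K] [Field L]
    [Algebra ℚ_[q] K] [Algebra ℚ_[q] L] [Algebra K L] [IsScalarTower ℚ_[q] K L]
    [FiniteDimensional ℚ_[q] K] [FiniteDimensional ℚ_[q] L] [IsGalois K L] :
    (∀ x : groupCohomology (Rep.ofAlgebraAutOnUnits K L) 2,
      ∃ t, HasInv q K L x t ∧ Module.finrank K L • t = 0) ∧
    (∀ x y : groupCohomology (Rep.ofAlgebraAutOnUnits K L) 2, ∃ t s,
      HasInv q K L x t ∧ HasInv q K L y s ∧ HasInv q K L (x + y) (t + s)) := by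
  haveI : FiniteDimensional K L := FiniteDimensional.right ℚ_[q] K L
  obtain ⟨U, E, iU, iE, iqU, iqE, iKU, iKE, iLE, iUE, t1, t2, t3, t4, t5, t6, fU, fE, gU, gE, gLE,
    hdeg, hunrU, hunrE⟩ := hcomp q K L (Module.finrank K L) Module.finrank_pos
  have hrange := hsplit q K L U E hdeg hunrU hunrE
  obtain ⟨φ, hφ, -⟩ := hfrob K U (padicVal q K) (padicVal q U) hunrU
  haveI : FiniteDimensional K U := hunrU.fin
  haveI : Finite (U ≃ₐ[K] U) := inferInstance
  -- every class is represented through `U`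
  have key : ∀ x : groupCohomology (Rep.ofAlgebraAutOnUnits K L) 2,
      ∃ c : cocycles₂ (Rep.ofAlgebraAutOnUnits K U),
        infField K U E 2 (H2π _ c) = infField K L E 2 x := by
    intro x
    have h1 : infField K L E 2 x ∈ Set.range (infField K U E 2) := by
      rw [← hrange]
      exact ⟨x, rfl⟩
    obtain ⟨ξ, hξ⟩ := h1
    induction ξ using H2_induction_on with
    | h c => exact ⟨c, hξ⟩
  have mk : ∀ (x : groupCohomology (Rep.ofAlgebraAutOnUnits K L) 2)
      (c : cocycles₂ (Rep.ofAlgebraAutOnUnits K U)),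
      infField K U E 2 (H2π _ c) = infField K L E 2 x →
      HasInv q K L x (unrInvQ (padicVal q U) φ c.1) := by
    intro x c hc
    exact ⟨U, E, iU, iE, iqU, iqE, iKU, iKE, iLE, iUE, t1, t2, t5, t6, fU, fE, gU, gE,
      hunrU, φ, c, hφ, hc, rfl⟩
  refine ⟨fun x => ?_, fun x y => ?_⟩
  · obtain ⟨c, hc⟩ := key x
    refine ⟨_, mk x c hc, ?_⟩
    rw [← hdeg]
    exact h24lb_unrInvQ_nsmul (padicVal q U) φ c.1
  · obtain ⟨c, hc⟩ := key x
    obtain ⟨c', hc'⟩ := key y
    refine ⟨_, _, mk x c hc, mk y c' hc', ?_⟩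
    have h1 : infField K U E 2 (H2π _ (c + c')) = infField K L E 2 (x + y) := by
      rw [map_add, map_add, map_add, hc, hc']
    have h2 := mk (x + y) (c + c') h1
    have h3 : unrInvQ (padicVal q U) φ (c + c').1
        = unrInvQ (padicVal q U) φ c.1 + unrInvQ (padicVal q U) φ c'.1 :=
      h24lb_unrInvQ_add (padicVal q U) φ c.1 c'.1
    rw [← h3]
    exact h2

/-- **(S8a)**, from the unramified compositum and `UnrSplit` -/
theorem h24lb_hasInvExists (hsplit : H3LB.UnrSplit) (hfrob : H3LB.UnrFrob)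
    (hcomp : H3LB.UnrCompositum) : H3LB.HasInvExists := by
  intro q _ K L _ _ _ _ _ _ _ _ _
  obtain ⟨h1, h2⟩ := h24lb_hasInvExists_strong hsplit hfrob hcomp q K L
  refine ⟨fun x => ?_, h2⟩
  obtain ⟨t, ht, -⟩ := h1 x
  exact ⟨t, ht⟩

end H24LB

end
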