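/-
W2-C (S55) block B, slice S8e (helper24): the invariant is compatible with inflation.
`h24lb_hasInvInf : HasInvExists → HasInvUnique → InfFieldComp → HasInvInf`
(the datum `(U', E')` of `inf x` also serves `x`).
-/
import Mathlib
import Fermat.Agent.CFT2.B.Defs5

set_option autoImplicit false
set_option linter.style.haveILetI false
set_option linter.unusedSectionVars false
set_option linter.unusedVariables false

noncomputable section

namespace H24LB

open scoped WithZero
open H3LB groupCohomology

/-- a datum for `inf_{L→E} x` is a datum for `x` -/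
theorem h24lb_hasInv_of_inf (hcompI : H3LB.InfFieldComp) (q : ℕ) [Fact q.Prime] (K L E : Type)
    [Field K] [Field L] [Field E] [Algebra ℚ_[q] K] [Algebra K L] [Algebra L E] [Algebra K E]
    [IsScalarTower K L E] [FiniteDimensional ℚ_[q] K] [Normal K L] [Normal K E]
    (x : groupCohomology (Rep.ofAlgebraAutOnUnits K L) 2) (t : QZ)
    (h : HasInv q K E (infField K L E 2 x) t) : HasInv q K L x t := by
  obtain ⟨U, E', iU, iE', iqU, iqE', iKU, iKE', iEE', iUE', t1, t2, t5, t6, fU, fE', gU, gE',
    hunrU, φ, c, hφ, hc, ht⟩ := h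
  letI : Algebra L E' := ((algebraMap E E').comp (algebraMap L E)).toAlgebra
  haveI : IsScalarTower L E E' := IsScalarTower.of_algebraMap_eq (fun _ => rfl)
  haveI : IsScalarTower K L E' := IsScalarTower.of_algebraMap_eq (fun y => by
    rw [IsScalarTower.algebraMap_apply K E E', IsScalarTower.algebraMap_apply K L E]
    rfl)
  refine ⟨U, E', iU, iE', iqU, iqE', iKU, iKE', inferInstance, iUE', t1, t2, inferInstance, t6,
    fU, fE', gU, gE', hunrU, φ, c, hφ, ?_, ht⟩
  rw [hc, hcompI K L E E' 2]
  rfl

/-- **(S8e)** -/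
theorem h24lb_hasInvInf (hex : H3LB.HasInvExists) (huniq : H3LB.HasInvUnique)
    (hcompI : H3LB.InfFieldComp) : H3LB.HasInvInf := by
  intro q _ K L E _ _ _ _ _ _ _ _ _ _ _ _ _ _ _ _ _ x t hx
  obtain ⟨t', ht'⟩ := (hex q K E).1 (infField K L E 2 x)
  have hx' : HasInv q K L x t' := h24lb_hasInv_of_inf hcompI q K L E x t' ht'
  rw [huniq q K L x t t' hx hx']
  exact ht'

end H24LB

end
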