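/-
W2-C (S55) block B, slice S8c (helper24): a class with invariant `0` is trivial.
`h24lb_hasInvInj : UnrInv → InfResField → HasInvInj`.
-/
import Mathlib
import Fermat.Agent.CFT2.B.Defs5

set_option autoImplicit false
set_option linter.style.haveILetI false
set_option linter.unusedSectionVars false
set_option linter.unusedVariables false

noncomputable section

namespace H24LB

open scoped WithZero
open H3LB groupCohomology

/-- `s / n = 0` in `ℚ/ℤ` iff `n ∣ s` -/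
theorem h24lb_qz_eq_zero_iff (s : ℤ) (n : ℕ) (hn : 0 < n) :
    ((((s : ℚ) / (n : ℚ) : ℚ)) : QZ) = 0 ↔ (n : ℤ) ∣ s := by
  have hn0 : (n : ℚ) ≠ 0 := Nat.cast_ne_zero.mpr hn.ne'
  rw [AddCircle.coe_eq_zero_iff]
  constructor
  · rintro ⟨m, hm⟩
    rw [zsmul_eq_mul, mul_one, eq_div_iff hn0] at hm
    refine ⟨m, ?_⟩
    have h1 : ((m * (n : ℤ) : ℤ) : ℚ) = (s : ℚ) := by push_cast; exact hm
    have h2 : m * (n : ℤ) = s := by exact_mod_cast h1
    rw [← h2, mul_comm]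
  · rintro ⟨k, rfl⟩
    refine ⟨k, ?_⟩
    rw [zsmul_eq_mul, mul_one, eq_div_iff hn0]
    push_cast
    ring

/-- `s / n = s' / n` in `ℚ/ℤ` iff `n ∣ s - s'` -/
theorem h24lb_qz_eq_iff (s s' : ℤ) (n : ℕ) (hn : 0 < n) :
    ((((s : ℚ) / (n : ℚ) : ℚ)) : QZ) = ((((s' : ℚ) / (n : ℚ) : ℚ)) : QZ) ↔
      (n : ℤ) ∣ s - s' := by
  rw [← h24lb_qz_eq_zero_iff (s - s') n hn, ← sub_eq_zero, ← AddCircle.coe_sub, Int.cast_sub,
    sub_div]

/-- **(S8c)** -/
theorem h24lb_hasInvInj (hinv : H3LB.UnrInv) (hir : H3LB.InfResField) : H3LB.HasInvInj := by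
  intro q _ K L _ _ _ _ _ _ _ _ _ x hx
  obtain ⟨U, E, iU, iE, iqU, iqE, iKU, iKE, iLE, iUE, t1, t2, t5, t6, fU, fE, gU, gE,
    hunrU, φ, c, hφ, hc, ht⟩ := hx
  haveI : FiniteDimensional K E := FiniteDimensional.right ℚ_[q] K E
  haveI : FiniteDimensional K U := hunrU.fin
  obtain ⟨inv, hbij, hinvc⟩ := hinv K U (padicVal q K) (padicVal q U) hunrU φ hφ
  have h0 : inv (H2π _ c) = 0 := by
    rw [hinvc, ZMod.intCast_zmod_eq_zero_iff_dvd]
    exact (h24lb_qz_eq_zero_iff _ _ Module.finrank_pos).mp ht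
  have hc0 : H2π _ c = 0 := hbij.1 (h0.trans (map_zero inv).symm)
  rw [hc0, map_zero] at hc
  exact (hir K L E).1 (hc.symm.trans (map_zero _).symm)

end H24LB

end
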