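/-
W2-C (S55) block B, slice S8d (helper24): the invariants of the classes of `H²(Gal(L/K), Lˣ)` are
exactly the `t ∈ ℚ/ℤ` with `[L:K] • t = 0`.
`h24lb_hasInvRange : UnrSplit → UnrFrob → UnrCompositum → HasInvUnique → UnrInv → HasInvRange`.
-/
import Mathlib
import Fermat.Agent.CFT2.B.HasInvExists_helper24
import Fermat.Agent.CFT2.B.HasInvInj_helper24

set_option autoImplicit false
set_option linter.style.haveILetI false
set_option linter.unusedSectionVars false
set_option linter.unusedVariables false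

noncomputable section

namespace H24LB

open scoped WithZero
open H3LB groupCohomology

/-- an element of `ℚ/ℤ` killed by `n > 0` is of the form `m / n` -/
theorem h24lb_qz_of_nsmul_eq_zero (t : QZ) (n : ℕ) (hn : 0 < n) (ht : n • t = 0) :
    ∃ m : ℤ, t = ((((m : ℚ) / (n : ℚ) : ℚ)) : QZ) := by
  have hn0 : (n : ℚ) ≠ 0 := Nat.cast_ne_zero.mpr hn.ne'
  obtain ⟨r, rfl⟩ := QuotientAddGroup.mk_surjective t
  have h1 : ((n • r : ℚ) : QZ) = 0 := ht
  rw [AddCircle.coe_eq_zero_iff] at h1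
  obtain ⟨m, hm⟩ := h1
  refine ⟨m, ?_⟩
  have h2 : r = (m : ℚ) / (n : ℚ) := by
    rw [eq_div_iff hn0]
    rw [zsmul_eq_mul, mul_one, nsmul_eq_mul] at hm
    rw [hm, mul_comm]
  rw [h2]

/-- **(S8d)** -/
theorem h24lb_hasInvRange (hsplit : H3LB.UnrSplit) (hfrob : H3LB.UnrFrob)
    (hcomp : H3LB.UnrCompositum) (huniq : H3LB.HasInvUnique) (hinv : H3LB.UnrInv) :
    H3LB.HasInvRange := by
  intro q _ K L _ _ _ _ _ _ _ _ _ t
  haveI : FiniteDimensional K L := FiniteDimensional.right ℚ_[q] K L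
  constructor
  · rintro ⟨x, hx⟩
    obtain ⟨t', ht', hnt'⟩ := (h24lb_hasInvExists_strong hsplit hfrob hcomp q K L).1 x
    rw [huniq q K L x t t' hx ht']
    exact hnt'
  · intro ht
    obtain ⟨m, rfl⟩ := h24lb_qz_of_nsmul_eq_zero t _ Module.finrank_pos ht
    obtain ⟨U, E, iU, iE, iqU, iqE, iKU, iKE, iLE, iUE, t1, t2, t3, t4, t5, t6, fU, fE, gU, gE,
      gLE, hdeg, hunrU, hunrE⟩ := hcomp q K L (Module.finrank K L) Module.finrank_pos
    have hrange := hsplit q K L U E hdeg hunrU hunrE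
    obtain ⟨φ, hφ, -⟩ := hfrob K U (padicVal q K) (padicVal q U) hunrU
    haveI : FiniteDimensional K U := hunrU.fin
    obtain ⟨inv, hbij, hinvc⟩ := hinv K U (padicVal q K) (padicVal q U) hunrU φ hφ
    obtain ⟨ξ, hξ⟩ := hbij.2 ((m : ℤ) : ZMod (Module.finrank K U))
    induction ξ using H2_induction_on with
    | h c =>
      rw [hinvc, ZMod.intCast_eq_intCast_iff_dvd_sub] at hξ
      have h1 : unrInvQ (padicVal q U) φ c.1
          = ((((m : ℚ) / (Module.finrank K L : ℚ) : ℚ)) : QZ) := by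
        unfold unrInvQ
        rw [hdeg] at hξ ⊢
        rw [h24lb_qz_eq_iff _ _ _ Module.finrank_pos]
        have h2 : unrSum (padicVal q U) φ c.1 - m = -(m - unrSum (padicVal q U) φ c.1) := by ring
        rw [h2, dvd_neg]
        exact hξ
      have h3 : infField K U E 2 (H2π _ c) ∈ Set.range (infField K L E 2) := by
        rw [hrange]
        exact ⟨_, rfl⟩
      obtain ⟨x, hx⟩ := h3
      refine ⟨x, ?_⟩
      rw [← h1]
      exact ⟨U, E, iU, iE, iqU, iqE, iKU, iKE, iLE, iUE, t1, t2, t5, t6, fU, fE, gU, gE,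
        hunrU, φ, c, hφ, hx.symm, rfl⟩

end H24LB

end
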