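/-
W2-C (S55) block B, slice S8g (helper24): normalization of the local invariant on unramified
extensions: `h24lb_hasInvUnr : H3LB.HasInvUnr` (datum `(U, E) = (L, L)`).
-/
import Mathlib
import Fermat.Agent.CFT2.B.Defs5

set_option autoImplicit false
set_option linter.style.haveILetI false
set_option linter.unusedSectionVars false
set_option linter.unusedVariables false

noncomputable section

namespace H24LB

open scoped WithZero
open H3LB groupCohomology

/-- **(S8g)** -/
theorem h24lb_hasInvUnr : H3LB.HasInvUnr := by
  intro q _ K L _ _ _ _ _ _ _ _ _ hunr φ hφ c
  exact ⟨L, L, inferInstance, inferInstance, inferInstance, inferInstance, inferInstance,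
    inferInstance, Algebra.id L, Algebra.id L, inferInstance, inferInstance, inferInstance,
    inferInstance, inferInstance, inferInstance, inferInstance, inferInstance,
    hunr, φ, c, hφ, rfl, rfl⟩

end H24LB

end
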