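/-
W2-C (S55) block B, slice S4a (helper24): functoriality of the field-theoretic inflation
maps on `Hⁿ(Gal(L/K), Lˣ)`: `h24lb_infFieldComp : H3LB.InfFieldComp`.
-/
import Mathlib
import Fermat.Agent.CFT2.B.Defs5

set_option autoImplicit false
set_option linter.style.haveILetI false
set_option linter.unusedSectionVars false
set_option linter.unusedVariables false

noncomputable section

namespace H24LB

open scoped WithZero
open H3LB groupCohomology CategoryTheory

/-- **(S4a)** `inf_{L→F} = inf_{E→F} ∘ inf_{L→E}` -/
theorem h24lb_infFieldComp : H3LB.InfFieldComp := by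
  intro K L E F _ _ _ _ _ _ _ _ _ _ _ _ _ _ _ _ n
  unfold infField
  have h := groupCohomology.map_comp (k := ℤ)
    (A := Rep.ofAlgebraAutOnUnits K L) (B := Rep.ofAlgebraAutOnUnits K E)
    (C := Rep.ofAlgebraAutOnUnits K F)
    (AlgEquiv.restrictNormalHom (F := K) (K₁ := E) L)
    (AlgEquiv.restrictNormalHom (F := K) (K₁ := F) E)
    (infFieldHom K L E) (infFieldHom K E F) n
  have h2 : groupCohomology.map (AlgEquiv.restrictNormalHom (F := K) (K₁ := F) L)
      (infFieldHom K L F) n
      = groupCohomology.map (AlgEquiv.restrictNormalHom (F := K) (K₁ := E) L)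
          (infFieldHom K L E) n ≫
        groupCohomology.map (AlgEquiv.restrictNormalHom (F := K) (K₁ := F) E)
          (infFieldHom K E F) n := by
    refine Eq.trans (groupCohomology.map_congr
      (IsScalarTower.AlgEquiv.restrictNormalHom_comp K L E F) ?_ n) h
    ext v
    change Additive.ofMul (Units.map (algebraMap L F : L →* F) (Additive.toMul v))
      = Additive.ofMul (Units.map (algebraMap E F : E →* F)
          (Units.map (algebraMap L E : L →* E) (Additive.toMul v)))
    refine congrArg Additive.ofMul (Units.ext ?_)
    exact IsScalarTower.algebraMap_apply L E F _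
  rw [h2]
  rfl

end H24LB

end
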