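/-
W2-C (S55) block B, slice B2' (helper24): unramified extensions of local fields are cyclic.

* `h24lb_action`          : the action of `Gal(L/K)` on the residue field of `L`;
* `h24lb_inertia_trivial` : `e = 1` ⇒ an automorphism acting trivially on the residue field is `1`
                            (Teichmüller representatives + `π`-adic expansion);
* `h24lb_faithful`        : the action on the residue field is faithful;
* `h24lb_unrCyclic`       : `H3LB.UnrCyclic`.
-/
import Mathlib
import Fermat.Agent.CFT2.B.UnrTeich_helper24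

set_option autoImplicit false
set_option linter.style.haveILetI false
set_option linter.unusedSectionVars false
set_option linter.unusedVariables false

noncomputable section

namespace H24LB

open scoped WithZero Pointwise
open H3LB

variable {K L : Type} [Field K] [Field L] [Algebra K L]
  (v : Valuation K ℤᵐ⁰) (w : Valuation L ℤᵐ⁰)

theorem h24lb_mem_decomp (hinv : ∀ (σ : L ≃ₐ[K] L) (x : L), w (σ x) = w x) (σ : L ≃ₐ[K] L) :
    σ ∈ (h24lb_A w).decompositionSubgroup K := by
  rw [MulAction.mem_stabilizer_iff]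
  ext x
  rw [ValuationSubring.mem_smul_pointwise_iff_exists]
  constructor
  · rintro ⟨s, hs, rfl⟩
    rw [h24lb_mem_A] at hs ⊢
    show w (σ s) ≤ 1
    rw [hinv]; exact hs
  · intro hx
    rw [h24lb_mem_A] at hx
    refine ⟨σ.symm x, ?_, ?_⟩
    · rw [h24lb_mem_A, hinv]; exact hx
    · show σ (σ.symm x) = x
      exact σ.apply_symm_apply x

/-- `Gal(L/K)` as the decomposition group of the valuation ring -/
def h24lb_toDecomp (hinv : ∀ (σ : L ≃ₐ[K] L) (x : L), w (σ x) = w x) :
    (L ≃ₐ[K] L) →* (h24lb_A w).decompositionSubgroup K where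
  toFun σ := ⟨σ, h24lb_mem_decomp w hinv σ⟩
  map_one' := rfl
  map_mul' _ _ := rfl

/-- the action of `Gal(L/K)` on the residue field of `L` -/
@[reducible] def h24lb_action (hinv : ∀ (σ : L ≃ₐ[K] L) (x : L), w (σ x) = w x) :
    MulSemiringAction (L ≃ₐ[K] L) (h24lb_k w) :=
  MulSemiringAction.compHom (h24lb_k w) (h24lb_toDecomp w hinv)

theorem h24lb_smul_res (hinv : ∀ (σ : L ≃ₐ[K] L) (x : L), w (σ x) = w x) (σ : L ≃ₐ[K] L)
    (x : L) (hx : w x ≤ 1) :
    letI := h24lb_action w hinv
    σ • h24lb_res w (h24lb_mk w x hx)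
      = h24lb_res w (h24lb_mk w (σ x) (by rw [hinv]; exact hx)) := by
  letI := h24lb_action w hinv
  show (h24lb_toDecomp w hinv σ) • IsLocalRing.residue (h24lb_A w) (h24lb_mk w x hx) = _
  exact (IsLocalRing.ResidueField.residue_smul ((h24lb_A w).decompositionSubgroup K)
    (h24lb_toDecomp w hinv σ) (h24lb_mk w x hx)).symm

variable {v w}

/-- **the inertia group is trivial** for `e = 1` -/
theorem h24lb_inertia_trivial (h : IsLocalExt v w 1) (σ : L ≃ₐ[K] L)
    (hσ : ∀ x : L, w x ≤ 1 → w (σ x - x) < 1) : σ = 1 := by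
  obtain ⟨π, hπ⟩ := h.hv.surj (WithZero.exp (-1 : ℤ))
  have hπL : w (algebraMap K L π) = WithZero.exp (-1 : ℤ) := by
    rw [h.ext, pow_one, hπ]
  have hπ0 : algebraMap K L π ≠ 0 := by
    intro h0
    rw [h0, map_zero] at hπL
    exact WithZero.exp_ne_zero hπL.symm
  have key : ∀ n : ℕ, ∀ x : L, w x ≤ 1 → w (σ x - x) ≤ WithZero.exp (-(n : ℤ)) := by
    intro n
    induction n with
    | zero =>
      intro x hx
      simp only [Nat.cast_zero, neg_zero, WithZero.exp_zero]
      exact Valuation.map_sub_le w (by rw [h.inv]; exact hx) hx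
    | succ n ih =>
      intro x hx
      obtain ⟨t, ht1, htq, htx⟩ := h24lb_teich_exists w h.hw x hx
      have hσt : σ t = t := by
        apply h24lb_teich_unique w h.hw (σ t) t (by rw [h.inv]; exact ht1) ht1 _ htq
          (hσ t ht1)
        rw [← map_pow, htq]
      set x1 : L := (x - t) / algebraMap K L π with hx1
      have hx1le : w x1 ≤ 1 := by
        rw [hx1, map_div₀, hπL]
        have h1 : w (x - t) ≤ WithZero.exp (-1 : ℤ) := by
          rw [← h24lb_lt_one_iff]
          have : x - t = -(t - x) := by ring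
          rw [this, Valuation.map_neg]
          exact htx
        exact div_le_one_of_le₀ h1 zero_le
      have hx' : x = t + algebraMap K L π * x1 := by
        rw [hx1]; field_simp; ring
      have e : σ x - x = algebraMap K L π * (σ x1 - x1) := by
        conv_lhs => rw [hx']
        rw [map_add, map_mul, AlgEquiv.commutes, hσt]
        ring
      rw [e, map_mul, hπL, h24lb_exp_neg_succ]
      gcongr
      exact ih x1 hx1le
  have hfix : ∀ x : L, w x ≤ 1 → σ x = x := by
    intro x hx
    rw [← sub_eq_zero, ← map_eq_zero w]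
    exact h24lb_eq_zero_of_forall_le (fun n => key n x hx)
  ext x
  show σ x = x
  by_cases hx : w x ≤ 1
  · exact hfix x hx
  · rw [not_le] at hx
    have hx0 : x ≠ 0 := by
      intro h0
      rw [h0, map_zero] at hx
      exact absurd hx (not_lt.mpr zero_le)
    have hinv : w x⁻¹ ≤ 1 := by
      rw [map_inv₀]
      exact inv_le_one_of_one_le₀ hx.le
    have h1 := hfix x⁻¹ hinv
    rw [map_inv₀] at h1
    exact inv_injective h1

/-- the action on the residue field is faithful for `e = 1` -/
theorem h24lb_faithful (h : IsLocalExt v w 1) :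
    letI := h24lb_action w h.inv
    FaithfulSMul (L ≃ₐ[K] L) (h24lb_k w) := by
  letI := h24lb_action w h.inv
  refine ⟨fun {σ τ} hστ => ?_⟩
  have h1 : τ⁻¹ * σ = 1 := by
    apply h24lb_inertia_trivial h
    intro x hx
    have e1 := hστ (h24lb_res w (h24lb_mk w x hx))
    have e2 : (τ⁻¹ * σ) • h24lb_res w (h24lb_mk w x hx) = h24lb_res w (h24lb_mk w x hx) := by
      rw [mul_smul, e1, ← mul_smul, inv_mul_cancel, one_smul]
    rw [h24lb_smul_res w h.inv (τ⁻¹ * σ) x hx, h24lb_res_eq_iff] at e2
    exact e2
  calc σ = τ * (τ⁻¹ * σ) := by group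
    _ = τ := by rw [h1, mul_one]

/-- **(B2')** -/
theorem h24lb_unrCyclic : H3LB.UnrCyclic := by
  intro K L _ _ _ v w h
  letI := h24lb_action w h.inv
  haveI := h24lb_faithful h
  haveI : Finite (h24lb_k w) := h24lb_finite_k w h.hw
  haveI : FiniteDimensional K L := h.fin
  haveI : Finite (L ≃ₐ[K] L) := inferInstance
  exact (MulEquiv.isCyclic (FixedPoints.toAlgAutMulEquiv (L ≃ₐ[K] L) (h24lb_k w))).mpr
    inferInstance

end H24LB

end
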