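/-
W2-C (S55) block B, slice UnrFrob (helper22): an unramified extension of local fields has a
Frobenius `φ` (`φ x ≡ x ^ |k_K| mod 𝔪_L`), and `φ` generates the Galois group.

* `h22uf_exists_frob` : a Frobenius exists for EVERY `IsLocalExt v w e` (Mathlib's
  `IsArithFrobAt.exists_of_isInvariant` applied to `(𝒪_K, 𝒪_L, Gal(L/K))`);
* `h22uf_generates`   : for `e = 1` every Frobenius generates (`h24lb_inertia_trivial` + the
  Galois group of a finite field extension is generated by the Frobenius);
* `h22uf_unrFrob`     : `H3LB.UnrFrob`.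
-/
import Mathlib
import Fermat.Agent.CFT2.B.Defs2
import Fermat.Agent.CFT2.B.UnrCyclic_helper24

set_option autoImplicit false
set_option linter.style.haveILetI false
set_option linter.unusedSectionVars false
set_option linter.unusedVariables false

noncomputable section

namespace H22UF

open scoped WithZero Pointwise
open H3LB H24LB

variable {K L : Type} [Field K] [Field L] [Algebra K L]
  (v : Valuation K ℤᵐ⁰) (w : Valuation L ℤᵐ⁰)

theorem h22uf_pow_le_one_iff {γ : ℤᵐ⁰} {e : ℕ} (he : 0 < e) : γ ^ e ≤ 1 ↔ γ ≤ 1 :=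
  pow_le_one_iff_of_nonneg zero_le he.ne'

theorem h22uf_pow_lt_one_iff {γ : ℤᵐ⁰} {e : ℕ} (he : 0 < e) : γ ^ e < 1 ↔ γ < 1 :=
  pow_lt_one_iff_of_nonneg zero_le he.ne'

/-- the inclusion `𝒪_K → 𝒪_L` -/
def h22uf_incl {e : ℕ} (he : 0 < e) (hext : ∀ x : K, w (algebraMap K L x) = v x ^ e) :
    v.valuationSubring →+* w.valuationSubring where
  toFun x := ⟨algebraMap K L (x : K), by
    rw [Valuation.mem_valuationSubring_iff, hext, h22uf_pow_le_one_iff he]
    exact (Valuation.mem_valuationSubring_iff v _).1 x.2⟩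
  map_one' := Subtype.ext (map_one _)
  map_mul' a b := Subtype.ext (map_mul _ _ _)
  map_zero' := Subtype.ext (map_zero _)
  map_add' a b := Subtype.ext (map_add _ _ _)

/-- the action of `Gal(L/K)` on `𝒪_L` -/
@[reducible] def h22uf_act (hinv : ∀ (σ : L ≃ₐ[K] L) (x : L), w (σ x) = w x) :
    MulSemiringAction (L ≃ₐ[K] L) w.valuationSubring where
  smul σ b := ⟨σ (b : L), by
    rw [Valuation.mem_valuationSubring_iff, hinv]
    exact (Valuation.mem_valuationSubring_iff w _).1 b.2⟩
  one_smul b := Subtype.ext rfl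
  mul_smul σ τ b := Subtype.ext rfl
  smul_zero σ := Subtype.ext (map_zero σ)
  smul_add σ a b := Subtype.ext (map_add σ _ _)
  smul_one σ := Subtype.ext (map_one σ)
  smul_mul σ a b := Subtype.ext (map_mul σ _ _)

variable {v w}

/-- existence of a Frobenius -/
theorem h22uf_exists_frob {e : ℕ} (h : IsLocalExt v w e) : ∃ φ : L ≃ₐ[K] L, IsFrob v w φ := by
  letI : Algebra v.valuationSubring w.valuationSubring := (h22uf_incl v w h.e_pos h.ext).toAlgebra
  letI := h22uf_act (K := K) w h.inv
  haveI : FiniteDimensional K L := h.fin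
  haveI : IsGalois K L := h.gal
  have hcoe : ∀ a : v.valuationSubring,
      ((algebraMap v.valuationSubring w.valuationSubring a : w.valuationSubring) : L)
        = algebraMap K L (a : K) := fun a => rfl
  have hsm : ∀ (σ : L ≃ₐ[K] L) (b : w.valuationSubring), ((σ • b : w.valuationSubring) : L)
      = σ (b : L) := fun σ b => rfl
  haveI : SMulCommClass (L ≃ₐ[K] L) v.valuationSubring w.valuationSubring := ⟨fun σ a b => by
    apply Subtype.ext
    rw [hsm, Algebra.smul_def, Algebra.smul_def]
    simp only [MulMemClass.coe_mul, map_mul, hcoe, hsm, AlgEquiv.commutes]⟩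
  haveI : Algebra.IsInvariant v.valuationSubring w.valuationSubring (L ≃ₐ[K] L) := ⟨fun b hb => by
    have h1 : (b : L) ∈ Set.range (algebraMap K L) := by
      rw [IsGalois.mem_range_algebraMap_iff_fixed]
      intro σ
      have := congrArg (fun t : w.valuationSubring => (t : L)) (hb σ)
      exact this
    obtain ⟨a, ha⟩ := h1
    have ha1 : v a ≤ 1 := by
      have := (Valuation.mem_valuationSubring_iff w _).1 b.2
      rw [← ha, h.ext, h22uf_pow_le_one_iff h.e_pos] at this
      exact this
    exact ⟨⟨a, (Valuation.mem_valuationSubring_iff v _).2 ha1⟩, Subtype.ext ha⟩⟩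
  haveI : Finite (L ≃ₐ[K] L) := inferInstance
  haveI : Finite (w.valuationSubring ⧸ IsLocalRing.maximalIdeal w.valuationSubring) :=
    h24lb_finite_k w h.hw
  obtain ⟨σ, hσ⟩ := IsArithFrobAt.exists_of_isInvariant v.valuationSubring (L ≃ₐ[K] L)
    (IsLocalRing.maximalIdeal w.valuationSubring)
  have hunder : (IsLocalRing.maximalIdeal w.valuationSubring).under v.valuationSubring
      = IsLocalRing.maximalIdeal v.valuationSubring := by
    ext a
    rw [Ideal.under_def, Ideal.mem_comap, Valuation.mem_maximalIdeal_iff,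
      Valuation.mem_maximalIdeal_iff, hcoe, h.ext, h22uf_pow_lt_one_iff h.e_pos]
  refine ⟨σ, fun x hx => ?_⟩
  have h2 := hσ ⟨x, (Valuation.mem_valuationSubring_iff w _).2 hx⟩
  rw [hunder, Valuation.mem_maximalIdeal_iff] at h2
  exact h2

attribute [local instance] Ideal.Quotient.field in
/-- a Frobenius generates the Galois group of an unramified extension -/
theorem h22uf_generates (h : IsLocalExt v w 1) (φ : L ≃ₐ[K] L) (hφ : IsFrob v w φ)
    (g : L ≃ₐ[K] L) : g ∈ Subgroup.zpowers φ := by
  letI : Algebra v.valuationSubring w.valuationSubring := (h22uf_incl v w h.e_pos h.ext).toAlgebra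
  letI := h22uf_act (K := K) w h.inv
  haveI : FiniteDimensional K L := h.fin
  haveI : IsGalois K L := h.gal
  have hcoe : ∀ a : v.valuationSubring,
      ((algebraMap v.valuationSubring w.valuationSubring a : w.valuationSubring) : L)
        = algebraMap K L (a : K) := fun a => rfl
  have hsm : ∀ (σ : L ≃ₐ[K] L) (b : w.valuationSubring), ((σ • b : w.valuationSubring) : L)
      = σ (b : L) := fun σ b => rfl
  haveI : SMulCommClass (L ≃ₐ[K] L) v.valuationSubring w.valuationSubring := ⟨fun σ a b => by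
    apply Subtype.ext
    rw [hsm, Algebra.smul_def, Algebra.smul_def]
    simp only [MulMemClass.coe_mul, map_mul, hcoe, hsm, AlgEquiv.commutes]⟩
  set P : Ideal w.valuationSubring := IsLocalRing.maximalIdeal w.valuationSubring with hP
  set p : Ideal v.valuationSubring := IsLocalRing.maximalIdeal v.valuationSubring with hp
  haveI : Finite (w.valuationSubring ⧸ P) := h24lb_finite_k w h.hw
  haveI : Finite (v.valuationSubring ⧸ p) := h24lb_finite_k v h.hv
  letI : Fintype (v.valuationSubring ⧸ p) := Fintype.ofFinite _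
  have hunder : P.under v.valuationSubring = p := by
    ext a
    rw [Ideal.under_def, Ideal.mem_comap, Valuation.mem_maximalIdeal_iff,
      Valuation.mem_maximalIdeal_iff, hcoe, h.ext, h22uf_pow_lt_one_iff h.e_pos]
  haveI : P.LiesOver p := ⟨hunder.symm⟩
  have hstab : ∀ σ : L ≃ₐ[K] L, σ ∈ MulAction.stabilizer (L ≃ₐ[K] L) P := by
    intro σ
    rw [MulAction.mem_stabilizer_iff]
    ext x
    rw [Ideal.pointwise_smul_eq_comap, Ideal.mem_comap, Valuation.mem_maximalIdeal_iff,
      Valuation.mem_maximalIdeal_iff]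
    show w (σ⁻¹ (x : L)) < 1 ↔ _
    rw [h.inv]
  -- the reduction of `σ`
  let red : (L ≃ₐ[K] L) →* ((w.valuationSubring ⧸ P) ≃ₐ[v.valuationSubring ⧸ p]
      (w.valuationSubring ⧸ P)) :=
    (Ideal.Quotient.stabilizerHom P p (L ≃ₐ[K] L)).comp
      { toFun := fun σ => ⟨σ, hstab σ⟩
        map_one' := rfl
        map_mul' := fun _ _ => rfl }
  have hred : ∀ (σ : L ≃ₐ[K] L) (b : w.valuationSubring),
      red σ (Ideal.Quotient.mk P b) = Ideal.Quotient.mk P (σ • b) := fun σ b => rfl
  -- `φ` reduces to the Frobenius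
  have hφred : red φ = FiniteField.frobeniusAlgEquivOfAlgebraic (v.valuationSubring ⧸ p)
      (w.valuationSubring ⧸ P) := by
    ext x
    obtain ⟨b, rfl⟩ := Ideal.Quotient.mk_surjective x
    rw [hred, FiniteField.coe_frobeniusAlgEquivOfAlgebraic]
    show (Ideal.Quotient.mk P) (φ • b)
      = (Ideal.Quotient.mk P b) ^ Fintype.card (v.valuationSubring ⧸ p)
    rw [← map_pow, Ideal.Quotient.eq, Valuation.mem_maximalIdeal_iff]
    have := hφ (b : L) ((Valuation.mem_valuationSubring_iff w _).1 b.2)
    rw [← Nat.card_eq_fintype_card]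
    exact this
  obtain ⟨n, hn⟩ := (FiniteField.bijective_frobeniusAlgEquivOfAlgebraic_pow
    (v.valuationSubring ⧸ p) (w.valuationSubring ⧸ P)).2 (red g)
  simp only at hn
  rw [← hφred, ← map_pow] at hn
  have h1 : g⁻¹ * φ ^ (n : ℕ) = 1 := by
    apply h24lb_inertia_trivial h
    intro x hx
    have e1 : red (g⁻¹ * φ ^ (n : ℕ)) = 1 := by
      rw [map_mul, hn, map_inv, inv_mul_cancel]
    have e2 := DFunLike.congr_fun e1 (Ideal.Quotient.mk P ⟨x, (Valuation.mem_valuationSubring_iff w _).2 hx⟩)
    rw [hred, AlgEquiv.one_apply, Ideal.Quotient.eq, Valuation.mem_maximalIdeal_iff] at e2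
    exact e2
  have h2 : g = φ ^ (n : ℕ) := by
    calc g = g * (g⁻¹ * φ ^ (n : ℕ)) := by rw [h1, mul_one]
      _ = φ ^ (n : ℕ) := by group
  rw [h2]
  exact Subgroup.pow_mem _ (Subgroup.mem_zpowers φ) _

/-- **(UnrFrob)** an unramified extension has a Frobenius, and it generates the Galois group. -/
theorem h22uf_unrFrob : H3LB.UnrFrob := by
  intro K L _ _ _ v w h
  obtain ⟨φ, hφ⟩ := h22uf_exists_frob h
  exact ⟨φ, hφ, fun g => h22uf_generates h φ hφ g⟩

end H22UF

end
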