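/-
W2-C (S55) block B, slices B2' / B2 (helper24), part 1: the residue field of a valuation
`w : Valuation L ℤᵐ⁰`, value group arithmetic, and the consequences of `IsLocalVal w`.
-/
import Mathlib
import Fermat.Agent.CFT2.B.Defs

set_option autoImplicit false
set_option linter.style.haveILetI false
set_option linter.unusedSectionVars false
set_option linter.unusedVariables false

noncomputable section

namespace H24LB

open scoped WithZero
open H3LB

/-! ### arithmetic in `ℤᵐ⁰` -/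

theorem h24lb_exists_exp {γ : ℤᵐ⁰} (h : γ ≠ 0) : ∃ k : ℤ, γ = WithZero.exp k :=
  ⟨WithZero.log γ, (WithZero.exp_log h).symm⟩

theorem h24lb_lt_one_iff (γ : ℤᵐ⁰) : γ < 1 ↔ γ ≤ WithZero.exp (-1 : ℤ) := by
  by_cases h : γ = 0
  · subst h
    exact ⟨fun _ => zero_le, fun _ => zero_lt_one⟩
  · obtain ⟨k, rfl⟩ := h24lb_exists_exp h
    rw [← WithZero.exp_zero, WithZero.exp_lt_exp, WithZero.exp_le_exp]
    omega

theorem h24lb_eq_zero_of_forall_le {γ : ℤᵐ⁰} (h : ∀ n : ℕ, γ ≤ WithZero.exp (-(n : ℤ))) :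
    γ = 0 := by
  by_contra h0
  obtain ⟨k, rfl⟩ := h24lb_exists_exp h0
  have h1 := h ((-k).toNat + 1)
  rw [WithZero.exp_le_exp] at h1
  push_cast at h1
  omega

theorem h24lb_exp_neg_succ (n : ℕ) :
    WithZero.exp (-((n + 1 : ℕ) : ℤ)) = WithZero.exp (-1 : ℤ) * WithZero.exp (-(n : ℤ)) := by
  rw [← WithZero.exp_add]
  congr 1
  push_cast
  ring

theorem h24lb_exp_neg_le_one (n : ℕ) : WithZero.exp (-(n : ℤ)) ≤ (1 : ℤᵐ⁰) := by
  rw [← WithZero.exp_zero, WithZero.exp_le_exp]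
  omega

theorem h24lb_exp_neg_one_lt_one : WithZero.exp (-1 : ℤ) < (1 : ℤᵐ⁰) := by
  rw [← WithZero.exp_zero, WithZero.exp_lt_exp]
  omega

theorem h24lb_exp_neg_mono {m n : ℕ} (h : m ≤ n) :
    WithZero.exp (-(n : ℤ)) ≤ (WithZero.exp (-(m : ℤ)) : ℤᵐ⁰) := by
  rw [WithZero.exp_le_exp]
  omega

section val

variable {L : Type} [Field L] (w : Valuation L ℤᵐ⁰)

/-- the valuation ring -/
abbrev h24lb_A : ValuationSubring L := w.valuationSubring

/-- the residue field -/
abbrev h24lb_k : Type := IsLocalRing.ResidueField (h24lb_A w)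

/-- the residue map -/
abbrev h24lb_res : h24lb_A w →+* h24lb_k w := IsLocalRing.residue (h24lb_A w)

theorem h24lb_mem_A {x : L} : x ∈ h24lb_A w ↔ w x ≤ 1 := Valuation.mem_valuationSubring_iff w x

theorem h24lb_isUnit_iff (x : h24lb_A w) : IsUnit x ↔ w (x : L) = 1 := by
  constructor
  · intro hx
    obtain ⟨u, rfl⟩ := hx
    have h1 : w ((u : h24lb_A w) : L) ≤ 1 := (h24lb_mem_A w).mp (u : h24lb_A w).2
    have h2 : w (((u⁻¹ : (h24lb_A w)ˣ) : h24lb_A w) : L) ≤ 1 :=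
      (h24lb_mem_A w).mp ((u⁻¹ : (h24lb_A w)ˣ) : h24lb_A w).2
    have h3 : ((u : h24lb_A w) : L) * (((u⁻¹ : (h24lb_A w)ˣ) : h24lb_A w) : L) = 1 := by
      have := congrArg (fun t : h24lb_A w => (t : L)) u.mul_inv
      exact this
    have h4 : w ((u : h24lb_A w) : L) * w (((u⁻¹ : (h24lb_A w)ˣ) : h24lb_A w) : L) = 1 := by
      rw [← map_mul, h3, map_one]
    refine le_antisymm h1 ?_
    by_contra hlt
    rw [not_le] at hlt
    have : w ((u : h24lb_A w) : L) * w (((u⁻¹ : (h24lb_A w)ˣ) : h24lb_A w) : L) < 1 := by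
      calc w ((u : h24lb_A w) : L) * w (((u⁻¹ : (h24lb_A w)ˣ) : h24lb_A w) : L)
          ≤ w ((u : h24lb_A w) : L) * 1 := by gcongr
        _ < 1 := by rw [mul_one]; exact hlt
    exact absurd h4 this.ne
  · intro hx
    have hx0 : (x : L) ≠ 0 := by
      intro h0
      rw [h0, map_zero] at hx
      exact zero_ne_one hx
    have hinv : (x : L)⁻¹ ∈ h24lb_A w := by
      rw [h24lb_mem_A, map_inv₀, hx, inv_one]
    refine ⟨⟨x, ⟨(x : L)⁻¹, hinv⟩, ?_, ?_⟩, rfl⟩
    · apply Subtype.ext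
      simp [mul_inv_cancel₀ hx0]
    · apply Subtype.ext
      simp [inv_mul_cancel₀ hx0]

theorem h24lb_res_eq_zero_iff (x : h24lb_A w) : h24lb_res w x = 0 ↔ w (x : L) < 1 := by
  rw [IsLocalRing.residue_eq_zero_iff, IsLocalRing.mem_maximalIdeal, mem_nonunits_iff,
    h24lb_isUnit_iff]
  have h1 : w (x : L) ≤ 1 := (h24lb_mem_A w).mp x.2
  exact ⟨fun h => lt_of_le_of_ne h1 h, fun h => h.ne⟩

theorem h24lb_res_eq_iff (x y : h24lb_A w) :
    h24lb_res w x = h24lb_res w y ↔ w ((x : L) - (y : L)) < 1 := by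
  rw [← sub_eq_zero, ← map_sub, h24lb_res_eq_zero_iff]
  rfl

/-- elements of the valuation ring -/
def h24lb_mk (x : L) (hx : w x ≤ 1) : h24lb_A w := ⟨x, (h24lb_mem_A w).mpr hx⟩

@[simp] theorem h24lb_mk_coe (x : L) (hx : w x ≤ 1) : ((h24lb_mk w x hx : h24lb_A w) : L) = x := rfl

theorem h24lb_finite_k (hw : IsLocalVal w) : Finite (h24lb_k w) := by
  obtain ⟨R, hR⟩ := hw.finite
  classical
  let f : {r : L // r ∈ R} → h24lb_k w := fun r =>
    if h : w (r : L) ≤ 1 then h24lb_res w (h24lb_mk w r h) else 0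
  have hf : Function.Surjective f := by
    intro y
    obtain ⟨x, rfl⟩ := IsLocalRing.residue_surjective y
    have hx : w (x : L) ≤ 1 := (h24lb_mem_A w).mp x.2
    obtain ⟨r, hr, hxr⟩ := hR (x : L) hx
    have hr1 : w r ≤ 1 := by
      have : r = (x : L) - ((x : L) - r) := by ring
      rw [this]
      exact Valuation.map_sub_le w hx hxr.le
    refine ⟨⟨r, hr⟩, ?_⟩
    simp only [f, hr1, dite_true]
    rw [h24lb_res_eq_iff]
    have : (r : L) - (x : L) = -((x : L) - r) := by ring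
    simp only [h24lb_mk_coe]
    rw [this, Valuation.map_neg]
    exact hxr
  exact Finite.of_surjective f hf

end val

end H24LB

end
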