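/-
W2-C (S55) block B, slice BS-EF (helper10): `e · f = n` in the form `|k_L| ^ e = |k_K| ^ [L:K]`.

* `H10LB.h10lb_ramResDegree : H3LB.RamResDegree`.

Route: `𝒪_L` is the integral closure of `𝒪_K` in `L` (Galois invariants), hence a finite
`𝒪_K`-module; `𝔪_K 𝒪_L = 𝔪_L ^ e`; count `𝒪_L / 𝔪_K 𝒪_L` in two ways.
Reusable: `h10lb_isDVR` (the valuation ring of an `IsLocalVal` is a DVR), `h10lb_incl`,
`h10lb_action`, `h10lb_isInvariant`, `h10lb_maximalIdeal_eq_span`, `h10lb_map_maximalIdeal`.
-/
import Mathlib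
import Fermat.Agent.CFT2.B.Defs2
import Fermat.Agent.CFT2.B.UnrRes_helper24

set_option autoImplicit false
set_option linter.style.haveILetI false
set_option warn.classDefReducibility false
set_option linter.deprecated false
set_option linter.unusedVariables false

namespace H10LB
open scoped WithZero
open H3LB

variable {K L : Type} [Field K] [Field L] [Algebra K L] {v : Valuation K ℤᵐ⁰}
  {w : Valuation L ℤᵐ⁰} {e : ℕ}

instance h10lb_isCyclic_units : IsCyclic (ℤᵐ⁰)ˣ :=
  isCyclic_of_surjective (WithZero.unitsWithZeroEquiv (α := Multiplicative ℤ)).symm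
    (WithZero.unitsWithZeroEquiv (α := Multiplicative ℤ)).symm.surjective

theorem h10lb_exists_unif (hv : IsLocalVal v) : ∃ π : K, v π = WithZero.exp (-1 : ℤ) :=
  hv.surj _

theorem h10lb_nontrivial_valueGroup (hv : IsLocalVal v) :
    Nontrivial (MonoidWithZeroHom.valueGroup (MonoidWithZeroHom.ofClass v)) := by
  obtain ⟨π, hπ⟩ := h10lb_exists_unif hv
  have hne : v π ≠ 0 := by rw [hπ]; exact WithZero.exp_ne_zero
  let u : (ℤᵐ⁰)ˣ := Units.mk0 (v π) hne
  have hu : u ∈ MonoidWithZeroHom.valueGroup (MonoidWithZeroHom.ofClass v) := by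
    apply Subgroup.subset_closure
    apply MonoidWithZeroHom.mem_valueMonoid
    exact ⟨π, rfl⟩
  refine ⟨⟨⟨u, hu⟩, 1, ?_⟩⟩
  intro h
  have h1 : (u : ℤᵐ⁰) = 1 := by
    have := congrArg (fun x : MonoidWithZeroHom.valueGroup (MonoidWithZeroHom.ofClass v) =>
      ((x : (ℤᵐ⁰)ˣ) : ℤᵐ⁰)) h
    simpa using this
  have h2 : WithZero.exp (-1 : ℤ) = (1 : ℤᵐ⁰) := by rw [← hπ]; exact h1
  have h3 : WithZero.exp (-1 : ℤ) < (1 : ℤᵐ⁰) := by
    rw [← WithZero.exp_zero, WithZero.exp_lt_exp]; norm_num
  exact absurd h2 (ne_of_lt h3)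

theorem h10lb_isDVR (hv : IsLocalVal v) : IsDiscreteValuationRing v.valuationSubring := by
  have := h10lb_nontrivial_valueGroup hv
  exact Valuation.valuationSubring_isDiscreteValuationRing v

/-! ### `𝒪_K → 𝒪_L` -/

theorem h10lb_w_le_one_iff (h : IsLocalExt v w e) (x : K) :
    w (algebraMap K L x) ≤ 1 ↔ v x ≤ 1 := by
  rw [h.ext, pow_le_one_iff (Nat.pos_iff_ne_zero.1 h.e_pos)]

/-- the inclusion `𝒪_K → 𝒪_L` -/
noncomputable def h10lb_incl (h : IsLocalExt v w e) : v.valuationSubring →+* w.valuationSubring where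
  toFun x := ⟨algebraMap K L x, (Valuation.mem_valuationSubring_iff _ _).2
    ((h10lb_w_le_one_iff h x).2 ((Valuation.mem_valuationSubring_iff _ _).1 x.2))⟩
  map_one' := Subtype.ext (map_one _)
  map_mul' x y := Subtype.ext (map_mul _ _ _)
  map_zero' := Subtype.ext (map_zero _)
  map_add' x y := Subtype.ext (map_add _ _ _)

/-- the action of the Galois group on `𝒪_L` -/
noncomputable def h10lb_action (h : IsLocalExt v w e) :
    MulSemiringAction (L ≃ₐ[K] L) w.valuationSubring where
  smul σ x := ⟨σ x, (Valuation.mem_valuationSubring_iff _ _).2 (by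
    rw [h.inv]; exact (Valuation.mem_valuationSubring_iff _ _).1 x.2)⟩
  one_smul x := Subtype.ext rfl
  mul_smul σ τ x := Subtype.ext rfl
  smul_zero σ := Subtype.ext (map_zero σ)
  smul_add σ x y := Subtype.ext (map_add σ _ _)
  smul_one σ := Subtype.ext (map_one σ)
  smul_mul σ x y := Subtype.ext (map_mul σ _ _)


theorem h10lb_isInvariant (h : IsLocalExt v w e) :
    letI : Algebra v.valuationSubring w.valuationSubring := (h10lb_incl h).toAlgebra
    letI : MulSemiringAction (L ≃ₐ[K] L) w.valuationSubring := h10lb_action h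
    Algebra.IsInvariant v.valuationSubring w.valuationSubring (L ≃ₐ[K] L) := by
  letI : Algebra v.valuationSubring w.valuationSubring := (h10lb_incl h).toAlgebra
  letI : MulSemiringAction (L ≃ₐ[K] L) w.valuationSubring := h10lb_action h
  haveI := h.fin
  haveI := h.gal
  refine ⟨fun b hb => ?_⟩
  have hfix : ∀ f : L ≃ₐ[K] L, f (b : L) = (b : L) := fun f => congrArg Subtype.val (hb f)
  obtain ⟨a, ha⟩ := (IsGalois.mem_range_algebraMap_iff_fixed (F := K) (E := L) (b : L)).2 hfix
  have hav : v a ≤ 1 := by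
    rw [← h10lb_w_le_one_iff h, ha]
    exact (Valuation.mem_valuationSubring_iff _ _).1 b.2
  exact ⟨⟨a, (Valuation.mem_valuationSubring_iff _ _).2 hav⟩, Subtype.ext ha⟩

/-- the maximal ideal is generated by any element of valuation `exp (-1)` -/
theorem h10lb_maximalIdeal_eq_span (π : v.valuationSubring)
    (hπ : v (π : K) = WithZero.exp (-1 : ℤ)) :
    IsLocalRing.maximalIdeal v.valuationSubring = Ideal.span {π} := by
  have hπ0 : (π : K) ≠ 0 := by
    intro h0
    rw [h0, map_zero] at hπ
    exact WithZero.exp_ne_zero hπ.symm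
  apply le_antisymm
  · intro x hx
    rw [IsLocalRing.mem_maximalIdeal, mem_nonunits_iff, H24LB.h24lb_isUnit_iff] at hx
    have hx1 : v (x : K) ≤ 1 := (Valuation.mem_valuationSubring_iff _ _).1 x.2
    have hx2 : v (x : K) ≤ WithZero.exp (-1 : ℤ) :=
      (H24LB.h24lb_lt_one_iff _).1 (lt_of_le_of_ne hx1 hx)
    rw [Ideal.mem_span_singleton']
    have hq : v ((x : K) * (π : K)⁻¹) ≤ 1 := by
      rw [map_mul, map_inv₀, hπ]
      calc v (x : K) * (WithZero.exp (-1 : ℤ))⁻¹
          ≤ WithZero.exp (-1 : ℤ) * (WithZero.exp (-1 : ℤ))⁻¹ := by gcongr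
        _ = 1 := mul_inv_cancel₀ WithZero.exp_ne_zero
    refine ⟨⟨(x : K) * (π : K)⁻¹, (Valuation.mem_valuationSubring_iff _ _).2 hq⟩, ?_⟩
    apply Subtype.ext
    show (x : K) * (π : K)⁻¹ * (π : K) = (x : K)
    rw [mul_assoc, inv_mul_cancel₀ hπ0, mul_one]
  · rw [Ideal.span_singleton_le_iff_mem, IsLocalRing.mem_maximalIdeal, mem_nonunits_iff,
      H24LB.h24lb_isUnit_iff, hπ]
    exact ne_of_lt H24LB.h24lb_exp_neg_one_lt_one

/-- `π_K 𝒪_L = 𝔪_L ^ e` -/
theorem h10lb_map_maximalIdeal (h : IsLocalExt v w e) :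
    letI : Algebra v.valuationSubring w.valuationSubring := (h10lb_incl h).toAlgebra
    Ideal.map (algebraMap v.valuationSubring w.valuationSubring)
        (IsLocalRing.maximalIdeal v.valuationSubring)
      = IsLocalRing.maximalIdeal w.valuationSubring ^ e := by
  letI : Algebra v.valuationSubring w.valuationSubring := (h10lb_incl h).toAlgebra
  obtain ⟨πK, hπK⟩ := h10lb_exists_unif h.hv
  obtain ⟨πL, hπL⟩ := h10lb_exists_unif h.hw
  have hπK1 : v πK ≤ 1 := by rw [hπK]; exact le_of_lt H24LB.h24lb_exp_neg_one_lt_one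
  have hπL1 : w πL ≤ 1 := by rw [hπL]; exact le_of_lt H24LB.h24lb_exp_neg_one_lt_one
  let a : v.valuationSubring := ⟨πK, (Valuation.mem_valuationSubring_iff _ _).2 hπK1⟩
  let b : w.valuationSubring := ⟨πL, (Valuation.mem_valuationSubring_iff _ _).2 hπL1⟩
  rw [h10lb_maximalIdeal_eq_span a hπK, h10lb_maximalIdeal_eq_span b hπL, Ideal.map_span,
    Set.image_singleton, Ideal.span_singleton_pow]
  -- `incl a` and `b ^ e` are associated
  have hπL0 : πL ≠ 0 := by
    intro h0
    rw [h0, map_zero] at hπL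
    exact WithZero.exp_ne_zero hπL.symm
  have hwa : w (algebraMap K L πK) = w (πL ^ e) := by
    rw [h.ext, hπK, map_pow, hπL]
  have hu1 : w (algebraMap K L πK * (πL ^ e)⁻¹) = 1 := by
    rw [map_mul, map_inv₀, hwa, mul_inv_cancel₀]
    rw [map_pow, hπL]
    exact pow_ne_zero _ WithZero.exp_ne_zero
  let u : w.valuationSubring := ⟨algebraMap K L πK * (πL ^ e)⁻¹,
    (Valuation.mem_valuationSubring_iff _ _).2 (le_of_eq hu1)⟩
  have hu : IsUnit u := (H24LB.h24lb_isUnit_iff w u).2 hu1
  have hab : algebraMap v.valuationSubring w.valuationSubring a = b ^ e * u := by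
    apply Subtype.ext
    show algebraMap K L πK = πL ^ e * (algebraMap K L πK * (πL ^ e)⁻¹)
    rw [mul_comm (algebraMap K L πK), ← mul_assoc, mul_inv_cancel₀ (pow_ne_zero _ hπL0), one_mul]
  rw [hab]
  exact Ideal.span_singleton_mul_right_unit hu _

/-- **BS-EF**: `|k_L| ^ e = |k_K| ^ [L:K]`. -/
theorem h10lb_ramRes (h : IsLocalExt v w e) :
    Nat.card (IsLocalRing.ResidueField w.valuationSubring) ^ e =
      Nat.card (IsLocalRing.ResidueField v.valuationSubring) ^ Module.finrank K L := by
  haveI := h.fin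
  haveI := h.gal
  haveI hA : IsDiscreteValuationRing v.valuationSubring := h10lb_isDVR h.hv
  haveI hB : IsDiscreteValuationRing w.valuationSubring := h10lb_isDVR h.hw
  letI algAB : Algebra v.valuationSubring w.valuationSubring := (h10lb_incl h).toAlgebra
  haveI : IsScalarTower v.valuationSubring w.valuationSubring L :=
    IsScalarTower.of_algebraMap_eq (fun x => rfl)
  letI : MulSemiringAction (L ≃ₐ[K] L) w.valuationSubring := h10lb_action h
  haveI : Algebra.IsInvariant v.valuationSubring w.valuationSubring (L ≃ₐ[K] L) :=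
    h10lb_isInvariant h
  haveI : Algebra.IsIntegral v.valuationSubring w.valuationSubring :=
    Algebra.IsInvariant.isIntegral v.valuationSubring w.valuationSubring (L ≃ₐ[K] L)
  haveI : IsIntegralClosure w.valuationSubring v.valuationSubring L :=
    IsIntegralClosure.of_isIntegrallyClosed w.valuationSubring v.valuationSubring L
  haveI : Module.Finite v.valuationSubring w.valuationSubring :=
    IsIntegralClosure.finite v.valuationSubring K L w.valuationSubring
  have h1 := Ideal.finrank_quotient_map (IsLocalRing.maximalIdeal v.valuationSubring) K L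
    (S := w.valuationSubring)
  have h2 := h10lb_map_maximalIdeal h
  -- the left-hand side
  have hB0 : IsLocalRing.maximalIdeal w.valuationSubring ≠ ⊥ :=
    IsDiscreteValuationRing.not_a_field w.valuationSubring
  have h3 : Submodule.cardQuot (IsLocalRing.maximalIdeal w.valuationSubring ^ e)
      = Submodule.cardQuot (IsLocalRing.maximalIdeal w.valuationSubring) ^ e :=
    cardQuot_pow_of_prime hB0
  rw [Submodule.cardQuot_apply, Submodule.cardQuot_apply] at h3
  have hL : Nat.card (IsLocalRing.ResidueField w.valuationSubring)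
      = Nat.card (w.valuationSubring ⧸ IsLocalRing.maximalIdeal w.valuationSubring) := rfl
  have hK : Nat.card (IsLocalRing.ResidueField v.valuationSubring)
      = Nat.card (v.valuationSubring ⧸ IsLocalRing.maximalIdeal v.valuationSubring) := rfl
  rw [hL, hK, ← h3, ← h2, ← h1]
  letI : Field (v.valuationSubring ⧸ IsLocalRing.maximalIdeal v.valuationSubring) :=
    Ideal.Quotient.field _
  have hpos : 0 < Module.finrank (v.valuationSubring ⧸ IsLocalRing.maximalIdeal v.valuationSubring)
      (w.valuationSubring ⧸ Ideal.map (algebraMap v.valuationSubring w.valuationSubring)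
        (IsLocalRing.maximalIdeal v.valuationSubring)) := by
    rw [h1]; exact Module.finrank_pos
  haveI : Module.Finite (v.valuationSubring ⧸ IsLocalRing.maximalIdeal v.valuationSubring)
      (w.valuationSubring ⧸ Ideal.map (algebraMap v.valuationSubring w.valuationSubring)
        (IsLocalRing.maximalIdeal v.valuationSubring)) :=
    Module.finite_of_finrank_pos hpos
  exact Module.natCard_eq_pow_finrank
    (K := v.valuationSubring ⧸ IsLocalRing.maximalIdeal v.valuationSubring)
    (V := w.valuationSubring ⧸ Ideal.map (algebraMap v.valuationSubring w.valuationSubring)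
        (IsLocalRing.maximalIdeal v.valuationSubring))

/-- **BS-EF** (`H3LB.RamResDegree`). -/
theorem h10lb_ramResDegree : H3LB.RamResDegree := by
  intro K L _ _ _ v w e h
  exact h10lb_ramRes h

end H10LB
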