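/-
W2-C (S55) block B, slice B2 (helper24): for an unramified extension of local fields the norm is
surjective on units.

Proof: `Gal(L/K)` acts faithfully on the finite residue field `k_L` (`h24lb_faithful`), hence the
norm resp. trace `∏ σ`, `∑ σ` of `k_L` is onto the fixed field (finite fields); successive
approximation modulo `π ^ n` (`h24lb_norm_step`) and completeness.
-/
import Mathlib
import Fermat.Agent.CFT2.B.UnrCyclic_helper24

set_option autoImplicit false
set_option linter.style.haveILetI false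
set_option linter.unusedSectionVars false
set_option linter.unusedVariables false

noncomputable section

namespace H24LB

open scoped WithZero Pointwise
open H3LB

/-! ### finite fields with a faithful group action -/

section finfield

variable (G : Type) [Group G] [Fintype G] (k : Type) [Field k] [Finite k]
  [MulSemiringAction G k] [FaithfulSMul G k]

theorem h24lb_ff_prod_eq (x : k) :
    algebraMap (FixedPoints.subfield G k) k (Algebra.norm (FixedPoints.subfield G k) x)
      = ∏ g : G, g • x := by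
  haveI : IsGalois (FixedPoints.subfield G k) k := ⟨⟩
  rw [Algebra.norm_eq_prod_automorphisms]
  exact (Fintype.prod_equiv (FixedPoints.toAlgAutMulEquiv G k).toEquiv _ _ (fun g => rfl)).symm

theorem h24lb_ff_sum_eq (x : k) :
    algebraMap (FixedPoints.subfield G k) k (Algebra.trace (FixedPoints.subfield G k) k x)
      = ∑ g : G, g • x := by
  haveI : IsGalois (FixedPoints.subfield G k) k := ⟨⟩
  rw [trace_eq_sum_automorphisms]
  exact (Fintype.sum_equiv (FixedPoints.toAlgAutMulEquiv G k).toEquiv _ _ (fun g => rfl)).symm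

theorem h24lb_ff_norm (u : k) (hu : u ≠ 0) (hfix : ∀ g : G, g • u = u) :
    ∃ x : k, x ≠ 0 ∧ ∏ g : G, g • x = u := by
  let u0 : FixedPoints.subfield G k := ⟨u, hfix⟩
  have hu0 : u0 ≠ 0 := fun h => hu (congrArg Subtype.val h)
  obtain ⟨x, hx⟩ := FiniteField.unitsMap_norm_surjective (FixedPoints.subfield G k) k
    (Units.mk0 u0 hu0)
  refine ⟨(x : k), x.ne_zero, ?_⟩
  rw [← h24lb_ff_prod_eq]
  have e : Algebra.norm (FixedPoints.subfield G k) (x : k) = u0 := by
    have := congrArg (fun t : (FixedPoints.subfield G k)ˣ => (t : FixedPoints.subfield G k)) hx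
    simpa using this
  rw [e]
  rfl

theorem h24lb_ff_trace (a : k) (hfix : ∀ g : G, g • a = a) : ∃ b : k, ∑ g : G, g • b = a := by
  let a0 : FixedPoints.subfield G k := ⟨a, hfix⟩
  obtain ⟨b, hb⟩ := Algebra.trace_surjective (FixedPoints.subfield G k) k a0
  refine ⟨b, ?_⟩
  rw [← h24lb_ff_sum_eq, hb]
  rfl

end finfield

/-! ### the residue map as a total function -/

section resL

variable {L : Type} [Field L] (w : Valuation L ℤᵐ⁰)

/-- the residue class of `x` (`0` if `x` is not integral) -/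
def h24lb_resL (x : L) : h24lb_k w :=
  if h : w x ≤ 1 then h24lb_res w (h24lb_mk w x h) else 0

theorem h24lb_resL_of_le {x : L} (hx : w x ≤ 1) :
    h24lb_resL w x = h24lb_res w (h24lb_mk w x hx) := dif_pos hx

theorem h24lb_resL_add {x y : L} (hx : w x ≤ 1) (hy : w y ≤ 1) :
    h24lb_resL w (x + y) = h24lb_resL w x + h24lb_resL w y := by
  rw [h24lb_resL_of_le w hx, h24lb_resL_of_le w hy,
    h24lb_resL_of_le w (Valuation.map_add_le w hx hy), ← map_add]
  rfl

theorem h24lb_mul_le_one {x y : L} (hx : w x ≤ 1) (hy : w y ≤ 1) : w (x * y) ≤ 1 := by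
  rw [map_mul]; exact mul_le_one' hx hy

theorem h24lb_resL_mul {x y : L} (hx : w x ≤ 1) (hy : w y ≤ 1) :
    h24lb_resL w (x * y) = h24lb_resL w x * h24lb_resL w y := by
  rw [h24lb_resL_of_le w hx, h24lb_resL_of_le w hy,
    h24lb_resL_of_le w (h24lb_mul_le_one w hx hy), ← map_mul]
  rfl

theorem h24lb_resL_zero : h24lb_resL w 0 = 0 := by
  rw [h24lb_resL_of_le w (by simp)]
  exact map_zero _

theorem h24lb_resL_one : h24lb_resL w 1 = 1 := by
  rw [h24lb_resL_of_le w (by simp)]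
  exact map_one _

theorem h24lb_sum_le_one {ι : Type*} (s : Finset ι) (f : ι → L) (hf : ∀ i ∈ s, w (f i) ≤ 1) :
    w (∑ i ∈ s, f i) ≤ 1 := Valuation.map_sum_le w hf

theorem h24lb_prod_le_one {ι : Type*} (s : Finset ι) (f : ι → L) (hf : ∀ i ∈ s, w (f i) ≤ 1) :
    w (∏ i ∈ s, f i) ≤ 1 := by
  rw [map_prod]
  exact Finset.prod_le_one' hf

theorem h24lb_resL_sum {ι : Type*} (s : Finset ι) (f : ι → L) (hf : ∀ i ∈ s, w (f i) ≤ 1) :
    h24lb_resL w (∑ i ∈ s, f i) = ∑ i ∈ s, h24lb_resL w (f i) := by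
  classical
  induction s using Finset.induction_on with
  | empty => simpa using h24lb_resL_zero w
  | insert a s ha ih =>
    rw [Finset.sum_insert ha, Finset.sum_insert ha,
      h24lb_resL_add w (hf a (Finset.mem_insert_self a s))
        (h24lb_sum_le_one w s f (fun i hi => hf i (Finset.mem_insert_of_mem hi))),
      ih (fun i hi => hf i (Finset.mem_insert_of_mem hi))]

theorem h24lb_resL_prod {ι : Type*} (s : Finset ι) (f : ι → L) (hf : ∀ i ∈ s, w (f i) ≤ 1) :
    h24lb_resL w (∏ i ∈ s, f i) = ∏ i ∈ s, h24lb_resL w (f i) := by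
  classical
  induction s using Finset.induction_on with
  | empty => simpa using h24lb_resL_one w
  | insert a s ha ih =>
    rw [Finset.prod_insert ha, Finset.prod_insert ha,
      h24lb_resL_mul w (hf a (Finset.mem_insert_self a s))
        (h24lb_prod_le_one w s f (fun i hi => hf i (Finset.mem_insert_of_mem hi))),
      ih (fun i hi => hf i (Finset.mem_insert_of_mem hi))]

theorem h24lb_resL_eq_iff {x y : L} (hx : w x ≤ 1) (hy : w y ≤ 1) :
    h24lb_resL w x = h24lb_resL w y ↔ w (x - y) < 1 := by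
  rw [h24lb_resL_of_le w hx, h24lb_resL_of_le w hy, h24lb_res_eq_iff]
  rfl

theorem h24lb_resL_eq_zero_iff {x : L} (hx : w x ≤ 1) : h24lb_resL w x = 0 ↔ w x < 1 := by
  rw [h24lb_resL_of_le w hx, h24lb_res_eq_zero_iff]
  rfl

theorem h24lb_resL_surj (a : h24lb_k w) : ∃ x : L, w x ≤ 1 ∧ h24lb_resL w x = a := by
  obtain ⟨x, rfl⟩ := IsLocalRing.residue_surjective a
  have hx : w (x : L) ≤ 1 := (h24lb_mem_A w).mp x.2
  exact ⟨x, hx, h24lb_resL_of_le w hx⟩

theorem h24lb_resL_smul {K : Type} [Field K] [Algebra K L]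
    (hinv : ∀ (σ : L ≃ₐ[K] L) (x : L), w (σ x) = w x) (σ : L ≃ₐ[K] L) {x : L} (hx : w x ≤ 1) :
    letI := h24lb_action w hinv
    σ • h24lb_resL w x = h24lb_resL w (σ x) := by
  letI := h24lb_action w hinv
  rw [h24lb_resL_of_le w hx, h24lb_resL_of_le w (by rw [hinv]; exact hx)]
  exact h24lb_smul_res w hinv σ x hx

/-! ### products -/

theorem h24lb_prod_sub_prod_le {ι : Type*} (s : Finset ι) (f g : ι → L) (C : ℤᵐ⁰)
    (hf : ∀ i ∈ s, w (f i) ≤ 1) (hg : ∀ i ∈ s, w (g i) ≤ 1)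
    (hfg : ∀ i ∈ s, w (f i - g i) ≤ C) :
    w (∏ i ∈ s, f i - ∏ i ∈ s, g i) ≤ C := by
  classical
  induction s using Finset.induction_on with
  | empty => simp
  | insert a s ha ih =>
    rw [Finset.prod_insert ha, Finset.prod_insert ha]
    have hfs : ∀ i ∈ s, w (f i) ≤ 1 := fun i hi => hf i (Finset.mem_insert_of_mem hi)
    have hgs : ∀ i ∈ s, w (g i) ≤ 1 := fun i hi => hg i (Finset.mem_insert_of_mem hi)
    have e : f a * ∏ i ∈ s, f i - g a * ∏ i ∈ s, g i
        = f a * (∏ i ∈ s, f i - ∏ i ∈ s, g i) + (f a - g a) * ∏ i ∈ s, g i := by ring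
    rw [e]
    refine Valuation.map_add_le w ?_ ?_
    · rw [map_mul]
      calc w (f a) * w (∏ i ∈ s, f i - ∏ i ∈ s, g i)
          ≤ 1 * C := by
            gcongr
            · exact hf a (Finset.mem_insert_self a s)
            · exact ih hfs hgs (fun i hi => hfg i (Finset.mem_insert_of_mem hi))
        _ = C := one_mul _
    · rw [map_mul]
      calc w (f a - g a) * w (∏ i ∈ s, g i)
          ≤ C * 1 := by
            gcongr
            · exact hfg a (Finset.mem_insert_self a s)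
            · exact h24lb_prod_le_one w s g hgs
        _ = C := mul_one _

theorem h24lb_prod_one_add {ι : Type*} (s : Finset ι) (t : L) (c : ι → L) (ht : w t ≤ 1)
    (hc : ∀ i ∈ s, w (c i) ≤ 1) :
    w (∏ i ∈ s, (1 + t * c i) - 1 - t * ∑ i ∈ s, c i) ≤ w t ^ 2 := by
  classical
  induction s using Finset.induction_on with
  | empty => simp
  | insert a s ha ih =>
    rw [Finset.prod_insert ha, Finset.sum_insert ha]
    have hcs : ∀ i ∈ s, w (c i) ≤ 1 := fun i hi => hc i (Finset.mem_insert_of_mem hi)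
    have hca : w (c a) ≤ 1 := hc a (Finset.mem_insert_self a s)
    have e : (1 + t * c a) * ∏ i ∈ s, (1 + t * c i) - 1 - t * (c a + ∑ i ∈ s, c i)
        = (1 + t * c a) * (∏ i ∈ s, (1 + t * c i) - 1 - t * ∑ i ∈ s, c i)
          + t ^ 2 * (c a * ∑ i ∈ s, c i) := by ring
    rw [e]
    refine Valuation.map_add_le w ?_ ?_
    · rw [map_mul]
      have h1 : w (1 + t * c a) ≤ 1 :=
        Valuation.map_add_le w (by simp) (h24lb_mul_le_one w ht hca)
      calc w (1 + t * c a) * w (∏ i ∈ s, (1 + t * c i) - 1 - t * ∑ i ∈ s, c i)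
          ≤ 1 * w t ^ 2 := by
            gcongr
            exact ih hcs
        _ = w t ^ 2 := one_mul _
    · rw [map_mul, map_pow]
      calc w t ^ 2 * w (c a * ∑ i ∈ s, c i)
          ≤ w t ^ 2 * 1 := by
            gcongr
            exact h24lb_mul_le_one w hca (h24lb_sum_le_one w s c hcs)
        _ = w t ^ 2 := mul_one _

end resL

/-! ### successive approximation -/

section approx

variable {K L : Type} [Field K] [Field L] [Algebra K L] [FiniteDimensional K L] [IsGalois K L]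
  {v : Valuation K ℤᵐ⁰} {w : Valuation L ℤᵐ⁰}

theorem h24lb_w_prod_conj (h : IsLocalExt v w 1) (y : L) (hy : w y = 1) :
    w (∏ σ : L ≃ₐ[K] L, σ y) = 1 := by
  rw [map_prod]
  exact Finset.prod_eq_one (fun σ _ => by rw [h.inv, hy])

/-- the first step: a unit of `L` whose norm is congruent to `u` -/
theorem h24lb_norm_init (h : IsLocalExt v w 1) (u : K) (hu : v u = 1) :
    ∃ y : L, w y = 1 ∧
      w (∏ σ : L ≃ₐ[K] L, σ y - algebraMap K L u) ≤ WithZero.exp (-((0 + 1 : ℕ) : ℤ)) := by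
  letI := h24lb_action w h.inv
  haveI := h24lb_faithful h
  haveI : Finite (h24lb_k w) := h24lb_finite_k w h.hw
  have hu' : w (algebraMap K L u) = 1 := by rw [h.ext, pow_one, hu]
  have hfix : ∀ σ : L ≃ₐ[K] L, σ • h24lb_resL w (algebraMap K L u)
      = h24lb_resL w (algebraMap K L u) := by
    intro σ
    rw [h24lb_resL_smul w h.inv σ hu'.le, AlgEquiv.commutes]
  have hne : h24lb_resL w (algebraMap K L u) ≠ 0 := by
    rw [Ne, h24lb_resL_eq_zero_iff w hu'.le, hu']
    exact lt_irrefl _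
  obtain ⟨xb, hxb0, hxb⟩ := h24lb_ff_norm (L ≃ₐ[K] L) (h24lb_k w) _ hne hfix
  obtain ⟨y, hy1, hyx⟩ := h24lb_resL_surj w xb
  have hy : w y = 1 := by
    refine le_antisymm hy1 ?_
    by_contra hlt
    rw [not_le] at hlt
    exact hxb0 (hyx ▸ (h24lb_resL_eq_zero_iff w hy1).mpr hlt)
  refine ⟨y, hy, ?_⟩
  have hσy : ∀ σ ∈ (Finset.univ : Finset (L ≃ₐ[K] L)), w (σ y) ≤ 1 := fun σ _ => by
    rw [h.inv]; exact hy1
  have e : h24lb_resL w (∏ σ : L ≃ₐ[K] L, σ y) = h24lb_resL w (algebraMap K L u) := by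
    rw [h24lb_resL_prod w _ _ hσy, ← hxb]
    refine Finset.prod_congr rfl (fun σ _ => ?_)
    rw [← h24lb_resL_smul w h.inv σ hy1, hyx]
  rw [h24lb_resL_eq_iff w (h24lb_prod_le_one w _ _ hσy) hu'.le] at e
  simpa using (h24lb_lt_one_iff _).mp e

/-- the inductive step -/
theorem h24lb_norm_step (h : IsLocalExt v w 1) (u : K) (hu : v u = 1) (n : ℕ) (y : L)
    (hy : w y = 1)
    (hN : w (∏ σ : L ≃ₐ[K] L, σ y - algebraMap K L u) ≤ WithZero.exp (-((n + 1 : ℕ) : ℤ))) :
    ∃ y' : L, w y' = 1 ∧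
      w (∏ σ : L ≃ₐ[K] L, σ y' - algebraMap K L u) ≤ WithZero.exp (-((n + 1 + 1 : ℕ) : ℤ)) ∧
      w (y' - y) ≤ WithZero.exp (-((n + 1 : ℕ) : ℤ)) := by
  letI := h24lb_action w h.inv
  haveI := h24lb_faithful h
  haveI : Finite (h24lb_k w) := h24lb_finite_k w h.hw
  obtain ⟨π, hπ⟩ := h.hv.surj (WithZero.exp (-1 : ℤ))
  have hπL : w (algebraMap K L π) = WithZero.exp (-1 : ℤ) := by
    rw [h.ext, pow_one, hπ]
  -- `t = π ^ (n + 1)`
  set t : L := algebraMap K L (π ^ (n + 1)) with ht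
  have hwt : w t = WithZero.exp (-((n + 1 : ℕ) : ℤ)) := by
    rw [ht, map_pow, map_pow, hπL, ← WithZero.exp_nsmul]
    congr 1
    simp
  have ht0 : t ≠ 0 := by
    intro h0
    rw [h0, map_zero] at hwt
    exact WithZero.exp_ne_zero hwt.symm
  have hwt1 : w t ≤ 1 := by rw [hwt]; exact h24lb_exp_neg_le_one _
  -- the norm of `y`
  set Ny : L := ∏ σ : L ≃ₐ[K] L, σ y with hNy
  have hNyK : algebraMap K L (Algebra.norm K y) = Ny := Algebra.norm_eq_prod_automorphisms K y
  have hwNy : w Ny = 1 := h24lb_w_prod_conj h y hy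
  have hNy0 : Ny ≠ 0 := by
    intro h0
    rw [h0, map_zero] at hwNy
    exact zero_ne_one hwNy
  -- `a = (u - N y) / (t N y)`, an element of `K`
  set a0 : K := (u - Algebra.norm K y) / (π ^ (n + 1) * Algebra.norm K y) with ha0
  set a : L := algebraMap K L a0 with ha
  have haL : a = (algebraMap K L u - Ny) / (t * Ny) := by
    rw [ha, ha0, map_div₀, map_sub, map_mul, hNyK]
  have hwa : w a ≤ 1 := by
    rw [haL, map_div₀, map_mul, hwt, hwNy, mul_one]
    have : algebraMap K L u - Ny = -(Ny - algebraMap K L u) := by ring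
    rw [this, Valuation.map_neg]
    exact div_le_one_of_le₀ hN zero_le
  have hafix : ∀ σ : L ≃ₐ[K] L, σ • h24lb_resL w a = h24lb_resL w a := by
    intro σ
    rw [h24lb_resL_smul w h.inv σ hwa, ha, AlgEquiv.commutes]
  obtain ⟨bb, hbb⟩ := h24lb_ff_trace (L ≃ₐ[K] L) (h24lb_k w) _ hafix
  obtain ⟨b, hb1, hbres⟩ := h24lb_resL_surj w bb
  have hσb : ∀ σ ∈ (Finset.univ : Finset (L ≃ₐ[K] L)), w (σ b) ≤ 1 := fun σ _ => by
    rw [h.inv]; exact hb1
  -- the trace of `b` is congruent to `a`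
  have hTr : w (∑ σ : L ≃ₐ[K] L, σ b - a) ≤ WithZero.exp (-1 : ℤ) := by
    rw [← h24lb_lt_one_iff, ← h24lb_resL_eq_iff w (h24lb_sum_le_one w _ _ hσb) hwa,
      h24lb_resL_sum w _ _ hσb, ← hbb]
    refine Finset.sum_congr rfl (fun σ _ => ?_)
    rw [← h24lb_resL_smul w h.inv σ hb1, hbres]
  -- `z = 1 + t b`
  set z : L := 1 + t * b with hz
  have hwtb : w (t * b) ≤ WithZero.exp (-((n + 1 : ℕ) : ℤ)) := by
    rw [map_mul, hwt]
    calc WithZero.exp (-((n + 1 : ℕ) : ℤ)) * w b
        ≤ WithZero.exp (-((n + 1 : ℕ) : ℤ)) * 1 := by gcongr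
      _ = _ := mul_one _
  have hwtb1 : w (t * b) < 1 := lt_of_le_of_lt hwtb (by
    rw [← WithZero.exp_zero, WithZero.exp_lt_exp]
    push_cast
    omega)
  have hwz : w z = 1 := by
    rw [hz]
    have := Valuation.map_add_eq_of_lt_left w (x := (1 : L)) (y := t * b) (by simpa using hwtb1)
    simpa using this
  have hσz : ∀ σ : L ≃ₐ[K] L, σ z = 1 + t * σ b := by
    intro σ
    rw [hz, map_add, map_one, map_mul, ht, AlgEquiv.commutes]
  have hE := h24lb_prod_one_add w (Finset.univ : Finset (L ≃ₐ[K] L)) t (fun σ => σ b) hwt1 hσb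
  refine ⟨y * z, by rw [map_mul, hy, hwz, one_mul], ?_, ?_⟩
  · have e1 : ∏ σ : L ≃ₐ[K] L, σ (y * z) = Ny * ∏ σ : L ≃ₐ[K] L, (1 + t * σ b) := by
      rw [hNy, ← Finset.prod_mul_distrib]
      refine Finset.prod_congr rfl (fun σ _ => ?_)
      rw [map_mul, hσz]
    have hta : Ny * (t * a) = algebraMap K L u - Ny := by
      rw [haL]
      field_simp
    have e2 : Ny * ∏ σ : L ≃ₐ[K] L, (1 + t * σ b) - algebraMap K L u
        = Ny * (t * (∑ σ : L ≃ₐ[K] L, σ b - a))
          + Ny * (∏ σ : L ≃ₐ[K] L, (1 + t * σ b) - 1 - t * ∑ σ : L ≃ₐ[K] L, σ b) := by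
      have : algebraMap K L u = Ny + Ny * (t * a) := by rw [hta]; ring
      rw [this]
      ring
    rw [e1, e2]
    have hexp2 : WithZero.exp (-((n + 1 + 1 : ℕ) : ℤ))
        = WithZero.exp (-((n + 1 : ℕ) : ℤ)) * WithZero.exp (-1 : ℤ) := by
      rw [← WithZero.exp_add]
      exact congrArg WithZero.exp (by omega)
    refine Valuation.map_add_le w ?_ ?_
    · rw [map_mul, map_mul, hwNy, one_mul, hwt, hexp2]
      gcongr
    · rw [map_mul, hwNy, one_mul]
      refine hE.trans ?_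
      rw [hwt, ← WithZero.exp_nsmul, WithZero.exp_le_exp]
      simp only [nsmul_eq_mul]
      push_cast
      nlinarith
  · have e : y * z - y = y * (t * b) := by rw [hz]; ring
    rw [e, map_mul, hy, one_mul]
    exact hwtb

/-- **(B2)** in the language of `L`: every unit of `K` is a norm of a unit of `L` -/
theorem h24lb_norm_surj (h : IsLocalExt v w 1) (u : K) (hu : v u = 1) :
    ∃ y : L, w y = 1 ∧ Algebra.norm K y = u := by
  obtain ⟨y0, hy0, hN0⟩ := h24lb_norm_init h u hu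
  have hstep := fun (n : ℕ) (y : L) (hy : w y = 1)
    (hN : w (∏ σ : L ≃ₐ[K] L, σ y - algebraMap K L u) ≤ WithZero.exp (-((n + 1 : ℕ) : ℤ))) =>
    h24lb_norm_step h u hu n y hy hN
  choose! f hf1 hf2 hf3 using hstep
  let s : ℕ → L := fun n => Nat.rec y0 (fun n y => f n y) n
  have hs0 : s 0 = y0 := rfl
  have hss : ∀ n, s (n + 1) = f n (s n) := fun n => rfl
  have hs : ∀ n, w (s n) = 1 ∧
      w (∏ σ : L ≃ₐ[K] L, σ (s n) - algebraMap K L u) ≤ WithZero.exp (-((n + 1 : ℕ) : ℤ)) := by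
    intro n
    induction n with
    | zero => exact ⟨hs0 ▸ hy0, hs0 ▸ hN0⟩
    | succ n ih =>
      rw [hss]
      exact ⟨hf1 n (s n) ih.1 ih.2, hf2 n (s n) ih.1 ih.2⟩
  have hd : ∀ n, w (s (n + 1) - s n) ≤ WithZero.exp (-((n + 1 : ℕ) : ℤ)) := by
    intro n
    rw [hss]
    exact hf3 n (s n) (hs n).1 (hs n).2
  obtain ⟨y, hy⟩ := h.hw.complete s (fun n =>
    (hd n).trans (h24lb_exp_neg_mono (Nat.le_succ n)))
  have hwy : w y = 1 := by
    have h1 : w (y - s 1) < w (s 1) := by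
      rw [(hs 1).1]
      exact lt_of_le_of_lt (hy 1) (by simpa using h24lb_exp_neg_one_lt_one)
    have e : y = s 1 + (y - s 1) := by ring
    rw [e, Valuation.map_add_eq_of_lt_left w h1, (hs 1).1]
  refine ⟨y, hwy, ?_⟩
  apply (algebraMap K L).injective
  rw [Algebra.norm_eq_prod_automorphisms K y, ← sub_eq_zero, ← map_eq_zero w]
  apply h24lb_eq_zero_of_forall_le
  intro n
  have e : ∏ σ : L ≃ₐ[K] L, σ y - algebraMap K L u
      = (∏ σ : L ≃ₐ[K] L, σ y - ∏ σ : L ≃ₐ[K] L, σ (s n))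
        + (∏ σ : L ≃ₐ[K] L, σ (s n) - algebraMap K L u) := by ring
  rw [e]
  refine Valuation.map_add_le w ?_ ((hs n).2.trans (h24lb_exp_neg_mono (Nat.le_succ n)))
  refine h24lb_prod_sub_prod_le w _ _ _ _ (fun σ _ => by rw [h.inv, hwy])
    (fun σ _ => by rw [h.inv, (hs n).1]) (fun σ _ => ?_)
  rw [← map_sub, h.inv]
  exact hy n

end approx

/-- **(B2)** -/
theorem h24lb_unrNormSurj : H3LB.UnrNormSurj := by
  intro K L _ _ _ v w h u hu
  haveI : FiniteDimensional K L := h.fin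
  haveI : IsGalois K L := h.gal
  have hu1 : v (u : K) = 1 := hu
  obtain ⟨y, hy, hNy⟩ := h24lb_norm_surj h (u : K) hu1
  have hy0 : y ≠ 0 := by
    intro h0
    rw [h0, map_zero] at hy
    exact zero_ne_one hy
  refine ⟨Units.mk0 y hy0, hy, ?_⟩
  apply Units.ext
  exact hNy

end H24LB

end
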