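/-
W2-C (S55) block B, slice B3 (helper24), abstract part: an extension `L = K(ζ)` of local fields
generated by a primitive root of unity `ζ` of order `N ^ n - 1` (`N = |k_K|`) is unramified of
degree `n` (given `|k_L| ^ e = |k_K| ^ [L:K]`, slice BS-EF).
-/
import Mathlib
import Fermat.Agent.CFT2.B.UnrNorm_helper24

set_option autoImplicit false
set_option linter.style.haveILetI false
set_option linter.unusedSectionVars false
set_option linter.unusedVariables false

noncomputable section

namespace H24LB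

open scoped WithZero Pointwise
open H3LB

section general

variable {L : Type} [Field L] (w : Valuation L ℤᵐ⁰)

theorem h24lb_w_eq_one_of_pow {x : L} {m : ℕ} (hm : 0 < m) (hx : x ^ m = 1) : w x = 1 := by
  have h1 : w x ^ m = 1 := by rw [← map_pow, hx, map_one]
  have hx0 : w x ≠ 0 := by
    intro h0
    rw [h0, zero_pow hm.ne'] at h1
    exact zero_ne_one h1
  obtain ⟨k, hk⟩ := h24lb_exists_exp hx0
  rw [hk, ← WithZero.exp_nsmul, ← WithZero.exp_zero] at h1
  have h2 := WithZero.exp_injective h1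
  rw [hk, ← WithZero.exp_zero]
  congr 1
  simp only [nsmul_eq_mul] at h2
  rcases mul_eq_zero.mp h2 with h3 | h3
  · exact absurd (by exact_mod_cast h3) hm.ne'
  · exact h3

theorem h24lb_factor_eq_one {ι : Type*} (s : Finset ι) (f : ι → L) (hf : ∀ i ∈ s, w (f i) ≤ 1)
    (hprod : w (∏ i ∈ s, f i) = 1) : ∀ i ∈ s, w (f i) = 1 := by
  classical
  intro i hi
  refine le_antisymm (hf i hi) ?_
  by_contra hlt
  rw [not_le] at hlt
  have h1 : w (∏ j ∈ s, f j) < 1 := by
    rw [← Finset.mul_prod_erase s f hi, map_mul]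
    calc w (f i) * w (∏ j ∈ s.erase i, f j)
        ≤ w (f i) * 1 := by
          gcongr
          exact h24lb_prod_le_one w _ _ (fun j hj => hf j (Finset.mem_of_mem_erase hj))
      _ < 1 := by rw [mul_one]; exact hlt
  rw [hprod] at h1
  exact lt_irrefl _ h1

/-- distinct `m`-th roots of unity are distinct modulo the maximal ideal if `m` is a unit -/
theorem h24lb_root_sub_root {m : ℕ} (hm : 0 < m) (hwm : w (m : L) = 1) {ζ : L}
    (hζ : IsPrimitiveRoot ζ m) {x y : L} (hx : x ^ m = 1) (hy : y ^ m = 1) (hxy : x ≠ y) :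
    w (x - y) = 1 := by
  haveI : NeZero m := ⟨hm.ne'⟩
  have hy0 : y ≠ 0 := by
    intro h0
    rw [h0, zero_pow hm.ne'] at hy
    exact zero_ne_one hy
  have hxy' : (x / y) ^ m = 1 := by rw [div_pow, hx, hy, div_one]
  obtain ⟨i, him, hi⟩ := hζ.eq_pow_of_pow_eq_one hxy'
  have hi0 : i ≠ 0 := by
    rintro rfl
    rw [pow_zero] at hi
    exact hxy ((div_eq_one_iff_eq hy0).mp hi.symm)
  obtain ⟨m', rfl⟩ : ∃ m', m = m' + 1 := ⟨m - 1, by omega⟩
  have hprod := hζ.prod_one_sub_pow_eq_order
  have hw : w (∏ k ∈ Finset.range m', (1 - ζ ^ (k + 1))) = 1 := by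
    rw [hprod]
    have : ((m' : L) + 1) = ((m' + 1 : ℕ) : L) := by push_cast; rfl
    rw [this]
    exact hwm
  have hζ1 : w ζ = 1 := h24lb_w_eq_one_of_pow w hm hζ.pow_eq_one
  have hfac := h24lb_factor_eq_one w (Finset.range m') (fun k => 1 - ζ ^ (k + 1))
    (fun k _ => Valuation.map_sub_le w (by simp) (by rw [map_pow, hζ1, one_pow])) hw
  have hi1 : w (1 - ζ ^ i) = 1 := by
    have := hfac (i - 1) (Finset.mem_range.mpr (by omega))
    have e : i - 1 + 1 = i := by omega
    simpa [e] using this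
  have e : x - y = -(y * (1 - ζ ^ i)) := by
    rw [hi]; field_simp; ring
  rw [e, Valuation.map_neg, map_mul, h24lb_w_eq_one_of_pow w hm hy, hi1, one_mul]

theorem h24lb_natCast_le_one (n : ℕ) : w (n : L) ≤ 1 := by
  induction n with
  | zero => simp
  | succ n ih =>
    push_cast
    exact Valuation.map_add_le w ih (by simp)

theorem h24lb_one_lt_q (hw : IsLocalVal w) : 1 < h24lb_q w := by
  haveI := h24lb_finite_k w hw
  unfold h24lb_q
  exact Finite.one_lt_card

theorem h24lb_card_lt_one (hw : IsLocalVal w) : w ((h24lb_q w : ℕ) : L) < 1 := by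
  have h0 := h24lb_res_card_eq_zero w hw
  have hN1 : w ((h24lb_q w : ℕ) : L) ≤ 1 := h24lb_natCast_le_one w _
  have h1 : h24lb_res w (h24lb_mk w _ hN1) = 0 := by
    have e : (h24lb_mk w ((h24lb_q w : ℕ) : L) hN1 : h24lb_A w) = ((h24lb_q w : ℕ) : h24lb_A w) :=
      Subtype.ext (by simp)
    rw [e, map_natCast]
    exact h0
  rw [h24lb_res_eq_zero_iff] at h1
  exact h1

end general

section unr

variable {K L : Type} [Field K] [Field L] [Algebra K L] [FiniteDimensional K L] [IsGalois K L]
  {v : Valuation K ℤᵐ⁰} {w : Valuation L ℤᵐ⁰} {e : ℕ}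

theorem h24lb_w_algebraMap_le (h : IsLocalExt v w e) {x : K} (hx : v x ≤ 1) :
    w (algebraMap K L x) ≤ 1 := by
  rw [h.ext]
  exact pow_le_one' hx e

theorem h24lb_w_algebraMap_lt_iff (h : IsLocalExt v w e) {x : K} :
    w (algebraMap K L x) < 1 ↔ v x < 1 := by
  rw [h.ext]
  constructor
  · intro hlt
    by_contra hge
    rw [not_lt] at hge
    exact absurd hlt (not_lt.mpr (one_le_pow_of_one_le' hge e))
  · intro hlt
    exact pow_lt_one' hlt h.e_pos.ne'

theorem h24lb_w_q_lt (h : IsLocalExt v w e) : w ((h24lb_q v : ℕ) : L) < 1 := by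
  have h1 := h24lb_card_lt_one v h.hv
  have e1 : ((h24lb_q v : ℕ) : L) = algebraMap K L ((h24lb_q v : ℕ) : K) :=
    (map_natCast _ _).symm
  rw [e1, h24lb_w_algebraMap_lt_iff h]
  exact h1

theorem h24lb_w_m (h : IsLocalExt v w e) (n : ℕ) (hn : 0 < n) :
    w ((h24lb_q v ^ n - 1 : ℕ) : L) = 1 := by
  have hq := h24lb_one_lt_q v h.hv
  have h1 : 1 ≤ h24lb_q v ^ n := Nat.one_le_pow _ _ (by omega)
  rw [Nat.cast_sub h1, Nat.cast_pow, Nat.cast_one, Valuation.map_sub_swap]
  apply Valuation.map_one_sub_of_lt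
  rw [map_pow]
  exact pow_lt_one' (h24lb_w_q_lt h) hn.ne'

/-- `Gal(L/K)` acts faithfully on the residue field if `L = K(ζ)`, `ζ` a root of unity of order
prime to the residue characteristic -/
theorem h24lb_faithful_of_root (h : IsLocalExt v w e) {m : ℕ} (hm : 0 < m)
    (hwm : w (m : L) = 1) {ζ : L} (hζ : IsPrimitiveRoot ζ m)
    (hgen : ∀ σ : L ≃ₐ[K] L, σ ζ = ζ → σ = 1) :
    letI := h24lb_action w h.inv
    FaithfulSMul (L ≃ₐ[K] L) (h24lb_k w) := by
  letI := h24lb_action w h.inv
  have hζ1 : w ζ ≤ 1 := (h24lb_w_eq_one_of_pow w hm hζ.pow_eq_one).le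
  refine ⟨fun {σ τ} hστ => ?_⟩
  have h1 : τ⁻¹ * σ = 1 := by
    apply hgen
    have e1 := hστ (h24lb_resL w ζ)
    have e2 : (τ⁻¹ * σ) • h24lb_resL w ζ = h24lb_resL w ζ := by
      rw [mul_smul, e1, ← mul_smul, inv_mul_cancel, one_smul]
    rw [h24lb_resL_smul w h.inv (τ⁻¹ * σ) hζ1,
      h24lb_resL_eq_iff w (by rw [h.inv]; exact hζ1) hζ1] at e2
    by_contra hne
    have := h24lb_root_sub_root w hm hwm hζ (x := (τ⁻¹ * σ) ζ) (y := ζ)
      (by rw [← map_pow, hζ.pow_eq_one, map_one]) hζ.pow_eq_one hne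
    rw [this] at e2
    exact lt_irrefl _ e2
  calc σ = τ * (τ⁻¹ * σ) := by group
    _ = τ := by rw [h1, mul_one]

/-- the residue field of `K` injects into the fixed field of `Gal(L/K)` in `k_L` -/
theorem h24lb_card_le_fixed (h : IsLocalExt v w e) :
    letI := h24lb_action w h.inv
    Nat.card (h24lb_k v) ≤ Nat.card (FixedPoints.subfield (L ≃ₐ[K] L) (h24lb_k w)) := by
  letI := h24lb_action w h.inv
  haveI : Finite (h24lb_k w) := h24lb_finite_k w h.hw
  choose lift hlift1 hlift2 using h24lb_resL_surj v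
  let f : h24lb_k v → FixedPoints.subfield (L ≃ₐ[K] L) (h24lb_k w) := fun c =>
    ⟨h24lb_resL w (algebraMap K L (lift c)), fun σ => by
      rw [h24lb_resL_smul w h.inv σ (h24lb_w_algebraMap_le h (hlift1 c)), AlgEquiv.commutes]⟩
  refine Nat.card_le_card_of_injective f ?_
  intro c c' hcc
  have h1 : h24lb_resL w (algebraMap K L (lift c)) = h24lb_resL w (algebraMap K L (lift c')) :=
    congrArg Subtype.val hcc
  rw [h24lb_resL_eq_iff w (h24lb_w_algebraMap_le h (hlift1 c))
    (h24lb_w_algebraMap_le h (hlift1 c')), ← map_sub, h24lb_w_algebraMap_lt_iff h,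
    ← h24lb_resL_eq_iff v (hlift1 c) (hlift1 c'), hlift2, hlift2] at h1
  exact h1

theorem h24lb_frob_pow_apply (F k : Type) [Field F] [Fintype F] [Field k] [Algebra F k]
    [Algebra.IsAlgebraic F k] (i : ℕ) (x : k) :
    (FiniteField.frobeniusAlgEquivOfAlgebraic F k ^ i) x = x ^ (Fintype.card F ^ i) := by
  induction i generalizing x with
  | zero => simp
  | succ i ih =>
    rw [pow_succ, AlgEquiv.mul_apply, FiniteField.frobeniusAlgEquivOfAlgebraic_apply, ih,
      ← pow_mul, pow_succ, mul_comm]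

/-- **unramified of degree `n`** -/
theorem h24lb_unr_of_root (h : IsLocalExt v w e)
    (hEF : Nat.card (h24lb_k w) ^ e = Nat.card (h24lb_k v) ^ Module.finrank K L)
    (n : ℕ) (hn : 0 < n) (ζ : L) (hζ : IsPrimitiveRoot ζ (h24lb_q v ^ n - 1))
    (hgen : ∀ σ : L ≃ₐ[K] L, σ ζ = ζ → σ = 1) :
    e = 1 ∧ Module.finrank K L = n := by
  have hN1 : 1 < h24lb_q v := h24lb_one_lt_q v h.hv
  have hNn : 2 ≤ h24lb_q v ^ n :=
    calc 2 ≤ h24lb_q v := hN1
      _ = h24lb_q v ^ 1 := (pow_one _).symm
      _ ≤ h24lb_q v ^ n := Nat.pow_le_pow_right (by omega) hn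
  have hmpos : 0 < h24lb_q v ^ n - 1 := by omega
  have hwm := h24lb_w_m h n hn
  letI := h24lb_action w h.inv
  haveI := h24lb_faithful_of_root h hmpos hwm hζ hgen
  haveI : Finite (h24lb_k w) := h24lb_finite_k w h.hw
  haveI : Fintype (h24lb_k w) := Fintype.ofFinite _
  haveI : Fintype (FixedPoints.subfield (L ≃ₐ[K] L) (h24lb_k w)) := Fintype.ofFinite _
  have hζ1 : w ζ = 1 := h24lb_w_eq_one_of_pow w hmpos hζ.pow_eq_one
  have hd : Module.finrank (FixedPoints.subfield (L ≃ₐ[K] L) (h24lb_k w)) (h24lb_k w)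
      = Module.finrank K L := by
    rw [FixedPoints.finrank_eq_card, ← Nat.card_eq_fintype_card, IsGalois.card_aut_eq_finrank]
  have hcard : Nat.card (h24lb_k w)
      = Nat.card (FixedPoints.subfield (L ≃ₐ[K] L) (h24lb_k w)) ^ Module.finrank K L := by
    rw [Nat.card_eq_fintype_card, Nat.card_eq_fintype_card,
      Module.card_eq_pow_finrank (K := FixedPoints.subfield (L ≃ₐ[K] L) (h24lb_k w))
        (V := h24lb_k w), hd]
  have hF0 := h24lb_card_le_fixed h
  have hdpos : 0 < Module.finrank K L := Module.finrank_pos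
  have hNq : Nat.card (h24lb_k v) = h24lb_q v := rfl
  rw [hNq] at hEF hF0
  -- `e = 1`
  have he : e = 1 := by
    have h1 : h24lb_q v ^ (Module.finrank K L * e) ≤ h24lb_q v ^ Module.finrank K L := by
      calc h24lb_q v ^ (Module.finrank K L * e) = (h24lb_q v ^ Module.finrank K L) ^ e :=
            pow_mul _ _ _
        _ ≤ (Nat.card (FixedPoints.subfield (L ≃ₐ[K] L) (h24lb_k w)) ^ Module.finrank K L) ^ e := by
            gcongr
        _ = Nat.card (h24lb_k w) ^ e := by rw [hcard]
        _ = h24lb_q v ^ Module.finrank K L := hEF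
    have h2 := (Nat.pow_le_pow_iff_right hN1).mp h1
    have h3 := h.e_pos
    nlinarith
  rw [he, pow_one] at hEF
  have hF0eq : Nat.card (FixedPoints.subfield (L ≃ₐ[K] L) (h24lb_k w)) = h24lb_q v := by
    have h1 : Nat.card (FixedPoints.subfield (L ≃ₐ[K] L) (h24lb_k w)) ^ Module.finrank K L
        = h24lb_q v ^ Module.finrank K L := by rw [← hcard, hEF]
    exact Nat.pow_left_injective hdpos.ne' h1
  -- the residue class of `ζ`
  set zb : h24lb_k w := h24lb_resL w ζ with hzb
  have hzb_pow : ∀ a : ℕ, zb ^ a = h24lb_resL w (ζ ^ a) := by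
    intro a
    induction a with
    | zero => rw [pow_zero, pow_zero, h24lb_resL_one]
    | succ a ih =>
      rw [pow_succ, pow_succ, h24lb_resL_mul w (by rw [map_pow, hζ1, one_pow]) hζ1.le, ih]
  have hzbm : zb ^ (h24lb_q v ^ n - 1) = 1 := by
    rw [hzb_pow, hζ.pow_eq_one, h24lb_resL_one]
  have hzbN : zb ^ (h24lb_q v ^ n) = zb := by
    have : h24lb_q v ^ n = (h24lb_q v ^ n - 1) + 1 := by omega
    rw [this, pow_succ, hzbm, one_mul]
  refine ⟨he, le_antisymm ?_ ?_⟩
  · -- `d ≤ n`: every automorphism acts on `ζ̄` by a power of the `N`-Frobenius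
    haveI : Algebra.IsAlgebraic (FixedPoints.subfield (L ≃ₐ[K] L) (h24lb_k w)) (h24lb_k w) :=
      Algebra.IsAlgebraic.of_finite _ _
    have hact : ∀ σ : L ≃ₐ[K] L, ∃ i : ℕ, σ • zb = zb ^ (h24lb_q v ^ i) := by
      intro σ
      obtain ⟨i, hi⟩ := (FiniteField.bijective_frobeniusAlgEquivOfAlgebraic_pow
        (FixedPoints.subfield (L ≃ₐ[K] L) (h24lb_k w)) (h24lb_k w)).2
        (FixedPoints.toAlgAutMulEquiv (L ≃ₐ[K] L) (h24lb_k w) σ)
      refine ⟨i.1, ?_⟩
      have h1 := congrArg (fun τ : (h24lb_k w) ≃ₐ[FixedPoints.subfield (L ≃ₐ[K] L) (h24lb_k w)]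
        (h24lb_k w) => τ zb) hi
      simp only [h24lb_frob_pow_apply] at h1
      rw [← Nat.card_eq_fintype_card, hF0eq] at h1
      rw [h1]
      rfl
    have hper : ∀ b : ℕ, zb ^ ((h24lb_q v ^ n) ^ b) = zb := by
      intro b
      induction b with
      | zero => simp
      | succ b ih => rw [pow_succ, pow_mul, ih, hzbN]
    have hmod : ∀ a : ℕ, zb ^ (h24lb_q v ^ a) = zb ^ (h24lb_q v ^ (a % n)) := by
      intro a
      conv_lhs => rw [← Nat.div_add_mod a n, pow_add, pow_mul, pow_mul, hper]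
    classical
    let S : Finset (h24lb_k w) := (Finset.range n).image (fun a => zb ^ (h24lb_q v ^ a))
    have hS : S.card ≤ n := (Finset.card_image_le).trans (by simp)
    have hmaps : ∀ σ : L ≃ₐ[K] L, σ • zb ∈ S := by
      intro σ
      obtain ⟨i, hi⟩ := hact σ
      rw [hi, hmod]
      exact Finset.mem_image.mpr ⟨i % n, Finset.mem_range.mpr (Nat.mod_lt _ hn), rfl⟩
    have hinj : Function.Injective (fun σ : L ≃ₐ[K] L => σ • zb) := by
      intro σ τ hστ
      have hστ' : σ • zb = τ • zb := hστ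
      have h1 : τ⁻¹ * σ = 1 := by
        apply hgen
        have e2 : (τ⁻¹ * σ) • zb = zb := by
          rw [mul_smul, hστ', ← mul_smul, inv_mul_cancel, one_smul]
        rw [hzb, h24lb_resL_smul w h.inv (τ⁻¹ * σ) hζ1.le,
          h24lb_resL_eq_iff w (by rw [h.inv]; exact hζ1.le) hζ1.le] at e2
        by_contra hne
        have := h24lb_root_sub_root w hmpos hwm hζ (x := (τ⁻¹ * σ) ζ) (y := ζ)
          (by rw [← map_pow, hζ.pow_eq_one, map_one]) hζ.pow_eq_one hne
        rw [this] at e2
        exact lt_irrefl _ e2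
      calc σ = τ * (τ⁻¹ * σ) := by group
        _ = τ := by rw [h1, mul_one]
    have hG : Fintype.card (L ≃ₐ[K] L) ≤ S.card := by
      rw [← Finset.card_univ]
      exact Finset.card_le_card_of_injOn (fun σ : L ≃ₐ[K] L => σ • zb)
        (fun σ _ => hmaps σ) (fun σ _ τ _ hh => hinj hh)
    rw [← IsGalois.card_aut_eq_finrank, Nat.card_eq_fintype_card]
    exact hG.trans hS
  · -- `n ≤ d`: the residue field has at least `N ^ n` elements
    have hle : h24lb_q v ^ n ≤ Nat.card (h24lb_k w) := by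
      let g : Option (Fin (h24lb_q v ^ n - 1)) → h24lb_k w := fun o =>
        match o with
        | none => 0
        | some i => zb ^ i.1
      have hg : Function.Injective g := by
        have hne : ∀ i : Fin (h24lb_q v ^ n - 1), zb ^ i.1 ≠ 0 := by
          intro i h0
          rw [hzb_pow, h24lb_resL_eq_zero_iff w (by rw [map_pow, hζ1, one_pow]), map_pow, hζ1,
            one_pow] at h0
          exact lt_irrefl _ h0
        intro a b hab
        cases a with
        | none =>
          cases b with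
          | none => rfl
          | some j => exact absurd hab.symm (hne j)
        | some i =>
          cases b with
          | none => exact absurd hab (hne i)
          | some j =>
            have h1 : zb ^ i.1 = zb ^ j.1 := hab
            rw [hzb_pow, hzb_pow, h24lb_resL_eq_iff w (by rw [map_pow, hζ1, one_pow])
              (by rw [map_pow, hζ1, one_pow])] at h1
            have h2 : ζ ^ i.1 = ζ ^ j.1 := by
              by_contra hne'
              have := h24lb_root_sub_root w hmpos hwm hζ (x := ζ ^ i.1) (y := ζ ^ j.1)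
                (by rw [← pow_mul, mul_comm, pow_mul, hζ.pow_eq_one, one_pow])
                (by rw [← pow_mul, mul_comm, pow_mul, hζ.pow_eq_one, one_pow]) hne'
              rw [this] at h1
              exact lt_irrefl _ h1
            have h3 := hζ.pow_inj i.2 j.2 h2
            exact congrArg some (Fin.ext h3)
      have := Nat.card_le_card_of_injective g hg
      rw [Nat.card_eq_fintype_card, Fintype.card_option, Fintype.card_fin] at this
      omega
    rw [hEF] at hle
    exact (Nat.pow_le_pow_iff_right hN1).mp hle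

end unr

end H24LB

end
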