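/-
W2-C (S55) block B, slice UnrRoots (helper24): adjoining a root of unity of order prime to `q`
to a `q`-adic field gives an unramified Galois extension
(`h24lb_unrRoots : H3LB.RamResDegree → H3LB.UnrRoots`).
-/
import Mathlib
import Fermat.Agent.CFT2.B.UnrRoot_helper24
import Fermat.Agent.CFT2.B.Defs3

set_option autoImplicit false
set_option linter.style.haveILetI false
set_option linter.unusedSectionVars false
set_option linter.unusedVariables false

noncomputable section

namespace H24LB

open scoped WithZero Pointwise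
open H3LB

section unr

variable {K L : Type} [Field K] [Field L] [Algebra K L] [FiniteDimensional K L] [IsGalois K L]
  {v : Valuation K ℤᵐ⁰} {w : Valuation L ℤᵐ⁰} {e : ℕ}

/-- if `Gal(L/K)` acts faithfully on the residue field and `|k_L| ^ e = |k_K| ^ [L:K]`, then
`e = 1` -/
theorem h24lb_e_eq_one (h : IsLocalExt v w e)
    (hEF : Nat.card (h24lb_k w) ^ e = Nat.card (h24lb_k v) ^ Module.finrank K L)
    (hfaith : letI := h24lb_action w h.inv; FaithfulSMul (L ≃ₐ[K] L) (h24lb_k w)) : e = 1 := by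
  have hN1 : 1 < h24lb_q v := h24lb_one_lt_q v h.hv
  letI := h24lb_action w h.inv
  haveI := hfaith
  haveI : Finite (h24lb_k w) := h24lb_finite_k w h.hw
  haveI : Fintype (h24lb_k w) := Fintype.ofFinite _
  haveI : Fintype (FixedPoints.subfield (L ≃ₐ[K] L) (h24lb_k w)) := Fintype.ofFinite _
  have hd : Module.finrank (FixedPoints.subfield (L ≃ₐ[K] L) (h24lb_k w)) (h24lb_k w)
      = Module.finrank K L := by
    rw [FixedPoints.finrank_eq_card, ← Nat.card_eq_fintype_card, IsGalois.card_aut_eq_finrank]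
  have hcard : Nat.card (h24lb_k w)
      = Nat.card (FixedPoints.subfield (L ≃ₐ[K] L) (h24lb_k w)) ^ Module.finrank K L := by
    rw [Nat.card_eq_fintype_card, Nat.card_eq_fintype_card,
      Module.card_eq_pow_finrank (K := FixedPoints.subfield (L ≃ₐ[K] L) (h24lb_k w))
        (V := h24lb_k w), hd]
  have hF0 := h24lb_card_le_fixed h
  have hdpos : 0 < Module.finrank K L := Module.finrank_pos
  have hNq : Nat.card (h24lb_k v) = h24lb_q v := rfl
  rw [hNq] at hEF hF0
  have h1 : h24lb_q v ^ (Module.finrank K L * e) ≤ h24lb_q v ^ Module.finrank K L := by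
    calc h24lb_q v ^ (Module.finrank K L * e) = (h24lb_q v ^ Module.finrank K L) ^ e :=
          pow_mul _ _ _
      _ ≤ (Nat.card (FixedPoints.subfield (L ≃ₐ[K] L) (h24lb_k w)) ^ Module.finrank K L) ^ e := by
          gcongr
      _ = Nat.card (h24lb_k w) ^ e := by rw [hcard]
      _ = h24lb_q v ^ Module.finrank K L := hEF
  have h2 := (Nat.pow_le_pow_iff_right hN1).mp h1
  have h3 := h.e_pos
  nlinarith

end unr

section padic

variable (q : ℕ) [Fact q.Prime] (L : Type) [Field L] [Algebra ℚ_[q] L]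
  [FiniteDimensional ℚ_[q] L]

/-- natural numbers prime to `q` are units -/
theorem h24lb_padicVal_natCast_eq_one {d : ℕ} (hd : ¬ q ∣ d) : padicVal q L (d : L) = 1 := by
  have h1 : snorm q L (1 : L) = snorm q L (d : L) := by
    rw [h3lb_snorm_one]
    have e1 : (d : L) = algebraMap ℚ_[q] L (d : ℚ_[q]) := (map_natCast _ _).symm
    rw [e1, h3lb_snorm_algebraMap, Padic.norm_natCast_eq_one_iff.mpr]
    exact (Nat.Prime.coprime_iff_not_dvd Fact.out).mpr hd
  exact (h3lb_padicVal_eq_of_snorm_eq q (K := L) (L := L) (x := 1) (y := (d : L)) h1).mp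
    (map_one _)

/-- `q` is not a unit -/
theorem h24lb_padicVal_q_lt_one : padicVal q L (q : L) < 1 := by
  haveI : CharZero L := charZero_of_injective_algebraMap (algebraMap ℚ_[q] L).injective
  have hq0 : (q : L) ≠ 0 := Nat.cast_ne_zero.mpr (Fact.out : q.Prime).ne_zero
  have h1 : padicVal q L (q : L) < padicVal q L 1 := by
    rw [h3lb_padicVal_lt_iff q hq0, h3lb_snorm_one]
    have e1 : (q : L) = algebraMap ℚ_[q] L (q : ℚ_[q]) := (map_natCast _ _).symm
    rw [e1, h3lb_snorm_algebraMap]
    exact Padic.norm_p_lt_one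
  rwa [map_one] at h1

/-- a natural number which is a unit is prime to `q` -/
theorem h24lb_not_dvd_of_padicVal_eq_one {d : ℕ} (hd : padicVal q L (d : L) = 1) : ¬ q ∣ d := by
  rintro ⟨c, rfl⟩
  rw [Nat.cast_mul, map_mul] at hd
  have h1 := h24lb_padicVal_q_lt_one q L
  have h2 : padicVal q L (c : L) ≤ 1 := h24lb_natCast_le_one _ c
  have h3 : padicVal q L (q : L) * padicVal q L (c : L) < 1 := by
    calc padicVal q L (q : L) * padicVal q L (c : L) ≤ padicVal q L (q : L) * 1 := by gcongr
      _ < 1 := by rw [mul_one]; exact h1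
  rw [hd] at h3
  exact lt_irrefl _ h3

end padic

/-- **(UnrRoots)**, given BS-EF -/
theorem h24lb_unrRoots (hEF : H3LB.RamResDegree) : H3LB.UnrRoots := by
  intro q _ K L _ _ _ _ _ _ _ _ r ζ hqr hζr htop
  have hr0 : r ≠ 0 := by
    rintro rfl
    exact hqr (dvd_zero q)
  have hfin : IsOfFinOrder ζ :=
    isOfFinOrder_iff_pow_eq_one.mpr ⟨r, Nat.pos_of_ne_zero hr0, hζr⟩
  have hd : 0 < orderOf ζ := hfin.orderOf_pos
  have hdr : orderOf ζ ∣ r := orderOf_dvd_of_pow_eq_one hζr
  have hqd : ¬ q ∣ orderOf ζ := fun h => hqr (h.trans hdr)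
  have hprim : IsPrimitiveRoot ζ (orderOf ζ) := IsPrimitiveRoot.orderOf ζ
  haveI : NeZero (orderOf ζ) := ⟨hd.ne'⟩
  haveI : IsCyclotomicExtension {orderOf ζ} K L := by
    rw [IsCyclotomicExtension.iff_singleton]
    refine ⟨⟨ζ, hprim⟩, fun x => ?_⟩
    have hx : x ∈ Algebra.adjoin K {ζ} := by rw [htop]; trivial
    refine Algebra.adjoin_mono ?_ hx
    intro y hy
    rw [Set.mem_singleton_iff] at hy
    subst hy
    exact hprim.pow_eq_one
  haveI : IsGalois K L := IsCyclotomicExtension.isGalois {orderOf ζ} K L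
  haveI : FiniteDimensional K L := FiniteDimensional.right ℚ_[q] K L
  obtain ⟨e, he⟩ := h3lb_exists_isLocalExt q (K := K) (L := L)
  have hgen : ∀ σ : L ≃ₐ[K] L, σ ζ = ζ → σ = 1 := by
    intro σ hσ
    have h1 : (σ : L →ₐ[K] L) = AlgHom.id K L := by
      apply AlgHom.ext_of_adjoin_eq_top htop
      intro y hy
      rw [Set.mem_singleton_iff] at hy
      subst hy
      exact hσ
    ext x
    exact congrArg (fun f : L →ₐ[K] L => f x) h1
  have hwd : padicVal q L ((orderOf ζ : ℕ) : L) = 1 := h24lb_padicVal_natCast_eq_one q L hqd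
  have hfaith := h24lb_faithful_of_root he hd hwd hprim hgen
  have he1 := h24lb_e_eq_one he (hEF K L (padicVal q K) (padicVal q L) e he) hfaith
  refine ⟨inferInstance, ?_⟩
  rw [← he1]
  exact he

end H24LB

end
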