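/-
W2-C (S55) block B, slice UnrCompositum (B3+) (helper24):
for a finite Galois extension `L/K` of `q`-adic fields and `m > 0` there are `q`-adic fields
`U`, `E` with `K ⊆ U ⊆ E`, `K ⊆ L ⊆ E`, `E/K` Galois, `U/K` unramified Galois of degree `m`,
`E/L` unramified Galois  (`E = L(ζ)`, `U = K(ζ)`, `ζ` a primitive root of unity of order
`|k_K| ^ m - 1`).
`h24lb_unrCompositum : H3LB.RamResDegree → H3LB.UnrCompositum`.
-/
import Mathlib
import Fermat.Agent.CFT2.B.UnrRoots_helper24

set_option autoImplicit false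
set_option linter.style.haveILetI false
set_option linter.unusedSectionVars false
set_option linter.unusedVariables false

noncomputable section

namespace H24LB

open scoped WithZero Pointwise
open H3LB IntermediateField

/-- the conclusion of `H3LB.UnrCompositum` -/
def h24lb_CompConcl (q : ℕ) [Fact q.Prime] (K L : Type) [Field K] [Field L] [Algebra ℚ_[q] K]
    [Algebra ℚ_[q] L] [Algebra K L] [IsScalarTower ℚ_[q] K L] [FiniteDimensional ℚ_[q] K]
    [FiniteDimensional ℚ_[q] L] [IsGalois K L] (m : ℕ) : Prop :=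
  ∃ (U E : Type) (_ : Field U) (_ : Field E) (_ : Algebra ℚ_[q] U) (_ : Algebra ℚ_[q] E)
    (_ : Algebra K U) (_ : Algebra K E) (_ : Algebra L E) (_ : Algebra U E)
    (_ : IsScalarTower ℚ_[q] K U) (_ : IsScalarTower ℚ_[q] K E) (_ : IsScalarTower ℚ_[q] L E)
    (_ : IsScalarTower ℚ_[q] U E) (_ : IsScalarTower K L E) (_ : IsScalarTower K U E)
    (_ : FiniteDimensional ℚ_[q] U) (_ : FiniteDimensional ℚ_[q] E)
    (_ : IsGalois K U) (_ : IsGalois K E) (_ : IsGalois L E),
    Module.finrank K U = m ∧ IsLocalExt (padicVal q K) (padicVal q U) 1 ∧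
      IsLocalExt (padicVal q L) (padicVal q E) 1

section aux

variable (q : ℕ) [Fact q.Prime] (K L E : Type) [Field K] [Field L] [Field E]
  [Algebra ℚ_[q] K] [Algebra ℚ_[q] L] [Algebra ℚ_[q] E] [Algebra K L] [Algebra K E] [Algebra L E]
  [IsScalarTower ℚ_[q] K L] [IsScalarTower ℚ_[q] K E] [IsScalarTower ℚ_[q] L E]
  [IsScalarTower K L E]
  [FiniteDimensional ℚ_[q] K] [FiniteDimensional ℚ_[q] L] [FiniteDimensional ℚ_[q] E]
  [IsGalois K L]

/-- the compositum `E = L(ζ)`, `U = K(ζ)` -/
theorem h24lb_compositum_aux (hEF : H3LB.RamResDegree) (m : ℕ) (hm : 0 < m) (ζ : E)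
    (hζ : IsPrimitiveRoot ζ (h24lb_q (padicVal q K) ^ m - 1))
    (htop : Algebra.adjoin L {ζ} = ⊤) : h24lb_CompConcl q K L m := by
  classical
  haveI : FiniteDimensional K E := FiniteDimensional.right ℚ_[q] K E
  haveI : FiniteDimensional L E := FiniteDimensional.right ℚ_[q] L E
  haveI : CharZero K := charZero_of_injective_algebraMap (algebraMap ℚ_[q] K).injective
  have hv : IsLocalVal (padicVal q K) := h3lb_isLocalVal q K
  have hN1 : 1 < h24lb_q (padicVal q K) := h24lb_one_lt_q _ hv
  have hNn : 2 ≤ h24lb_q (padicVal q K) ^ m :=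
    calc 2 ≤ h24lb_q (padicVal q K) := hN1
      _ = h24lb_q (padicVal q K) ^ 1 := (pow_one _).symm
      _ ≤ h24lb_q (padicVal q K) ^ m := Nat.pow_le_pow_right (by omega) hm
  have hmpos : 0 < h24lb_q (padicVal q K) ^ m - 1 := by omega
  haveI : NeZero (h24lb_q (padicVal q K) ^ m - 1) := ⟨hmpos.ne'⟩
  haveI hst : IsScalarTower ℚ_[q] (IntermediateField.adjoin K {ζ}) E :=
    IsScalarTower.of_algebraMap_eq (fun x => by
      rw [IsScalarTower.algebraMap_apply ℚ_[q] K E,
        IsScalarTower.algebraMap_apply ℚ_[q] K (IntermediateField.adjoin K {ζ})]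
      rfl)
  haveI hfdU : FiniteDimensional ℚ_[q] (IntermediateField.adjoin K {ζ}) :=
    FiniteDimensional.trans ℚ_[q] K _
  have halg : IsAlgebraic K ζ := ((hζ.isIntegral hmpos).tower_top (A := K)).isAlgebraic
  haveI hcyc : IsCyclotomicExtension {h24lb_q (padicVal q K) ^ m - 1} K
      (IntermediateField.adjoin K {ζ}) := by
    change IsCyclotomicExtension {h24lb_q (padicVal q K) ^ m - 1} K
      (IntermediateField.adjoin K {ζ}).toSubalgebra
    rw [IntermediateField.adjoin_simple_toSubalgebra_of_isAlgebraic halg]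
    exact hζ.adjoin_isCyclotomicExtension K
  haveI hgalU : IsGalois K (IntermediateField.adjoin K {ζ}) :=
    IsCyclotomicExtension.isGalois {h24lb_q (padicVal q K) ^ m - 1} K _
  obtain ⟨e, he⟩ := h3lb_exists_isLocalExt q (K := K) (L := IntermediateField.adjoin K {ζ})
  let ζU : IntermediateField.adjoin K {ζ} := ⟨ζ, IntermediateField.mem_adjoin_simple_self K ζ⟩
  have hζU : IsPrimitiveRoot ζU (h24lb_q (padicVal q K) ^ m - 1) :=
    IsPrimitiveRoot.of_map_of_injective
      (f := algebraMap (IntermediateField.adjoin K {ζ}) E) hζ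
      (algebraMap (IntermediateField.adjoin K {ζ}) E).injective
  have hgen : ∀ σ : (IntermediateField.adjoin K {ζ}) ≃ₐ[K] (IntermediateField.adjoin K {ζ}),
      σ ζU = ζU → σ = 1 := by
    intro σ hσ
    have h1 : (σ : (IntermediateField.adjoin K {ζ}) →ₐ[K] (IntermediateField.adjoin K {ζ}))
        = AlgHom.id K _ := by
      apply IntermediateField.algHom_ext_of_eq_adjoin K (rfl : IntermediateField.adjoin K {ζ} = _)
      intro x hx
      rw [Set.mem_singleton_iff] at hx
      subst hx
      exact hσ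
    ext x
    exact congrArg Subtype.val (congrArg (fun f => f x) h1)
  have key := h24lb_unr_of_root he
    (hEF K (IntermediateField.adjoin K {ζ}) (padicVal q K)
      (padicVal q (IntermediateField.adjoin K {ζ})) e he) m hm ζU hζU hgen
  have hunrU : IsLocalExt (padicVal q K) (padicVal q (IntermediateField.adjoin K {ζ})) 1 := by
    rw [← key.1]
    exact he
  -- `E / L`
  have hqr : ¬ q ∣ h24lb_q (padicVal q K) ^ m - 1 :=
    h24lb_not_dvd_of_padicVal_eq_one q (IntermediateField.adjoin K {ζ}) (h24lb_w_m he m hm)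
  obtain ⟨hgalE, hunrE⟩ := h24lb_unrRoots hEF q L E (h24lb_q (padicVal q K) ^ m - 1) ζ hqr
    hζ.pow_eq_one htop
  -- `E / K` is Galois
  haveI hnorm : Normal K E := by
    haveI : Normal K (IsScalarTower.toAlgHom K L E).fieldRange :=
      Normal.of_algEquiv (AlgEquiv.ofInjectiveField (IsScalarTower.toAlgHom K L E))
    haveI : Normal K (IntermediateField.adjoin K {ζ}) := hgalU.to_normal
    have hsup := IntermediateField.normal_sup K E (IsScalarTower.toAlgHom K L E).fieldRange
      (IntermediateField.adjoin K {ζ})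
    have htop' : (IsScalarTower.toAlgHom K L E).fieldRange ⊔ IntermediateField.adjoin K {ζ}
        = ⊤ := by
      rw [eq_top_iff]
      intro x hxtop
      clear hxtop
      have hx : x ∈ Algebra.adjoin L {ζ} := by rw [htop]; trivial
      induction hx using Algebra.adjoin_induction with
      | mem y hy =>
        rw [Set.mem_singleton_iff] at hy
        subst hy
        exact (le_sup_right : IntermediateField.adjoin K {y} ≤ _)
          (IntermediateField.mem_adjoin_simple_self K y)
      | algebraMap l =>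
        exact (le_sup_left : (IsScalarTower.toAlgHom K L E).fieldRange ≤ _) ⟨l, rfl⟩
      | add a b _ _ ha hb => exact add_mem ha hb
      | mul a b _ _ ha hb => exact mul_mem ha hb
    rw [htop'] at hsup
    exact Normal.of_algEquiv (IntermediateField.topEquiv (F := K) (E := E))
  haveI hsep : Algebra.IsSeparable K E := Algebra.IsAlgebraic.isSeparable_of_perfectField
  haveI hgalEK : IsGalois K E := ⟨⟩
  exact ⟨IntermediateField.adjoin K {ζ}, E, inferInstance, inferInstance, inferInstance,
    inferInstance, inferInstance, inferInstance, inferInstance, inferInstance, inferInstance,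
    inferInstance, inferInstance, hst, inferInstance, inferInstance, hfdU, inferInstance,
    hgalU, hgalEK, hgalE, key.2, hunrU, hunrE⟩

end aux

/-- **(B3+) unramified compositum**, given BS-EF -/
theorem h24lb_unrCompositum (hEF : H3LB.RamResDegree) : H3LB.UnrCompositum := by
  intro q _ K L _ _ _ _ _ _ _ _ _ m hm
  have hv : IsLocalVal (padicVal q K) := h3lb_isLocalVal q K
  have hN1 : 1 < h24lb_q (padicVal q K) := h24lb_one_lt_q _ hv
  have hNn : 2 ≤ h24lb_q (padicVal q K) ^ m :=
    calc 2 ≤ h24lb_q (padicVal q K) := hN1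
      _ = h24lb_q (padicVal q K) ^ 1 := (pow_one _).symm
      _ ≤ h24lb_q (padicVal q K) ^ m := Nat.pow_le_pow_right (by omega) hm
  have hmpos : 0 < h24lb_q (padicVal q K) ^ m - 1 := by omega
  haveI : CharZero L := charZero_of_injective_algebraMap (algebraMap ℚ_[q] L).injective
  haveI : NeZero (h24lb_q (padicVal q K) ^ m - 1) := ⟨hmpos.ne'⟩
  haveI : NeZero ((h24lb_q (padicVal q K) ^ m - 1 : ℕ) : L) :=
    ⟨Nat.cast_ne_zero.mpr hmpos.ne'⟩
  haveI hcyc : IsCyclotomicExtension {h24lb_q (padicVal q K) ^ m - 1} L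
      (CyclotomicField (h24lb_q (padicVal q K) ^ m - 1) L) :=
    CyclotomicField.isCyclotomicExtension _ L
  haveI : FiniteDimensional L (CyclotomicField (h24lb_q (padicVal q K) ^ m - 1) L) :=
    IsCyclotomicExtension.finiteDimensional {h24lb_q (padicVal q K) ^ m - 1} L _
  haveI : FiniteDimensional ℚ_[q] (CyclotomicField (h24lb_q (padicVal q K) ^ m - 1) L) :=
    FiniteDimensional.trans ℚ_[q] L _
  haveI : IsScalarTower ℚ_[q] K (CyclotomicField (h24lb_q (padicVal q K) ^ m - 1) L) :=
    IsScalarTower.of_algebraMap_eq (fun x => by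
      rw [IsScalarTower.algebraMap_apply ℚ_[q] L
          (CyclotomicField (h24lb_q (padicVal q K) ^ m - 1) L),
        IsScalarTower.algebraMap_apply ℚ_[q] K L,
        ← IsScalarTower.algebraMap_apply K L
          (CyclotomicField (h24lb_q (padicVal q K) ^ m - 1) L)])
  have hζ := IsCyclotomicExtension.zeta_spec (h24lb_q (padicVal q K) ^ m - 1) L
    (CyclotomicField (h24lb_q (padicVal q K) ^ m - 1) L)
  exact h24lb_compositum_aux q K L (CyclotomicField (h24lb_q (padicVal q K) ^ m - 1) L) hEF m hm
    _ hζ (IsCyclotomicExtension.adjoin_primitive_root_eq_top hζ)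

end H24LB

end
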