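/-
W2-C (S55) block B, slice B3 (helper24): unramified extensions of every degree exist.

`h24lb_unrExists : H3LB.RamResDegree → H3LB.UnrExists`: for a `q`-adic field `K` inside an
algebraically closed field `Ω` and `n ≥ 1`, the field `E = K(ζ)`, `ζ` a primitive root of unity of
order `|k_K| ^ n - 1`, is Galois over `K` of degree `n` and unramified.
(`RamResDegree` = slice BS-EF `|k_L| ^ e = |k_K| ^ [L:K]`.)
-/
import Mathlib
import Fermat.Agent.CFT2.B.UnrRoot_helper24
import Fermat.Agent.CFT2.B.Defs2

set_option autoImplicit false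
set_option linter.style.haveILetI false
set_option linter.unusedSectionVars false
set_option linter.unusedVariables false

noncomputable section

namespace H24LB

open scoped WithZero Pointwise
open H3LB IntermediateField

/-- **(B3)**, given BS-EF -/
theorem h24lb_unrExists (hEF : H3LB.RamResDegree) : H3LB.UnrExists := by
  intro q _ K Ω _ _ _ _ _ _ _ _ n hn
  have hv : IsLocalVal (padicVal q K) := h3lb_isLocalVal q K
  have hN1 : 1 < h24lb_q (padicVal q K) := h24lb_one_lt_q _ hv
  have hNn : 2 ≤ h24lb_q (padicVal q K) ^ n :=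
    calc 2 ≤ h24lb_q (padicVal q K) := hN1
      _ = h24lb_q (padicVal q K) ^ 1 := (pow_one _).symm
      _ ≤ h24lb_q (padicVal q K) ^ n := Nat.pow_le_pow_right (by omega) hn
  have hmpos : 0 < h24lb_q (padicVal q K) ^ n - 1 := by omega
  haveI : CharZero Ω := charZero_of_injective_algebraMap (algebraMap ℚ_[q] Ω).injective
  haveI : NeZero (h24lb_q (padicVal q K) ^ n - 1) := ⟨hmpos.ne'⟩
  haveI : NeZero ((h24lb_q (padicVal q K) ^ n - 1 : ℕ) : Ω) :=
    ⟨Nat.cast_ne_zero.mpr hmpos.ne'⟩
  obtain ⟨ζ, hζ⟩ := HasEnoughRootsOfUnity.exists_primitiveRoot Ω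
    (h24lb_q (padicVal q K) ^ n - 1)
  have halg : IsAlgebraic K ζ := ((hζ.isIntegral hmpos).tower_top (A := K)).isAlgebraic
  haveI hcyc : IsCyclotomicExtension {h24lb_q (padicVal q K) ^ n - 1} K
      (IntermediateField.adjoin K {ζ}) := by
    change IsCyclotomicExtension {h24lb_q (padicVal q K) ^ n - 1} K
      (IntermediateField.adjoin K {ζ}).toSubalgebra
    rw [IntermediateField.adjoin_simple_toSubalgebra_of_isAlgebraic halg]
    exact hζ.adjoin_isCyclotomicExtension K
  haveI hfd : FiniteDimensional K (IntermediateField.adjoin K {ζ}) :=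
    IsCyclotomicExtension.finiteDimensional {h24lb_q (padicVal q K) ^ n - 1} K _
  haveI hgal : IsGalois K (IntermediateField.adjoin K {ζ}) :=
    IsCyclotomicExtension.isGalois {h24lb_q (padicVal q K) ^ n - 1} K _
  haveI hfdq : FiniteDimensional ℚ_[q] (IntermediateField.adjoin K {ζ}) :=
    FiniteDimensional.trans ℚ_[q] K _
  obtain ⟨e, he⟩ := h3lb_exists_isLocalExt q (K := K) (L := IntermediateField.adjoin K {ζ})
  let ζE : IntermediateField.adjoin K {ζ} := ⟨ζ, IntermediateField.mem_adjoin_simple_self K ζ⟩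
  have hζE : IsPrimitiveRoot ζE (h24lb_q (padicVal q K) ^ n - 1) :=
    IsPrimitiveRoot.of_map_of_injective
      (f := algebraMap (IntermediateField.adjoin K {ζ}) Ω) hζ
      (algebraMap (IntermediateField.adjoin K {ζ}) Ω).injective
  have hgen : ∀ σ : (IntermediateField.adjoin K {ζ}) ≃ₐ[K] (IntermediateField.adjoin K {ζ}),
      σ ζE = ζE → σ = 1 := by
    intro σ hσ
    have h1 : (σ : (IntermediateField.adjoin K {ζ}) →ₐ[K] (IntermediateField.adjoin K {ζ}))
        = AlgHom.id K _ := by
      apply IntermediateField.algHom_ext_of_eq_adjoin K (rfl : IntermediateField.adjoin K {ζ} = _)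
      intro x hx
      rw [Set.mem_singleton_iff] at hx
      subst hx
      exact hσ
    ext x
    exact congrArg Subtype.val (congrArg (fun f => f x) h1)
  have key := h24lb_unr_of_root he
    (hEF K (IntermediateField.adjoin K {ζ}) (padicVal q K)
      (padicVal q (IntermediateField.adjoin K {ζ})) e he) n hn ζE hζE hgen
  refine ⟨IntermediateField.adjoin K {ζ}, hfdq, hgal, key.2, ?_⟩
  rw [← key.1]
  exact he

end H24LB

end
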