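/-
W2-C (S55) block B (helper24): UNCONDITIONAL versions of the slices B3 (UnrExists), UnrRoots,
UnrCompositum, using helper10's BS-EF (`H10LB.h10lb_ramResDegree`).
-/
import Mathlib
import Fermat.Agent.CFT2.B.UnrExists_helper24
import Fermat.Agent.CFT2.B.UnrCompositum_helper24
import Fermat.Agent.CFT2.B.RamRes_helper10

set_option autoImplicit false

namespace H24LB

/-- **(B3)** unramified extensions of every degree exist -/
theorem h24lb_unrExists_final : H3LB.UnrExists :=
  h24lb_unrExists H10LB.h10lb_ramResDegree

/-- **(UnrRoots)** -/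
theorem h24lb_unrRoots_final : H3LB.UnrRoots :=
  h24lb_unrRoots H10LB.h10lb_ramResDegree

/-- **(B3+) unramified compositum** -/
theorem h24lb_unrCompositum_final : H3LB.UnrCompositum :=
  h24lb_unrCompositum H10LB.h10lb_ramResDegree

end H24LB
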