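/-
W2-C (S55) block B, slice UnrGen (helper22): an unramified extension of local fields is generated
by a root of unity of order `|k_L| - 1` (the Teichmüller lift of a generator of `k_L^×`).

* `h22ug_exists_gen` : general `IsLocalExt v w 1`: `∃ ζ, ζ ^ (|k_L| - 1) = 1 ∧ K[ζ] = L`;
* `h22ug_unrGen`     : `H3LB.UnrGen` (`q`-adic fields: the order is prime to `q`).
-/
import Mathlib
import Fermat.Agent.CFT2.B.Defs5
import Fermat.Agent.CFT2.B.UnrCyclic_helper24

set_option autoImplicit false
set_option linter.style.haveILetI false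
set_option linter.unusedSectionVars false
set_option linter.unusedVariables false

noncomputable section

namespace H22UG

open scoped WithZero IntermediateField
open H3LB H24LB

variable {K L : Type} [Field K] [Field L] [Algebra K L]
  {v : Valuation K ℤᵐ⁰} {w : Valuation L ℤᵐ⁰}

/-- an unramified extension is generated by a `(|k_L| - 1)`-th root of unity -/
theorem h22ug_exists_gen (h : IsLocalExt v w 1) :
    ∃ ζ : L, ζ ^ (h24lb_q w - 1) = 1 ∧ Algebra.adjoin K {ζ} = ⊤ := by
  haveI : FiniteDimensional K L := h.fin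
  haveI : IsGalois K L := h.gal
  haveI : Finite (h24lb_k w) := h24lb_finite_k w h.hw
  obtain ⟨g, hg⟩ := IsCyclic.exists_generator (α := (h24lb_k w)ˣ)
  obtain ⟨x, hx⟩ := IsLocalRing.residue_surjective (g : h24lb_k w)
  have hx1 : w (x : L) ≤ 1 := (h24lb_mem_A w).mp x.2
  obtain ⟨t, ht1, htq, htx⟩ := h24lb_teich_exists w h.hw (x : L) hx1
  have hrest : h24lb_res w (h24lb_mk w t ht1) = (g : h24lb_k w) := by
    rw [← hx, h24lb_res_eq_iff]
    exact htx
  have ht0 : t ≠ 0 := by
    intro h0
    have : h24lb_res w (h24lb_mk w t ht1) = 0 := by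
      rw [h24lb_res_eq_zero_iff]
      simp [h0]
    rw [hrest] at this
    exact g.ne_zero this
  have hQ : 0 < h24lb_q w := h24lb_q_pos w h.hw
  have htpow : t ^ (h24lb_q w - 1) = 1 := by
    have h1 : t * t ^ (h24lb_q w - 1) = t * 1 := by
      rw [← pow_succ', Nat.sub_add_cancel hQ, htq, mul_one]
    exact mul_left_cancel₀ ht0 h1
  refine ⟨t, htpow, ?_⟩
  -- an automorphism fixing `t` is trivial
  have hfix : ∀ σ : L ≃ₐ[K] L, σ t = t → σ = 1 := by
    intro σ hσ
    apply h24lb_inertia_trivial h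
    intro y hy
    by_cases hy0 : h24lb_res w (h24lb_mk w y hy) = 0
    · rw [h24lb_res_eq_zero_iff] at hy0
      have hσy : w (σ y) < 1 := by rw [h.inv]; exact hy0
      exact lt_of_le_of_lt (Valuation.map_sub w _ _) (max_lt hσy hy0)
    · obtain ⟨i, hi⟩ : ∃ i : ℕ, g ^ i = Units.mk0 _ hy0 := by
        have := hg (Units.mk0 _ hy0)
        rw [← mem_powers_iff_mem_zpowers] at this
        exact this
      have hti : w (t ^ i) ≤ 1 := by rw [map_pow]; exact pow_le_one₀ zero_le ht1
      have hres : h24lb_res w (h24lb_mk w y hy) = h24lb_res w (h24lb_mk w (t ^ i) hti) := by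
        have e1 : h24lb_mk w (t ^ i) hti = (h24lb_mk w t ht1) ^ i := Subtype.ext rfl
        rw [e1, map_pow, hrest]
        have := congrArg (fun u : (h24lb_k w)ˣ => (u : h24lb_k w)) hi
        simp only [Units.val_pow_eq_pow_val, Units.val_mk0] at this
        exact this.symm
      rw [h24lb_res_eq_iff] at hres
      simp only [h24lb_mk_coe] at hres
      have e : σ y - y = σ (y - t ^ i) - (y - t ^ i) := by
        rw [map_sub, map_pow, hσ]; ring
      rw [e]
      have h2 : w (σ (y - t ^ i)) < 1 := by rw [h.inv]; exact hres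
      exact lt_of_le_of_lt (Valuation.map_sub w _ _) (max_lt h2 hres)
  have hbot : (K⟮t⟯).fixingSubgroup = ⊥ := by
    rw [eq_bot_iff]
    intro σ hσ
    rw [Subgroup.mem_bot]
    apply hfix
    rw [IntermediateField.mem_fixingSubgroup_iff] at hσ
    exact hσ t (IntermediateField.mem_adjoin_simple_self K t)
  have htop : K⟮t⟯ = ⊤ := by
    rw [← IsGalois.fixedField_fixingSubgroup K⟮t⟯, hbot, IntermediateField.fixedField_bot]
  have hint : IsIntegral K t := (Algebra.IsIntegral.isIntegral t)
  rw [← IntermediateField.adjoin_simple_toSubalgebra_of_isAlgebraic hint.isAlgebraic, htop,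
    IntermediateField.top_toSubalgebra]

/-- **(UnrGen)** -/
theorem h22ug_unrGen : H3LB.UnrGen := by
  intro q _ K L _ _ _ _ _ _ _ _ h
  obtain ⟨ζ, hζ, hgen⟩ := h22ug_exists_gen h
  refine ⟨h24lb_q (padicVal q L) - 1, ζ, ?_, hζ, hgen⟩
  set w := padicVal q L with hw
  haveI : Finite (h24lb_k w) := h24lb_finite_k w h.hw
  have hqL : (q : L) ≠ 0 := by
    haveI : CharZero L := charZero_of_injective_algebraMap (algebraMap ℚ_[q] L).injective
    exact_mod_cast (Fact.out : q.Prime).ne_zero
  -- `w q < 1`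
  have hwq : w (q : L) < 1 := by
    have h1 : w (q : L) < w (1 : L) := by
      rw [hw, h3lb_padicVal_lt_iff q hqL]
      have e : (q : L) = algebraMap ℚ_[q] L (q : ℚ_[q]) := by simp
      rw [e, h3lb_snorm_algebraMap, h3lb_snorm_one, Padic.norm_p]
      exact inv_lt_one_of_one_lt₀ (by exact_mod_cast (Fact.out : q.Prime).one_lt)
    rwa [map_one] at h1
  -- `q = 0` in the residue field
  have hq0 : ((q : ℕ) : h24lb_k w) = 0 := by
    have e : ((q : ℕ) : h24lb_k w) = h24lb_res w (h24lb_mk w (q : L) hwq.le) := by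
      have : h24lb_mk w (q : L) hwq.le = ((q : ℕ) : h24lb_A w) := Subtype.ext (by simp)
      rw [this, map_natCast]
    rw [e, h24lb_res_eq_zero_iff]
    exact hwq
  haveI : CharP (h24lb_k w) q := by
    obtain ⟨p, hp⟩ := CharP.exists (h24lb_k w)
    have hpq : p ∣ q := (CharP.cast_eq_zero_iff (h24lb_k w) p q).1 hq0
    have hp1 : p ≠ 1 := by
      intro h1
      subst h1
      exact CharP.char_ne_one (h24lb_k w) 1 rfl
    have : p = q := ((Nat.dvd_prime (Fact.out : q.Prime)).1 hpq).resolve_left hp1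
    rw [← this]; exact hp
  have hdvd : q ∣ h24lb_q w :=
    (CharP.cast_eq_zero_iff (h24lb_k w) q _).1 (h24lb_res_card_eq_zero w h.hw)
  have hQ : 0 < h24lb_q w := h24lb_q_pos w h.hw
  intro hcon
  have h1 : q ∣ 1 := by
    have := Nat.dvd_sub hdvd hcon
    rwa [Nat.sub_sub_self hQ] at this
  exact (Fact.out : q.Prime).one_lt.ne' (Nat.dvd_one.1 h1)

end H22UG

end
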