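/-
W2-C (S55) block B (helper3): the compositum of two unramified extensions inside a common
overfield is unramified (slice S8b, auxiliary).
-/
import Mathlib
import Fermat.Agent.CFT2.B.Defs5
import Fermat.Agent.CFT2.B.UnrFinal_helper24
import Fermat.Agent.CFT2.B.UnrGen_helper22

set_option autoImplicit false
set_option linter.style.haveILetI false
set_option linter.unusedSectionVars false
set_option linter.unusedVariables false

namespace H3LB

open scoped WithZero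

/-- in a field, two roots of unity are powers of one root of unity -/
theorem h3uj_common_root {E : Type} [Field E] (r₁ r₂ : ℕ) (hr₁ : 0 < r₁) (hr₂ : 0 < r₂)
    (ζ₁ ζ₂ : E) (h₁ : ζ₁ ^ r₁ = 1) (h₂ : ζ₂ ^ r₂ = 1) :
    ∃ ζ : E, ζ ^ (r₁ * r₂) = 1 ∧ (∃ a : ℕ, ζ ^ a = ζ₁) ∧ ∃ b : ℕ, ζ ^ b = ζ₂ := by
  haveI : NeZero (r₁ * r₂) := ⟨(Nat.mul_pos hr₁ hr₂).ne'⟩
  obtain ⟨g, hg⟩ := (rootsOfUnity.isCyclic E (r₁ * r₂)).exists_generator
  have hζ₁ : ζ₁ ^ (r₁ * r₂) = 1 := by rw [pow_mul, h₁, one_pow]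
  have hζ₂ : ζ₂ ^ (r₁ * r₂) = 1 := by rw [mul_comm, pow_mul, h₂, one_pow]
  let u₁ : rootsOfUnity (r₁ * r₂) E := rootsOfUnity.mkOfPowEq ζ₁ hζ₁
  let u₂ : rootsOfUnity (r₁ * r₂) E := rootsOfUnity.mkOfPowEq ζ₂ hζ₂
  have hfin : ∀ u : rootsOfUnity (r₁ * r₂) E, ∃ a : ℕ, g ^ a = u := by
    intro u
    have hu := hg u
    obtain ⟨m, hm⟩ := Subgroup.mem_zpowers_iff.1 hu
    have hord : 0 < orderOf g := orderOf_pos g
    refine ⟨(m % (orderOf g : ℤ)).toNat, ?_⟩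
    rw [← hm, ← zpow_natCast, Int.toNat_of_nonneg (Int.emod_nonneg _ (by exact_mod_cast hord.ne')),
      zpow_mod_orderOf]
  refine ⟨((g : Eˣ) : E), ?_, ?_, ?_⟩
  · have := g.2
    rw [mem_rootsOfUnity] at this
    have h3 := congrArg (fun u : Eˣ => (u : E)) this
    simpa using h3
  · obtain ⟨a, ha⟩ := hfin u₁
    refine ⟨a, ?_⟩
    have h3 := congrArg (fun u : rootsOfUnity (r₁ * r₂) E => ((u : Eˣ) : E)) ha
    simpa [u₁] using h3
  · obtain ⟨b, hb⟩ := hfin u₂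
    refine ⟨b, ?_⟩
    have h3 := congrArg (fun u : rootsOfUnity (r₁ * r₂) E => ((u : Eˣ) : E)) hb
    simpa [u₂] using h3

/-- **unramified join**: two unramified extensions `U₁`, `U₂` of `K` inside `E` lie in an
unramified Galois extension `U₃` of `K` inside `E`. -/
theorem h3uj_unrJoin (q : ℕ) [Fact q.Prime] (K U₁ U₂ E : Type) [Field K] [Field U₁] [Field U₂]
    [Field E] [Algebra ℚ_[q] K] [Algebra ℚ_[q] U₁] [Algebra ℚ_[q] U₂] [Algebra ℚ_[q] E]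
    [Algebra K U₁] [Algebra K U₂] [Algebra K E] [Algebra U₁ E] [Algebra U₂ E]
    [IsScalarTower ℚ_[q] K U₁] [IsScalarTower ℚ_[q] K U₂] [IsScalarTower ℚ_[q] K E]
    [IsScalarTower K U₁ E] [IsScalarTower K U₂ E]
    [FiniteDimensional ℚ_[q] K] [FiniteDimensional ℚ_[q] U₁] [FiniteDimensional ℚ_[q] U₂]
    [FiniteDimensional ℚ_[q] E]
    (h₁ : IsLocalExt (padicVal q K) (padicVal q U₁) 1)
    (h₂ : IsLocalExt (padicVal q K) (padicVal q U₂) 1) :
    ∃ (U₃ : Type) (_ : Field U₃) (_ : Algebra ℚ_[q] U₃) (_ : Algebra K U₃) (_ : Algebra U₁ U₃)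
      (_ : Algebra U₂ U₃) (_ : Algebra U₃ E) (_ : IsScalarTower ℚ_[q] K U₃)
      (_ : IsScalarTower K U₁ U₃) (_ : IsScalarTower K U₂ U₃) (_ : IsScalarTower K U₃ E)
      (_ : IsScalarTower U₁ U₃ E) (_ : IsScalarTower U₂ U₃ E) (_ : FiniteDimensional ℚ_[q] U₃)
      (_ : IsGalois K U₃), IsLocalExt (padicVal q K) (padicVal q U₃) 1 := by
  obtain ⟨r₁, ζ₁, hq₁, hζ₁, hadj₁⟩ := H22UG.h22ug_unrGen q K U₁ h₁
  obtain ⟨r₂, ζ₂, hq₂, hζ₂, hadj₂⟩ := H22UG.h22ug_unrGen q K U₂ h₂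
  have hqp : q.Prime := Fact.out
  have hr₁ : 0 < r₁ := Nat.pos_of_ne_zero (fun h0 => hq₁ (h0 ▸ dvd_zero q))
  have hr₂ : 0 < r₂ := Nat.pos_of_ne_zero (fun h0 => hq₂ (h0 ▸ dvd_zero q))
  obtain ⟨ζ, hζ, ⟨a, ha⟩, ⟨b, hb⟩⟩ := h3uj_common_root r₁ r₂ hr₁ hr₂
    (algebraMap U₁ E ζ₁) (algebraMap U₂ E ζ₂)
    (by rw [← map_pow, hζ₁, map_one]) (by rw [← map_pow, hζ₂, map_one])
  have hqr : ¬ q ∣ r₁ * r₂ := fun h => (hqp.dvd_mul.1 h).elim hq₁ hq₂
  haveI : FiniteDimensional K E := FiniteDimensional.right ℚ_[q] K E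
  have hint : IsIntegral K ζ := Algebra.IsIntegral.isIntegral ζ
  let U₃ : IntermediateField K E := IntermediateField.adjoin K {ζ}
  have hζmem : ζ ∈ U₃ := IntermediateField.mem_adjoin_simple_self K ζ
  -- the images of `U₁`, `U₂` lie in `U₃`
  have hmem₁ : ∀ x : U₁, algebraMap U₁ E x ∈ U₃ := by
    intro x
    have hx : x ∈ Algebra.adjoin K {ζ₁} := by rw [hadj₁]; trivial
    have h3 : (IsScalarTower.toAlgHom K U₁ E) x ∈
        (Algebra.adjoin K {ζ₁}).map (IsScalarTower.toAlgHom K U₁ E) := ⟨x, hx, rfl⟩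
    rw [AlgHom.map_adjoin, Set.image_singleton] at h3
    have h4 : Algebra.adjoin K {(IsScalarTower.toAlgHom K U₁ E) ζ₁} ≤ U₃.toSubalgebra := by
      apply Algebra.adjoin_le
      rintro y hy
      rw [Set.mem_singleton_iff] at hy
      subst hy
      show algebraMap U₁ E ζ₁ ∈ U₃
      rw [← ha]
      exact pow_mem hζmem a
    exact h4 h3
  have hmem₂ : ∀ x : U₂, algebraMap U₂ E x ∈ U₃ := by
    intro x
    have hx : x ∈ Algebra.adjoin K {ζ₂} := by rw [hadj₂]; trivial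
    have h3 : (IsScalarTower.toAlgHom K U₂ E) x ∈
        (Algebra.adjoin K {ζ₂}).map (IsScalarTower.toAlgHom K U₂ E) := ⟨x, hx, rfl⟩
    rw [AlgHom.map_adjoin, Set.image_singleton] at h3
    have h4 : Algebra.adjoin K {(IsScalarTower.toAlgHom K U₂ E) ζ₂} ≤ U₃.toSubalgebra := by
      apply Algebra.adjoin_le
      rintro y hy
      rw [Set.mem_singleton_iff] at hy
      subst hy
      show algebraMap U₂ E ζ₂ ∈ U₃
      rw [← hb]
      exact pow_mem hζmem b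
    exact h4 h3
  let r₁' : U₁ →+* U₃ := (algebraMap U₁ E).codRestrict U₃.toSubfield.toSubring hmem₁
  let r₂' : U₂ →+* U₃ := (algebraMap U₂ E).codRestrict U₃.toSubfield.toSubring hmem₂
  letI a₁ : Algebra U₁ U₃ := r₁'.toAlgebra
  letI a₂ : Algebra U₂ U₃ := r₂'.toAlgebra
  have t1 : IsScalarTower K U₁ U₃ := IsScalarTower.of_algebraMap_eq (fun x => by
    apply Subtype.ext
    show algebraMap K E x = algebraMap U₁ E (algebraMap K U₁ x)
    exact IsScalarTower.algebraMap_apply K U₁ E x)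
  have t2 : IsScalarTower K U₂ U₃ := IsScalarTower.of_algebraMap_eq (fun x => by
    apply Subtype.ext
    show algebraMap K E x = algebraMap U₂ E (algebraMap K U₂ x)
    exact IsScalarTower.algebraMap_apply K U₂ E x)
  have t3 : IsScalarTower U₁ U₃ E := IsScalarTower.of_algebraMap_eq (fun x => rfl)
  have t4 : IsScalarTower U₂ U₃ E := IsScalarTower.of_algebraMap_eq (fun x => rfl)
  haveI fd : FiniteDimensional ℚ_[q] U₃ :=
    FiniteDimensional.of_injective ((U₃.val.toLinearMap).restrictScalars ℚ_[q])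
      (fun x y hxy => Subtype.ext hxy)
  -- `U₃ = K[ζ]`
  have hgen : Algebra.adjoin K {(⟨ζ, hζmem⟩ : U₃)} = ⊤ :=
    (IntermediateField.adjoin.powerBasis hint).adjoin_gen_eq_top
  have hζ3 : (⟨ζ, hζmem⟩ : U₃) ^ (r₁ * r₂) = 1 := by
    apply Subtype.ext
    show ζ ^ (r₁ * r₂) = 1
    exact hζ
  obtain ⟨hgal, hunr⟩ := H24LB.h24lb_unrRoots_final q K U₃ (r₁ * r₂) ⟨ζ, hζmem⟩ hqr hζ3 hgen
  exact ⟨U₃, inferInstance, inferInstance, inferInstance, a₁, a₂, inferInstance, inferInstance,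
    t1, t2, inferInstance, t3, t4, fd, hgal, hunr⟩

end H3LB
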