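/-
W2-C (S55) block B, slice S7 = S8b (helper3): the local invariant does not depend on the choice
of the unramified compositum: `H3LB.InvIndep`, `H3LB.HasInvUnique`.
-/
import Mathlib
import Fermat.Agent.CFT2.B.Defs5
import Fermat.Agent.CFT2.B.CommonExt_helper3
import Fermat.Agent.CFT2.B.UnrJoin_helper3
import Fermat.Agent.CFT2.B.UnrFrob_helper22

set_option autoImplicit false
set_option linter.style.haveILetI false
set_option linter.unusedSectionVars false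
set_option linter.unusedVariables false

namespace H3LB

open scoped WithZero
open groupCohomology CategoryTheory

/-- for unramified `U₁ ⊆ U₃` over `K` the valuations are compatible -/
theorem h3ii_val_compat (q : ℕ) [Fact q.Prime] (K U₁ U₃ : Type) [Field K] [Field U₁] [Field U₃]
    [Algebra ℚ_[q] K] [Algebra ℚ_[q] U₁] [Algebra ℚ_[q] U₃] [Algebra K U₁] [Algebra K U₃]
    [Algebra U₁ U₃] [IsScalarTower ℚ_[q] K U₁] [IsScalarTower ℚ_[q] K U₃]
    [IsScalarTower K U₁ U₃]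
    [FiniteDimensional ℚ_[q] K] [FiniteDimensional ℚ_[q] U₁] [FiniteDimensional ℚ_[q] U₃]
    (h₁ : IsLocalExt (padicVal q K) (padicVal q U₁) 1)
    (h₃ : IsLocalExt (padicVal q K) (padicVal q U₃) 1) :
    ∀ x : U₁, padicVal q U₃ (algebraMap U₁ U₃ x) = padicVal q U₁ x := by
  haveI : IsScalarTower ℚ_[q] U₁ U₃ := IsScalarTower.of_algebraMap_eq (fun x => by
    rw [IsScalarTower.algebraMap_apply ℚ_[q] K U₃, IsScalarTower.algebraMap_apply ℚ_[q] K U₁,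
      ← IsScalarTower.algebraMap_apply K U₁ U₃])
  obtain ⟨e, he, hval⟩ := h3lb_exists_ramification q (K := U₁) (L := U₃)
  obtain ⟨π, hπ⟩ := h₁.hv.surj (WithZero.exp (-1 : ℤ))
  have e1 : padicVal q U₃ (algebraMap K U₃ π) = WithZero.exp (-1 : ℤ) := by
    rw [h₃.ext, pow_one, hπ]
  have e2 : padicVal q U₃ (algebraMap K U₃ π) = WithZero.exp (-1 : ℤ) ^ e := by
    rw [IsScalarTower.algebraMap_apply K U₁ U₃, hval, h₁.ext, pow_one, hπ]
  have e3 : e = 1 := by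
    rw [e1, ← WithZero.exp_nsmul] at e2
    have := WithZero.exp_injective e2
    simp only [nsmul_eq_mul] at this
    omega
  intro x
  rw [hval, e3, pow_one]

/-- **(S7) independence of the unramified compositum** -/
theorem h3lb_invIndep (hIC : InfFieldComp) (hIR : InfResField) (hUI : UnrInfCompat) :
    InvIndep := by
  intro q _ K L U₁ E₁ U₂ E₂
  intros
  rename_i x t₁ t₂ hv₁ hv₂
  obtain ⟨hU₁, φ₁, c₁, hφ₁, hinf₁, ht₁⟩ := hv₁
  obtain ⟨hU₂, φ₂, c₂, hφ₂, hinf₂, ht₂⟩ := hv₂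
  haveI : FiniteDimensional K E₁ := FiniteDimensional.right ℚ_[q] K E₁
  haveI : FiniteDimensional K E₂ := FiniteDimensional.right ℚ_[q] K E₂
  -- the common overfield
  obtain ⟨E₃, _, _, _, _, _, _, _, _, _, _, _, hgalE₃⟩ := h3ce_commonExt K L E₁ E₂
  haveI := hgalE₃
  letI : Algebra ℚ_[q] E₃ := ((algebraMap K E₃).comp (algebraMap ℚ_[q] K)).toAlgebra
  haveI : IsScalarTower ℚ_[q] K E₃ := IsScalarTower.of_algebraMap_eq (fun _ => rfl)
  haveI : FiniteDimensional ℚ_[q] E₃ := FiniteDimensional.trans ℚ_[q] K E₃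
  letI : Algebra U₁ E₃ := ((algebraMap E₁ E₃).comp (algebraMap U₁ E₁)).toAlgebra
  letI : Algebra U₂ E₃ := ((algebraMap E₂ E₃).comp (algebraMap U₂ E₂)).toAlgebra
  haveI : IsScalarTower U₁ E₁ E₃ := IsScalarTower.of_algebraMap_eq (fun _ => rfl)
  haveI : IsScalarTower U₂ E₂ E₃ := IsScalarTower.of_algebraMap_eq (fun _ => rfl)
  haveI : IsScalarTower K U₁ E₃ := IsScalarTower.of_algebraMap_eq (fun x => by
    rw [IsScalarTower.algebraMap_apply K E₁ E₃, IsScalarTower.algebraMap_apply K U₁ E₁]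
    rfl)
  haveI : IsScalarTower K U₂ E₃ := IsScalarTower.of_algebraMap_eq (fun x => by
    rw [IsScalarTower.algebraMap_apply K E₂ E₃, IsScalarTower.algebraMap_apply K U₂ E₂]
    rfl)
  -- the unramified join
  obtain ⟨U₃, _, _, _, _, _, _, _, _, _, _, _, _, _, hgalU₃, hU₃⟩ :=
    h3uj_unrJoin q K U₁ U₂ E₃ hU₁ hU₂
  haveI := hgalU₃
  haveI : FiniteDimensional K E₃ := FiniteDimensional.right ℚ_[q] K E₃
  -- the chain of inflations
  have k1 : infField K U₃ E₃ 2 (infField K U₁ U₃ 2 (H2π _ c₁)) = infField K L E₃ 2 x := by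
    have a1 := hIC K U₁ U₃ E₃ 2
    have a2 := hIC K U₁ E₁ E₃ 2
    have a3 := hIC K L E₁ E₃ 2
    have b1 : infField K U₃ E₃ 2 (infField K U₁ U₃ 2 (H2π _ c₁)) =
        infField K U₁ E₃ 2 (H2π _ c₁) := by rw [a1]; rfl
    rw [b1, a2, a3, AddMonoidHom.comp_apply, AddMonoidHom.comp_apply, hinf₁]
  have k2 : infField K U₃ E₃ 2 (infField K U₂ U₃ 2 (H2π _ c₂)) = infField K L E₃ 2 x := by
    have a1 := hIC K U₂ U₃ E₃ 2
    have a2 := hIC K U₂ E₂ E₃ 2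
    have a3 := hIC K L E₂ E₃ 2
    have b1 : infField K U₃ E₃ 2 (infField K U₂ U₃ 2 (H2π _ c₂)) =
        infField K U₂ E₃ 2 (H2π _ c₂) := by rw [a1]; rfl
    rw [b1, a2, a3, AddMonoidHom.comp_apply, AddMonoidHom.comp_apply, hinf₂]
  have k3 : infField K U₁ U₃ 2 (H2π _ c₁) = infField K U₂ U₃ 2 (H2π _ c₂) :=
    (hIR K U₃ E₃).1 (k1.trans k2.symm)
  -- a cocycle representing the common class
  obtain ⟨c₃, hc₃⟩ : ∃ c₃ : cocycles₂ (Rep.ofAlgebraAutOnUnits K U₃),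
      H2π _ c₃ = infField K U₁ U₃ 2 (H2π _ c₁) := by
    generalize infField K U₁ U₃ 2 (H2π _ c₁) = y
    induction y using H2_induction_on with
    | h c => exact ⟨c, rfl⟩
  obtain ⟨φ₃, hφ₃⟩ := H22UF.h22uf_exists_frob hU₃
  have r1 := hUI K U₁ U₃ (padicVal q K) (padicVal q U₁) (padicVal q U₃) hU₁ hU₃
    (h3ii_val_compat q K U₁ U₃ hU₁ hU₃) φ₁ φ₃ hφ₁ hφ₃ c₁ c₃ hc₃
  have r2 := hUI K U₂ U₃ (padicVal q K) (padicVal q U₂) (padicVal q U₃) hU₂ hU₃
    (h3ii_val_compat q K U₂ U₃ hU₂ hU₃) φ₂ φ₃ hφ₂ hφ₃ c₂ c₃ (hc₃.trans k3)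
  rw [← ht₁, ← ht₂, ← r1, ← r2]

/-- **(S8b)** -/
theorem h3lb_hasInvUnique (hIC : InfFieldComp) (hIR : InfResField) (hUI : UnrInfCompat) :
    HasInvUnique := by
  intro q _ K L _ _ _ _ _ _ _ _ _ x t₁ t₂ h₁ h₂
  obtain ⟨U₁, E₁, _, _, _, _, _, _, _, _, _, _, _, _, _, _, _, _, hv₁⟩ := h₁
  obtain ⟨U₂, E₂, _, _, _, _, _, _, _, _, _, _, _, _, _, _, _, _, hv₂⟩ := h₂
  exact h3lb_invIndep hIC hIR hUI q K L U₁ E₁ U₂ E₂ x t₁ t₂ hv₁ hv₂

end H3LB
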