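/-
W2-C (S55) block B, slice FrobRestrict (helper22): the Frobenius of `E/M` restricts to the `f`-th
power of the Frobenius of `U/K` (`|k_M| = |k_K|^f`).

Both `φ_M|_U` and `φ_K^f` are congruent to `x ↦ x ^ (|k_K|^f)` modulo `𝔪_U`; an automorphism of
the unramified extension `U/K` acting trivially on the residue field is trivial
(`H24LB.h24lb_inertia_trivial`).
-/
import Mathlib
import Fermat.Agent.CFT2.B.Defs3
import Fermat.Agent.CFT2.B.UnrCyclic_helper24

set_option autoImplicit false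
set_option linter.style.haveILetI false
set_option linter.unusedSectionVars false
set_option linter.unusedVariables false

noncomputable section

namespace H22FR

open scoped WithZero
open H3LB H24LB

section val

variable {L : Type} [Field L] (w : Valuation L ℤᵐ⁰)

/-- `a ≡ b mod 𝔪` implies `a ^ n ≡ b ^ n mod 𝔪` -/
theorem h22fr_pow_congr {a b : L} (ha : w a ≤ 1) (hb : w b ≤ 1) (hab : w (a - b) < 1) (n : ℕ) :
    w (a ^ n - b ^ n) < 1 := by
  have h1 : a ^ n - b ^ n = (a - b) * ∑ i ∈ Finset.range n, a ^ i * b ^ (n - 1 - i) :=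
    ((Commute.all a b).mul_geom_sum₂ n).symm
  have h2 : w (∑ i ∈ Finset.range n, a ^ i * b ^ (n - 1 - i)) ≤ 1 := by
    apply Valuation.map_sum_le
    intro i _
    rw [map_mul, map_pow, map_pow]
    exact mul_le_one' (pow_le_one₀ zero_le ha) (pow_le_one₀ zero_le hb)
  rw [h1, map_mul]
  calc w (a - b) * w (∑ i ∈ Finset.range n, a ^ i * b ^ (n - 1 - i))
      ≤ w (a - b) * 1 := by gcongr
    _ < 1 := by rw [mul_one]; exact hab

theorem h22fr_sub_lt_trans {a b c : L} (hab : w (a - b) < 1) (hbc : w (b - c) < 1) :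
    w (a - c) < 1 := by
  have : a - c = (a - b) + (b - c) := by ring
  rw [this]
  exact lt_of_le_of_lt (Valuation.map_add w _ _) (max_lt hab hbc)

end val

variable {K U : Type} [Field K] [Field U] [Algebra K U]
  {vK : Valuation K ℤᵐ⁰} {vU : Valuation U ℤᵐ⁰}

/-- powers of a Frobenius: `φ^j x ≡ x ^ (N^j) mod 𝔪` -/
theorem h22fr_frob_pow (hinv : ∀ (σ : U ≃ₐ[K] U) (x : U), vU (σ x) = vU x)
    (φ : U ≃ₐ[K] U) (hφ : IsFrob vK vU φ) (j : ℕ) (x : U) (hx : vU x ≤ 1) :
    vU ((φ ^ j) x - x ^ (Nat.card (IsLocalRing.ResidueField vK.valuationSubring) ^ j)) < 1 := by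
  induction j with
  | zero => simp
  | succ j ih =>
    set N := Nat.card (IsLocalRing.ResidueField vK.valuationSubring) with hN
    have h1 : (φ ^ (j + 1)) x = φ ((φ ^ j) x) := by
      rw [pow_succ']; rfl
    have hy : vU ((φ ^ j) x) ≤ 1 := by rw [hinv]; exact hx
    have h2 : vU (φ ((φ ^ j) x) - ((φ ^ j) x) ^ N) < 1 := hφ _ hy
    have h3 : vU (((φ ^ j) x) ^ N - (x ^ (N ^ j)) ^ N) < 1 :=
      h22fr_pow_congr vU hy (by rw [map_pow]; exact pow_le_one₀ zero_le hx) ih N
    rw [h1, pow_succ, pow_mul]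
    exact h22fr_sub_lt_trans vU h2 h3

/-- **(FrobRestrict)** -/
theorem h22fr_frobRestrict : H3LB.FrobRestrict := by
  intro K M U E _ _ _ _ _ _ _ _ _ _ _ _ vK vM vU vE e f hU hE he hext hcard φK φM hφK hφM
  haveI : Normal K U := IsGalois.to_normal
  set τ : U ≃ₐ[K] U := galResNormal K M U E φM with hτ
  set N := Nat.card (IsLocalRing.ResidueField vK.valuationSubring) with hN
  have hcomm : ∀ x : U, algebraMap U E (τ x) = φM (algebraMap U E x) := by
    intro x
    exact AlgEquiv.restrictNormal_commutes (φM.restrictScalars K) U x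
  -- `τ x ≡ x ^ (N ^ f)`
  have h1 : ∀ x : U, vU x ≤ 1 → vU (τ x - x ^ (N ^ f)) < 1 := by
    intro x hx
    have hy : vE (algebraMap U E x) ≤ 1 := by
      rw [hext]; exact pow_le_one₀ zero_le hx
    have h2 := hφM (algebraMap U E x) hy
    rw [hcard, ← hcomm, ← map_pow, ← map_sub, hext] at h2
    exact (pow_lt_one_iff_of_nonneg zero_le he.ne').1 h2
  have h3 : (φK ^ f)⁻¹ * τ = 1 := by
    apply h24lb_inertia_trivial hU
    intro x hx
    have h4 : vU (τ x - (φK ^ f) x) < 1 := by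
      have h5 := h22fr_frob_pow hU.inv φK hφK f x hx
      have h6 : vU (x ^ (N ^ f) - (φK ^ f) x) < 1 := by
        have : x ^ (N ^ f) - (φK ^ f) x = -((φK ^ f) x - x ^ (N ^ f)) := by ring
        rw [this, Valuation.map_neg]; exact h5
      exact h22fr_sub_lt_trans vU (h1 x hx) h6
    have h7 : ((φK ^ f)⁻¹ * τ) x - x = (φK ^ f)⁻¹ (τ x - (φK ^ f) x) := by
      rw [map_sub]
      show (φK ^ f)⁻¹ (τ x) - x = (φK ^ f)⁻¹ (τ x) - (φK ^ f)⁻¹ ((φK ^ f) x)
      congr 1
      exact ((φK ^ f).symm_apply_apply x).symm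
    rw [h7, hU.inv]
    exact h4
  calc τ = (φK ^ f) * ((φK ^ f)⁻¹ * τ) := by group
    _ = φK ^ f := by rw [h3, mul_one]

end H22FR

end
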