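import Mathlib

/-!
# W2-C (S55), block B, slice S3 (helper25), part 1: the averaging lemma

For a finite group `G` of order `n` and a `ℤ`-valued normalised-or-not 2-cocycle `a` (trivial
action), with `S g = ∑ k, a (g, k)`:
* `n * a (g, h) = S g + S h - S (g * h)` (`H25LB.avg_eq`);
* `S (g ^ f) ≡ f * S g mod n` (`H25LB.avg_pow`);
* for `r : G' →* G`, `S' g' = ∑ k', a (r g', r k')`: `n * S' g' = n' * S (r g')`
  (`H25LB.avg_pull`).
-/

set_option autoImplicit false

namespace H25LB

section avg

variable {G : Type*} [Group G] [Finite G] (a : G × G → ℤ)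

/-- `S g = ∑ k, a (g, k)` -/
noncomputable def avgS (g : G) : ℤ := ∑ᶠ k : G, a (g, k)

variable (ha : ∀ g h j : G, a (g * h, j) + a (g, h) = a (h, j) + a (g, h * j))

include ha in
/-- **averaging**: `n · a = dS`. -/
theorem avg_eq (g h : G) : (Nat.card G : ℤ) * a (g, h) = avgS a g + avgS a h - avgS a (g * h) := by
  classical
  letI : Fintype G := Fintype.ofFinite G
  unfold avgS
  rw [finsum_eq_sum_of_fintype, finsum_eq_sum_of_fintype, finsum_eq_sum_of_fintype]
  have h1 : ∑ j : G, (a (g * h, j) + a (g, h)) = ∑ j : G, (a (h, j) + a (g, h * j)) :=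
    Finset.sum_congr rfl fun j _ => ha g h j
  rw [Finset.sum_add_distrib, Finset.sum_add_distrib, Finset.sum_const, Finset.card_univ,
    nsmul_eq_mul] at h1
  have h2 : ∑ j : G, a (g, h * j) = ∑ j : G, a (g, j) :=
    Fintype.sum_equiv (Equiv.mulLeft h) _ _ fun j => rfl
  rw [h2] at h1
  rw [Nat.card_eq_fintype_card]
  linarith

include ha in
theorem avg_one : (Nat.card G : ℤ) ∣ avgS a 1 := by
  have := avg_eq a ha 1 1
  rw [mul_one] at this
  exact ⟨a (1, 1), by linarith⟩

include ha in
/-- `S (g ^ f) ≡ f · S g mod n` -/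
theorem avg_pow (g : G) (f : ℕ) : (Nat.card G : ℤ) ∣ avgS a (g ^ f) - f * avgS a g := by
  induction f with
  | zero =>
    simpa using avg_one a ha
  | succ f ih =>
    have h := avg_eq a ha (g ^ f) g
    rw [← pow_succ] at h
    obtain ⟨t, ht⟩ := ih
    refine ⟨t - a (g ^ f, g), ?_⟩
    push_cast
    linarith

variable {G' : Type*} [Group G'] [Finite G'] (r : G' →* G)

/-- `S' g' = ∑ k', a (r g', r k')` -/
noncomputable def avgS' (g' : G') : ℤ := ∑ᶠ k' : G', a (r g', r k')

include ha in
/-- `n · S' g' = n' · S (r g')` -/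
theorem avg_pull (g' : G') :
    (Nat.card G : ℤ) * avgS' a r g' = (Nat.card G' : ℤ) * avgS a (r g') := by
  classical
  letI : Fintype G' := Fintype.ofFinite G'
  unfold avgS'
  rw [finsum_eq_sum_of_fintype, Finset.mul_sum]
  have h1 : ∀ k' : G', (Nat.card G : ℤ) * a (r g', r k') =
      avgS a (r g') + avgS a (r k') - avgS a (r (g' * k')) := fun k' => by
    rw [map_mul]
    exact avg_eq a ha _ _
  rw [Finset.sum_congr rfl fun k' _ => h1 k', Finset.sum_sub_distrib, Finset.sum_add_distrib,
    Finset.sum_const, Finset.card_univ, nsmul_eq_mul]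
  have h2 : ∑ k' : G', avgS a (r (g' * k')) = ∑ k' : G', avgS a (r k') :=
    Fintype.sum_equiv (Equiv.mulLeft g') _ _ fun j => rfl
  rw [h2, Nat.card_eq_fintype_card]
  ring

end avg

end H25LB
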