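import Mathlib
import Fermat.Agent.CFT2.B.Defs4
import Fermat.Agent.CFT2.B.UnrBaseChange1_helper25

/-!
# W2-C (S55), block B, slice S3 (helper25): `H3LB.UnrBaseChange`

`inv_{E/M}(bc y) = [M:K] · inv_{U/K}(y)` for `U/K`, `E/M` unramified, given `H3LB.FrobRestrict`.
-/

set_option autoImplicit false

open CategoryTheory groupCohomology
open scoped WithZero

namespace H25LB

open H3LB

section ord

variable {K L : Type} [Field K] [Field L] [Algebra K L] (w : Valuation L ℤᵐ⁰)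

theorem ordAdd_add (x y : Additive Lˣ) : ordAdd w (x + y) = ordAdd w x + ordAdd w y := by
  unfold ordAdd
  rw [toMul_add, Units.val_mul, map_mul, WithZero.log_mul (by simp) (by simp)]
  ring

theorem ordAdd_zero : ordAdd w (0 : Additive Lˣ) = 0 := by
  unfold ordAdd
  simp

theorem ordAdd_neg (x : Additive Lˣ) : ordAdd w (-x) = - ordAdd w x := by
  have h := ordAdd_add w x (-x)
  rw [add_neg_cancel, ordAdd_zero] at h
  linarith

theorem ordAdd_sub (x y : Additive Lˣ) : ordAdd w (x - y) = ordAdd w x - ordAdd w y := by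
  rw [sub_eq_add_neg, ordAdd_add, ordAdd_neg]
  ring

theorem ordAdd_rho (hinv : ∀ (σ : L ≃ₐ[K] L) (x : L), w (σ x) = w x) (σ : L ≃ₐ[K] L)
    (x : (Rep.ofAlgebraAutOnUnits K L).V) :
    ordAdd w (Rep.toAdditive ((Rep.ofAlgebraAutOnUnits K L).ρ σ x)) =
      ordAdd w (Rep.toAdditive x) := by
  unfold ordAdd
  congr 2
  exact hinv σ _

end ord

section cocycle

variable {K L : Type} [Field K] [Field L] [Algebra K L] (w : Valuation L ℤᵐ⁰)
  (hinv : ∀ (σ : L ≃ₐ[K] L) (x : L), w (σ x) = w x)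

/-- `a = ord ∘ c` -/
noncomputable def ordCoc (c : (L ≃ₐ[K] L) × (L ≃ₐ[K] L) → Rep.ofAlgebraAutOnUnits K L) :
    (L ≃ₐ[K] L) × (L ≃ₐ[K] L) → ℤ :=
  fun x => ordAdd w (Rep.toAdditive (c x))

include hinv in
theorem ordCoc_cocycle (c : cocycles₂ (Rep.ofAlgebraAutOnUnits K L)) (g h j : L ≃ₐ[K] L) :
    ordCoc w c.1 (g * h, j) + ordCoc w c.1 (g, h) =
      ordCoc w c.1 (h, j) + ordCoc w c.1 (g, h * j) := by
  have h1 := (mem_cocycles₂_iff (A := Rep.ofAlgebraAutOnUnits K L) c.1).1 c.2 g h j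
  have h2 : ordAdd w (Rep.toAdditive (c.1 (g * h, j) + c.1 (g, h))) =
      ordAdd w (Rep.toAdditive ((Rep.ofAlgebraAutOnUnits K L).ρ g (c.1 (h, j)) +
        c.1 (g, h * j))) := congrArg (fun x => ordAdd w (Rep.toAdditive x)) h1
  have e1 : ∀ x y : (Rep.ofAlgebraAutOnUnits K L).V,
      ordAdd w (Rep.toAdditive (x + y)) = ordAdd w (Rep.toAdditive x) +
        ordAdd w (Rep.toAdditive y) := fun x y => ordAdd_add w _ _
  rw [e1, e1, ordAdd_rho w hinv] at h2
  exact h2

theorem unrSum_eq_avgS [Finite (L ≃ₐ[K] L)] (φ : L ≃ₐ[K] L)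
    (c : (L ≃ₐ[K] L) × (L ≃ₐ[K] L) → Rep.ofAlgebraAutOnUnits K L) :
    unrSum w φ c = avgS (ordCoc w c) φ := rfl

include hinv in
/-- `∑_k ord (db)(φ, k) = n · ord b(φ)` -/
theorem unrSum_d₁₂ [Finite (L ≃ₐ[K] L)] (b : (L ≃ₐ[K] L) → Rep.ofAlgebraAutOnUnits K L)
    (φ : L ≃ₐ[K] L) :
    unrSum w φ ((d₁₂ (Rep.ofAlgebraAutOnUnits K L)).hom b) =
      Nat.card (L ≃ₐ[K] L) * ordAdd w (Rep.toAdditive (b φ)) := by
  classical
  letI : Fintype (L ≃ₐ[K] L) := Fintype.ofFinite _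
  unfold unrSum
  rw [finsum_eq_sum_of_fintype]
  have e1 : ∀ k : L ≃ₐ[K] L,
      ordAdd w (Rep.toAdditive ((d₁₂ (Rep.ofAlgebraAutOnUnits K L)).hom b (φ, k))) =
        ordAdd w (Rep.toAdditive (b k)) - ordAdd w (Rep.toAdditive (b (φ * k))) +
          ordAdd w (Rep.toAdditive (b φ)) := by
    intro k
    rw [d₁₂_hom_apply]
    have : ∀ x y z : (Rep.ofAlgebraAutOnUnits K L).V,
      ordAdd w (Rep.toAdditive (x - y + z)) = ordAdd w (Rep.toAdditive x) -
        ordAdd w (Rep.toAdditive y) + ordAdd w (Rep.toAdditive z) := fun x y z => by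
      have h1 : Rep.toAdditive (x - y + z) = Rep.toAdditive x - Rep.toAdditive y +
          Rep.toAdditive z := rfl
      rw [h1, ordAdd_add, ordAdd_sub]
    rw [this, ordAdd_rho w hinv]
  rw [Finset.sum_congr rfl fun k _ => e1 k, Finset.sum_add_distrib, Finset.sum_sub_distrib,
    Finset.sum_const, Finset.card_univ, nsmul_eq_mul]
  have h2 : ∑ k : L ≃ₐ[K] L, ordAdd w (Rep.toAdditive (b (φ * k))) =
      ∑ k : L ≃ₐ[K] L, ordAdd w (Rep.toAdditive (b k)) :=
    Fintype.sum_equiv (Equiv.mulLeft φ) _ _ fun j => rfl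
  rw [h2, Nat.card_eq_fintype_card]
  ring

theorem unrSum_add [Finite (L ≃ₐ[K] L)] (φ : L ≃ₐ[K] L)
    (c₁ c₂ : (L ≃ₐ[K] L) × (L ≃ₐ[K] L) → Rep.ofAlgebraAutOnUnits K L) :
    unrSum w φ (c₁ + c₂) = unrSum w φ c₁ + unrSum w φ c₂ := by
  classical
  letI : Fintype (L ≃ₐ[K] L) := Fintype.ofFinite _
  unfold unrSum
  rw [finsum_eq_sum_of_fintype, finsum_eq_sum_of_fintype, finsum_eq_sum_of_fintype,
    ← Finset.sum_add_distrib]
  refine Finset.sum_congr rfl fun k _ => ?_
  exact ordAdd_add w _ _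

end cocycle

section bc

variable (K M U E : Type) [Field K] [Field M] [Field U] [Field E] [Algebra K M] [Algebra K U]
  [Algebra K E] [Algebra M E] [Algebra U E] [IsScalarTower K M E] [IsScalarTower K U E]
  [Normal K U]

/-- the explicit cocycle representing the base change of `c` -/
noncomputable def bcCoc (c : cocycles₂ (Rep.ofAlgebraAutOnUnits K U)) :
    cocycles₂ (Rep.ofAlgebraAutOnUnits M E) :=
  mapCocycles₂ (galRes K M E) (resFieldHom K M E)
    (mapCocycles₂ (AlgEquiv.restrictNormalHom (F := K) (K₁ := E) U) (infFieldHom K U E) c)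

theorem bcField_H2π (c : cocycles₂ (Rep.ofAlgebraAutOnUnits K U)) :
    bcField K M U E 2 (H2π _ c) = H2π _ (bcCoc K M U E c) := by
  unfold bcField bcCoc resField infField
  simp only [AddMonoidHom.comp_apply]
  have h1 := H2π_comp_map_apply (AlgEquiv.restrictNormalHom (F := K) (K₁ := E) U)
    (infFieldHom K U E) c
  have h2 := H2π_comp_map_apply (galRes K M E) (resFieldHom K M E)
    (mapCocycles₂ (AlgEquiv.restrictNormalHom (F := K) (K₁ := E) U) (infFieldHom K U E) c)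
  exact (congrArg _ h1).trans h2

theorem bcCoc_apply (c : cocycles₂ (Rep.ofAlgebraAutOnUnits K U)) (g h : E ≃ₐ[M] E) :
    (bcCoc K M U E c) (g, h) =
      (infFieldHom K U E).hom (c (galResNormal K M U E g, galResNormal K M U E h)) := rfl

variable {K M U E}

theorem ordAdd_infFieldHom (vU : Valuation U ℤᵐ⁰) (vE : Valuation E ℤᵐ⁰) (e : ℕ)
    (hext : ∀ x : U, vE (algebraMap U E x) = vU x ^ e)
    (x : (Rep.ofAlgebraAutOnUnits K U).V) :
    ordAdd vE (Rep.toAdditive ((infFieldHom K U E).hom x)) =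
      e * ordAdd vU (Rep.toAdditive x) := by
  unfold ordAdd
  have h1 : (((Additive.toMul (Rep.toAdditive ((infFieldHom K U E).hom x)) : Eˣ) : E)) =
      algebraMap U E ((Additive.toMul (Rep.toAdditive x) : Uˣ) : U) := rfl
  rw [h1, hext, WithZero.log_pow]
  simp

theorem unrSum_bcCoc [Finite (E ≃ₐ[M] E)] (vU : Valuation U ℤᵐ⁰) (vE : Valuation E ℤᵐ⁰) (e : ℕ)
    (hext : ∀ x : U, vE (algebraMap U E x) = vU x ^ e)
    (c : cocycles₂ (Rep.ofAlgebraAutOnUnits K U)) (φM : E ≃ₐ[M] E) :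
    unrSum vE φM (bcCoc K M U E c).1 =
      e * avgS' (ordCoc vU c.1) (galResNormal K M U E) φM := by
  classical
  letI : Fintype (E ≃ₐ[M] E) := Fintype.ofFinite _
  unfold unrSum avgS'
  rw [finsum_eq_sum_of_fintype, finsum_eq_sum_of_fintype, Finset.mul_sum]
  refine Finset.sum_congr rfl fun k _ => ?_
  exact ordAdd_infFieldHom (K := K) vU vE e hext
    (c (galResNormal K M U E φM, galResNormal K M U E k))

end bc

/-- **(S3) UnrBaseChange**, given `FrobRestrict`. -/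
theorem h25lb_unrBaseChange (hFR : FrobRestrict) : UnrBaseChange := by
  intro K M U E _ _ _ _ _ _ _ _ _ _ _ _ vK vM vU vE e f hU hE he hext hcard hef φK φM hφK hφM
    c c' hcc'
  haveI := hU.fin
  haveI := hE.fin
  haveI := hE.gal
  have hn : Nat.card (U ≃ₐ[K] U) = Module.finrank K U := IsGalois.card_aut_eq_finrank K U
  have hn' : Nat.card (E ≃ₐ[M] E) = Module.finrank M E := IsGalois.card_aut_eq_finrank M E
  have hn0 : (Module.finrank K U : ℚ) ≠ 0 := by
    exact_mod_cast (Module.finrank_pos (R := K) (M := U)).ne'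
  have hn0' : (Module.finrank M E : ℚ) ≠ 0 := by
    exact_mod_cast (Module.finrank_pos (R := M) (M := E)).ne'
  -- `c' = bc c + d b`
  rw [bcField_H2π, H2π_eq_iff] at hcc'
  obtain ⟨b, hb⟩ := hcc'
  have hc' : (c'.1 : (E ≃ₐ[M] E) × (E ≃ₐ[M] E) → Rep.ofAlgebraAutOnUnits M E) =
      (bcCoc K M U E c).1 + (d₁₂ (Rep.ofAlgebraAutOnUnits M E)).hom b := by
    rw [hb]
    exact (add_sub_cancel _ _).symm
  have h1 : unrSum vE φM c'.1 = unrSum vE φM (bcCoc K M U E c).1 +
      Module.finrank M E * ordAdd vE (Rep.toAdditive (b φM)) := by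
    rw [hc', unrSum_add, unrSum_d₁₂ vE hE.inv, hn']
  have h2 := unrSum_bcCoc vU vE e hext c φM
  have h3 := avg_pull (ordCoc vU c.1) (ordCoc_cocycle vU hU.inv c) (galResNormal K M U E) φM
  have h4 : galResNormal K M U E φM = φK ^ f :=
    hFR K M U E vK vM vU vE e f hU hE he hext hcard φK φM hφK hφM
  obtain ⟨t, ht⟩ := avg_pow (ordCoc vU c.1) (ordCoc_cocycle vU hU.inv c) φK f
  rw [h4, hn, hn'] at h3
  rw [hn] at ht
  -- conclusion
  unfold unrInvQ
  rw [unrSum_eq_avgS vU φK c.1, h1, h2]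
  set S := avgS (ordCoc vU c.1) φK with hS
  set A' := avgS' (ordCoc vU c.1) (galResNormal K M U E) φM with hA'
  set B := ordAdd vE (Rep.toAdditive (b φM)) with hB
  rw [← AddCircle.coe_nsmul, ← sub_eq_zero, ← AddCircle.coe_sub, AddCircle.coe_eq_zero_iff]
  refine ⟨e * t + B, ?_⟩
  have h3' : (Module.finrank K U : ℚ) * A' =
      (Module.finrank M E : ℚ) * (f * S + Module.finrank K U * t) := by
    have : avgS (ordCoc vU c.1) (φK ^ f) = f * S + Module.finrank K U * t := by linarith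
    rw [this] at h3
    exact_mod_cast h3
  have hef' : ((Module.finrank K M : ℕ) : ℚ) = e * f := by
    rw [← hef]
    push_cast
    ring
  have hA : (A' : ℚ) = (Module.finrank M E : ℚ) * (f * S + Module.finrank K U * t) /
      (Module.finrank K U : ℚ) := by
    field_simp
    linarith
  simp only [zsmul_eq_mul, mul_one, nsmul_eq_mul]
  push_cast
  rw [hA, hef']
  field_simp
  ring

end H25LB
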