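import Mathlib
import Fermat.Agent.CFT2.B.UnrBaseChange_helper25
import Fermat.Agent.CFT2.B.FrobRestrict_helper22

/-!
# W2-C (S55), block B, slice S3 (helper25): `H3LB.UnrBaseChange`, unconditional
-/

set_option autoImplicit false

namespace H25LB

/-- **(S3) UnrBaseChange**: `inv_{E/M}(bc y) = [M:K] · inv_{U/K}(y)`. -/
theorem h25lb_unrBaseChange_final : H3LB.UnrBaseChange :=
  h25lb_unrBaseChange H22FR.h22fr_frobRestrict

end H25LB
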