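import Mathlib
import Fermat.Agent.CFT2.B.UnrBaseChangeFinal_helper25

/-!
# W2-C (S55), block B, slice S2 (helper25): `H3LB.UnrInfCompat`

The explicit invariant of unramified extensions is compatible with inflation.  This is the case
`M = K` of `H3LB.UnrBaseChange` (slice S3), since `res_{E/K → E/K}` is the identity.
-/

set_option autoImplicit false

open CategoryTheory groupCohomology

namespace H25LB

open H3LB

section

variable (K E : Type) [Field K] [Field E] [Algebra K E]

theorem galRes_self : galRes K K E = MonoidHom.id (E ≃ₐ[K] E) := by
  ext σ x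
  rfl

theorem resField_self (n : ℕ) (x : groupCohomology (Rep.ofAlgebraAutOnUnits K E) n) :
    resField K K E n x = x := by
  unfold resField
  have h : groupCohomology.map (galRes K K E) (resFieldHom K K E) n =
      groupCohomology.map (MonoidHom.id (E ≃ₐ[K] E)) (𝟙 (Rep.ofAlgebraAutOnUnits K E)) n :=
    groupCohomology.map_congr (galRes_self K E) rfl n
  rw [h, groupCohomology.map_id]
  rfl

end

/-- **(S2) UnrInfCompat**. -/
theorem h25lb_unrInfCompat : H3LB.UnrInfCompat := by
  intro K L E _ _ _ _ _ _ _ _ vK vL vE hL hE hext φL φE hφL hφE c c' hcc'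
  have h := h25lb_unrBaseChange_final K K L E vK vK vL vE 1 1 hL hE one_pos
    (fun x => by rw [hext, pow_one]) (by rw [pow_one]) (by rw [Module.finrank_self])
    φL φE hφL hφE c c' (by
      rw [hcc']
      unfold bcField
      rw [AddMonoidHom.comp_apply, resField_self])
  rw [h, Module.finrank_self, one_smul]

end H25LB
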