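/-
W2-C (S55) block B, slice S1 (helper3): the invariant of an unramified extension, `H3LB.UnrInv`.
-/
import Mathlib
import Fermat.Agent.CFT2.B.Defs4
import Fermat.Agent.CFT2.B.UnrFrob_helper22
import Fermat.Agent.CFT2.B.UnrNorm_helper24
import Fermat.Agent.CFT2.A.AC2_helper25

set_option autoImplicit false
set_option linter.style.haveILetI false
set_option linter.unusedSectionVars false
set_option linter.unusedVariables false

namespace H3LB

open scoped WithZero
open groupCohomology CategoryTheory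

section general

variable {G : Type} [Group G] [Finite G] (A : Rep ℤ G)

/-- the averaging sum `∑_k o (c (φ, k))` as an additive map on 2-cochains -/
noncomputable def h3ui_sumHom (o : A →+ ℤ) (φ : G) : (G × G → A) →+ ℤ :=
  letI : Fintype G := Fintype.ofFinite G
  { toFun := fun c => ∑ k : G, o (c (φ, k))
    map_zero' := by simp
    map_add' := fun c d => by simp [Finset.sum_add_distrib] }

theorem h3ui_sumHom_apply (o : A →+ ℤ) (φ : G) (c : G × G → A) :
    h3ui_sumHom A o φ c = ∑ᶠ k : G, o (c (φ, k)) := by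
  letI : Fintype G := Fintype.ofFinite G
  rw [finsum_eq_sum_of_fintype]
  rfl

/-- on coboundaries the averaging sum is `|G| · o (x φ)` -/
theorem h3ui_sumHom_d (o : A →+ ℤ) (ho : ∀ (g : G) (a : A), o (A.ρ g a) = o a) (φ : G)
    (x : G → A) : h3ui_sumHom A o φ ((d₁₂ A).hom x) = Nat.card G * o (x φ) := by
  letI : Fintype G := Fintype.ofFinite G
  show ∑ k : G, o ((d₁₂ A).hom x (φ, k)) = _
  have h1 : ∀ k : G, o ((d₁₂ A).hom x (φ, k)) = o (x k) - o (x (φ * k)) + o (x φ) := by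
    intro k
    rw [d₁₂_hom_apply]
    simp only [map_add, map_sub, ho]
  simp_rw [h1]
  rw [Finset.sum_add_distrib, Finset.sum_sub_distrib]
  have h2 : ∑ k : G, o (x (φ * k)) = ∑ k : G, o (x k) :=
    Fintype.sum_equiv (Equiv.mulLeft φ) _ _ (fun k => rfl)
  rw [h2, sub_self, zero_add, Finset.sum_const, Finset.card_univ, Nat.card_eq_fintype_card]
  simp

/-- **descent of the averaging sum to `H²`** -/
theorem h3ui_exists_inv (o : A →+ ℤ) (ho : ∀ (g : G) (a : A), o (A.ρ g a) = o a) (φ : G) :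
    ∃ inv : H2 A →+ ZMod (Nat.card G), ∀ c : cocycles₂ A,
      inv (H2π A c) = ((h3ui_sumHom A o φ c.1 : ℤ) : ZMod (Nat.card G)) := by
  -- the map on cocycles
  let f : cocycles₂ A →+ ZMod (Nat.card G) :=
    ((Int.castAddHom (ZMod (Nat.card G))).comp (h3ui_sumHom A o φ)).comp
      (cocycles₂ A).subtype.toAddMonoidHom
  let π : cocycles₂ A →+ H2 A := (H2π A).hom.toAddMonoidHom
  have hπ : Function.Surjective π := by
    intro y
    induction y using H2_induction_on with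
    | h c => exact ⟨c, rfl⟩
  have hker : π.ker ≤ f.ker := by
    intro c hc
    rw [AddMonoidHom.mem_ker] at hc ⊢
    have hc' : H2π A c = 0 := hc
    rw [H2π_eq_zero_iff] at hc'
    obtain ⟨x, hx⟩ := hc'
    show ((h3ui_sumHom A o φ c.1 : ℤ) : ZMod (Nat.card G)) = 0
    have hx' : c.1 = (d₁₂ A).hom x := hx.symm
    rw [hx', h3ui_sumHom_d A o ho φ x]
    push_cast
    simp
  refine ⟨π.liftOfSurjective hπ ⟨f, hker⟩, fun c => ?_⟩
  exact AddMonoidHom.liftOfRightInverse_comp_apply π _ _ ⟨f, hker⟩ c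

/-- a cocycle built from an invariant element `a₀` and a "logarithm" `ι` -/
theorem h3ui_logCocycle (a₀ : A) (ha : ∀ g : G, A.ρ g a₀ = a₀) (n : ℤ) (hn : n ≠ 0)
    (ι : G → ℤ) (ε : G × G → ℤ) (hε : ∀ g h : G, n * ε (g, h) = ι g + ι h - ι (g * h)) :
    (fun p : G × G => ε p • a₀) ∈ cocycles₂ A := by
  rw [mem_cocycles₂_iff]
  intro g h j
  simp only [map_zsmul, ha]
  rw [← add_smul, ← add_smul]
  congr 1
  have h1 := hε (g * h) j
  have h2 := hε g h
  have h3 := hε h j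
  have h4 := hε g (h * j)
  rw [mul_assoc] at h1
  have : n * (ε (g * h, j) + ε (g, h)) = n * (ε (h, j) + ε (g, h * j)) := by
    rw [mul_add, mul_add, h1, h2, h3, h4]; ring
  exact mul_left_cancel₀ hn this

/-- the averaging sum of the logarithmic cocycle -/
theorem h3ui_logCocycle_sum (o : A →+ ℤ) (φ : G) (a₀ : A)
    (ι : G → ℤ) (ε : G × G → ℤ)
    (hε : ∀ g h : G, (Nat.card G : ℤ) * ε (g, h) = ι g + ι h - ι (g * h)) :
    h3ui_sumHom A o φ (fun p : G × G => ε p • a₀) = ι φ * o a₀ := by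
  letI : Fintype G := Fintype.ofFinite G
  show ∑ k : G, o (ε (φ, k) • a₀) = _
  simp only [map_zsmul, smul_eq_mul]
  rw [← Finset.sum_mul]
  congr 1
  have hn : (Nat.card G : ℤ) ≠ 0 := by
    exact_mod_cast Nat.card_pos.ne'
  apply mul_left_cancel₀ hn
  rw [Finset.mul_sum]
  simp_rw [hε]
  rw [Finset.sum_sub_distrib, Finset.sum_add_distrib]
  have h2 : ∑ k : G, ι (φ * k) = ∑ k : G, ι k :=
    Fintype.sum_equiv (Equiv.mulLeft φ) _ _ (fun k => rfl)
  rw [h2, Finset.sum_const, Finset.card_univ, Nat.card_eq_fintype_card]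
  simp

end general

section unr

variable {K L : Type} [Field K] [Field L] [Algebra K L] {v : Valuation K ℤᵐ⁰}
  {w : Valuation L ℤᵐ⁰}

theorem h3ui_w_unit_ne_zero (u : Lˣ) : w (u : L) ≠ 0 := (map_ne_zero w).2 u.ne_zero

theorem h3ui_ordAdd_add (a b : Additive Lˣ) : ordAdd w (a + b) = ordAdd w a + ordAdd w b := by
  unfold ordAdd
  rw [toMul_add, Units.val_mul, map_mul,
    WithZero.log_mul (h3ui_w_unit_ne_zero _) (h3ui_w_unit_ne_zero _)]
  ring

theorem h3ui_ordAdd_zero : ordAdd w (0 : Additive Lˣ) = 0 := by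
  unfold ordAdd
  simp

variable (w) in
/-- `ord` as an additive map on the module `Lˣ` -/
noncomputable def h3ui_ordHom : (Rep.ofAlgebraAutOnUnits K L) →+ ℤ where
  toFun a := ordAdd w (Rep.toAdditive a)
  map_zero' := h3ui_ordAdd_zero
  map_add' a b := h3ui_ordAdd_add _ _

theorem h3ui_ordHom_apply (a : Rep.ofAlgebraAutOnUnits K L) :
    h3ui_ordHom (K := K) w a = ordAdd w (Rep.toAdditive a) := rfl

theorem h3ui_ordHom_smul (hinv : ∀ (σ : L ≃ₐ[K] L) (x : L), w (σ x) = w x) (g : L ≃ₐ[K] L)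
    (a : Rep.ofAlgebraAutOnUnits K L) :
    h3ui_ordHom (K := K) w ((Rep.ofAlgebraAutOnUnits K L).ρ g a) = h3ui_ordHom (K := K) w a := by
  show ordAdd w _ = ordAdd w _
  unfold ordAdd
  congr 2
  exact hinv g _

/-- there is a cocycle with averaging sum `≡ 1 mod n` -/
theorem h3ui_exists_one (h : IsLocalExt v w 1) (φ : L ≃ₐ[K] L)
    (hgen : ∀ g : L ≃ₐ[K] L, g ∈ Subgroup.zpowers φ) :
    haveI : FiniteDimensional K L := h.fin
    ∃ c : cocycles₂ (Rep.ofAlgebraAutOnUnits K L),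
      ((h3ui_sumHom (Rep.ofAlgebraAutOnUnits K L) (h3ui_ordHom w) φ c.1 : ℤ) :
        ZMod (Nat.card (L ≃ₐ[K] L))) = 1 := by
  haveI : FiniteDimensional K L := h.fin
  haveI : IsGalois K L := h.gal
  haveI : Finite (L ≃ₐ[K] L) := inferInstance
  set n : ℕ := Nat.card (L ≃ₐ[K] L) with hn
  have hnpos : 0 < n := Nat.card_pos
  have hord : orderOf φ = n := orderOf_eq_card_of_forall_mem_zpowers hgen
  -- the uniformizer
  obtain ⟨π, hπ⟩ := h.hv.surj (WithZero.exp (-1 : ℤ))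
  have hπL : w (algebraMap K L π) = WithZero.exp (-1 : ℤ) := by
    rw [h.ext, pow_one, hπ]
  have hπ0 : algebraMap K L π ≠ 0 := by
    intro h0
    rw [h0, map_zero] at hπL
    exact WithZero.exp_ne_zero hπL.symm
  let a₀ : Rep.ofAlgebraAutOnUnits K L := Additive.ofMul (Units.mk0 (algebraMap K L π) hπ0)
  have ha₀ : ∀ g : L ≃ₐ[K] L, (Rep.ofAlgebraAutOnUnits K L).ρ g a₀ = a₀ := by
    intro g
    show Additive.ofMul (g • (Units.mk0 (algebraMap K L π) hπ0)) = Additive.ofMul _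
    congr 1
    apply Units.ext
    show g (algebraMap K L π) = algebraMap K L π
    exact g.commutes π
  have hoa : h3ui_ordHom (K := K) w a₀ = 1 := by
    show ordAdd w _ = 1
    unfold ordAdd
    show -WithZero.log (w (algebraMap K L π)) = 1
    rw [hπL, WithZero.log_exp]
    norm_num
  -- the logarithm
  have hex : ∀ g : L ≃ₐ[K] L, ∃ k : ℤ, φ ^ k = g := fun g => Subgroup.mem_zpowers_iff.1 (hgen g)
  choose ι hι using hex
  have hdvd : ∀ g h' : L ≃ₐ[K] L, (n : ℤ) ∣ ι g + ι h' - ι (g * h') := by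
    intro g h'
    rw [← hord]
    apply orderOf_dvd_iff_zpow_eq_one.2
    rw [zpow_sub, zpow_add, hι, hι, hι, mul_inv_cancel]
  let ε : (L ≃ₐ[K] L) × (L ≃ₐ[K] L) → ℤ := fun p => (ι p.1 + ι p.2 - ι (p.1 * p.2)) / n
  have hε : ∀ g h' : L ≃ₐ[K] L, (n : ℤ) * ε (g, h') = ι g + ι h' - ι (g * h') := by
    intro g h'
    exact Int.mul_ediv_cancel' (hdvd g h')
  have hn0 : (n : ℤ) ≠ 0 := by exact_mod_cast hnpos.ne'
  refine ⟨⟨fun p => ε p • a₀, h3ui_logCocycle _ a₀ ha₀ n hn0 ι ε hε⟩, ?_⟩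
  show ((h3ui_sumHom _ (h3ui_ordHom w) φ (fun p => ε p • a₀) : ℤ) : ZMod n) = 1
  rw [h3ui_logCocycle_sum _ (h3ui_ordHom w) φ a₀ ι ε hε, hoa, mul_one]
  have h1 : (n : ℤ) ∣ ι φ - 1 := by
    rw [← hord]
    apply orderOf_dvd_iff_zpow_eq_one.2
    rw [zpow_sub, hι, zpow_one, mul_inv_cancel]
  have h2 : ((ι φ - 1 : ℤ) : ZMod n) = 0 := (ZMod.intCast_zmod_eq_zero_iff_dvd _ _).2 h1
  have h3 : (ι φ : ZMod n) = ((ι φ - 1 : ℤ) : ZMod n) + 1 := by push_cast; ring
  rw [h3, h2, zero_add]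

/-- `ord` of the norm is `n · ord` -/
theorem h3ui_ord_norm (h : IsLocalExt v w 1)
    (b : Additive Lˣ) :
    haveI : FiniteDimensional K L := h.fin
    ordAdd w (H20A.normOf (Representation.ofMulDistribMulAction (L ≃ₐ[K] L) Lˣ) b) =
      Nat.card (L ≃ₐ[K] L) * ordAdd w b := by
  haveI : FiniteDimensional K L := h.fin
  haveI : Finite (L ≃ₐ[K] L) := inferInstance
  letI : Fintype (L ≃ₐ[K] L) := Fintype.ofFinite _
  let o : Additive Lˣ →+ ℤ :=
    { toFun := ordAdd w, map_zero' := h3ui_ordAdd_zero, map_add' := h3ui_ordAdd_add }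
  show o ((Representation.ofMulDistribMulAction (L ≃ₐ[K] L) Lˣ).norm b) = _
  rw [Representation.norm, LinearMap.sum_apply, map_sum]
  have : ∀ g : L ≃ₐ[K] L,
      o ((Representation.ofMulDistribMulAction (L ≃ₐ[K] L) Lˣ) g b) = ordAdd w b := by
    intro g
    exact h3ui_ordHom_smul h.inv g b
  simp_rw [this]
  rw [Finset.sum_const, Finset.card_univ, Nat.card_eq_fintype_card]
  simp

/-- a unit of `L` fixed by the generator `φ` and of `ord` divisible by `n` is a norm -/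
theorem h3ui_norm_of_fixed (h : IsLocalExt v w 1) (φ : L ≃ₐ[K] L)
    (hgen : ∀ g : L ≃ₐ[K] L, g ∈ Subgroup.zpowers φ) (u : Lˣ) (hfix : φ (u : L) = u)
    (k : ℤ) (hk : - WithZero.log (w (u : L)) = Nat.card (L ≃ₐ[K] L) * k) :
    ∃ b : L, b ≠ 0 ∧ algebraMap K L (Algebra.norm K b) = u := by
  haveI : FiniteDimensional K L := h.fin
  haveI : IsGalois K L := h.gal
  haveI : Finite (L ≃ₐ[K] L) := inferInstance
  have hcard : Nat.card (L ≃ₐ[K] L) = Module.finrank K L := IsGalois.card_aut_eq_finrank K L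
  -- `u` is fixed by all of `G`
  have hall : ∀ g : L ≃ₐ[K] L, g (u : L) = u := by
    intro g
    obtain ⟨m, rfl⟩ := Subgroup.mem_zpowers_iff.1 (hgen g)
    have hstab : φ ∈ MulAction.stabilizer (L ≃ₐ[K] L) (u : L) := by
      rw [MulAction.mem_stabilizer_iff]; exact hfix
    have := Subgroup.zpow_mem _ hstab m
    rw [MulAction.mem_stabilizer_iff] at this
    exact this
  obtain ⟨x, hx⟩ := (IsGalois.mem_range_algebraMap_iff_fixed (F := K) (E := L) (u : L)).2 hall
  have hx0 : x ≠ 0 := by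
    intro h0
    rw [h0, map_zero] at hx
    exact u.ne_zero hx.symm
  have hvx : v x = w (u : L) := by
    rw [← hx, h.ext, pow_one]
  obtain ⟨π, hπ⟩ := h.hv.surj (WithZero.exp (-1 : ℤ))
  have hπ0 : π ≠ 0 := by
    intro h0
    rw [h0, map_zero] at hπ
    exact WithZero.exp_ne_zero hπ.symm
  have hwu : w (u : L) = WithZero.exp (-((Nat.card (L ≃ₐ[K] L) : ℤ) * k)) := by
    rw [← hk, neg_neg, WithZero.exp_log (h3ui_w_unit_ne_zero u)]
  have hvπ : ∀ m : ℤ, v (π ^ m) = WithZero.exp (-m) := by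
    intro m
    rw [map_zpow₀, hπ, ← WithZero.exp_zsmul]
    congr 1
    simp
  set n : ℕ := Nat.card (L ≃ₐ[K] L) with hn
  have hv1 : v (x * π ^ (-((n : ℤ) * k))) = 1 := by
    rw [map_mul, hvx, hwu, hvπ, ← WithZero.exp_add]
    simp
  obtain ⟨y, hy, hNy⟩ := H24LB.h24lb_norm_surj h _ hv1
  have hy0 : y ≠ 0 := by
    intro h0
    rw [h0, map_zero] at hy
    exact zero_ne_one hy
  have hπk : algebraMap K L (π ^ k) ≠ 0 := by
    rw [Ne, map_eq_zero]; exact zpow_ne_zero _ hπ0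
  refine ⟨algebraMap K L (π ^ k) * y, mul_ne_zero hπk hy0, ?_⟩
  rw [map_mul, Algebra.norm_algebraMap, hNy, ← hcard, ← hx]
  congr 1
  rw [← zpow_natCast, ← zpow_mul, mul_comm x, ← mul_assoc, ← zpow_add₀ hπ0]
  have : k * (n : ℤ) + -((n : ℤ) * k) = 0 := by ring
  rw [this, zpow_zero, one_mul]

/-- `|H²(Gal(L/K), Lˣ)| = [L:K]` for unramified `L/K` -/
theorem h3ui_card (h : IsLocalExt v w 1) (φ : L ≃ₐ[K] L)
    (hgen : ∀ g : L ≃ₐ[K] L, g ∈ Subgroup.zpowers φ) :
    Nat.card (H2 (Rep.ofAlgebraAutOnUnits K L)) = Nat.card (L ≃ₐ[K] L) := by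
  haveI : FiniteDimensional K L := h.fin
  haveI : IsGalois K L := h.gal
  haveI : Finite (L ≃ₐ[K] L) := inferInstance
  set n : ℕ := Nat.card (L ≃ₐ[K] L) with hn
  have hnpos : 0 < n := Nat.card_pos
  haveI : NeZero n := ⟨hnpos.ne'⟩
  set ρ : Representation ℤ (L ≃ₐ[K] L) (Additive Lˣ) :=
    Representation.ofMulDistribMulAction (L ≃ₐ[K] L) Lˣ with hρ
  have hc := (H25Herb.helper25_cyclicCard (L ≃ₐ[K] L) (Additive Lˣ) ρ φ hgen).1
  show Nat.card (groupCohomology (Rep.of ρ) 2) = n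
  rw [hc]
  let o : Additive Lˣ →+ ℤ :=
    { toFun := ordAdd w, map_zero' := h3ui_ordAdd_zero, map_add' := h3ui_ordAdd_add }
  let ψ : (H20A.subOne ρ φ).ker →+ ZMod n :=
    ((Int.castAddHom (ZMod n)).comp o).comp (AddSubgroup.subtype _)
  have hψ : ∀ a : (H20A.subOne ρ φ).ker, ψ a = ((ordAdd w a.1 : ℤ) : ZMod n) := fun a => rfl
  have hmemK : ∀ a : Additive Lˣ, a ∈ (H20A.subOne ρ φ).ker ↔
      φ ((Additive.toMul a : Lˣ) : L) = ((Additive.toMul a : Lˣ) : L) := by
    intro a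
    rw [AddMonoidHom.mem_ker]
    show ρ φ a - a = 0 ↔ _
    rw [sub_eq_zero]
    constructor
    · intro h1
      have h2 := congrArg (fun t : Additive Lˣ => ((Additive.toMul t : Lˣ) : L)) h1
      exact h2
    · intro h1
      show Additive.ofMul (φ • Additive.toMul a) = a
      apply Additive.toMul.injective
      apply Units.ext
      exact h1
  -- surjectivity
  obtain ⟨π, hπ⟩ := h.hv.surj (WithZero.exp (-1 : ℤ))
  have hπL : w (algebraMap K L π) = WithZero.exp (-1 : ℤ) := by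
    rw [h.ext, pow_one, hπ]
  have hπ0 : algebraMap K L π ≠ 0 := by
    intro h0
    rw [h0, map_zero] at hπL
    exact WithZero.exp_ne_zero hπL.symm
  let a₀ : Additive Lˣ := Additive.ofMul (Units.mk0 (algebraMap K L π) hπ0)
  have ha₀ : a₀ ∈ (H20A.subOne ρ φ).ker := by
    rw [hmemK]
    exact φ.commutes π
  have hoa : ordAdd w a₀ = 1 := by
    unfold ordAdd
    show -WithZero.log (w (algebraMap K L π)) = 1
    rw [hπL, WithZero.log_exp]
    norm_num
  have hsurj : Function.Surjective ψ := by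
    intro z
    refine ⟨z.val • ⟨a₀, ha₀⟩, ?_⟩
    rw [map_nsmul, hψ]
    show z.val • ((ordAdd w a₀ : ℤ) : ZMod n) = z
    rw [hoa]
    simp
  have hker : ψ.ker = (H20A.normOf ρ).range.addSubgroupOf (H20A.subOne ρ φ).ker := by
    ext ⟨a, ha⟩
    rw [AddMonoidHom.mem_ker, hψ, AddSubgroup.mem_addSubgroupOf]
    show ((ordAdd w a : ℤ) : ZMod n) = 0 ↔ a ∈ (H20A.normOf ρ).range
    rw [ZMod.intCast_zmod_eq_zero_iff_dvd]
    constructor
    · rintro ⟨k, hk⟩
      have hfix := (hmemK a).1 ha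
      obtain ⟨b, hb0, hb⟩ := h3ui_norm_of_fixed h φ hgen (Additive.toMul a) hfix k hk
      refine ⟨Additive.ofMul (Units.mk0 b hb0), ?_⟩
      apply Additive.toMul.injective
      letI : Fintype (L ≃ₐ[K] L) := Fintype.ofFinite _
      have h1 : Additive.toMul (H20A.normOf ρ (Additive.ofMul (Units.mk0 b hb0))) =
          ∏ g : L ≃ₐ[K] L, g • (Units.mk0 b hb0) :=
        Representation.norm_ofMulDistribMulAction_eq (G := L ≃ₐ[K] L) (M := Lˣ) _
      rw [h1]
      apply Units.ext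
      rw [Units.coe_prod, ← hb, Algebra.norm_eq_prod_automorphisms]
      refine Finset.prod_congr ?_ (fun g _ => rfl)
      ext g
      simp
    · rintro ⟨b, rfl⟩
      exact ⟨ordAdd w b, h3ui_ord_norm h b⟩
  rw [AddSubgroup.relIndex, ← hker, AddSubgroup.index_ker,
    AddMonoidHom.range_eq_top.2 hsurj, AddSubgroup.card_top, Nat.card_zmod]

/-- **(S1 = B5b) the invariant of an unramified extension** -/
theorem h3lb_unrInv : UnrInv := by
  intro K L _ _ _ v w h φ hφ
  haveI : FiniteDimensional K L := h.fin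
  haveI : IsGalois K L := h.gal
  haveI : Finite (L ≃ₐ[K] L) := inferInstance
  have hgen := H22UF.h22uf_generates h φ hφ
  have hcard : Nat.card (L ≃ₐ[K] L) = Module.finrank K L := IsGalois.card_aut_eq_finrank K L
  have hnpos : 0 < Nat.card (L ≃ₐ[K] L) := Nat.card_pos
  obtain ⟨inv, hinv⟩ := h3ui_exists_inv (Rep.ofAlgebraAutOnUnits K L) (h3ui_ordHom w)
    (h3ui_ordHom_smul h.inv) φ
  have hH2 := h3ui_card h φ hgen
  obtain ⟨c₀, hc₀⟩ := h3ui_exists_one h φ hgen
  have hsurj : Function.Surjective inv := by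
    intro z
    haveI : NeZero (Nat.card (L ≃ₐ[K] L)) := ⟨hnpos.ne'⟩
    refine ⟨z.val • H2π _ c₀, ?_⟩
    rw [map_nsmul, hinv, hc₀]
    simp
  have hbij : Function.Bijective inv := by
    haveI : Finite (H2 (Rep.ofAlgebraAutOnUnits K L)) :=
      Nat.finite_of_card_ne_zero (by rw [hH2]; exact hnpos.ne')
    rw [Nat.bijective_iff_surjective_and_card]
    exact ⟨hsurj, by rw [hH2, Nat.card_zmod]⟩
  have key : ∀ m : ℕ, m = Nat.card (L ≃ₐ[K] L) →
      ∃ inv : H2 (Rep.ofAlgebraAutOnUnits K L) →+ ZMod m, Function.Bijective inv ∧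
        ∀ c : cocycles₂ (Rep.ofAlgebraAutOnUnits K L), inv (H2π _ c) =
          ((∑ᶠ k : L ≃ₐ[K] L, ordAdd w (Rep.toAdditive (c.1 (φ, k))) : ℤ) : ZMod m) := by
    intro m hm
    subst hm
    refine ⟨inv, hbij, fun c => ?_⟩
    rw [hinv, h3ui_sumHom_apply]
    rfl
  exact key _ hcard.symm

end unr

end H3LB
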