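/-
W2-C (S55) block B, slice S5 (helper6): `UnrSplit`.
`H6US.h6lb_unrSplit : UnrBaseChange → InfResField → H2CardLe → UnrSplit`
(uses the landed `UnrInv`, `UnrFrob`, `RamResDegree`).
-/
import Mathlib
import Fermat.Agent.CFT2.B.Defs4
import Fermat.Agent.CFT2.B.UnrInv_helper3
import Fermat.Agent.CFT2.B.RamRes_helper10
import Fermat.Agent.CFT2.B.HasInvInj_helper24
import Fermat.Agent.CFT2.B.HasInvExists_helper24

set_option autoImplicit false
set_option linter.style.haveILetI false
set_option linter.unusedSectionVars false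
set_option linter.unusedVariables false

noncomputable section

namespace H6US

open scoped WithZero
open H3LB groupCohomology

section resdeg

variable {K L : Type} [Field K] [Field L] [Algebra K L] {v : Valuation K ℤᵐ⁰}
  {w : Valuation L ℤᵐ⁰} {e : ℕ}

/-- the inclusion `𝒪_K → 𝒪_L` is a local homomorphism -/
theorem h6us_isLocalHom (h : IsLocalExt v w e) : IsLocalHom (H10LB.h10lb_incl h) := by
  refine ⟨fun x hx => ?_⟩
  rw [H24LB.h24lb_isUnit_iff] at hx ⊢
  have h1 : w (algebraMap K L (x : K)) = 1 := hx
  rw [h.ext] at h1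
  exact (pow_eq_one_iff_of_nonneg zero_le (Nat.pos_iff_ne_zero.1 h.e_pos)).1 h1

/-- the residue degree: `|k_L| = |k_K| ^ f` and `e f = [L:K]` -/
theorem h6us_exists_f (h : IsLocalExt v w e) :
    ∃ f : ℕ, Nat.card (IsLocalRing.ResidueField w.valuationSubring) =
        Nat.card (IsLocalRing.ResidueField v.valuationSubring) ^ f ∧
      e * f = Module.finrank K L := by
  haveI := h6us_isLocalHom h
  haveI : Finite (IsLocalRing.ResidueField v.valuationSubring) := H24LB.h24lb_finite_k v h.hv
  haveI : Finite (IsLocalRing.ResidueField w.valuationSubring) := H24LB.h24lb_finite_k w h.hw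
  letI : Algebra (IsLocalRing.ResidueField v.valuationSubring)
      (IsLocalRing.ResidueField w.valuationSubring) :=
    (IsLocalRing.ResidueField.map (H10LB.h10lb_incl h)).toAlgebra
  haveI : Module.Finite (IsLocalRing.ResidueField v.valuationSubring)
      (IsLocalRing.ResidueField w.valuationSubring) := Module.Finite.of_finite
  have hf : Nat.card (IsLocalRing.ResidueField w.valuationSubring) =
      Nat.card (IsLocalRing.ResidueField v.valuationSubring) ^
        Module.finrank (IsLocalRing.ResidueField v.valuationSubring)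
          (IsLocalRing.ResidueField w.valuationSubring) :=
    Module.natCard_eq_pow_finrank
  refine ⟨_, hf, ?_⟩
  have h1 := H10LB.h10lb_ramRes h
  rw [hf, ← pow_mul] at h1
  have h2 : 1 < Nat.card (IsLocalRing.ResidueField v.valuationSubring) :=
    Finite.one_lt_card
  rw [mul_comm]
  exact Nat.pow_right_injective h2 h1

end resdeg

section main

/-- the ramification index of `E/U` equals that of `L/K` when `E/L` and `U/K` are unramified -/
theorem h6us_ram_transfer {K L U E : Type} [Field K] [Field L] [Field U] [Field E]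
    [Algebra K L] [Algebra K U] [Algebra K E] [Algebra L E] [Algebra U E]
    [IsScalarTower K L E] [IsScalarTower K U E]
    (vK : Valuation K ℤᵐ⁰) (vL : Valuation L ℤᵐ⁰) (vU : Valuation U ℤᵐ⁰) (vE : Valuation E ℤᵐ⁰)
    (hsurj : Function.Surjective vK) (e e' : ℕ)
    (hKL : ∀ x : K, vL (algebraMap K L x) = vK x ^ e)
    (hKU : ∀ x : K, vU (algebraMap K U x) = vK x ^ 1)
    (hLE : ∀ x : L, vE (algebraMap L E x) = vL x ^ 1)
    (hUE : ∀ x : U, vE (algebraMap U E x) = vU x ^ e') : e' = e := by
  obtain ⟨π, hπ⟩ := hsurj (WithZero.exp (-1 : ℤ))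
  have h1 : vE (algebraMap K E π) = WithZero.exp (-1 : ℤ) ^ e := by
    rw [IsScalarTower.algebraMap_apply K L E, hLE, hKL, hπ, pow_one]
  have h2 : vE (algebraMap K E π) = WithZero.exp (-1 : ℤ) ^ e' := by
    rw [IsScalarTower.algebraMap_apply K U E, hUE, hKU, hπ, pow_one]
  rw [h1, ← WithZero.exp_nsmul, ← WithZero.exp_nsmul, WithZero.exp_inj] at h2
  simp only [nsmul_eq_mul, mul_neg, mul_one, neg_inj] at h2
  exact_mod_cast h2.symm

/-- **(S5) UnrSplit** -/
theorem h6lb_unrSplit (hBC : H3LB.UnrBaseChange) (hIR : H3LB.InfResField)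
    (hLe : H3LB.H2CardLe) : H3LB.UnrSplit := by
  intro q _ K L U E _ _ _ _ _ _ _ _ _ _ _ _ _ _ _ _ _ _ _ _ _ _ _ _ _ _ _ _ hdeg hU hE
  haveI : FiniteDimensional K L := FiniteDimensional.right ℚ_[q] K L
  haveI : FiniteDimensional K U := FiniteDimensional.right ℚ_[q] K U
  haveI : FiniteDimensional K E := FiniteDimensional.right ℚ_[q] K E
  haveI : FiniteDimensional L E := FiniteDimensional.right ℚ_[q] L E
  obtain ⟨hinjL, hkerL⟩ := hIR K L E
  obtain ⟨hinjU, -⟩ := hIR K U E
  -- the ramification index of `L/K` and of `E/U`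
  obtain ⟨e, he, hextKL⟩ := h3lb_exists_ramification q (K := K) (L := L)
  have hKL : IsLocalExt (padicVal q K) (padicVal q L) e :=
    { hv := h3lb_isLocalVal q K
      hw := h3lb_isLocalVal q L
      fin := inferInstance
      gal := inferInstance
      e_pos := he
      ext := hextKL
      inv := h3lb_padicVal_algEquiv q }
  obtain ⟨e', he', hextUE⟩ := h3lb_exists_ramification q (K := U) (L := E)
  have hee : e' = e :=
    h6us_ram_transfer (padicVal q K) (padicVal q L) (padicVal q U) (padicVal q E)
      (h3lb_isLocalVal q K).surj e e' hextKL hU.ext hE.ext hextUE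
  subst hee
  obtain ⟨f, hf, hef⟩ := h6us_exists_f hKL
  obtain ⟨φK, hφK⟩ := H22UF.h22uf_exists_frob hU
  obtain ⟨φM, hφM⟩ := H22UF.h22uf_exists_frob hE
  obtain ⟨inv, hbij, hinvc⟩ := h3lb_unrInv L E (padicVal q L) (padicVal q E) hE φM hφM
  obtain ⟨invU, hbijU, -⟩ := h3lb_unrInv K U (padicVal q K) (padicVal q U) hU φK hφK
  have hzero : ∀ y, resField K L E 2 (infField K U E 2 y) = 0 := by
    intro y
    induction y using H2_induction_on with
    | h c =>
      obtain ⟨c', hc'⟩ : ∃ c' : cocycles₂ (Rep.ofAlgebraAutOnUnits L E),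
          H2π _ c' = bcField K L U E 2 (H2π _ c) := by
        generalize bcField K L U E 2 (H2π _ c) = z
        induction z using H2_induction_on with
        | h c' => exact ⟨c', rfl⟩
      have h1 := hBC K L U E (padicVal q K) (padicVal q L) (padicVal q U) (padicVal q E) e' f
        hU hE he' hextUE hf hef φK φM hφK hφM c c' hc'
      have h2 : Module.finrank K L • unrInvQ (padicVal q U) φK c.1 = 0 := by
        rw [← hdeg]
        exact H24LB.h24lb_unrInvQ_nsmul _ _ _
      rw [h2] at h1
      have h3 : inv (H2π _ c') = 0 := by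
        rw [hinvc, ZMod.intCast_zmod_eq_zero_iff_dvd]
        exact (H24LB.h24lb_qz_eq_zero_iff _ _ Module.finrank_pos).mp h1
      have h4 : H2π _ c' = 0 := hbij.1 (h3.trans (map_zero inv).symm)
      rw [hc'] at h4
      exact h4
  have hsub : Set.range (infField K U E 2) ⊆ Set.range (infField K L E 2) := by
    rintro _ ⟨y, rfl⟩
    exact (hkerL _).1 (hzero y)
  -- cardinalities
  obtain ⟨hfin, hcard⟩ := hLe q K L
  have hcardU : Nat.card (groupCohomology (Rep.ofAlgebraAutOnUnits K U) 2)
      = Module.finrank K U := by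
    rw [Nat.card_congr (Equiv.ofBijective invU hbijU), Nat.card_zmod]
  symm
  refine Set.eq_of_subset_of_ncard_le hsub ?_ (Set.finite_range _)
  rw [Set.ncard_range_of_injective hinjL, Set.ncard_range_of_injective hinjU, hcardU, hdeg]
  exact hcard

end main

end H6US

end
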