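/-
W2-C (S55) block B (helper24): assembly of the `HasInv` slices from the landed unconditional
slices.  Everything here depends only on `H3LB.H2CardLe` (B5a) and `H3LB.HasInvRes` (S8f).
-/
import Mathlib
import Fermat.Agent.CFT2.B.HasInvUnr_helper24
import Fermat.Agent.CFT2.B.HasInvExists_helper24
import Fermat.Agent.CFT2.B.HasInvInj_helper24
import Fermat.Agent.CFT2.B.HasInvRange_helper24
import Fermat.Agent.CFT2.B.HasInvInf_helper24
import Fermat.Agent.CFT2.B.InfFieldComp_helper24
import Fermat.Agent.CFT2.B.InfResField_helper24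
import Fermat.Agent.CFT2.B.UnrFinal_helper24
import Fermat.Agent.CFT2.B.UnrSplit_helper6
import Fermat.Agent.CFT2.B.InvIndep_helper3
import Fermat.Agent.CFT2.B.UnrInfCompat_helper25
import Fermat.Agent.CFT2.B.UnrBaseChangeFinal_helper25
import Fermat.Agent.CFT2.B.UnrInv_helper3
import Fermat.Agent.CFT2.B.UnrFrob_helper22

set_option autoImplicit false

namespace H24LB

open H3LB

/-- **(S8c)** unconditional -/
theorem h24lb_hasInvInj_final : H3LB.HasInvInj :=
  h24lb_hasInvInj h3lb_unrInv h24lb_infResField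

/-- **(S8b)** unconditional -/
theorem h24lb_hasInvUnique_final : H3LB.HasInvUnique :=
  h3lb_hasInvUnique h24lb_infFieldComp h24lb_infResField H25LB.h25lb_unrInfCompat

/-- **(S5)** from B5a -/
theorem h24lb_unrSplit_of (hLe : H3LB.H2CardLe) : H3LB.UnrSplit :=
  H6US.h6lb_unrSplit H25LB.h25lb_unrBaseChange_final h24lb_infResField hLe

/-- **(S8a)** from B5a -/
theorem h24lb_hasInvExists_of (hLe : H3LB.H2CardLe) : H3LB.HasInvExists :=
  h24lb_hasInvExists (h24lb_unrSplit_of hLe) H22UF.h22uf_unrFrob h24lb_unrCompositum_final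

/-- **(S8d)** from B5a -/
theorem h24lb_hasInvRange_of (hLe : H3LB.H2CardLe) : H3LB.HasInvRange :=
  h24lb_hasInvRange (h24lb_unrSplit_of hLe) H22UF.h22uf_unrFrob h24lb_unrCompositum_final
    h24lb_hasInvUnique_final h3lb_unrInv

/-- **(S8e)** from B5a -/
theorem h24lb_hasInvInf_of (hLe : H3LB.H2CardLe) : H3LB.HasInvInf :=
  h24lb_hasInvInf (h24lb_hasInvExists_of hLe) h24lb_hasInvUnique_final h24lb_infFieldComp

/-- **(B6) canonical local invariants exist**, from B5a and S8f -/
theorem h24lb_localInvExists_of (hLe : H3LB.H2CardLe) (hRes : H3LB.HasInvRes) :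
    H3LB.LocalInvExists :=
  h3lb_localInvExists_of_slices (h24lb_hasInvExists_of hLe) h24lb_hasInvUnique_final
    h24lb_hasInvInj_final (h24lb_hasInvRange_of hLe) (h24lb_hasInvInf_of hLe) hRes
    h24lb_hasInvUnr

end H24LB
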