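/-
W2-C (S55) block B, slice S8f (helper3): the invariant is compatible with restriction,
`inv_{E/L}(res x) = [L:K] · inv_{E/K}(x)`  (`L/K` need not be Galois).
-/
import Mathlib
import Fermat.Agent.CFT2.B.Defs5
import Fermat.Agent.CFT2.B.FieldMaps_helper3
import Fermat.Agent.CFT2.B.UnrBaseChangeFinal_helper25
import Fermat.Agent.CFT2.B.UnrGen_helper22
import Fermat.Agent.CFT2.B.UnrFinal_helper24
import Fermat.Agent.CFT2.B.UnrFrob_helper22
import Fermat.Agent.CFT2.B.UnrSplit_helper6

set_option autoImplicit false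
set_option linter.style.haveILetI false
set_option linter.unusedSectionVars false
set_option linter.unusedVariables false

namespace H3LB

open scoped WithZero
open groupCohomology CategoryTheory

/-- the unramified extension `L·U` of `L` inside `E`, for an unramified extension `U/K` -/
theorem h3ir_unrLift (q : ℕ) [Fact q.Prime] (K L U E : Type) [Field K] [Field L] [Field U]
    [Field E] [Algebra ℚ_[q] K] [Algebra ℚ_[q] L] [Algebra ℚ_[q] U] [Algebra ℚ_[q] E]
    [Algebra K L] [Algebra K U] [Algebra K E] [Algebra L E] [Algebra U E]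
    [IsScalarTower ℚ_[q] K L] [IsScalarTower ℚ_[q] K U] [IsScalarTower ℚ_[q] K E]
    [IsScalarTower ℚ_[q] L E] [IsScalarTower K L E] [IsScalarTower K U E]
    [FiniteDimensional ℚ_[q] K] [FiniteDimensional ℚ_[q] L] [FiniteDimensional ℚ_[q] U]
    [FiniteDimensional ℚ_[q] E]
    (h : IsLocalExt (padicVal q K) (padicVal q U) 1) :
    ∃ (V : Type) (_ : Field V) (_ : Algebra ℚ_[q] V) (_ : Algebra K V) (_ : Algebra L V)
      (_ : Algebra U V) (_ : Algebra V E) (_ : IsScalarTower ℚ_[q] L V)
      (_ : IsScalarTower ℚ_[q] U V)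
      (_ : IsScalarTower K L V) (_ : IsScalarTower K U V) (_ : IsScalarTower L V E)
      (_ : IsScalarTower U V E) (_ : FiniteDimensional ℚ_[q] V)
      (_ : IsGalois L V), IsLocalExt (padicVal q L) (padicVal q V) 1 := by
  obtain ⟨r, ζ, hq, hζ, hadj⟩ := H22UG.h22ug_unrGen q K U h
  haveI : FiniteDimensional L E := FiniteDimensional.right ℚ_[q] L E
  have hint : IsIntegral L (algebraMap U E ζ) := Algebra.IsIntegral.isIntegral _
  let V : IntermediateField L E := IntermediateField.adjoin L {algebraMap U E ζ}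
  have hζmem : algebraMap U E ζ ∈ V := IntermediateField.mem_adjoin_simple_self L _
  have hmem : ∀ x : U, algebraMap U E x ∈ V := by
    intro x
    have hx : x ∈ Algebra.adjoin K {ζ} := by rw [hadj]; trivial
    have h3 : (IsScalarTower.toAlgHom K U E) x ∈
        (Algebra.adjoin K {ζ}).map (IsScalarTower.toAlgHom K U E) := ⟨x, hx, rfl⟩
    rw [AlgHom.map_adjoin, Set.image_singleton] at h3
    have h4 : Algebra.adjoin K {(IsScalarTower.toAlgHom K U E) ζ} ≤
        (V.toSubalgebra.restrictScalars K) := by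
      apply Algebra.adjoin_le
      rintro y hy
      rw [Set.mem_singleton_iff] at hy
      subst hy
      exact hζmem
    exact h4 h3
  let r' : U →+* V := (algebraMap U E).codRestrict V.toSubfield.toSubring hmem
  letI a₁ : Algebra U V := r'.toAlgebra
  have t0 : IsScalarTower ℚ_[q] L V := IsScalarTower.of_algebraMap_eq (fun x => by
    apply Subtype.ext
    show algebraMap ℚ_[q] E x = algebraMap L E (algebraMap ℚ_[q] L x)
    exact IsScalarTower.algebraMap_apply ℚ_[q] L E x)
  have t0' : IsScalarTower ℚ_[q] U V := IsScalarTower.of_algebraMap_eq (fun x => by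
    apply Subtype.ext
    show algebraMap ℚ_[q] E x = algebraMap U E (algebraMap ℚ_[q] U x)
    rw [IsScalarTower.algebraMap_apply ℚ_[q] K E, IsScalarTower.algebraMap_apply ℚ_[q] K U,
      ← IsScalarTower.algebraMap_apply K U E])
  have t1 : IsScalarTower K L V := IsScalarTower.of_algebraMap_eq (fun x => by
    apply Subtype.ext
    show algebraMap K E x = algebraMap L E (algebraMap K L x)
    exact IsScalarTower.algebraMap_apply K L E x)
  have t2 : IsScalarTower K U V := IsScalarTower.of_algebraMap_eq (fun x => by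
    apply Subtype.ext
    show algebraMap K E x = algebraMap U E (algebraMap K U x)
    exact IsScalarTower.algebraMap_apply K U E x)
  have t3 : IsScalarTower U V E := IsScalarTower.of_algebraMap_eq (fun x => rfl)
  haveI fd : FiniteDimensional ℚ_[q] V :=
    FiniteDimensional.of_injective ((V.val.toLinearMap).restrictScalars ℚ_[q])
      (fun x y hxy => Subtype.ext hxy)
  have hgen : Algebra.adjoin L {(⟨algebraMap U E ζ, hζmem⟩ : V)} = ⊤ :=
    (IntermediateField.adjoin.powerBasis hint).adjoin_gen_eq_top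
  have hζ3 : (⟨algebraMap U E ζ, hζmem⟩ : V) ^ r = 1 := by
    apply Subtype.ext
    show (algebraMap U E ζ) ^ r = 1
    rw [← map_pow, hζ, map_one]
  obtain ⟨hgal, hunr⟩ := H24LB.h24lb_unrRoots_final q L V r ⟨_, hζmem⟩ hq hζ3 hgen
  exact ⟨V, inferInstance, inferInstance, inferInstance, inferInstance, a₁, inferInstance, t0, t0',
    t1, t2, inferInstance, t3, fd, hgal, hunr⟩

section incl

variable {K L : Type} [Field K] [Field L] [Algebra K L] (v : Valuation K ℤᵐ⁰)
  (w : Valuation L ℤᵐ⁰) (e : ℕ)

/-- the inclusion `𝒪_K → 𝒪_L` (no Galois hypothesis) -/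
noncomputable def h3ir_incl (he : 0 < e) (hext : ∀ x : K, w (algebraMap K L x) = v x ^ e) :
    v.valuationSubring →+* w.valuationSubring where
  toFun x := ⟨algebraMap K L x, (Valuation.mem_valuationSubring_iff _ _).2 (by
    rw [hext]
    exact pow_le_one₀ zero_le ((Valuation.mem_valuationSubring_iff _ _).1 x.2))⟩
  map_one' := Subtype.ext (map_one _)
  map_mul' x y := Subtype.ext (map_mul _ _ _)
  map_zero' := Subtype.ext (map_zero _)
  map_add' x y := Subtype.ext (map_add _ _ _)

theorem h3ir_isLocalHom (he : 0 < e) (hext : ∀ x : K, w (algebraMap K L x) = v x ^ e) :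
    IsLocalHom (h3ir_incl v w e he hext) := by
  refine ⟨fun x hx => ?_⟩
  rw [H24LB.h24lb_isUnit_iff] at hx ⊢
  have h1 : w (algebraMap K L (x : K)) = 1 := hx
  rw [hext] at h1
  exact (pow_eq_one_iff_of_nonneg zero_le (Nat.pos_iff_ne_zero.1 he)).1 h1

/-- `|k_L|` is a power of `|k_K|` -/
theorem h3ir_exists_f (hv : IsLocalVal v) (hw : IsLocalVal w) (he : 0 < e)
    (hext : ∀ x : K, w (algebraMap K L x) = v x ^ e) :
    ∃ f : ℕ, Nat.card (IsLocalRing.ResidueField w.valuationSubring) =
        Nat.card (IsLocalRing.ResidueField v.valuationSubring) ^ f := by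
  haveI := h3ir_isLocalHom v w e he hext
  haveI : Finite (IsLocalRing.ResidueField v.valuationSubring) := H24LB.h24lb_finite_k v hv
  haveI : Finite (IsLocalRing.ResidueField w.valuationSubring) := H24LB.h24lb_finite_k w hw
  letI : Algebra (IsLocalRing.ResidueField v.valuationSubring)
      (IsLocalRing.ResidueField w.valuationSubring) :=
    (IsLocalRing.ResidueField.map (h3ir_incl v w e he hext)).toAlgebra
  haveI : Module.Finite (IsLocalRing.ResidueField v.valuationSubring)
      (IsLocalRing.ResidueField w.valuationSubring) := Module.Finite.of_finite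
  exact ⟨_, Module.natCard_eq_pow_finrank⟩

end incl

/-- ramification index and residue degree of a (not necessarily Galois) extension `L/K` of
`q`-adic fields inside a Galois extension `E/K`: `e f = [L:K]`. -/
theorem h3ir_exists_ef (q : ℕ) [Fact q.Prime] (K L E : Type) [Field K] [Field L] [Field E]
    [Algebra ℚ_[q] K] [Algebra ℚ_[q] L] [Algebra ℚ_[q] E] [Algebra K L] [Algebra L E]
    [Algebra K E] [IsScalarTower ℚ_[q] K L] [IsScalarTower ℚ_[q] K E] [IsScalarTower ℚ_[q] L E]
    [IsScalarTower K L E] [FiniteDimensional ℚ_[q] K] [FiniteDimensional ℚ_[q] L]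
    [FiniteDimensional ℚ_[q] E] [IsGalois K E] [IsGalois L E] :
    ∃ e f : ℕ, 0 < e ∧ (∀ x : K, padicVal q L (algebraMap K L x) = padicVal q K x ^ e) ∧
      Nat.card (IsLocalRing.ResidueField (padicVal q L).valuationSubring) =
        Nat.card (IsLocalRing.ResidueField (padicVal q K).valuationSubring) ^ f ∧
      e * f = Module.finrank K L := by
  haveI : FiniteDimensional K L := FiniteDimensional.right ℚ_[q] K L
  haveI : FiniteDimensional K E := FiniteDimensional.right ℚ_[q] K E
  haveI : FiniteDimensional L E := FiniteDimensional.right ℚ_[q] L E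
  obtain ⟨e, he, hext⟩ := h3lb_exists_ramification q (K := K) (L := L)
  obtain ⟨e₁, hKE⟩ := h3lb_exists_isLocalExt q (K := K) (L := E)
  obtain ⟨e₂, hLE⟩ := h3lb_exists_isLocalExt q (K := L) (L := E)
  obtain ⟨f₁, hf₁, hef₁⟩ := H6US.h6us_exists_f hKE
  obtain ⟨f₂, hf₂, hef₂⟩ := H6US.h6us_exists_f hLE
  obtain ⟨f, hf⟩ := h3ir_exists_f (padicVal q K) (padicVal q L) e (h3lb_isLocalVal q K)
    (h3lb_isLocalVal q L) he hext
  refine ⟨e, f, he, hext, hf, ?_⟩
  -- `e₁ = e₂ * e`
  have hee : e₁ = e * e₂ := by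
    obtain ⟨π, hπ⟩ := (h3lb_isLocalVal q K).surj (WithZero.exp (-1 : ℤ))
    have h1 : padicVal q E (algebraMap K E π) = WithZero.exp (-1 : ℤ) ^ e₁ := by
      rw [hKE.ext, hπ]
    have h2 : padicVal q E (algebraMap K E π) = WithZero.exp (-1 : ℤ) ^ (e * e₂) := by
      rw [IsScalarTower.algebraMap_apply K L E, hLE.ext, hext, hπ, pow_mul]
    rw [h1, ← WithZero.exp_nsmul, ← WithZero.exp_nsmul, WithZero.exp_inj] at h2
    simp only [nsmul_eq_mul, mul_neg, mul_one, neg_inj] at h2
    exact_mod_cast h2
  -- `f₁ = f * f₂`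
  have hNK : 1 < Nat.card (IsLocalRing.ResidueField (padicVal q K).valuationSubring) := by
    haveI : Finite (IsLocalRing.ResidueField (padicVal q K).valuationSubring) :=
      H24LB.h24lb_finite_k _ (h3lb_isLocalVal q K)
    exact Finite.one_lt_card
  have hff : f₁ = f * f₂ := by
    have h3 : Nat.card (IsLocalRing.ResidueField (padicVal q K).valuationSubring) ^ f₁ =
        Nat.card (IsLocalRing.ResidueField (padicVal q K).valuationSubring) ^ (f * f₂) := by
      rw [← hf₁, hf₂, hf, pow_mul]
    exact Nat.pow_right_injective hNK h3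
  have hdeg : Module.finrank K E = Module.finrank K L * Module.finrank L E :=
    (Module.finrank_mul_finrank K L E).symm
  have hpos : 0 < e₂ * f₂ := by
    rw [hef₂]
    exact Module.finrank_pos
  have h4 : e * f * (e₂ * f₂) = Module.finrank K L * (e₂ * f₂) := by
    calc e * f * (e₂ * f₂) = e₁ * f₁ := by rw [hee, hff]; ring
      _ = Module.finrank K E := hef₁
      _ = Module.finrank K L * Module.finrank L E := hdeg
      _ = Module.finrank K L * (e₂ * f₂) := by rw [hef₂]
  exact Nat.eq_of_mul_eq_mul_right hpos h4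

/-- **(S8f)** compatibility of the invariant with restriction -/
theorem h3lb_hasInvRes : HasInvRes := by
  intro q _ K L E _ _ _ _ _ _ _ _ _ _ _ _ _ _ _ _ _ _ x t hx
  obtain ⟨U, E', iU, iE', iqU, iqE', iKU, iKE', iEE', iUE', t1, t2, t5, t6, fU, fE', gU, gE',
    hunrU, φ, c, hφ, hc, ht⟩ := hx
  letI aLE' : Algebra L E' := ((algebraMap E E').comp (algebraMap L E)).toAlgebra
  haveI s1 : IsScalarTower L E E' := IsScalarTower.of_algebraMap_eq (fun _ => rfl)
  haveI s2 : IsScalarTower K L E' := IsScalarTower.of_algebraMap_eq (fun y => by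
    rw [IsScalarTower.algebraMap_apply K E E', IsScalarTower.algebraMap_apply K L E]
    rfl)
  haveI s3 : IsScalarTower ℚ_[q] L E' := IsScalarTower.of_algebraMap_eq (fun y => by
    rw [IsScalarTower.algebraMap_apply ℚ_[q] K E', IsScalarTower.algebraMap_apply K L E',
      ← IsScalarTower.algebraMap_apply ℚ_[q] K L])
  haveI gLE' : IsGalois L E' := IsGalois.tower_top_of_isGalois K L E'
  obtain ⟨V, iV, iqV, iKV, iLV, iUV, iVE', u0, u0', u1, u2, u3, u4, fV, gV, hunrV⟩ :=
    h3ir_unrLift q K L U E' hunrU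
  obtain ⟨e, f, he, hext, hf, hef⟩ := h3ir_exists_ef q K L E
  obtain ⟨e', he', hextUV⟩ := h3lb_exists_ramification q (K := U) (L := V)
  have hee : e' = e :=
    H6US.h6us_ram_transfer (padicVal q K) (padicVal q L) (padicVal q U) (padicVal q V)
      (h3lb_isLocalVal q K).surj e e' hext hunrU.ext hunrV.ext hextUV
  subst hee
  obtain ⟨φL, hφL⟩ := H22UF.h22uf_exists_frob hunrV
  obtain ⟨cL, hcL⟩ : ∃ cL : cocycles₂ (Rep.ofAlgebraAutOnUnits L V),
      H2π _ cL = bcField K L U V 2 (H2π _ c) := by
    generalize bcField K L U V 2 (H2π _ c) = z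
    induction z using H2_induction_on with
    | h c' => exact ⟨c', rfl⟩
  have hval := H25LB.h25lb_unrBaseChange_final K L U V (padicVal q K) (padicVal q L)
    (padicVal q U) (padicVal q V) e' f hunrU hunrV he' hextUV hf hef φ φL hφ hφL c cL hcL
  refine ⟨V, E', iV, iE', iqV, iqE', iLV, aLE', iEE', iVE', u0, s3, s1, u3, fV, fE', gV, gLE',
    hunrV, φL, cL, hφL, ?_, by rw [hval, ht]⟩
  rw [hcL]
  have h1 := h3fm_bcInfComp K L U V E' 2
  have h2 := h3fm_resInfComm K L E E' 2
  have h3 : infField L V E' 2 (bcField K L U V 2 (H2π _ c)) = bcField K L U E' 2 (H2π _ c) := by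
    rw [← h1]
    rfl
  rw [h3]
  show resField K L E' 2 (infField K U E' 2 (H2π _ c)) = _
  rw [hc]
  have h4 : resField K L E' 2 (infField K E E' 2 x) =
      ((resField K L E' 2).comp (infField K E E' 2)) x := rfl
  rw [h4, h2]
  rfl

end H3LB
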