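/-
W2-C (S55) block B, slice S9a (helper24): subgroups ↔ fixed fields on cohomology:
for `H ≤ Gal(L/K)`, `M = L^H`: `Hⁿ(H, Lˣ) ≅ Hⁿ(Gal(L/M), Lˣ)` compatibly with restriction.
`h24lb_resSubField : H3LB.ResSubField`.
-/
import Mathlib
import Fermat.Agent.CFT2.B.Defs6

set_option autoImplicit false
set_option linter.style.haveILetI false
set_option linter.unusedSectionVars false
set_option linter.unusedVariables false

noncomputable section

namespace H24LB

open scoped WithZero
open H3LB groupCohomology CategoryTheory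

/-- **(S9a)** -/
theorem h24lb_resSubField : H3LB.ResSubField := by
  intro K L _ _ _ _ _ H n
  let e₀ : H ≃* (L ≃ₐ[IntermediateField.fixedField H] L) :=
    IntermediateField.subgroupEquivAlgEquiv H
  let e' : (H20A.resSub (Rep.ofAlgebraAutOnUnits K L) H).V ≃ₗ[ℤ]
      (Rep.ofAlgebraAutOnUnits (IntermediateField.fixedField H) L).V :=
    LinearEquiv.refl ℤ _
  have he : ∀ g : H, e'.toLinearMap ∘ₗ (H20A.resSub (Rep.ofAlgebraAutOnUnits K L) H).ρ g
      = (Rep.ofAlgebraAutOnUnits (IntermediateField.fixedField H) L).ρ (e₀ g) ∘ₗ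
        e'.toLinearMap := by
    intro g
    ext v
    rfl
  refine ⟨(groupCohomology.mapIso (k := ℤ)
    (A := Rep.ofAlgebraAutOnUnits (IntermediateField.fixedField H) L)
    (B := H20A.resSub (Rep.ofAlgebraAutOnUnits K L) H) e₀ e' he n).toLinearEquiv.toAddEquiv, ?_⟩
  intro x
  have h1 := groupCohomology.map_comp (k := ℤ)
    (A := Rep.ofAlgebraAutOnUnits K L) (B := H20A.resSub (Rep.ofAlgebraAutOnUnits K L) H)
    (C := Rep.ofAlgebraAutOnUnits (IntermediateField.fixedField H) L)
    H.subtype (e₀.symm : (L ≃ₐ[IntermediateField.fixedField H] L) →* H)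
    (𝟙 (H20A.resSub (Rep.ofAlgebraAutOnUnits K L) H))
    (Rep.ofHom ⟨e'.toLinearMap, fun h => by ext v; rfl⟩) n
  have h2 : groupCohomology.map (galRes K (IntermediateField.fixedField H) L)
      (resFieldHom K (IntermediateField.fixedField H) L) n
      = groupCohomology.map H.subtype (𝟙 (H20A.resSub (Rep.ofAlgebraAutOnUnits K L) H)) n ≫
        groupCohomology.map (e₀.symm : (L ≃ₐ[IntermediateField.fixedField H] L) →* H)
          (Rep.ofHom ⟨e'.toLinearMap, fun h => by ext v; rfl⟩) n := by
    refine Eq.trans (groupCohomology.map_congr ?_ ?_ n) h1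
    · ext σ y
      rfl
    · ext v
      rfl
  have h3 := congrArg (fun f => f.hom x) h2
  exact h3.symm

end H24LB

end
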