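/-
W2-C (S55) block B, FINAL WIRING (helper3): local class field theory, unconditional.

* `H3LB.h3lb_localInvExists : LocalInvExists` — the canonical local invariants
  `inv_{L/K} : H²(Gal(L/K), Lˣ) → ℚ/ℤ` (injective, image `(1/[L:K])ℤ/ℤ`, compatible with inflation
  and restriction, normalised on unramified extensions);
* `H3LB.h3lb_h2Card : H2Card` — `H²(Gal(L/K), Lˣ)` is cyclic of order `[L:K]`;
* `H3LB.h3lb_localClassModule : LocalClassModule`, `h3lb_localClassModuleInv` — `Lˣ` is a class
  module for `Gal(L/K)` (block A, `H20A.IsClassModule`);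
* `H3LB.h3lb_isPClassModule` — the `p`-version (`H20A.IsPClassModule`).
-/
import Mathlib
import Fermat.Agent.CFT2.A.Defs3
import Fermat.Agent.CFT2.B.HasInvFinal_helper24
import Fermat.Agent.CFT2.B.H2CardLe_helper5
import Fermat.Agent.CFT2.B.HasInvRes_helper3
import Fermat.Agent.CFT2.B.ClassModule_helper3
import Fermat.Agent.CFT2.B.ResSubField_helper24

set_option autoImplicit false
set_option linter.style.haveILetI false
set_option linter.unusedSectionVars false
set_option linter.unusedVariables false

namespace H3LB

open groupCohomology CategoryTheory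

/-- **local invariants exist** (unconditional) -/
theorem h3lb_localInvExists : LocalInvExists :=
  H24LB.h24lb_localInvExists_of H5B.h5b_h2CardLe h3lb_hasInvRes

/-- **`H²(Gal(L/K), Lˣ)` is cyclic of order `[L:K]`** (unconditional) -/
theorem h3lb_h2Card : H2Card := h3cm_h2Card h3lb_localInvExists

/-- **the local class module** for every local invariant family (unconditional) -/
theorem h3lb_localClassModuleInv : LocalClassModuleInv :=
  h3cm_localClassModuleInv H24LB.h24lb_resSubField

/-- **the local class module** (unconditional) -/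
theorem h3lb_localClassModule : LocalClassModule :=
  h3cm_localClassModule h3lb_localInvExists H24LB.h24lb_resSubField

/-- a class module is a `p`-class module for every `p` -/
theorem h3lb_isPClassModule_of_isClassModule {G : Type} [Group G] [Finite G] (p : ℕ)
    (C : Rep ℤ G) (γ : groupCohomology C 2) (h : H20A.IsClassModule C γ) :
    H20A.IsPClassModule p C γ :=
  ⟨fun H _ => h.h1 H, fun H _ => h.card H, fun H _ => h.gen H⟩

/-- **the local `p`-class module** (unconditional) -/
theorem h3lb_isPClassModule (p : ℕ) (q : ℕ) [Fact q.Prime] (K L : Type) [Field K] [Field L]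
    [Algebra ℚ_[q] K] [Algebra ℚ_[q] L] [Algebra K L] [IsScalarTower ℚ_[q] K L]
    [FiniteDimensional ℚ_[q] L] [IsGalois K L] :
    haveI : FiniteDimensional K L := FiniteDimensional.right ℚ_[q] K L
    ∃ γ : groupCohomology (Rep.ofAlgebraAutOnUnits K L) 2,
      H20A.IsPClassModule p (Rep.ofAlgebraAutOnUnits K L) γ := by
  haveI : FiniteDimensional K L := FiniteDimensional.right ℚ_[q] K L
  obtain ⟨γ, hγ⟩ := h3lb_localClassModule q K L
  exact ⟨γ, h3lb_isPClassModule_of_isClassModule p _ γ hγ⟩

end H3LB
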