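/-
W2-C (S55) block B, slice B5a (helper5), part 1: the ABSTRACT bound `|H²(Γ, B)| ≤ |Γ|`.

Let `𝒟` be a class of pairs (group `Γ`, module `B`) which is closed under restriction to
subgroups, satisfies Hilbert 90 (`H¹ = 0`) and the bound `|H²(Γ/N, B^N)| ≤ |Γ/N|` for all
cyclic quotients.  Then `|H²(Γ, B)| ≤ |Γ|` for all pairs of the class
(`p`-groups by induction, using inflation-restriction; the general case by Sylow subgroups,
using that the kernel of a restriction map is killed by the index).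
-/
import Mathlib
import Fermat.Agent.CFT2.A.Defs
import Fermat.Agent.CFT2.A.AF_helper5

set_option autoImplicit false

noncomputable section

open CategoryTheory groupCohomology Rep

namespace H5B

/-- `H²(Γ, B)` is finite of cardinality at most `|Γ|` -/
def h5b_Bound {Γ : Type} [Group Γ] (B : Rep.{0} ℤ Γ) : Prop :=
  Finite (groupCohomology B 2) ∧ Nat.card (groupCohomology B 2) ≤ Nat.card Γ

/-- the hypotheses on the class `𝒟` -/
structure h5b_Class (𝒟 : ∀ (Γ : Type) [Group Γ], Rep.{0} ℤ Γ → Prop) : Prop where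
  fin : ∀ (Γ : Type) [Group Γ] (B : Rep.{0} ℤ Γ), 𝒟 Γ B → Finite Γ
  res : ∀ (Γ : Type) [Group Γ] (B : Rep.{0} ℤ Γ), 𝒟 Γ B →
    ∀ H : Subgroup Γ, 𝒟 H (Rep.res H.subtype B)
  h90 : ∀ (Γ : Type) [Group Γ] (B : Rep.{0} ℤ Γ), 𝒟 Γ B →
    Limits.IsZero (groupCohomology B 1)
  cyc : ∀ (Γ : Type) [Group Γ] (B : Rep.{0} ℤ Γ), 𝒟 Γ B →
    ∀ (N : Subgroup Γ) [N.Normal], IsCyclic (Γ ⧸ N) → h5b_Bound (B.quotientToInvariants N)

/-- counting in a left exact sequence -/
theorem h5b_count {X Y Z : Type*} [AddCommGroup X] [AddCommGroup Y] [AddCommGroup Z]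
    [Finite X] [Finite Z] (f : X → Y) (g : Y → Z)
    (hg : ∀ y y' : Y, g y = g y' → ∃ x, f x = y - y') :
    Finite Y ∧ Nat.card Y ≤ Nat.card X * Nat.card Z := by
  classical
  let σ : Z → Y := fun z => if h : ∃ y, g y = z then h.choose else 0
  have hσ : ∀ y, g (σ (g y)) = g y := by
    intro y
    have h : ∃ y', g y' = g y := ⟨y, rfl⟩
    simp only [σ, dif_pos h]
    exact h.choose_spec
  let τ : Y → X := fun y => (hg y (σ (g y)) (hσ y).symm).choose
  have hτ : ∀ y, f (τ y) = y - σ (g y) := fun y => (hg y (σ (g y)) (hσ y).symm).choose_spec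
  have hinj : Function.Injective (fun y : Y => (τ y, g y)) := by
    intro y y' h
    simp only [Prod.mk.injEq] at h
    have h1 := hτ y
    have h2 := hτ y'
    rw [h.1, h.2] at h1
    have h3 : y - σ (g y') = y' - σ (g y') := by rw [← h1, ← h2]
    exact sub_left_injective h3
  refine ⟨Finite.of_injective _ hinj, ?_⟩
  have := Nat.card_le_card_of_injective _ hinj
  rwa [Nat.card_prod] at this

/-- the bound for the trivial group -/
theorem h5b_bound_of_subsingleton {Γ : Type} [Group Γ] [Subsingleton Γ] (B : Rep.{0} ℤ Γ) :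
    h5b_Bound B := by
  have h := isZero_groupCohomology_succ_of_subsingleton B 1
  have hs : Subsingleton (groupCohomology B 2) := ModuleCat.subsingleton_of_isZero h
  refine ⟨inferInstance, ?_⟩
  rw [Nat.card_unique]
  exact Nat.card_pos

variable {𝒟 : ∀ (Γ : Type) [Group Γ], Rep.{0} ℤ Γ → Prop}

/-- the inductive step: a normal subgroup with cyclic quotient -/
theorem h5b_bound_step (h𝒟 : h5b_Class 𝒟) {Γ : Type} [Group Γ] (B : Rep.{0} ℤ Γ) (hB : 𝒟 Γ B)
    (N : Subgroup Γ) [N.Normal] (hcyc : IsCyclic (Γ ⧸ N))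
    (hN : h5b_Bound (Rep.res N.subtype B)) : h5b_Bound B := by
  have hfin := h𝒟.fin Γ B hB
  obtain ⟨hQfin, hQ⟩ := h𝒟.cyc Γ B hB N hcyc
  obtain ⟨hNfin, hNle⟩ := hN
  have hyp : H5AF.h5af_Hyp N B 2 := by
    intro i hi0 hi2
    obtain rfl : i = 1 := by omega
    exact h𝒟.h90 _ _ (h𝒟.res Γ B hB N)
  obtain ⟨-, hex⟩ := H5AF.h5af_infRes N 2 (by norm_num) B hyp
  have hcount := h5b_count (H5AF.h5af_inf N B 2).hom (H5AF.h5af_res N B 2).hom
    (fun y y' hyy' => by
      apply (hex (y - y')).1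
      rw [map_sub, hyy', sub_self])
  refine ⟨hcount.1, hcount.2.trans ?_⟩
  calc Nat.card (groupCohomology (B.quotientToInvariants N) 2)
        * Nat.card (groupCohomology (Rep.res N.subtype B) 2)
      ≤ Nat.card (Γ ⧸ N) * Nat.card N := Nat.mul_le_mul hQ hNle
    _ = Nat.card Γ := by
        rw [← Subgroup.index_eq_card, mul_comm, Subgroup.card_mul_index]

/-- the bound for `p`-groups -/
theorem h5b_bound_pgroup (h𝒟 : h5b_Class 𝒟) (p : ℕ) [hp : Fact p.Prime] (n : ℕ) :
    ∀ (Γ : Type) [Group Γ] (B : Rep.{0} ℤ Γ), 𝒟 Γ B → Nat.card Γ = p ^ n → h5b_Bound B := by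
  induction n with
  | zero =>
    intro Γ _ B hB hcard
    have hfin := h𝒟.fin Γ B hB
    rw [pow_zero] at hcard
    have : Subsingleton Γ := (Nat.card_eq_one_iff_unique.1 hcard).1
    exact h5b_bound_of_subsingleton B
  | succ n ih =>
    intro Γ _ B hB hcard
    have hfin := h𝒟.fin Γ B hB
    obtain ⟨N, hN⟩ := Sylow.exists_subgroup_card_pow_prime (G := Γ) p (n := n)
      (by rw [hcard]; exact pow_dvd_pow p (Nat.le_succ n))
    have hidx : N.index = p := by
      have h1 := Subgroup.card_mul_index N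
      rw [hN, hcard, pow_succ] at h1
      exact Nat.eq_of_mul_eq_mul_left (pow_pos hp.out.pos n) h1
    have hnormal : N.Normal := by
      apply Subgroup.normal_of_index_eq_minFac_card
      rw [hidx, hcard, Nat.pow_minFac (Nat.succ_ne_zero n), hp.out.minFac_eq]
    have hcyc : IsCyclic (Γ ⧸ N) := by
      apply isCyclic_of_prime_card (p := p)
      rw [← Subgroup.index_eq_card, hidx]
    exact h5b_bound_step h𝒟 B hB N hcyc (ih N _ (h𝒟.res Γ B hB N) hN)

/-- the general case, by restriction to Sylow subgroups -/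
theorem h5b_bound (h𝒟 : h5b_Class 𝒟)
    (hAR : ∀ (Γ : Type) [Group Γ] [Finite Γ], H20A.IndexKillsCohStatement Γ)
    (Γ : Type) [Group Γ] (B : Rep.{0} ℤ Γ) (hB : 𝒟 Γ B) : h5b_Bound B := by
  classical
  have hfin := h𝒟.fin Γ B hB
  have hcard0 : Nat.card Γ ≠ 0 := Nat.card_pos.ne'
  let I : Type := {p : ℕ // p ∈ (Nat.card Γ).primeFactors}
  have hprime : ∀ p : I, Fact (p.1.Prime) := fun p => ⟨Nat.prime_of_mem_primeFactors p.2⟩
  let P : ∀ p : I, Sylow p.1 Γ := fun p => default
  have hbound : ∀ p : I, h5b_Bound (Rep.res (P p : Subgroup Γ).subtype B) := fun p =>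
    haveI := hprime p
    h5b_bound_pgroup h𝒟 p.1 _ _ _ (h𝒟.res Γ B hB _) (Sylow.card_eq_multiplicity (P p))
  have hfinP : ∀ p : I, Finite (groupCohomology (Rep.res (P p : Subgroup Γ).subtype B) 2) :=
    fun p => (hbound p).1
  let F : groupCohomology B 2 →
      ∀ p : I, groupCohomology (Rep.res (P p : Subgroup Γ).subtype B) 2 :=
    fun x p => H20A.resCoh B (P p : Subgroup Γ) 2 x
  have hF : Function.Injective F := by
    intro x y hxy
    rw [← sub_eq_zero]
    set z := x - y with hz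
    have hres : ∀ p : I, H20A.resCoh B (P p : Subgroup Γ) 2 z = 0 := by
      intro p
      have := congrFun hxy p
      simp only [F] at this
      rw [hz, map_sub, this, sub_self]
    have hkill : ∀ p : I, (P p : Subgroup Γ).index • z = 0 := fun p =>
      hAR Γ B (P p : Subgroup Γ) 2 z (hres p)
    by_contra hz0
    have hord1 : addOrderOf z ≠ 1 := fun h => hz0 (AddMonoid.addOrderOf_eq_one_iff.1 h)
    obtain ⟨r, hr, hrdvd⟩ := Nat.exists_prime_and_dvd hord1
    have hone : (⊥ : Subgroup Γ).index • z = 0 := by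
      have h1 := hAR Γ B (⊥ : Subgroup Γ) 2 z (by
        have hs : Subsingleton (groupCohomology (Rep.res (⊥ : Subgroup Γ).subtype B) 2) :=
          ModuleCat.subsingleton_of_isZero (isZero_groupCohomology_succ_of_subsingleton _ 1)
        exact Subsingleton.elim _ _)
      exact h1
    rw [Subgroup.index_bot] at hone
    have hrΓ : r ∣ Nat.card Γ := hrdvd.trans (addOrderOf_dvd_of_nsmul_eq_zero hone)
    let pr : I := ⟨r, Nat.mem_primeFactors.2 ⟨hr, hrΓ, hcard0⟩⟩
    have hr2 : r ∣ (P pr : Subgroup Γ).index :=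
      hrdvd.trans (addOrderOf_dvd_of_nsmul_eq_zero (hkill pr))
    haveI := hprime pr
    exact Sylow.not_dvd_index (P pr) hr2
  refine ⟨Finite.of_injective F hF, ?_⟩
  have h1 := Nat.card_le_card_of_injective F hF
  rw [Nat.card_pi] at h1
  refine h1.trans ?_
  have h2 : ∏ p : I, Nat.card (groupCohomology (Rep.res (P p : Subgroup Γ).subtype B) 2)
      ≤ ∏ p : I, p.1 ^ (Nat.card Γ).factorization p.1 := by
    apply Finset.prod_le_prod'
    intro p _
    haveI := hprime p
    have := (hbound p).2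
    rwa [Sylow.card_eq_multiplicity] at this
  refine h2.trans (le_of_eq ?_)
  have h3 : ∏ p : I, p.1 ^ (Nat.card Γ).factorization p.1
      = ∏ p ∈ (Nat.card Γ).primeFactors, p ^ (Nat.card Γ).factorization p :=
    Finset.prod_coe_sort (Nat.card Γ).primeFactors (fun p => p ^ (Nat.card Γ).factorization p)
  rw [h3]
  have h4 := Nat.prod_factorization_pow_eq_self hcard0
  rw [Finsupp.prod, Nat.support_factorization] at h4
  exact h4

end H5B

end
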