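/-
W2-C (S55) block B, slice S4d (helper24): `inf_{L→E}` is bijective when `L → E` is bijective:
`h24lb_infFieldIso : H3LB.InfFieldIso`.
-/
import Mathlib
import Fermat.Agent.CFT2.B.Defs5

set_option autoImplicit false
set_option linter.style.haveILetI false
set_option linter.unusedSectionVars false
set_option linter.unusedVariables false

noncomputable section

namespace H24LB

open scoped WithZero
open H3LB groupCohomology CategoryTheory

/-- **(S4d)** -/
theorem h24lb_infFieldIso : H3LB.InfFieldIso := by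
  intro K L E _ _ _ _ _ _ _ _ n hbij
  let ι : L ≃ₐ[K] E := AlgEquiv.ofBijective (IsScalarTower.toAlgHom K L E) hbij
  have hι : ∀ x : L, ι x = algebraMap L E x := fun x => rfl
  let e : (L ≃ₐ[K] L) ≃* (E ≃ₐ[K] E) := AlgEquiv.autCongr ι
  let e' : (Rep.ofAlgebraAutOnUnits K L).V ≃ₗ[ℤ] (Rep.ofAlgebraAutOnUnits K E).V :=
    (MulEquiv.toAdditive (Units.mapEquiv ι.toMulEquiv)).toIntLinearEquiv
  have he : ∀ g : L ≃ₐ[K] L, e'.toLinearMap ∘ₗ (Rep.ofAlgebraAutOnUnits K L).ρ g
      = (Rep.ofAlgebraAutOnUnits K E).ρ (e g) ∘ₗ e'.toLinearMap := by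
    intro g
    ext v
    change Additive.ofMul (Units.map (ι : L →* E) (Units.map (g : L →* L) (Additive.toMul v)))
      = Additive.ofMul (Units.map ((e g : E ≃ₐ[K] E) : E →* E)
          (Units.map (ι : L →* E) (Additive.toMul v)))
    refine congrArg Additive.ofMul (Units.ext ?_)
    change ι (g _) = ι (g (ι.symm (ι _)))
    rw [AlgEquiv.symm_apply_apply]
  have h : groupCohomology.map (AlgEquiv.restrictNormalHom (F := K) (K₁ := E) L)
      (infFieldHom K L E) n = (groupCohomology.mapIso (k := ℤ)
        (A := Rep.ofAlgebraAutOnUnits K E) (B := Rep.ofAlgebraAutOnUnits K L) e e' he n).hom := by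
    change _ = groupCohomology.map (e.symm : (E ≃ₐ[K] E) →* (L ≃ₐ[K] L)) _ n
    refine groupCohomology.map_congr ?_ ?_ n
    · ext σ x
      apply (algebraMap L E).injective
      refine (AlgEquiv.restrictNormal_commutes σ L x).trans ?_
      change σ (ι x) = ι (ι.symm (σ (ι x)))
      rw [AlgEquiv.apply_symm_apply]
    · ext v
      rfl
  have hb : Function.Bijective (groupCohomology.mapIso (k := ℤ)
      (A := Rep.ofAlgebraAutOnUnits K E) (B := Rep.ofAlgebraAutOnUnits K L) e e' he n).hom :=
    ConcreteCategory.bijective_of_isIso _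
  unfold infField
  rw [h]
  exact hb

end H24LB

end
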