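/-
W2-C (S55) block B, slice BT (helper24): inflation–restriction for fields in degree 2:
for a tower `K ⊆ L ⊆ E`, `E/K` and `L/K` finite Galois,
`0 → H²(Gal(L/K), Lˣ) → H²(Gal(E/K), Eˣ) → H²(Gal(E/L), Eˣ)` is exact.
`h24lb_infResField : H3LB.InfResField`  (from block A slice AF (helper5) + Hilbert 90).
-/
import Mathlib
import Fermat.Agent.CFT2.B.Defs6
import Fermat.Agent.CFT2.A.AF_helper5

set_option autoImplicit false
set_option linter.style.haveILetI false
set_option linter.unusedSectionVars false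
set_option linter.unusedVariables false

noncomputable section

namespace H24LB

open scoped WithZero
open H3LB groupCohomology CategoryTheory

section tower

variable (K L E : Type) [Field K] [Field L] [Field E] [Algebra K L] [Algebra L E] [Algebra K E]
  [IsScalarTower K L E] [Normal K L]

/-- the kernel of `Gal(E/K) → Gal(L/K)` -/
abbrev h24lb_S : Subgroup (E ≃ₐ[K] E) :=
  (AlgEquiv.restrictNormalHom (F := K) (K₁ := E) L).ker

variable {K L E}

theorem h24lb_mem_S_iff (σ : E ≃ₐ[K] E) :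
    σ ∈ h24lb_S K L E ↔ ∀ l : L, σ (algebraMap L E l) = algebraMap L E l := by
  rw [MonoidHom.mem_ker]
  constructor
  · intro h l
    rw [← AlgEquiv.restrictNormal_commutes σ L l]
    exact congrArg (algebraMap L E) (congrArg (fun τ : L ≃ₐ[K] L => τ l) h)
  · intro h
    ext l
    apply (algebraMap L E).injective
    exact (AlgEquiv.restrictNormal_commutes σ L l).trans (h l)

variable (K L E)

/-- `ker(Gal(E/K) → Gal(L/K)) ≃ Gal(E/L)` -/
def h24lb_SEquiv : h24lb_S K L E ≃* (E ≃ₐ[L] E) where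
  toFun σ :=
    { (σ.1 : E ≃ₐ[K] E).toRingEquiv with
      commutes' := fun l => (h24lb_mem_S_iff σ.1).mp σ.2 l }
  invFun τ := ⟨τ.restrictScalars K, (h24lb_mem_S_iff _).mpr (fun l => τ.commutes l)⟩
  left_inv σ := by ext; rfl
  right_inv τ := by ext; rfl
  map_mul' σ τ := by ext; rfl

end tower

section iso

variable (K L E : Type) [Field K] [Field L] [Field E] [Algebra K L] [Algebra L E] [Algebra K E]
  [IsScalarTower K L E] [FiniteDimensional K E] [IsGalois K E] [IsGalois K L]

/-- `Hⁿ(S, Eˣ) ≅ Hⁿ(Gal(E/L), Eˣ)`, `S = ker(Gal(E/K) → Gal(L/K))` -/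
def h24lb_resIso (n : ℕ) :
    groupCohomology (H20A.resSub (Rep.ofAlgebraAutOnUnits K E) (h24lb_S K L E)) n ≅
      groupCohomology (Rep.ofAlgebraAutOnUnits L E) n :=
  groupCohomology.mapIso (k := ℤ) (A := Rep.ofAlgebraAutOnUnits L E)
    (B := H20A.resSub (Rep.ofAlgebraAutOnUnits K E) (h24lb_S K L E)) (h24lb_SEquiv K L E)
    (LinearEquiv.refl ℤ _) (fun g => by ext v; rfl) n

theorem h24lb_resIso_resCoh (n : ℕ) (x : groupCohomology (Rep.ofAlgebraAutOnUnits K E) n) :
    (h24lb_resIso K L E n).hom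
      (H20A.resCoh (Rep.ofAlgebraAutOnUnits K E) (h24lb_S K L E) n x) = resField K L E n x := by
  have h1 := groupCohomology.map_comp (k := ℤ)
    (A := Rep.ofAlgebraAutOnUnits K E)
    (B := H20A.resSub (Rep.ofAlgebraAutOnUnits K E) (h24lb_S K L E))
    (C := Rep.ofAlgebraAutOnUnits L E)
    (h24lb_S K L E).subtype ((h24lb_SEquiv K L E).symm : (E ≃ₐ[L] E) →* h24lb_S K L E)
    (𝟙 (H20A.resSub (Rep.ofAlgebraAutOnUnits K E) (h24lb_S K L E)))
    (Rep.ofHom ⟨(LinearEquiv.refl ℤ _).toLinearMap, fun h => by ext v; rfl⟩) n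
  have h2 : groupCohomology.map (galRes K L E) (resFieldHom K L E) n
      = groupCohomology.map (h24lb_S K L E).subtype
          (𝟙 (H20A.resSub (Rep.ofAlgebraAutOnUnits K E) (h24lb_S K L E))) n ≫
        groupCohomology.map ((h24lb_SEquiv K L E).symm : (E ≃ₐ[L] E) →* h24lb_S K L E)
          (Rep.ofHom ⟨(LinearEquiv.refl ℤ _).toLinearMap, fun h => by ext v; rfl⟩) n := by
    refine Eq.trans (groupCohomology.map_congr ?_ ?_ n) h1
    · ext σ y
      rfl
    · ext v
      rfl
  have h3 := congrArg (fun f => f.hom x) h2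
  exact h3.symm

/-- an `S`-invariant element of `E` comes from `L` -/
theorem h24lb_mem_range_of_fixed (u : E)
    (hu : ∀ σ : E ≃ₐ[K] E, σ ∈ h24lb_S K L E → σ u = u) : ∃ l : L, algebraMap L E l = u := by
  have h1 : IntermediateField.fixedField
      ((IsScalarTower.toAlgHom K L E).fieldRange).fixingSubgroup
      = (IsScalarTower.toAlgHom K L E).fieldRange :=
    IsGalois.fixedField_fixingSubgroup _
  have h2 : u ∈ IntermediateField.fixedField
      ((IsScalarTower.toAlgHom K L E).fieldRange).fixingSubgroup := by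
    rw [IntermediateField.mem_fixedField_iff]
    intro σ hσ
    apply hu σ
    rw [h24lb_mem_S_iff]
    intro l
    exact (IntermediateField.mem_fixingSubgroup_iff _ σ).mp hσ _ ⟨l, rfl⟩
  rw [h1] at h2
  obtain ⟨l, hl⟩ := AlgHom.mem_fieldRange.mp h2
  exact ⟨l, hl⟩

/-- `Lˣ → (Eˣ)^S` -/
def h24lb_toInv : (Rep.ofAlgebraAutOnUnits K L).V →ₗ[ℤ]
    ((Rep.ofAlgebraAutOnUnits K E).quotientToInvariants (h24lb_S K L E)).V :=
  LinearMap.codRestrict _ (infFieldHom K L E).hom.toLinearMap (fun v => by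
    rw [Representation.mem_invariants]
    intro σ
    change Additive.ofMul (Units.map ((σ.1 : E ≃ₐ[K] E) : E →* E)
        (Units.map (algebraMap L E : L →* E) (Additive.toMul v)))
      = Additive.ofMul (Units.map (algebraMap L E : L →* E) (Additive.toMul v))
    refine congrArg Additive.ofMul (Units.ext ?_)
    exact (h24lb_mem_S_iff σ.1).mp σ.2 _)

theorem h24lb_toInv_bijective : Function.Bijective (h24lb_toInv K L E) := by
  constructor
  · intro v w hvw
    have h1 : Additive.ofMul (Units.map (algebraMap L E : L →* E) (Additive.toMul v))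
        = Additive.ofMul (Units.map (algebraMap L E : L →* E) (Additive.toMul w)) :=
      congrArg Subtype.val hvw
    have h2 : ((Additive.toMul v : Lˣ) : L) = ((Additive.toMul w : Lˣ) : L) :=
      (algebraMap L E).injective (congrArg (fun u : Additive Eˣ => ((Additive.toMul u : Eˣ) : E)) h1)
    exact congrArg Additive.ofMul (Units.ext h2)
  · rintro ⟨u, hu⟩
    rw [Representation.mem_invariants] at hu
    have hu' : ∀ σ : E ≃ₐ[K] E, σ ∈ h24lb_S K L E →
        σ ((Additive.toMul (show Additive Eˣ from u) : Eˣ) : E)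
          = ((Additive.toMul (show Additive Eˣ from u) : Eˣ) : E) := by
      intro σ hσ
      exact congrArg (fun u : Additive Eˣ => ((Additive.toMul u : Eˣ) : E)) (hu ⟨σ, hσ⟩)
    obtain ⟨l, hl⟩ := h24lb_mem_range_of_fixed K L E _ hu'
    have hl0 : l ≠ 0 := by
      rintro rfl
      rw [map_zero] at hl
      exact (Units.ne_zero _) hl.symm
    refine ⟨Additive.ofMul (Units.mk0 l hl0), Subtype.ext ?_⟩
    change Additive.ofMul (Units.map (algebraMap L E : L →* E) (Units.mk0 l hl0)) = u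
    refine congrArg Additive.ofMul (Units.ext ?_)
    exact hl

/-- `Gal(E/K) ⧸ S ≃ Gal(L/K)` -/
def h24lb_quotEquiv : ((E ≃ₐ[K] E) ⧸ h24lb_S K L E) ≃* (L ≃ₐ[K] L) :=
  QuotientGroup.quotientKerEquivOfSurjective (AlgEquiv.restrictNormalHom (F := K) (K₁ := E) L)
    (AlgEquiv.restrictNormalHom_surjective E)

theorem h24lb_quotEquiv_mk (σ : E ≃ₐ[K] E) :
    h24lb_quotEquiv K L E (QuotientGroup.mk σ)
      = AlgEquiv.restrictNormalHom (F := K) (K₁ := E) L σ := rfl

/-- `Lˣ ≃ (Eˣ)^S` -/
def h24lb_toInvEquiv : (Rep.ofAlgebraAutOnUnits K L).V ≃ₗ[ℤ]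
    ((Rep.ofAlgebraAutOnUnits K E).quotientToInvariants (h24lb_S K L E)).V :=
  LinearEquiv.ofBijective (h24lb_toInv K L E) (h24lb_toInv_bijective K L E)

theorem h24lb_toInvEquiv_comm (g : L ≃ₐ[K] L) :
    (h24lb_toInvEquiv K L E).toLinearMap ∘ₗ (Rep.ofAlgebraAutOnUnits K L).ρ g
      = ((Rep.ofAlgebraAutOnUnits K E).quotientToInvariants (h24lb_S K L E)).ρ
          ((h24lb_quotEquiv K L E).symm g) ∘ₗ (h24lb_toInvEquiv K L E).toLinearMap := by
  obtain ⟨σ, rfl⟩ := AlgEquiv.restrictNormalHom_surjective (F := K) (K₁ := L) E g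
  have h1 : (h24lb_quotEquiv K L E).symm (AlgEquiv.restrictNormalHom (F := K) (K₁ := E) L σ)
      = QuotientGroup.mk σ := by
    rw [← h24lb_quotEquiv_mk, MulEquiv.symm_apply_apply]
  rw [h1]
  ext v
  change Additive.ofMul (Units.map (algebraMap L E : L →* E)
      (Units.map ((AlgEquiv.restrictNormalHom (F := K) (K₁ := E) L σ : L ≃ₐ[K] L) : L →* L)
        (Additive.toMul v)))
    = Additive.ofMul (Units.map ((σ : E ≃ₐ[K] E) : E →* E)
        (Units.map (algebraMap L E : L →* E) (Additive.toMul v)))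
  refine congrArg Additive.ofMul (Units.ext ?_)
  exact AlgEquiv.restrictNormal_commutes σ L _

/-- `Hⁿ(Gal(L/K), Lˣ) ≅ Hⁿ(Gal(E/K)/S, (Eˣ)^S)` -/
def h24lb_infIso (n : ℕ) :
    groupCohomology (Rep.ofAlgebraAutOnUnits K L) n ≅
      groupCohomology ((Rep.ofAlgebraAutOnUnits K E).quotientToInvariants (h24lb_S K L E)) n :=
  groupCohomology.mapIso (k := ℤ)
    (A := (Rep.ofAlgebraAutOnUnits K E).quotientToInvariants (h24lb_S K L E))
    (B := Rep.ofAlgebraAutOnUnits K L) (h24lb_quotEquiv K L E).symm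
    (h24lb_toInvEquiv K L E) (h24lb_toInvEquiv_comm K L E) n

theorem h24lb_infCoh_infIso (n : ℕ) (y : groupCohomology (Rep.ofAlgebraAutOnUnits K L) n) :
    H20A.infCoh (Rep.ofAlgebraAutOnUnits K E) (h24lb_S K L E) n ((h24lb_infIso K L E n).hom y)
      = infField K L E n y := by
  have h1 := groupCohomology.map_comp (k := ℤ)
    (A := Rep.ofAlgebraAutOnUnits K L)
    (B := (Rep.ofAlgebraAutOnUnits K E).quotientToInvariants (h24lb_S K L E))
    (C := Rep.ofAlgebraAutOnUnits K E)
    ((h24lb_quotEquiv K L E : ((E ≃ₐ[K] E) ⧸ h24lb_S K L E) →* (L ≃ₐ[K] L)))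
    (QuotientGroup.mk' (h24lb_S K L E))
    (Rep.ofHom ⟨(h24lb_toInvEquiv K L E).toLinearMap, fun h => by
      have := h24lb_toInvEquiv_comm K L E (h24lb_quotEquiv K L E h)
      rw [MulEquiv.symm_apply_apply] at this
      exact this⟩)
    (Rep.ofHom <| (Rep.ofAlgebraAutOnUnits K E).ρ.quotientToInvariants_lift (h24lb_S K L E)) n
  have h2 : groupCohomology.map (AlgEquiv.restrictNormalHom (F := K) (K₁ := E) L)
      (infFieldHom K L E) n
      = groupCohomology.map
          ((h24lb_quotEquiv K L E : ((E ≃ₐ[K] E) ⧸ h24lb_S K L E) →* (L ≃ₐ[K] L)))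
          (Rep.ofHom ⟨(h24lb_toInvEquiv K L E).toLinearMap, fun h => by
            have := h24lb_toInvEquiv_comm K L E (h24lb_quotEquiv K L E h)
            rw [MulEquiv.symm_apply_apply] at this
            exact this⟩) n ≫
        groupCohomology.map (QuotientGroup.mk' (h24lb_S K L E))
          (Rep.ofHom <| (Rep.ofAlgebraAutOnUnits K E).ρ.quotientToInvariants_lift
            (h24lb_S K L E)) n := by
    refine Eq.trans (groupCohomology.map_congr ?_ ?_ n) h1
    · ext σ y
      rfl
    · ext v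
      rfl
  have h3 := congrArg (fun f => f.hom y) h2
  exact h3.symm

end iso

/-- **(BT) inflation–restriction for fields**, degree 2 -/
theorem h24lb_infResField : H3LB.InfResField := by
  intro K L E _ _ _ _ _ _ _ _ _ _
  haveI : FiniteDimensional L E := FiniteDimensional.right K L E
  -- Hilbert 90
  have hyp : ∀ i : ℕ, 0 < i → i < 2 → Limits.IsZero
      (groupCohomology (H20A.resSub (Rep.ofAlgebraAutOnUnits K E) (h24lb_S K L E)) i) := by
    intro i hi hi2
    obtain rfl : i = 1 := by omega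
    have h1 : Limits.IsZero (groupCohomology (Rep.ofAlgebraAutOnUnits L E) 1) := by
      haveI : Subsingleton (groupCohomology (Rep.ofAlgebraAutOnUnits L E) 1) :=
        (inferInstance : Subsingleton (H1 (Rep.ofAlgebraAutOnUnits L E)))
      exact ModuleCat.isZero_of_subsingleton _
    exact h1.of_iso (h24lb_resIso K L E 1)
  obtain ⟨hinj, hex⟩ := H5AF.h5af_infResStatement (E ≃ₐ[K] E) 2 (by omega)
    (Rep.ofAlgebraAutOnUnits K E) (h24lb_S K L E) hyp
  have hbI : Function.Bijective (h24lb_infIso K L E 2).hom :=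
    ConcreteCategory.bijective_of_isIso _
  have hbR : Function.Bijective (h24lb_resIso K L E 2).hom :=
    ConcreteCategory.bijective_of_isIso _
  constructor
  · intro y y' hyy
    rw [← h24lb_infCoh_infIso, ← h24lb_infCoh_infIso] at hyy
    exact hbI.1 (hinj hyy)
  · intro x
    rw [← h24lb_resIso_resCoh]
    constructor
    · intro h
      have h0 : H20A.resCoh (Rep.ofAlgebraAutOnUnits K E) (h24lb_S K L E) 2 x = 0 :=
        hbR.1 (h.trans (map_zero _).symm)
      obtain ⟨y', hy'⟩ := (hex x).mp h0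
      obtain ⟨y, rfl⟩ := hbI.2 y'
      exact ⟨y, (h24lb_infCoh_infIso K L E 2 y).symm.trans hy'⟩
    · rintro ⟨y, rfl⟩
      have h0 := (hex (infField K L E 2 y)).mpr
        ⟨(h24lb_infIso K L E 2).hom y, h24lb_infCoh_infIso K L E 2 y⟩
      rw [h0, map_zero]

end H24LB

end
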