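/-
W2-C (S55) block B, slice BL (helper3): the link between the prelude's local levels at `q` and
`q`-adic fields.  For a subfield `F` of `ℚ̄`, `localField q F = ℚ_q · ι(F) ⊆ PadicAlgCl q`
(`ι = padicEmbedding q`):
* `h3lf_finiteDimensional` (BL1), `h3lf_normal` / `h3lf_isGalois` (BL2),
* `h3lf_fixingSubgroup` (BL3): `Gal(ℚ̄_q / F_q) = loc⁻¹ Gal(ℚ̄ / F)`,
* `h3lf_fixedField` (BL4), `h3lf_restrict` (BL5): `G_q / loc⁻¹ Gal(ℚ̄/F) ≅ Gal(F_q/ℚ_q)`.
-/
import Mathlib
import Fermat.Prelude.Def_GaloisRep_CompletionBridge

set_option autoImplicit false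
set_option linter.style.haveILetI false
set_option linter.unusedSectionVars false
set_option linter.unusedVariables false

namespace H3LB

section localfield

variable (q : ℕ) [Fact q.Prime]

/-- the local field at `q` of a subfield `F` of `ℚ̄`: the compositum `ℚ_q · ι(F)` inside
`PadicAlgCl q`, `ι = padicEmbedding q` -/
noncomputable def localField (F : IntermediateField ℚ (AlgebraicClosure ℚ)) :
    IntermediateField ℚ_[q] (PadicAlgCl q) :=
  IntermediateField.adjoin ℚ_[q] ((padicEmbedding q) '' (F : Set (AlgebraicClosure ℚ)))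

theorem h3lf_mem (F : IntermediateField ℚ (AlgebraicClosure ℚ)) {x : AlgebraicClosure ℚ}
    (hx : x ∈ F) : padicEmbedding q x ∈ localField q F :=
  IntermediateField.subset_adjoin _ _ ⟨x, hx, rfl⟩

theorem h3lf_mono {F F' : IntermediateField ℚ (AlgebraicClosure ℚ)} (h : F ≤ F') :
    localField q F ≤ localField q F' :=
  IntermediateField.adjoin.mono _ _ _ (Set.image_mono h)

/-- **(BL3)** the fixing subgroup of the local field is the local level of `F` -/
theorem h3lf_fixingSubgroup (F : IntermediateField ℚ (AlgebraicClosure ℚ)) :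
    (localField q F).fixingSubgroup = F.fixingSubgroup.comap (localGaloisToGlobal q) := by
  ext τ
  rw [Subgroup.mem_comap, IntermediateField.mem_fixingSubgroup_iff,
    IntermediateField.mem_fixingSubgroup_iff]
  constructor
  · intro h x hx
    apply (padicEmbedding q).toRingHom.injective
    show padicEmbedding q _ = padicEmbedding q _
    rw [padicEmbedding_localGaloisToGlobal]
    exact h _ (h3lf_mem q F hx)
  · intro h
    have hle : localField q F ≤ IntermediateField.fixedField (Subgroup.zpowers τ) := by
      apply IntermediateField.adjoin_le_iff.mpr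
      rintro _ ⟨x, hx, rfl⟩
      rw [SetLike.mem_coe, IntermediateField.mem_fixedField_iff]
      intro σ hσ
      obtain ⟨k, rfl⟩ := Subgroup.mem_zpowers_iff.mp hσ
      have h1 : τ (padicEmbedding q x) = padicEmbedding q x := by
        rw [← padicEmbedding_localGaloisToGlobal, h x hx]
      have h2 : ∀ n : ℕ, (τ ^ n) (padicEmbedding q x) = padicEmbedding q x := by
        intro n
        induction n with
        | zero => simp
        | succ n ih => rw [pow_succ, AlgEquiv.mul_apply, h1, ih]
      have h3 : ∀ n : ℕ, (τ ^ n)⁻¹ (padicEmbedding q x) = padicEmbedding q x := by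
        intro n
        have := h2 n
        conv_lhs => rw [← this]
        exact (AlgEquiv.symm_apply_apply (τ ^ n) _)
      cases k with
      | ofNat n => simpa using h2 n
      | negSucc n => simpa [zpow_negSucc] using h3 (n + 1)
    intro y hy
    have := hle hy
    rw [IntermediateField.mem_fixedField_iff] at this
    exact this τ (Subgroup.mem_zpowers τ)

/-- **(BL2)** the local field of a normal field is normal -/
theorem h3lf_normal (F : IntermediateField ℚ (AlgebraicClosure ℚ)) [Normal ℚ F] :
    Normal ℚ_[q] (localField q F) := by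
  haveI : Algebra.IsAlgebraic ℚ (AlgebraicClosure ℚ) := AlgebraicClosure.isAlgebraic ℚ
  haveI : IsAlgClosure ℚ (AlgebraicClosure ℚ) := ⟨inferInstance, inferInstance⟩
  haveI : Normal ℚ (AlgebraicClosure ℚ) := IsAlgClosure.normal ℚ (AlgebraicClosure ℚ)
  haveI : IsAlgClosure ℚ_[q] (PadicAlgCl q) := ⟨inferInstance, inferInstance⟩
  haveI : Normal ℚ_[q] (PadicAlgCl q) := IsAlgClosure.normal ℚ_[q] (PadicAlgCl q)
  rw [IntermediateField.normal_iff_forall_map_le']
  intro σ
  rw [localField, IntermediateField.adjoin_map]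
  apply IntermediateField.adjoin.mono
  rintro _ ⟨_, ⟨x, hx, rfl⟩, rfl⟩
  refine ⟨localGaloisToGlobal q σ x, ?_, ?_⟩
  · have hF : Normal ℚ F := inferInstance
    have hn : F.map ((localGaloisToGlobal q σ : AlgebraicClosure ℚ ≃ₐ[ℚ] AlgebraicClosure ℚ) :
        AlgebraicClosure ℚ →ₐ[ℚ] AlgebraicClosure ℚ) ≤ F :=
      (IntermediateField.normal_iff_forall_map_le'.mp hF) (localGaloisToGlobal q σ)
    exact hn ⟨x, hx, rfl⟩
  · exact padicEmbedding_localGaloisToGlobal q σ x

/-- **(BL1)** the local field of a number field is finite over `ℚ_q` -/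
theorem h3lf_finiteDimensional (F : IntermediateField ℚ (AlgebraicClosure ℚ))
    [FiniteDimensional ℚ F] : FiniteDimensional ℚ_[q] (localField q F) := by
  obtain ⟨α, hα⟩ := Field.exists_primitive_element ℚ F
  have hint : IsIntegral ℚ_[q] (padicEmbedding q (α : AlgebraicClosure ℚ)) :=
    Algebra.IsIntegral.isIntegral _
  have hle : localField q F ≤
      IntermediateField.adjoin ℚ_[q] {padicEmbedding q (α : AlgebraicClosure ℚ)} := by
    apply IntermediateField.adjoin_le_iff.mpr
    rintro _ ⟨x, hx, rfl⟩
    -- `x` is a polynomial in `α`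
    have hadj : Algebra.adjoin ℚ {α} = ⊤ := Algebra.adjoin_eq_top_of_primitive_element
      (Algebra.IsIntegral.isIntegral α).isAlgebraic hα
    have hxα : (⟨x, hx⟩ : F) ∈ Algebra.adjoin ℚ {α} := by rw [hadj]; trivial
    let ψ : F →ₐ[ℚ] PadicAlgCl q := (padicEmbedding q).comp F.val
    have h3 : ψ ⟨x, hx⟩ ∈ (Algebra.adjoin ℚ {α}).map ψ := ⟨_, hxα, rfl⟩
    rw [AlgHom.map_adjoin, Set.image_singleton] at h3
    have h4 : Algebra.adjoin ℚ {ψ α} ≤
        ((IntermediateField.adjoin ℚ_[q]
          {padicEmbedding q (α : AlgebraicClosure ℚ)}).toSubalgebra.restrictScalars ℚ) := by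
      apply Algebra.adjoin_le
      rintro y hy
      rw [Set.mem_singleton_iff] at hy
      subst hy
      exact IntermediateField.mem_adjoin_simple_self ℚ_[q] _
    exact h4 h3
  haveI : FiniteDimensional ℚ_[q]
      (IntermediateField.adjoin ℚ_[q] {padicEmbedding q (α : AlgebraicClosure ℚ)}) :=
    IntermediateField.adjoin.finiteDimensional hint
  exact FiniteDimensional.of_injective (IntermediateField.inclusion hle).toLinearMap
    (IntermediateField.inclusion hle).injective

/-- `PadicAlgCl q / ℚ_q` is Galois -/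
theorem h3lf_isGalois_padicAlgCl : IsGalois ℚ_[q] (PadicAlgCl q) := by
  haveI : IsAlgClosure ℚ_[q] (PadicAlgCl q) := ⟨inferInstance, inferInstance⟩
  haveI : Normal ℚ_[q] (PadicAlgCl q) := IsAlgClosure.normal ℚ_[q] (PadicAlgCl q)
  exact ⟨⟩

/-- **(BL4)** the local field is the fixed field of the local level of `F` -/
theorem h3lf_fixedField (F : IntermediateField ℚ (AlgebraicClosure ℚ)) :
    IntermediateField.fixedField (F.fixingSubgroup.comap (localGaloisToGlobal q)) =
      localField q F := by
  haveI := h3lf_isGalois_padicAlgCl q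
  rw [← h3lf_fixingSubgroup]
  exact InfiniteGalois.fixedField_fixingSubgroup (localField q F)

/-- the local field of a finite Galois extension of `ℚ` is Galois over `ℚ_q` -/
theorem h3lf_isGalois (F : IntermediateField ℚ (AlgebraicClosure ℚ)) [Normal ℚ F] :
    IsGalois ℚ_[q] (localField q F) := by
  haveI := h3lf_normal q F
  exact ⟨⟩

/-- **(BL5)** the restriction `G_q → Gal(F_q/ℚ_q)` is surjective with kernel the local level of
`F` -/
theorem h3lf_restrict (F : IntermediateField ℚ (AlgebraicClosure ℚ)) [Normal ℚ F] :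
    haveI := h3lf_normal q F
    Function.Surjective (AlgEquiv.restrictNormalHom (F := ℚ_[q]) (K₁ := PadicAlgCl q)
      (localField q F)) ∧
    (AlgEquiv.restrictNormalHom (F := ℚ_[q]) (K₁ := PadicAlgCl q) (localField q F)).ker =
      F.fixingSubgroup.comap (localGaloisToGlobal q) := by
  haveI := h3lf_normal q F
  haveI : IsAlgClosure ℚ_[q] (PadicAlgCl q) := ⟨inferInstance, inferInstance⟩
  haveI : Normal ℚ_[q] (PadicAlgCl q) := IsAlgClosure.normal ℚ_[q] (PadicAlgCl q)
  refine ⟨AlgEquiv.restrictNormalHom_surjective _, ?_⟩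
  rw [IntermediateField.restrictNormalHom_ker, h3lf_fixingSubgroup]

end localfield

end H3LB
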