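/-
W2-C (S55) block B, slice BL6 (helper3): the image of the local Galois group `G_q` in `Gal(F/ℚ)`
(`F/ℚ` finite Galois) is the decomposition group of the place below `padicPlace q`.

* `locRes q F : G_q →* Gal(F/ℚ)`, `h3lf_ker_locRes`, `h3lf_mem_range_locRes_iff`,
  `h3lf_range_locRes`;
* `locGal q F : Gal(F_q/ℚ_q) →* Gal(F/ℚ)` (`F_q = localField q F`), `h3lf_locGal_injective`,
  `h3lf_range_locGal`, `h3lf_locGal_apply`.
Proof of surjectivity onto the decomposition group: an automorphism preserving the valuation ring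
is contracting for the `q`-adic norm (`h3lf_step1`); by density of `ℚ` in `ℚ_q` it maps a root of
`minpoly ℚ_q (ι α)` to a root of the same polynomial (`h3lf_exists_local`).
-/
import Mathlib
import Fermat.Agent.CFT2.B.LocalField_helper3

set_option autoImplicit false
set_option linter.style.haveILetI false
set_option linter.unusedSectionVars false
set_option linter.unusedVariables false

namespace H3LB

open Polynomial
open scoped Pointwise

section bl6

variable (q : ℕ) [Fact q.Prime]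

/-- the map `G_q → Gal(F/ℚ)` -/
noncomputable def locRes (F : IntermediateField ℚ (AlgebraicClosure ℚ)) [Normal ℚ F] :
    (PadicAlgCl q ≃ₐ[ℚ_[q]] PadicAlgCl q) →* (F ≃ₐ[ℚ] F) :=
  (AlgEquiv.restrictNormalHom (F := ℚ) (K₁ := AlgebraicClosure ℚ) F).comp (localGaloisToGlobal q)

theorem h3lf_locRes_apply (F : IntermediateField ℚ (AlgebraicClosure ℚ)) [Normal ℚ F]
    (τ : PadicAlgCl q ≃ₐ[ℚ_[q]] PadicAlgCl q) (x : F) :
    padicEmbedding q ((locRes q F τ x : F) : AlgebraicClosure ℚ) =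
      τ (padicEmbedding q (x : AlgebraicClosure ℚ)) := by
  rw [← padicEmbedding_localGaloisToGlobal]
  congr 1
  exact AlgEquiv.restrictNormal_commutes (localGaloisToGlobal q τ) F x

theorem h3lf_norm_q_pos : 0 < ‖((q : ℕ) : PadicAlgCl q)‖ := by
  rw [norm_pos_iff]
  exact_mod_cast (Fact.out : q.Prime).ne_zero

theorem h3lf_norm_q_lt_one : ‖((q : ℕ) : PadicAlgCl q)‖ < 1 := by
  have h : ((q : ℕ) : PadicAlgCl q) = algebraMap ℚ_[q] (PadicAlgCl q) (q : ℚ_[q]) := by
    rw [map_natCast]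
  rw [h, PadicAlgCl.norm_extends, Padic.norm_p]
  have hq : (1 : ℝ) < q := by exact_mod_cast (Fact.out : q.Prime).one_lt
  exact inv_lt_one_of_one_lt₀ hq

/-- an automorphism preserving the valuation ring is "contracting" for the `q`-adic norm -/
theorem h3lf_step1 (F : IntermediateField ℚ (AlgebraicClosure ℚ)) (σ : F ≃ₐ[ℚ] F)
    (hσ : ∀ x : F, (x : AlgebraicClosure ℚ) ∈ padicPlace q →
      ((σ x : F) : AlgebraicClosure ℚ) ∈ padicPlace q)
    (y : F) (n : ℕ)
    (hy : ‖padicEmbedding q (y : AlgebraicClosure ℚ)‖ ≤ ‖((q : ℕ) : PadicAlgCl q)‖ ^ n) :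
    ‖padicEmbedding q ((σ y : F) : AlgebraicClosure ℚ)‖ ≤ ‖((q : ℕ) : PadicAlgCl q)‖ ^ n := by
  have hq0 := h3lf_norm_q_pos q
  have hqF : ((q : ℕ) : F) ≠ 0 := by exact_mod_cast (Fact.out : q.Prime).ne_zero
  have key : ∀ z : F, ‖padicEmbedding q ((z * ((q : ℕ) : F)⁻¹ ^ n : F) : AlgebraicClosure ℚ)‖ =
      ‖padicEmbedding q (z : AlgebraicClosure ℚ)‖ / ‖((q : ℕ) : PadicAlgCl q)‖ ^ n := by
    intro z
    have : padicEmbedding q ((z * ((q : ℕ) : F)⁻¹ ^ n : F) : AlgebraicClosure ℚ) =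
        padicEmbedding q (z : AlgebraicClosure ℚ) * (((q : ℕ) : PadicAlgCl q)⁻¹) ^ n := by
      push_cast
      rw [map_mul, map_pow, map_inv₀, map_natCast]
    rw [this, norm_mul, norm_pow, norm_inv, inv_pow, div_eq_mul_inv]
  have h1 : ((y * ((q : ℕ) : F)⁻¹ ^ n : F) : AlgebraicClosure ℚ) ∈ padicPlace q := by
    rw [mem_padicPlace_iff, ← NNReal.coe_le_coe, coe_nnnorm, NNReal.coe_one, key,
      div_le_one (pow_pos hq0 n)]
    exact hy
  have h2 := hσ _ h1
  rw [map_mul, map_pow, map_inv₀, map_natCast, mem_padicPlace_iff, ← NNReal.coe_le_coe,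
    coe_nnnorm, NNReal.coe_one, key, div_le_one (pow_pos hq0 n)] at h2
  exact h2

/-- the evaluation `c ↦ ∑ cᵢ γⁱ` -/
noncomputable def h3lf_ev (d : ℕ) (γ : PadicAlgCl q) (c : Fin (d + 1) → ℚ_[q]) : PadicAlgCl q :=
  ∑ i : Fin (d + 1), algebraMap ℚ_[q] (PadicAlgCl q) (c i) * γ ^ (i : ℕ)

theorem h3lf_ev_continuous (d : ℕ) (γ : PadicAlgCl q) : Continuous (h3lf_ev q d γ) := by
  unfold h3lf_ev
  refine continuous_finsetSum _ (fun i _ => ?_)
  have h1 : Continuous (fun c : Fin (d + 1) → ℚ_[q] =>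
      algebraMap ℚ_[q] (PadicAlgCl q) (c i)) :=
    (continuous_algebraMap ℚ_[q] (PadicAlgCl q)).comp (continuous_apply i)
  exact h1.mul continuous_const

theorem h3lf_ev_rat (F : IntermediateField ℚ (AlgebraicClosure ℚ)) (d : ℕ) (α : F)
    (r : Fin (d + 1) → ℚ) :
    h3lf_ev q d (padicEmbedding q (α : AlgebraicClosure ℚ)) (fun i => ((r i : ℚ) : ℚ_[q])) =
      padicEmbedding q (((∑ i : Fin (d + 1), algebraMap ℚ F (r i) * α ^ (i : ℕ) : F)) :
        AlgebraicClosure ℚ) := by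
  unfold h3lf_ev
  push_cast
  rw [map_sum]
  refine Finset.sum_congr rfl (fun i _ => ?_)
  rw [map_mul, map_pow]
  congr 1
  simp

theorem h3lf_ev_coeff (f : ℚ_[q][X]) (γ : PadicAlgCl q) :
    h3lf_ev q f.natDegree γ (fun i => f.coeff (i : ℕ)) = aeval γ f := by
  unfold h3lf_ev
  rw [aeval_eq_sum_range, Fin.sum_univ_eq_sum_range
    (fun i => algebraMap ℚ_[q] (PadicAlgCl q) (f.coeff i) * γ ^ i)]
  refine Finset.sum_congr rfl (fun i _ => ?_)
  rw [Algebra.smul_def]

/-- **(BL6, key step)** an automorphism of `F` preserving the valuation ring of the place of `F`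
below `padicPlace q` comes from the local Galois group -/
theorem h3lf_exists_local (F : IntermediateField ℚ (AlgebraicClosure ℚ))
    [FiniteDimensional ℚ F] [Normal ℚ F] (σ : F ≃ₐ[ℚ] F)
    (hσ : ∀ x : F, (x : AlgebraicClosure ℚ) ∈ padicPlace q →
      ((σ x : F) : AlgebraicClosure ℚ) ∈ padicPlace q) :
    ∃ τ : PadicAlgCl q ≃ₐ[ℚ_[q]] PadicAlgCl q, locRes q F τ = σ := by
  haveI : IsAlgClosure ℚ_[q] (PadicAlgCl q) := ⟨inferInstance, inferInstance⟩
  haveI : Normal ℚ_[q] (PadicAlgCl q) := IsAlgClosure.normal ℚ_[q] (PadicAlgCl q)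
  obtain ⟨α, hα⟩ := Field.exists_primitive_element ℚ F
  have hadj : Algebra.adjoin ℚ {α} = ⊤ := Algebra.adjoin_eq_top_of_primitive_element
    (Algebra.IsIntegral.isIntegral α).isAlgebraic hα
  set β : PadicAlgCl q := padicEmbedding q (α : AlgebraicClosure ℚ) with hβ
  set β' : PadicAlgCl q := padicEmbedding q ((σ α : F) : AlgebraicClosure ℚ) with hβ'
  have hint : IsIntegral ℚ_[q] β := Algebra.IsIntegral.isIntegral _
  set f := minpoly ℚ_[q] β with hf
  set d := f.natDegree with hd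
  have hq0 := h3lf_norm_q_pos q
  have hq1 := h3lf_norm_q_lt_one q
  -- the closed sets
  have hB : ∀ n : ℕ, ∀ c : Fin (d + 1) → ℚ_[q],
      ‖((q : ℕ) : PadicAlgCl q)‖ ^ n ≤ ‖h3lf_ev q d β c‖ ∨
        ‖h3lf_ev q d β' c‖ ≤ ‖((q : ℕ) : PadicAlgCl q)‖ ^ n := by
    intro n
    have hclosed : IsClosed {c : Fin (d + 1) → ℚ_[q] |
        ‖((q : ℕ) : PadicAlgCl q)‖ ^ n ≤ ‖h3lf_ev q d β c‖ ∨
          ‖h3lf_ev q d β' c‖ ≤ ‖((q : ℕ) : PadicAlgCl q)‖ ^ n} := by
      apply IsClosed.union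
      · exact isClosed_le continuous_const (continuous_norm.comp (h3lf_ev_continuous q d β))
      · exact isClosed_le (continuous_norm.comp (h3lf_ev_continuous q d β')) continuous_const
    have hdense : DenseRange (Pi.map (fun (_ : Fin (d + 1)) (r : ℚ) => ((r : ℚ) : ℚ_[q]))) :=
      DenseRange.piMap (fun _ => Padic.denseRange_ratCast q)
    have hsub : Set.range (Pi.map (fun (_ : Fin (d + 1)) (r : ℚ) => ((r : ℚ) : ℚ_[q]))) ⊆
        {c : Fin (d + 1) → ℚ_[q] |
          ‖((q : ℕ) : PadicAlgCl q)‖ ^ n ≤ ‖h3lf_ev q d β c‖ ∨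
            ‖h3lf_ev q d β' c‖ ≤ ‖((q : ℕ) : PadicAlgCl q)‖ ^ n} := by
      rintro _ ⟨r, rfl⟩
      by_cases h : ‖((q : ℕ) : PadicAlgCl q)‖ ^ n ≤
          ‖h3lf_ev q d β (Pi.map (fun (_ : Fin (d + 1)) (r : ℚ) => ((r : ℚ) : ℚ_[q])) r)‖
      · exact Or.inl h
      · right
        rw [not_le] at h
        have e1 : h3lf_ev q d β (Pi.map (fun (_ : Fin (d + 1)) (r : ℚ) => ((r : ℚ) : ℚ_[q])) r) =
            padicEmbedding q (((∑ i : Fin (d + 1), algebraMap ℚ F (r i) * α ^ (i : ℕ) : F)) :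
              AlgebraicClosure ℚ) := h3lf_ev_rat q F d α r
        have e2 : h3lf_ev q d β' (Pi.map (fun (_ : Fin (d + 1)) (r : ℚ) => ((r : ℚ) : ℚ_[q])) r) =
            padicEmbedding q (((σ (∑ i : Fin (d + 1), algebraMap ℚ F (r i) * α ^ (i : ℕ)) : F)) :
              AlgebraicClosure ℚ) := by
          have := h3lf_ev_rat q F d (σ α) r
          rw [map_sum]
          simp only [map_mul, map_pow, AlgEquiv.commutes]
          exact this
        rw [e2]
        rw [e1] at h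
        exact h3lf_step1 q F σ hσ _ n h.le
    intro c
    have : c ∈ closure (Set.range
        (Pi.map (fun (_ : Fin (d + 1)) (r : ℚ) => ((r : ℚ) : ℚ_[q])))) := hdense c
    exact (hclosed.closure_subset_iff.mpr hsub) this
  -- `β'` is a root of `f`
  have hroot : aeval β' f = 0 := by
    have h0 : h3lf_ev q d β (fun i => f.coeff (i : ℕ)) = 0 := by
      rw [h3lf_ev_coeff]
      exact minpoly.aeval ℚ_[q] β
    have hle : ∀ n : ℕ, ‖aeval β' f‖ ≤ ‖((q : ℕ) : PadicAlgCl q)‖ ^ n := by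
      intro n
      rcases hB n (fun i => f.coeff (i : ℕ)) with h | h
      · rw [h0, norm_zero] at h
        exact absurd h (not_le.mpr (pow_pos hq0 n))
      · rwa [h3lf_ev_coeff] at h
    by_contra hne
    have hpos : 0 < ‖aeval β' f‖ := norm_pos_iff.mpr hne
    obtain ⟨n, hn⟩ := exists_pow_lt_of_lt_one hpos hq1
    exact absurd (hle n) (not_le.mpr hn)
  have hconj : IsConjRoot ℚ_[q] β β' := isConjRoot_of_aeval_eq_zero hint hroot
  obtain ⟨τ, hτ⟩ := hconj.symm.exists_algEquiv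
  refine ⟨τ, ?_⟩
  -- the two automorphisms agree on `α`
  have hα' : locRes q F τ α = σ α := by
    apply Subtype.ext
    apply (padicEmbedding q).toRingHom.injective
    show padicEmbedding q _ = padicEmbedding q _
    rw [h3lf_locRes_apply]
    exact hτ
  have : (locRes q F τ : F →ₐ[ℚ] F) = (σ : F →ₐ[ℚ] F) := by
    apply AlgHom.ext_of_adjoin_eq_top hadj
    rintro x hx
    rw [Set.mem_singleton_iff] at hx
    subst hx
    exact hα'
  exact AlgEquiv.coe_toAlgHom_injective this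

/-- the kernel of `G_q → Gal(F/ℚ)` is the local level of `F` -/
theorem h3lf_ker_locRes (F : IntermediateField ℚ (AlgebraicClosure ℚ)) [hN : Normal ℚ F] :
    (locRes q F).ker = F.fixingSubgroup.comap (localGaloisToGlobal q) := by
  haveI : Algebra.IsAlgebraic ℚ (AlgebraicClosure ℚ) := AlgebraicClosure.isAlgebraic ℚ
  haveI : IsAlgClosure ℚ (AlgebraicClosure ℚ) := ⟨inferInstance, inferInstance⟩
  haveI : Normal ℚ (AlgebraicClosure ℚ) := IsAlgClosure.normal ℚ (AlgebraicClosure ℚ)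
  have hk := @IntermediateField.restrictNormalHom_ker ℚ (AlgebraicClosure ℚ) _ _ _ F hN
  ext τ
  rw [Subgroup.mem_comap, ← hk, MonoidHom.mem_ker, MonoidHom.mem_ker]
  rfl

/-- **(BL6)** the image of the local Galois group in `Gal(F/ℚ)` is the stabiliser of the valuation
ring of the place of `F` below `padicPlace q` -/
theorem h3lf_mem_range_locRes_iff (F : IntermediateField ℚ (AlgebraicClosure ℚ))
    [FiniteDimensional ℚ F] [Normal ℚ F] (σ : F ≃ₐ[ℚ] F) :
    σ ∈ (locRes q F).range ↔ ∀ x : F, (x : AlgebraicClosure ℚ) ∈ padicPlace q →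
      ((σ x : F) : AlgebraicClosure ℚ) ∈ padicPlace q := by
  constructor
  · rintro ⟨τ, rfl⟩ x hx
    rw [mem_padicPlace_iff] at hx ⊢
    rw [h3lf_locRes_apply, nnnorm_padicAlgCl_algEquiv]
    exact hx
  · intro h
    exact h3lf_exists_local q F σ h

/-- **(BL6)** the image of the local Galois group in `Gal(F/ℚ)` is the image of the decomposition
group of `padicPlace q` -/
theorem h3lf_range_locRes (F : IntermediateField ℚ (AlgebraicClosure ℚ))
    [FiniteDimensional ℚ F] [Normal ℚ F] :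
    (locRes q F).range = ((padicPlace q).decompositionSubgroup ℚ).map
      (AlgEquiv.restrictNormalHom (F := ℚ) (K₁ := AlgebraicClosure ℚ) F) := by
  apply le_antisymm
  · rintro _ ⟨τ, rfl⟩
    exact ⟨localGaloisToGlobal q τ, localGaloisToGlobal_mem_decompositionSubgroup q τ, rfl⟩
  · rintro _ ⟨g, hg, rfl⟩
    rw [h3lf_mem_range_locRes_iff]
    intro x hx
    have h1 : ((AlgEquiv.restrictNormalHom (F := ℚ) (K₁ := AlgebraicClosure ℚ) F g x : F) :
        AlgebraicClosure ℚ) = g (x : AlgebraicClosure ℚ) :=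
      AlgEquiv.restrictNormal_commutes g F x
    rw [h1]
    have h2 : g • (padicPlace q) = padicPlace q := hg
    have h3 : g • (x : AlgebraicClosure ℚ) ∈ g • (padicPlace q) :=
      ValuationSubring.smul_mem_pointwise_smul g _ _ hx
    rw [h2] at h3
    exact h3

/-- the injective map `Gal(F_q/ℚ_q) → Gal(F/ℚ)` -/
noncomputable def locGal (F : IntermediateField ℚ (AlgebraicClosure ℚ)) [Normal ℚ F] :
    haveI := h3lf_normal q F
    ((localField q F) ≃ₐ[ℚ_[q]] (localField q F)) →* (F ≃ₐ[ℚ] F) :=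
  haveI := h3lf_normal q F
  haveI : IsAlgClosure ℚ_[q] (PadicAlgCl q) := ⟨inferInstance, inferInstance⟩
  haveI : Normal ℚ_[q] (PadicAlgCl q) := IsAlgClosure.normal ℚ_[q] (PadicAlgCl q)
  MonoidHom.liftOfSurjective
    (AlgEquiv.restrictNormalHom (F := ℚ_[q]) (K₁ := PadicAlgCl q) (localField q F))
    (AlgEquiv.restrictNormalHom_surjective _)
    ⟨locRes q F, by rw [(h3lf_restrict q F).2, h3lf_ker_locRes]⟩

theorem h3lf_locGal_restrict (F : IntermediateField ℚ (AlgebraicClosure ℚ)) [Normal ℚ F]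
    (τ : PadicAlgCl q ≃ₐ[ℚ_[q]] PadicAlgCl q) :
    haveI := h3lf_normal q F
    locGal q F (AlgEquiv.restrictNormalHom (F := ℚ_[q]) (K₁ := PadicAlgCl q) (localField q F) τ) =
      locRes q F τ := by
  haveI := h3lf_normal q F
  unfold locGal
  exact MonoidHom.liftOfRightInverse_comp_apply _ _ _ _ τ

theorem h3lf_locGal_injective (F : IntermediateField ℚ (AlgebraicClosure ℚ)) [Normal ℚ F] :
    haveI := h3lf_normal q F
    Function.Injective (locGal q F) := by
  haveI := h3lf_normal q F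
  haveI : IsAlgClosure ℚ_[q] (PadicAlgCl q) := ⟨inferInstance, inferInstance⟩
  haveI : Normal ℚ_[q] (PadicAlgCl q) := IsAlgClosure.normal ℚ_[q] (PadicAlgCl q)
  rw [injective_iff_map_eq_one]
  intro g hg
  obtain ⟨τ, rfl⟩ := AlgEquiv.restrictNormalHom_surjective (F := ℚ_[q]) (K₁ := localField q F)
    (PadicAlgCl q) g
  rw [h3lf_locGal_restrict] at hg
  have h1 : τ ∈ (locRes q F).ker := hg
  rw [h3lf_ker_locRes, ← (h3lf_restrict q F).2] at h1
  exact h1

theorem h3lf_range_locGal (F : IntermediateField ℚ (AlgebraicClosure ℚ)) [Normal ℚ F] :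
    haveI := h3lf_normal q F
    (locGal q F).range = (locRes q F).range := by
  haveI := h3lf_normal q F
  haveI : IsAlgClosure ℚ_[q] (PadicAlgCl q) := ⟨inferInstance, inferInstance⟩
  haveI : Normal ℚ_[q] (PadicAlgCl q) := IsAlgClosure.normal ℚ_[q] (PadicAlgCl q)
  apply le_antisymm
  · rintro _ ⟨g, rfl⟩
    obtain ⟨τ, rfl⟩ := AlgEquiv.restrictNormalHom_surjective (F := ℚ_[q]) (K₁ := localField q F)
      (PadicAlgCl q) g
    exact ⟨τ, (h3lf_locGal_restrict q F τ).symm⟩
  · rintro _ ⟨τ, rfl⟩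
    exact ⟨_, h3lf_locGal_restrict q F τ⟩

/-- `ι ∘ (locGal g) = g ∘ ι` on `F` -/
theorem h3lf_locGal_apply (F : IntermediateField ℚ (AlgebraicClosure ℚ)) [Normal ℚ F]
    (g : haveI := h3lf_normal q F; (localField q F) ≃ₐ[ℚ_[q]] (localField q F)) (x : F) :
    padicEmbedding q ((locGal q F g x : F) : AlgebraicClosure ℚ) =
      ((g ⟨padicEmbedding q (x : AlgebraicClosure ℚ), h3lf_mem q F x.2⟩ : localField q F) :
        PadicAlgCl q) := by
  haveI := h3lf_normal q F
  haveI : IsAlgClosure ℚ_[q] (PadicAlgCl q) := ⟨inferInstance, inferInstance⟩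
  haveI : Normal ℚ_[q] (PadicAlgCl q) := IsAlgClosure.normal ℚ_[q] (PadicAlgCl q)
  obtain ⟨τ, rfl⟩ := AlgEquiv.restrictNormalHom_surjective (F := ℚ_[q]) (K₁ := localField q F)
    (PadicAlgCl q) g
  rw [h3lf_locGal_restrict, h3lf_locRes_apply]
  exact (AlgEquiv.restrictNormal_commutes τ (localField q F)
    ⟨padicEmbedding q (x : AlgebraicClosure ℚ), h3lf_mem q F x.2⟩).symm

/-- the levels of `H15D.levelsLoc`: a subfield with normal fixing subgroup is normal over `ℚ` -/
theorem h3lf_normal_of_fixingSubgroup_normal (F : IntermediateField ℚ (AlgebraicClosure ℚ))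
    (h : F.fixingSubgroup.Normal) : Normal ℚ F := by
  haveI : Algebra.IsAlgebraic ℚ (AlgebraicClosure ℚ) := AlgebraicClosure.isAlgebraic ℚ
  haveI : IsAlgClosure ℚ (AlgebraicClosure ℚ) := ⟨inferInstance, inferInstance⟩
  haveI : Normal ℚ (AlgebraicClosure ℚ) := IsAlgClosure.normal ℚ (AlgebraicClosure ℚ)
  haveI : IsGalois ℚ (AlgebraicClosure ℚ) := ⟨⟩
  have := (InfiniteGalois.normal_iff_isGalois F).mp h
  exact this.to_normal

theorem h3lf_fixingSubgroup_normal (F : IntermediateField ℚ (AlgebraicClosure ℚ))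
    [hN : Normal ℚ F] : F.fixingSubgroup.Normal := by
  haveI : Algebra.IsAlgebraic ℚ (AlgebraicClosure ℚ) := AlgebraicClosure.isAlgebraic ℚ
  haveI : IsAlgClosure ℚ (AlgebraicClosure ℚ) := ⟨inferInstance, inferInstance⟩
  haveI : Normal ℚ (AlgebraicClosure ℚ) := IsAlgClosure.normal ℚ (AlgebraicClosure ℚ)
  haveI : IsGalois ℚ (AlgebraicClosure ℚ) := ⟨⟩
  have hG : IsGalois ℚ F := { to_isSeparable := inferInstance, to_normal := hN }
  exact (InfiniteGalois.normal_iff_isGalois F).mpr hG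

end bl6

end H3LB
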