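/-
W2-C (S55) block B, slice BL5 (helper3): the smooth local module `H14PT.xbar q` (block E) is the
union of the unit groups of the local fields `localField q F`, `F/ℚ` finite Galois.
-/
import Mathlib
import Fermat.Agent.CFT2.B.LocalField_helper3
import Fermat.Agent.CFT2.E.Defs

set_option autoImplicit false
set_option linter.style.haveILetI false
set_option linter.unusedSectionVars false
set_option linter.unusedVariables false

namespace H3LB

section bl5

variable (q : ℕ) [Fact q.Prime]

/-- **(BL5)** the smooth elements of `PadicAlgCl q` are the elements of the local fields of the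
finite Galois extensions of `ℚ` -/
theorem h3lf_isSmoothLoc_iff (x : PadicAlgCl q) :
    H14PT.IsSmoothLoc q x ↔ ∃ F : IntermediateField ℚ (AlgebraicClosure ℚ),
      FiniteDimensional ℚ F ∧ Normal ℚ F ∧ x ∈ localField q F := by
  haveI : Algebra.IsAlgebraic ℚ (AlgebraicClosure ℚ) := AlgebraicClosure.isAlgebraic ℚ
  haveI : IsAlgClosure ℚ (AlgebraicClosure ℚ) := ⟨inferInstance, inferInstance⟩
  haveI : Normal ℚ (AlgebraicClosure ℚ) := IsAlgClosure.normal ℚ (AlgebraicClosure ℚ)
  haveI : IsAlgClosure ℚ_[q] (PadicAlgCl q) := ⟨inferInstance, inferInstance⟩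
  haveI : Normal ℚ_[q] (PadicAlgCl q) := IsAlgClosure.normal ℚ_[q] (PadicAlgCl q)
  constructor
  · rintro ⟨F, hF, h⟩
    haveI := hF
    refine ⟨IntermediateField.normalClosure ℚ F (AlgebraicClosure ℚ),
      normalClosure.is_finiteDimensional ℚ F (AlgebraicClosure ℚ),
      normalClosure.normal ℚ F (AlgebraicClosure ℚ), ?_⟩
    rw [← h3lf_fixedField, IntermediateField.mem_fixedField_iff]
    intro τ hτ
    have hle : F ≤ IntermediateField.normalClosure ℚ F (AlgebraicClosure ℚ) :=
      IntermediateField.le_normalClosure F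
    have := h τ (IntermediateField.fixingSubgroup_antitone hle hτ) 1
    simpa using this
  · rintro ⟨F, hF, hN, hx⟩
    refine ⟨F, hF, fun τ hτ τ' => ?_⟩
    haveI := hN
    have hnorm := h3lf_normal q F
    have hmem : τ' x ∈ localField q F :=
      (IntermediateField.normal_iff_forall_map_le'.mp hnorm τ') ⟨x, hx, rfl⟩
    have hτ' : τ ∈ (localField q F).fixingSubgroup := by
      rw [h3lf_fixingSubgroup]
      exact hτ
    exact (IntermediateField.mem_fixingSubgroup_iff _ _).mp hτ' _ hmem

/-- the units of the local field of a finite Galois extension of `ℚ` are smooth -/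
theorem h3lf_mem_xbar (F : IntermediateField ℚ (AlgebraicClosure ℚ)) [FiniteDimensional ℚ F]
    [Normal ℚ F] (x : (PadicAlgCl q)ˣ) (hx : (x : PadicAlgCl q) ∈ localField q F) :
    x ∈ H14PT.xbar q :=
  (h3lf_isSmoothLoc_iff q _).mpr ⟨F, inferInstance, inferInstance, hx⟩

theorem h3lf_mem_xbar_iff (x : (PadicAlgCl q)ˣ) :
    x ∈ H14PT.xbar q ↔ ∃ F : IntermediateField ℚ (AlgebraicClosure ℚ),
      FiniteDimensional ℚ F ∧ Normal ℚ F ∧ (x : PadicAlgCl q) ∈ localField q F :=
  h3lf_isSmoothLoc_iff q _

end bl5

end H3LB
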