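/-
W2-C (S55) bridge, slice BL-X (helper5): the finite levels of the prelude's local module
`H14PT.repX q` (smooth units of `PadicAlgCl q`) are modelled by the local fields.

For `F/ℚ` finite Galois, `V = loc⁻¹ Gal(ℚ̄/F)` (a normal subgroup of `G_q`), `F_q = localField q F`:
* `h5bl_e   : G_q ⧸ V ≃* Gal(F_q/ℚ_q)`            (restriction; `h5bl_e_coe`)
* `h5bl_ψ   : (xbar q)^V ≃+ Additive (F_q)ˣ`        (`h5bl_ψ_coe`: same underlying element)
* `h5bl_compat`, `h5bl_isModel_xbar : H5B.h5b_IsModel ((repX q).quotientToInvariants V) ℚ_[q] F_q`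
* `h5bl_cohIso n : Hⁿ(G_q ⧸ V, (xbar q)^V) ≅ Hⁿ(Gal(F_q/ℚ_q), F_qˣ)`, `h5bl_h90`.
-/
import Mathlib
import Fermat.Agent.CFT2.B.LocalFieldE_helper3
import Fermat.Agent.CFT2.B.H2CardLeModel_helper5

set_option autoImplicit false
set_option linter.style.haveILetI false
set_option linter.unusedSectionVars false

noncomputable section

open CategoryTheory groupCohomology Rep

namespace H5B

open H3LB H14PT

variable (q : ℕ) [Fact q.Prime]

local notation "Gq" => (PadicAlgCl q ≃ₐ[ℚ_[q]] PadicAlgCl q)
local notation "Qb" => AlgebraicClosure ℚ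

attribute [local instance 1100] Rep.hV2

variable (F : IntermediateField ℚ Qb) [FiniteDimensional ℚ F] [Normal ℚ F]
  (V : Subgroup (PadicAlgCl q ≃ₐ[ℚ_[q]] PadicAlgCl q)) [hVn : V.Normal]
  (hV : V = F.fixingSubgroup.comap (localGaloisToGlobal q))

/-- the underlying element of `PadicAlgCl q` of an element of the local module -/
def h5bl_val (b : Additive (xbar q)) : PadicAlgCl q :=
  (((Additive.toMul b : xbar q) : (PadicAlgCl q)ˣ) : PadicAlgCl q)

theorem h5bl_val_injective : Function.Injective (h5bl_val q) := by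
  intro a b hab
  apply congrArg Additive.ofMul (a₁ := Additive.toMul a) (a₂ := Additive.toMul b)
  apply Subtype.ext
  apply Units.ext
  exact hab

theorem h5bl_val_ρ (g : Gq) (b : Additive (xbar q)) :
    h5bl_val q ((repX q).ρ g b) = g (h5bl_val q b) := rfl

include hV in
theorem h5bl_ker_eq :
    haveI := h3lf_normal q F
    V = (AlgEquiv.restrictNormalHom (F := ℚ_[q]) (K₁ := PadicAlgCl q) (localField q F)).ker := by
  rw [hV]
  exact (h3lf_restrict q F).2.symm

/-- the restriction isomorphism `G_q ⧸ V ≃* Gal(F_q/ℚ_q)` -/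
def h5bl_e : Gq ⧸ V ≃* (localField q F ≃ₐ[ℚ_[q]] localField q F) :=
  haveI := h3lf_normal q F
  (QuotientGroup.quotientMulEquivOfEq (h5bl_ker_eq q F V hV)).trans
    (QuotientGroup.quotientKerEquivOfSurjective
      (AlgEquiv.restrictNormalHom (F := ℚ_[q]) (K₁ := PadicAlgCl q) (localField q F))
      (h3lf_restrict q F).1)

theorem h5bl_e_mk (γ : Gq) :
    haveI := h3lf_normal q F
    h5bl_e q F V hV (γ : Gq ⧸ V) =
      AlgEquiv.restrictNormalHom (F := ℚ_[q]) (K₁ := PadicAlgCl q) (localField q F) γ := rfl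

theorem h5bl_e_coe (γ : Gq) (x : localField q F) :
    ((h5bl_e q F V hV (γ : Gq ⧸ V)) x : PadicAlgCl q) = γ (x : PadicAlgCl q) := by
  haveI := h3lf_normal q F
  exact AlgEquiv.restrictNormal_commutes γ (localField q F) x

include hV in
theorem h5bl_fix (g : Gq) (hg : g ∈ V) (x : localField q F) :
    g (x : PadicAlgCl q) = (x : PadicAlgCl q) := by
  have h1 : g ∈ (localField q F).fixingSubgroup := by
    rw [h3lf_fixingSubgroup, ← hV]; exact hg
  exact (IntermediateField.mem_fixingSubgroup_iff _ _).mp h1 _ x.2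

/-- the units of the local field, in the local module -/
def h5bl_f0 : Additive (localField q F)ˣ →+ Additive (xbar q) :=
  MonoidHom.toAdditive
    ((Units.map (algebraMap (localField q F) (PadicAlgCl q) :
      localField q F →* PadicAlgCl q)).codRestrict (xbar q)
      (fun x => h3lf_mem_xbar q F _ (x : localField q F).2))

theorem h5bl_f0_val (x : Additive (localField q F)ˣ) :
    h5bl_val q (h5bl_f0 q F x) = ((x.toMul : (localField q F)ˣ) : localField q F) := rfl

include hV in
theorem h5bl_f0_mem (x : Additive (localField q F)ˣ) :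
    (h5bl_f0 q F x : (repX q).V) ∈ Representation.invariants ((repX q).ρ.comp V.subtype) := by
  intro g
  apply h5bl_val_injective
  exact h5bl_fix q F V hV g g.2 _

/-- the units of the local field, as `V`-invariants of the local module -/
def h5bl_χ : Additive (localField q F)ˣ →+ ((repX q).quotientToInvariants V).V :=
  AddMonoidHom.codRestrict (show Additive (localField q F)ˣ →+ (repX q).V from h5bl_f0 q F)
    (Representation.invariants ((repX q).ρ.comp V.subtype)) (h5bl_f0_mem q F V hV)

theorem h5bl_χ_val (x : Additive (localField q F)ˣ) :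
    h5bl_val q ((h5bl_χ q F V hV x).1 : Additive (xbar q)) =
      ((x.toMul : (localField q F)ˣ) : localField q F) := rfl

theorem h5bl_χ_injective : Function.Injective (h5bl_χ q F V hV) := by
  intro x y hxy
  have h2 := h5bl_χ_val q F V hV x
  rw [hxy, h5bl_χ_val] at h2
  have h3 : ((y.toMul : (localField q F)ˣ) : localField q F) =
      ((x.toMul : (localField q F)ˣ) : localField q F) := Subtype.ext h2
  exact (congrArg Additive.ofMul (Units.ext h3)).symm

open IntermediateField in
theorem h5bl_χ_surjective : Function.Surjective (h5bl_χ q F V hV) := by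
  rintro ⟨b, hb⟩
  have hfix : ∀ σ ∈ V, σ (h5bl_val q b) = h5bl_val q b := by
    intro σ hσ
    have h2 : (repX q).ρ σ b = b := hb ⟨σ, hσ⟩
    exact congrArg (h5bl_val q) h2
  have hmem : h5bl_val q b ∈ localField q F := by
    rw [← h3lf_fixedField, mem_fixedField_iff, ← hV]
    exact hfix
  have hne : (⟨_, hmem⟩ : localField q F) ≠ 0 := by
    intro h0
    have := congrArg Subtype.val h0
    exact ((Additive.toMul (b : Additive (xbar q)) : xbar q) : (PadicAlgCl q)ˣ).ne_zero this
  refine ⟨Additive.ofMul (Units.mk0 _ hne), ?_⟩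
  apply Subtype.ext
  apply h5bl_val_injective
  rfl

/-- `(xbar q)^V ≃+ (F_q)ˣ` -/
def h5bl_ψ : ((repX q).quotientToInvariants V).V ≃+ Additive (localField q F)ˣ :=
  (AddEquiv.ofBijective (h5bl_χ q F V hV)
    ⟨h5bl_χ_injective q F V hV, h5bl_χ_surjective q F V hV⟩).symm

theorem h5bl_χ_ψ (b : ((repX q).quotientToInvariants V).V) :
    h5bl_χ q F V hV (h5bl_ψ q F V hV b) = b :=
  (AddEquiv.ofBijective (h5bl_χ q F V hV)
    ⟨h5bl_χ_injective q F V hV, h5bl_χ_surjective q F V hV⟩).apply_symm_apply b

theorem h5bl_ψ_χ (x : Additive (localField q F)ˣ) :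
    h5bl_ψ q F V hV (h5bl_χ q F V hV x) = x :=
  (AddEquiv.ofBijective (h5bl_χ q F V hV)
    ⟨h5bl_χ_injective q F V hV, h5bl_χ_surjective q F V hV⟩).symm_apply_apply x

/-- `ψ b` and `b` have the same underlying element of `PadicAlgCl q` -/
theorem h5bl_ψ_coe (b : ((repX q).quotientToInvariants V).V) :
    ((((h5bl_ψ q F V hV b).toMul : (localField q F)ˣ) : localField q F) : PadicAlgCl q) =
      h5bl_val q (b.1 : Additive (xbar q)) := by
  rw [← h5bl_χ_val q F V hV, h5bl_χ_ψ]

set_option synthInstance.maxHeartbeats 400000 in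
/-- equivariance of `ψ` -/
theorem h5bl_compat (g : Gq ⧸ V) (b : ((repX q).quotientToInvariants V).V) :
    h5bl_ψ q F V hV (((repX q).quotientToInvariants V).ρ g b) =
      Additive.ofMul (h5bl_e q F V hV g • (h5bl_ψ q F V hV b).toMul) := by
  induction g using QuotientGroup.induction_on with
  | H γ =>
    apply h5bl_χ_injective q F V hV
    rw [h5bl_χ_ψ]
    apply Subtype.ext
    apply h5bl_val_injective
    rw [h5bl_χ_val]
    change γ (h5bl_val q (b.1 : Additive (xbar q))) = _
    rw [← h5bl_ψ_coe q F V hV b]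
    exact (h5bl_e_coe q F V hV γ _).symm

include hV in
/-- **(BL-X)** the finite level `V` of the local module `xbar q` is modelled by the local field:
`(G_q ⧸ V, (xbar q)^V) ≅ (Gal(F_q/ℚ_q), F_qˣ)`. -/
theorem h5bl_isModel_xbar :
    h5b_IsModel ((repX q).quotientToInvariants V) ℚ_[q] (localField q F) :=
  ⟨h5bl_e q F V hV, h5bl_ψ q F V hV, h5bl_compat q F V hV⟩

/-- the comparison isomorphism `Hⁿ(G_q ⧸ V, (xbar q)^V) ≅ Hⁿ(Gal(F_q/ℚ_q), F_qˣ)` -/
def h5bl_cohIso (n : ℕ) :
    groupCohomology ((repX q).quotientToInvariants V) n ≅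
      groupCohomology (Rep.ofAlgebraAutOnUnits ℚ_[q] (localField q F)) n :=
  groupCohomology.mapIso (A := Rep.ofAlgebraAutOnUnits ℚ_[q] (localField q F))
    (h5bl_e q F V hV) (h5bl_ψ q F V hV).toIntLinearEquiv
    (fun g => DFunLike.ext _ _ (fun b => h5bl_compat q F V hV g b)) n

include hV in
/-- Hilbert 90 at the finite levels of the local module -/
theorem h5bl_h90 : Limits.IsZero (groupCohomology ((repX q).quotientToInvariants V) 1) := by
  haveI := h3lf_finiteDimensional q F
  exact h5b_isModel_h90 _ ℚ_[q] (localField q F) (h5bl_isModel_xbar q F V hV)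

end H5B

end
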