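/-
W2-C (S55) block B, slice BP (helper21): `n`-th powers are open in a local field,
`1 + π^m 𝒪 ⊆ (Kˣ)ⁿ` for `m = 2 ord(n) + 1`  (Newton iteration + sequential completeness).
-/
import Mathlib
import Fermat.Agent.CFT2.B.Defs2

set_option autoImplicit false

namespace H3LB

open scoped WithZero

section powopen

variable {K : Type} [Field K] (v : Valuation K ℤᵐ⁰)

theorem h21po_natCast_le_one (n : ℕ) : v (n : K) ≤ 1 := by
  induction n with
  | zero => simp
  | succ n ih =>
    rw [Nat.cast_succ]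
    exact (v.map_add _ _).trans (max_le ih (le_of_eq v.map_one))

/-- second order binomial expansion with integral remainder -/
theorem h21po_binom (n : ℕ) (y δ : K) (hy : v y ≤ 1) (hδ : v δ ≤ 1) :
    ∃ s : K, v s ≤ 1 ∧ (y + δ) ^ n = y ^ n + (n : K) * y ^ (n - 1) * δ + s * δ ^ 2 := by
  induction n with
  | zero => exact ⟨0, by simp, by simp⟩
  | succ n ih =>
    obtain ⟨s, hs, h⟩ := ih
    have hnat : v (n : K) ≤ 1 := h21po_natCast_le_one v n
    have hyn : v (y ^ (n - 1)) ≤ 1 := by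
      rw [map_pow]
      exact pow_le_one₀ zero_le hy
    refine ⟨s * y + (n : K) * y ^ (n - 1) + s * δ, ?_, ?_⟩
    · refine (v.map_add _ _).trans (max_le ((v.map_add _ _).trans (max_le ?_ ?_)) ?_)
      · rw [map_mul]
        exact mul_le_one₀ hs zero_le hy
      · rw [map_mul]
        exact mul_le_one₀ hnat zero_le hyn
      · rw [map_mul]
        exact mul_le_one₀ hs zero_le hδ
    · rcases Nat.eq_zero_or_pos n with h0 | h0
      · subst h0
        simp only [pow_zero, Nat.cast_zero, zero_mul, add_zero] at h ⊢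
        simp only [zero_add, pow_one, Nat.cast_one, Nat.sub_self, pow_zero, mul_one, one_mul]
        have hs0 : s * δ ^ 2 = 0 := by linear_combination -h
        linear_combination -(y + δ) * hs0
      · have e : y ^ n = y ^ (n - 1) * y := by
          rw [← pow_succ, Nat.sub_add_cancel h0]
        simp only [Nat.add_sub_cancel, Nat.cast_add, Nat.cast_one]
        rw [pow_succ, h, pow_succ]
        linear_combination (-(n : K) * δ) * e

theorem h21po_eq_zero_of_forall_le (z : K) (h : ∀ k : ℕ, v z ≤ WithZero.exp (-(k : ℤ))) :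
    z = 0 := by
  by_contra hz
  have hvz : v z ≠ 0 := (Valuation.ne_zero_iff v).mpr hz
  obtain ⟨j, hj⟩ : ∃ j : ℤ, v z = WithZero.exp j := ⟨_, (WithZero.exp_log hvz).symm⟩
  have hk := h ((-j).toNat + 1)
  rw [hj, WithZero.exp_le_exp] at hk
  omega

/-- one Newton step -/
theorem h21po_step (n : ℕ) (hn : (n : K) ≠ 0) (a : ℕ)
    (ha : v (n : K) = WithZero.exp (-(a : ℤ))) (u y : K) (k : ℕ) (hy : v y = 1)
    (hyu : v (y ^ n - u) ≤ WithZero.exp (-((2 * a + 1 + k : ℕ) : ℤ))) :
    v (-(y ^ n - u) / ((n : K) * y ^ (n - 1))) ≤ WithZero.exp (-((a + 1 + k : ℕ) : ℤ)) ∧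
      v (y + -(y ^ n - u) / ((n : K) * y ^ (n - 1))) = 1 ∧
      v ((y + -(y ^ n - u) / ((n : K) * y ^ (n - 1))) ^ n - u)
        ≤ WithZero.exp (-((2 * a + 1 + (k + 1) : ℕ) : ℤ)) := by
  set δ : K := -(y ^ n - u) / ((n : K) * y ^ (n - 1)) with hδdef
  have hy0 : y ≠ 0 := by
    intro h0
    rw [h0, map_zero] at hy
    exact zero_ne_one hy
  have hden : (n : K) * y ^ (n - 1) ≠ 0 := mul_ne_zero hn (pow_ne_zero _ hy0)
  have hvden : v ((n : K) * y ^ (n - 1)) = WithZero.exp (-(a : ℤ)) := by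
    rw [map_mul, map_pow, hy, one_pow, mul_one, ha]
  have hδ : v δ ≤ WithZero.exp (-((a + 1 + k : ℕ) : ℤ)) := by
    rw [hδdef, map_div₀, Valuation.map_neg, hvden, div_eq_mul_inv, ← WithZero.exp_neg]
    refine (mul_le_mul_left hyu _).trans ?_
    rw [← WithZero.exp_add, WithZero.exp_le_exp]
    push_cast
    omega
  have hδlt : v δ < 1 := by
    refine lt_of_le_of_lt hδ ?_
    rw [← WithZero.exp_zero, WithZero.exp_lt_exp]
    push_cast
    omega
  have hyδ : v (y + δ) = 1 := by
    rw [← hy]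
    exact Valuation.map_add_eq_of_lt_left v (by rw [hy]; exact hδlt)
  refine ⟨hδ, hyδ, ?_⟩
  obtain ⟨s, hs, hexp⟩ := h21po_binom v n y δ (le_of_eq hy) (le_of_lt hδlt)
  have hlin : (n : K) * y ^ (n - 1) * δ = -(y ^ n - u) := by
    rw [hδdef]
    field_simp
  have e : (y + δ) ^ n - u = s * δ ^ 2 := by
    rw [hexp, hlin]
    ring
  rw [e, map_mul, map_pow]
  calc v s * v δ ^ 2 ≤ 1 * (WithZero.exp (-((a + 1 + k : ℕ) : ℤ))) ^ 2 :=
        mul_le_mul' hs (pow_le_pow_left' hδ 2)
    _ ≤ WithZero.exp (-((2 * a + 1 + (k + 1) : ℕ) : ℤ)) := by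
        rw [one_mul, ← WithZero.exp_nsmul, WithZero.exp_le_exp]
        push_cast
        simp only [nsmul_eq_mul]
        push_cast
        nlinarith

end powopen

/-- **(BP)** `n`-th powers are open. -/
theorem h21lb_powOpen : PowOpen := by
  intro K _ v hv n hn
  have hvn : v (n : K) ≠ 0 := (Valuation.ne_zero_iff v).mpr hn
  obtain ⟨j, hj⟩ : ∃ j : ℤ, v (n : K) = WithZero.exp j := ⟨_, (WithZero.exp_log hvn).symm⟩
  have hj0 : j ≤ 0 := by
    have h1 := h21po_natCast_le_one v n
    rw [hj, ← WithZero.exp_zero, WithZero.exp_le_exp] at h1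
    exact h1
  obtain ⟨a, ha⟩ : ∃ a : ℕ, (a : ℤ) = -j := ⟨(-j).toNat, by omega⟩
  have hva : v (n : K) = WithZero.exp (-(a : ℤ)) := by rw [hj, ha, neg_neg]
  refine ⟨2 * a + 1, fun u hu => ?_⟩
  -- the Newton sequence
  set step : K → K := fun y => y + -(y ^ n - u) / ((n : K) * y ^ (n - 1)) with hstep
  set seq : ℕ → K := fun k => step^[k] 1 with hseq
  have hsucc : ∀ k, seq (k + 1) = step (seq k) := fun k => Function.iterate_succ_apply' step k 1
  have key : ∀ k : ℕ, v (seq k) = 1 ∧
      v (seq k ^ n - u) ≤ WithZero.exp (-((2 * a + 1 + k : ℕ) : ℤ)) := by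
    intro k
    induction k with
    | zero =>
      refine ⟨by simp [hseq], ?_⟩
      have : seq 0 ^ n - u = -(u - 1) := by
        simp [hseq]
      rw [this, Valuation.map_neg]
      simpa using hu
    | succ k ih =>
      have h := h21po_step v n hn a hva u (seq k) k ih.1 ih.2
      rw [hsucc]
      exact ⟨h.2.1, h.2.2⟩
  have hdiff : ∀ k : ℕ, v (seq (k + 1) - seq k) ≤ WithZero.exp (-(k : ℤ)) := by
    intro k
    have h := (h21po_step v n hn a hva u (seq k) k (key k).1 (key k).2).1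
    have e : seq (k + 1) - seq k = -(seq k ^ n - u) / ((n : K) * seq k ^ (n - 1)) := by
      rw [hsucc]
      simp only [hstep]
      ring
    rw [e]
    refine h.trans ?_
    rw [WithZero.exp_le_exp]
    push_cast
    omega
  obtain ⟨y, hy⟩ := hv.complete seq hdiff
  refine ⟨y, ?_⟩
  have hy1 : v y ≤ 1 := by
    have h0 := hy 0
    have : y = (y - seq 0) + seq 0 := by ring
    rw [this]
    refine (v.map_add _ _).trans (max_le ?_ (le_of_eq (key 0).1))
    simpa using h0
  have hclose : ∀ k : ℕ, v (y ^ n - u) ≤ WithZero.exp (-(k : ℤ)) := by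
    intro k
    have h1 : y ^ n - u = (y ^ n - seq k ^ n) + (seq k ^ n - u) := by ring
    rw [h1]
    refine (v.map_add _ _).trans (max_le ?_ ?_)
    · have h2 : y ^ n - seq k ^ n
          = (y - seq k) * ∑ i ∈ Finset.range n, y ^ i * seq k ^ (n - 1 - i) :=
        ((Commute.all y (seq k)).mul_geom_sum₂ n).symm
      rw [h2, map_mul]
      have h3 : v (∑ i ∈ Finset.range n, y ^ i * seq k ^ (n - 1 - i)) ≤ 1 := by
        refine v.map_sum_le fun i _ => ?_
        rw [map_mul, map_pow, map_pow, (key k).1, one_pow, mul_one]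
        exact pow_le_one₀ zero_le hy1
      calc v (y - seq k) * v (∑ i ∈ Finset.range n, y ^ i * seq k ^ (n - 1 - i))
          ≤ WithZero.exp (-(k : ℤ)) * 1 := mul_le_mul' (hy k) h3
        _ = WithZero.exp (-(k : ℤ)) := mul_one _
    · refine (key k).2.trans ?_
      rw [WithZero.exp_le_exp]
      push_cast
      omega
  exact sub_eq_zero.mp (h21po_eq_zero_of_forall_le v _ hclose)

end H3LB
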