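/-
W2-C (S55) block B, slice BPI (helper6), part 1: the higher unit groups `V j = 1 + 𝔪^(j+1)` of a
local field and the `n`-th power map: for `a = ord n` and `j ≥ a`, `x ↦ x ^ n` is a bijection
`V j → V (j + a)`.
-/
import Mathlib
import Fermat.Agent.CFT2.B.Defs6
import Fermat.Agent.CFT2.B.PowOpen_helper21

set_option autoImplicit false
set_option linter.style.haveILetI false
set_option linter.unusedSectionVars false
set_option linter.unusedVariables false

namespace H6PI

open scoped WithZero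
open H3LB

section basic

variable {K : Type} [Field K] (v : Valuation K ℤᵐ⁰)

theorem h6pi_exp_lt_one (j : ℕ) : WithZero.exp (-((j : ℤ) + 1)) < (1 : ℤᵐ⁰) := by
  rw [← WithZero.exp_zero, WithZero.exp_lt_exp]
  omega

theorem h6pi_val_eq_one {j : ℕ} {u : K} (hu : v (u - 1) ≤ WithZero.exp (-((j : ℤ) + 1))) :
    v u = 1 := by
  have h1 : v (1 + (u - 1)) = 1 :=
    v.map_one_add_of_lt (lt_of_le_of_lt hu (h6pi_exp_lt_one j))
  rwa [add_sub_cancel] at h1

/-- the higher unit groups `V j = 1 + 𝔪^(j+1)` -/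
def h6pi_V (j : ℕ) : Subgroup Kˣ where
  carrier := {u | v ((u : K) - 1) ≤ WithZero.exp (-((j : ℤ) + 1))}
  mul_mem' := by
    intro a b ha hb
    simp only [Set.mem_ofPred_eq] at ha hb ⊢
    have hb1 : v (b : K) = 1 := h6pi_val_eq_one v hb
    have e : ((a * b : Kˣ) : K) - 1 = ((a : K) - 1) * (b : K) + ((b : K) - 1) := by
      rw [Units.val_mul]
      ring
    rw [e]
    refine (v.map_add _ _).trans (max_le ?_ hb)
    rw [map_mul, hb1, mul_one]
    exact ha
  one_mem' := by simp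
  inv_mem' := by
    intro a ha
    simp only [Set.mem_ofPred_eq] at ha ⊢
    have ha1 : v (a : K) = 1 := h6pi_val_eq_one v ha
    have hne : (a : K) ≠ 0 := a.ne_zero
    have e : ((a⁻¹ : Kˣ) : K) - 1 = -((a : K) - 1) * (a : K)⁻¹ := by
      rw [Units.val_inv_eq_inv_val]
      field_simp
      ring
    rw [e, map_mul, Valuation.map_neg, map_inv₀, ha1, inv_one, mul_one]
    exact ha

theorem h6pi_mem_V {j : ℕ} {u : Kˣ} :
    u ∈ h6pi_V v j ↔ v ((u : K) - 1) ≤ WithZero.exp (-((j : ℤ) + 1)) := Iff.rfl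

theorem h6pi_V_anti {i j : ℕ} (hij : i ≤ j) : h6pi_V v j ≤ h6pi_V v i := by
  intro u hu
  rw [h6pi_mem_V] at hu ⊢
  refine hu.trans ?_
  rw [WithZero.exp_le_exp]
  omega

theorem h6pi_V_le_unitGroup (j : ℕ) : h6pi_V v j ≤ unitGroup v := by
  intro u hu
  exact h6pi_val_eq_one v hu

/-- `(1 + δ) ^ n = 1 + n δ + s δ²` -/
theorem h6pi_binom (n : ℕ) (u : K) (hu : v (u - 1) ≤ 1) :
    ∃ s : K, v s ≤ 1 ∧ u ^ n - 1 = (n : K) * (u - 1) + s * (u - 1) ^ 2 := by
  obtain ⟨s, hs, h⟩ := h21po_binom v n 1 (u - 1) (le_of_eq v.map_one) hu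
  refine ⟨s, hs, ?_⟩
  rw [add_sub_cancel, one_pow, one_pow, mul_one] at h
  rw [h]
  ring

/-- **(A)** the `n`-th power maps `V j` to `V (j + a)`, `a = ord n ≤ j + 1` -/
theorem h6pi_pow_mem (n a : ℕ) (ha : v (n : K) = WithZero.exp (-(a : ℤ))) {j : ℕ}
    (hj : a ≤ j + 1) {u : Kˣ} (hu : u ∈ h6pi_V v j) : u ^ n ∈ h6pi_V v (j + a) := by
  rw [h6pi_mem_V] at hu ⊢
  obtain ⟨s, hs, h⟩ := h6pi_binom v n (u : K) (hu.trans (h6pi_exp_lt_one j).le)
  rw [Units.val_pow_eq_pow_val, h]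
  refine (v.map_add _ _).trans (max_le ?_ ?_)
  · rw [map_mul, ha]
    refine (mul_le_mul_right hu _).trans ?_
    rw [← WithZero.exp_add, WithZero.exp_le_exp]
    push_cast
    omega
  · rw [map_mul, map_pow]
    calc v s * v ((u : K) - 1) ^ 2 ≤ 1 * (WithZero.exp (-((j : ℤ) + 1))) ^ 2 :=
          mul_le_mul' hs (pow_le_pow_left' hu 2)
      _ ≤ WithZero.exp (-(((j + a : ℕ) : ℤ) + 1)) := by
          rw [one_mul, ← WithZero.exp_nsmul, WithZero.exp_le_exp]
          push_cast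
          simp only [nsmul_eq_mul]
          push_cast
          omega

/-- **(B)** the `n`-th power is injective on `V j`, `a = ord n ≤ j` -/
theorem h6pi_pow_inj (n a : ℕ) (ha : v (n : K) = WithZero.exp (-(a : ℤ))) {j : ℕ}
    (hj : a ≤ j) {u : Kˣ} (hu : u ∈ h6pi_V v j) (hun : u ^ n = 1) : u = 1 := by
  rw [h6pi_mem_V] at hu
  obtain ⟨s, hs, h⟩ := h6pi_binom v n (u : K) (hu.trans (h6pi_exp_lt_one j).le)
  have h1 : ((u : K)) ^ n = 1 := by
    rw [← Units.val_pow_eq_pow_val, hun, Units.val_one]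
  rw [h1, sub_self] at h
  by_contra hne
  have hδ : (u : K) - 1 ≠ 0 := by
    intro h0
    apply hne
    apply Units.ext
    rw [Units.val_one]
    exact sub_eq_zero.mp h0
  have h2 : (n : K) = -(s * ((u : K) - 1)) := by
    have h3 : ((u : K) - 1) * ((n : K) + s * ((u : K) - 1)) = 0 := by
      rw [h]
      ring
    rcases mul_eq_zero.mp h3 with h4 | h4
    · exact absurd h4 hδ
    · exact eq_neg_of_add_eq_zero_left h4
  have h5 : v (n : K) ≤ WithZero.exp (-((j : ℤ) + 1)) := by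
    rw [h2, Valuation.map_neg, map_mul]
    calc v s * v ((u : K) - 1) ≤ 1 * WithZero.exp (-((j : ℤ) + 1)) := mul_le_mul' hs hu
      _ = _ := one_mul _
  rw [ha, WithZero.exp_le_exp] at h5
  omega

end basic

section newton

variable {K : Type} [Field K] (v : Valuation K ℤᵐ⁰)

/-- **(C)** Newton iteration with control: an element of `1 + 𝔪^(2a+1+k₀)` is the `n`-th power of
an element of `1 + 𝔪^(a+1+k₀)`, `a = ord n`. -/
theorem h6pi_newton (hv : IsLocalVal v) (n : ℕ) (hn : (n : K) ≠ 0) (a : ℕ)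
    (hva : v (n : K) = WithZero.exp (-(a : ℤ))) (k₀ : ℕ) (u : K)
    (hu : v (u - 1) ≤ WithZero.exp (-((2 * a + 1 + k₀ : ℕ) : ℤ))) :
    ∃ y : K, v (y - 1) ≤ WithZero.exp (-((a + 1 + k₀ : ℕ) : ℤ)) ∧ y ^ n = u := by
  -- the Newton sequence
  set step : K → K := fun y => y + -(y ^ n - u) / ((n : K) * y ^ (n - 1)) with hstep
  set seq : ℕ → K := fun k => step^[k] 1 with hseq
  have hsucc : ∀ k, seq (k + 1) = step (seq k) := fun k => Function.iterate_succ_apply' step k 1
  have key : ∀ k : ℕ, v (seq k) = 1 ∧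
      v (seq k ^ n - u) ≤ WithZero.exp (-((2 * a + 1 + (k₀ + k) : ℕ) : ℤ)) := by
    intro k
    induction k with
    | zero =>
      refine ⟨by simp [hseq], ?_⟩
      have : seq 0 ^ n - u = -(u - 1) := by
        simp [hseq]
      rw [this, Valuation.map_neg]
      simpa using hu
    | succ k ih =>
      have h := h21po_step v n hn a hva u (seq k) (k₀ + k) ih.1 ih.2
      rw [hsucc]
      exact ⟨h.2.1, h.2.2⟩
  have hdiff' : ∀ k : ℕ, v (seq (k + 1) - seq k) ≤ WithZero.exp (-((a + 1 + (k₀ + k) : ℕ) : ℤ)) := by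
    intro k
    have h := (h21po_step v n hn a hva u (seq k) (k₀ + k) (key k).1 (key k).2).1
    have e : seq (k + 1) - seq k = -(seq k ^ n - u) / ((n : K) * seq k ^ (n - 1)) := by
      rw [hsucc]
      simp only [hstep]
      ring
    rw [e]
    exact h
  have hdiff : ∀ k : ℕ, v (seq (k + 1) - seq k) ≤ WithZero.exp (-(k : ℤ)) := by
    intro k
    refine (hdiff' k).trans ?_
    rw [WithZero.exp_le_exp]
    push_cast
    omega
  have htel : ∀ k : ℕ, v (seq k - 1) ≤ WithZero.exp (-((a + 1 + k₀ : ℕ) : ℤ)) := by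
    intro k
    induction k with
    | zero => simp [hseq]
    | succ k ih =>
      have e : seq (k + 1) - 1 = (seq (k + 1) - seq k) + (seq k - 1) := by ring
      rw [e]
      refine (v.map_add _ _).trans (max_le ((hdiff' k).trans ?_) ih)
      rw [WithZero.exp_le_exp]
      push_cast
      omega
  obtain ⟨y, hy⟩ := hv.complete seq hdiff
  have hy1 : v y ≤ 1 := by
    have h0 := hy 0
    have : y = (y - seq 0) + seq 0 := by ring
    rw [this]
    refine (v.map_add _ _).trans (max_le ?_ (le_of_eq (key 0).1))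
    simpa using h0
  refine ⟨y, ?_, ?_⟩
  · have e : y - 1 = (y - seq (a + 1 + k₀)) + (seq (a + 1 + k₀) - 1) := by ring
    rw [e]
    exact (v.map_add _ _).trans (max_le (hy _) (htel _))
  have hclose : ∀ k : ℕ, v (y ^ n - u) ≤ WithZero.exp (-(k : ℤ)) := by
    intro k
    have h1 : y ^ n - u = (y ^ n - seq k ^ n) + (seq k ^ n - u) := by ring
    rw [h1]
    refine (v.map_add _ _).trans (max_le ?_ ?_)
    · have h2 : y ^ n - seq k ^ n
          = (y - seq k) * ∑ i ∈ Finset.range n, y ^ i * seq k ^ (n - 1 - i) :=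
        ((Commute.all y (seq k)).mul_geom_sum₂ n).symm
      rw [h2, map_mul]
      have h3 : v (∑ i ∈ Finset.range n, y ^ i * seq k ^ (n - 1 - i)) ≤ 1 := by
        refine v.map_sum_le fun i _ => ?_
        rw [map_mul, map_pow, map_pow, (key k).1, one_pow, mul_one]
        exact pow_le_one₀ zero_le hy1
      calc v (y - seq k) * v (∑ i ∈ Finset.range n, y ^ i * seq k ^ (n - 1 - i))
          ≤ WithZero.exp (-(k : ℤ)) * 1 := mul_le_mul' (hy k) h3
        _ = WithZero.exp (-(k : ℤ)) := mul_one _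
    · refine (key k).2.trans ?_
      rw [WithZero.exp_le_exp]
      push_cast
      omega
  exact sub_eq_zero.mp (h21po_eq_zero_of_forall_le v _ hclose)

/-- **(C)** the `n`-th power map `V j → V (j + a)` is surjective, `a = ord n ≤ j` -/
theorem h6pi_pow_surj (hv : IsLocalVal v) (n : ℕ) (hn : (n : K) ≠ 0) (a : ℕ)
    (hva : v (n : K) = WithZero.exp (-(a : ℤ))) {j : ℕ} (hj : a ≤ j) {u : Kˣ}
    (hu : u ∈ h6pi_V v (j + a)) : ∃ y ∈ h6pi_V v j, y ^ n = u := by
  rw [h6pi_mem_V] at hu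
  obtain ⟨k₀, rfl⟩ : ∃ k₀, j = a + k₀ := ⟨j - a, by omega⟩
  obtain ⟨y, hy, hyu⟩ := h6pi_newton v hv n hn a hva k₀ (u : K) (by
    refine hu.trans ?_
    rw [WithZero.exp_le_exp]
    push_cast
    omega)
  have hy' : v (y - 1) ≤ WithZero.exp (-(((a + k₀ : ℕ) : ℤ) + 1)) := by
    refine hy.trans ?_
    rw [WithZero.exp_le_exp]
    push_cast
    omega
  have hy1 : v y = 1 := h6pi_val_eq_one v hy'
  have hy0 : y ≠ 0 := by
    intro h0
    rw [h0, map_zero] at hy1
    exact zero_ne_one hy1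
  refine ⟨Units.mk0 y hy0, hy', ?_⟩
  apply Units.ext
  rw [Units.val_pow_eq_pow_val, Units.val_mk0, hyu]

end newton

end H6PI
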