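/-
W2-C (S55) block B, slice BPI (helper6), part 2: `[V j : V (j + a)] = |k| ^ a` for `a ≤ j + 1`
(`V j = 1 + 𝔪^(j+1)`), via `V j / V (j + a) ≅ 𝒪 / 𝔪^a`, `1 + π^(j+1) x ↦ x`.
-/
import Mathlib
import Fermat.Agent.CFT2.B.PowIndexUnits_helper6
import Fermat.Agent.CFT2.B.RamRes_helper10

set_option autoImplicit false
set_option linter.style.haveILetI false
set_option linter.unusedSectionVars false
set_option linter.unusedVariables false

namespace H6PI

open scoped WithZero
open H3LB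

section quot

variable {K : Type} [Field K] {v : Valuation K ℤᵐ⁰}

/-- `x ∈ 𝔪^a ↔ v x ≤ exp (-a)` -/
theorem h6pi_mem_pow {π : K} (hπ : v π = WithZero.exp (-1 : ℤ)) (a : ℕ) (x : v.valuationSubring) :
    x ∈ IsLocalRing.maximalIdeal v.valuationSubring ^ a ↔ v (x : K) ≤ WithZero.exp (-(a : ℤ)) := by
  have hπ1 : v π ≤ 1 := by rw [hπ]; exact le_of_lt H24LB.h24lb_exp_neg_one_lt_one
  have hπ0 : π ≠ 0 := by
    intro h0
    rw [h0, map_zero] at hπ
    exact WithZero.exp_ne_zero hπ.symm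
  have hπa : v (π ^ a) = WithZero.exp (-(a : ℤ)) := by
    rw [map_pow, hπ, ← WithZero.exp_nsmul]
    congr 1
    simp
  set πO : v.valuationSubring := ⟨π, (Valuation.mem_valuationSubring_iff _ _).2 hπ1⟩ with hπO
  rw [H10LB.h10lb_maximalIdeal_eq_span πO hπ, Ideal.span_singleton_pow,
    Ideal.mem_span_singleton']
  constructor
  · rintro ⟨c, hc⟩
    have hc' : (c : K) * π ^ a = (x : K) := by
      have := congrArg (fun z : v.valuationSubring => (z : K)) hc
      simpa [hπO] using this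
    rw [← hc', map_mul, hπa]
    have hc1 : v (c : K) ≤ 1 := (Valuation.mem_valuationSubring_iff _ _).1 c.2
    calc v (c : K) * WithZero.exp (-(a : ℤ)) ≤ 1 * WithZero.exp (-(a : ℤ)) :=
          mul_le_mul' hc1 le_rfl
      _ = _ := one_mul _
  · intro hx
    have hq : v ((x : K) / π ^ a) ≤ 1 := by
      rw [map_div₀, hπa]
      exact div_le_one_of_le₀ hx zero_le
    refine ⟨⟨(x : K) / π ^ a, (Valuation.mem_valuationSubring_iff _ _).2 hq⟩, ?_⟩
    apply Subtype.ext
    show (x : K) / π ^ a * (πO : K) ^ a = (x : K)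
    have : (πO : K) = π := rfl
    rw [this]
    field_simp

/-- `|𝒪 / 𝔪^a| = |k|^a` -/
theorem h6pi_card_quot (hv : IsLocalVal v) (a : ℕ) :
    Nat.card (v.valuationSubring ⧸ IsLocalRing.maximalIdeal v.valuationSubring ^ a) =
      Nat.card (IsLocalRing.ResidueField v.valuationSubring) ^ a := by
  haveI : IsDiscreteValuationRing v.valuationSubring := H10LB.h10lb_isDVR hv
  have hB0 : IsLocalRing.maximalIdeal v.valuationSubring ≠ ⊥ :=
    IsDiscreteValuationRing.not_a_field v.valuationSubring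
  have h3 : Submodule.cardQuot (IsLocalRing.maximalIdeal v.valuationSubring ^ a)
      = Submodule.cardQuot (IsLocalRing.maximalIdeal v.valuationSubring) ^ a :=
    cardQuot_pow_of_prime hB0
  rw [Submodule.cardQuot_apply, Submodule.cardQuot_apply] at h3
  exact h3

variable (v) in
/-- the coordinate `(u - 1) / π^(j+1)` of `u ∈ V j` -/
noncomputable def h6pi_coord (π : K) (hπ : v π = WithZero.exp (-1 : ℤ)) (j : ℕ)
    (u : h6pi_V v j) : v.valuationSubring :=
  ⟨(((u : Kˣ) : K) - 1) / π ^ (j + 1), by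
    rw [Valuation.mem_valuationSubring_iff, map_div₀, map_pow, hπ, ← WithZero.exp_nsmul]
    refine div_le_one_of_le₀ ?_ zero_le
    have := u.2
    rw [h6pi_mem_V] at this
    refine this.trans ?_
    rw [WithZero.exp_le_exp]
    simp⟩

theorem h6pi_coord_val (π : K) (hπ : v π = WithZero.exp (-1 : ℤ)) (j : ℕ) (u : h6pi_V v j) :
    ((h6pi_coord v π hπ j u : v.valuationSubring) : K) = (((u : Kˣ) : K) - 1) / π ^ (j + 1) := rfl

variable (v) in
/-- `V j → 𝒪 / 𝔪^a`, `1 + π^(j+1) x ↦ x` -/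
noncomputable def h6pi_psi (π : K) (hπ : v π = WithZero.exp (-1 : ℤ)) (j a : ℕ) (hja : a ≤ j + 1) :
    h6pi_V v j →* Multiplicative
      (v.valuationSubring ⧸ IsLocalRing.maximalIdeal v.valuationSubring ^ a) :=
  MonoidHom.mk' (fun u => Multiplicative.ofAdd
    (Ideal.Quotient.mk (IsLocalRing.maximalIdeal v.valuationSubring ^ a) (h6pi_coord v π hπ j u)))
    (by
      intro u u'
      rw [← ofAdd_add, ← map_add]
      congr 1
      rw [Ideal.Quotient.eq, h6pi_mem_pow hπ]
      have hπ0 : π ≠ 0 := by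
        intro h0
        rw [h0, map_zero] at hπ
        exact WithZero.exp_ne_zero hπ.symm
      have e : ((h6pi_coord v π hπ j (u * u') - (h6pi_coord v π hπ j u + h6pi_coord v π hπ j u') :
          v.valuationSubring) : K)
          = (((u : Kˣ) : K) - 1) * ((((u' : Kˣ) : K) - 1) / π ^ (j + 1)) := by
        push_cast
        rw [h6pi_coord_val, h6pi_coord_val, h6pi_coord_val]
        push_cast
        field_simp
        ring
      rw [e, map_mul]
      have h1 := u.2
      rw [h6pi_mem_V] at h1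
      have h2 : v ((((u' : Kˣ) : K) - 1) / π ^ (j + 1)) ≤ 1 :=
        (Valuation.mem_valuationSubring_iff _ _).1 (h6pi_coord v π hπ j u').2
      calc v (((u : Kˣ) : K) - 1) * v ((((u' : Kˣ) : K) - 1) / π ^ (j + 1))
          ≤ WithZero.exp (-((j : ℤ) + 1)) * 1 := mul_le_mul' h1 h2
        _ ≤ WithZero.exp (-(a : ℤ)) := by
          rw [mul_one, WithZero.exp_le_exp]
          omega)

theorem h6pi_psi_apply (π : K) (hπ : v π = WithZero.exp (-1 : ℤ)) (j a : ℕ) (hja : a ≤ j + 1)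
    (u : h6pi_V v j) : h6pi_psi v π hπ j a hja u = Multiplicative.ofAdd
    (Ideal.Quotient.mk (IsLocalRing.maximalIdeal v.valuationSubring ^ a)
      (h6pi_coord v π hπ j u)) := rfl

theorem h6pi_psi_ker (π : K) (hπ : v π = WithZero.exp (-1 : ℤ)) (j a : ℕ) (hja : a ≤ j + 1) :
    (h6pi_psi v π hπ j a hja).ker = (h6pi_V v (j + a)).subgroupOf (h6pi_V v j) := by
  ext u
  rw [MonoidHom.mem_ker, h6pi_psi_apply, Subgroup.mem_subgroupOf, h6pi_mem_V,
    ← ofAdd_zero, Multiplicative.ofAdd.injective.eq_iff, Ideal.Quotient.eq_zero_iff_mem,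
    h6pi_mem_pow hπ, h6pi_coord_val, map_div₀, map_pow, hπ, ← WithZero.exp_nsmul]
  have hne : (WithZero.exp ((j + 1) • (-1 : ℤ)) : ℤᵐ⁰) ≠ 0 := WithZero.exp_ne_zero
  rw [div_le_iff₀ (lt_of_le_of_ne zero_le hne.symm), ← WithZero.exp_add]
  have e : (-(a : ℤ) + (j + 1) • (-1 : ℤ)) = -(((j + a : ℕ) : ℤ) + 1) := by
    simp only [nsmul_eq_mul]
    push_cast
    ring
  rw [e]

theorem h6pi_psi_surj (π : K) (hπ : v π = WithZero.exp (-1 : ℤ)) (j a : ℕ) (hja : a ≤ j + 1) :
    Function.Surjective (h6pi_psi v π hπ j a hja) := by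
  intro z
  obtain ⟨x, hx⟩ := Ideal.Quotient.mk_surjective (Multiplicative.toAdd z)
  have hπ0 : π ≠ 0 := by
    intro h0
    rw [h0, map_zero] at hπ
    exact WithZero.exp_ne_zero hπ.symm
  have hx1 : v (x : K) ≤ 1 := (Valuation.mem_valuationSubring_iff _ _).1 x.2
  have hu : v ((1 + π ^ (j + 1) * (x : K)) - 1) ≤ WithZero.exp (-((j : ℤ) + 1)) := by
    rw [add_sub_cancel_left, map_mul, map_pow, hπ, ← WithZero.exp_nsmul]
    calc WithZero.exp ((j + 1) • (-1 : ℤ)) * v (x : K)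
        ≤ WithZero.exp ((j + 1) • (-1 : ℤ)) * 1 := mul_le_mul' le_rfl hx1
      _ = WithZero.exp (-((j : ℤ) + 1)) := by
        rw [mul_one]
        congr 1
        simp only [nsmul_eq_mul]
        push_cast
        ring
  have hu1 : v (1 + π ^ (j + 1) * (x : K)) = 1 := h6pi_val_eq_one v hu
  have hu0 : 1 + π ^ (j + 1) * (x : K) ≠ 0 := by
    intro h0
    rw [h0, map_zero] at hu1
    exact zero_ne_one hu1
  refine ⟨⟨Units.mk0 _ hu0, hu⟩, ?_⟩
  rw [h6pi_psi_apply]
  have hc : h6pi_coord v π hπ j ⟨Units.mk0 _ hu0, hu⟩ = x := by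
    apply Subtype.ext
    rw [h6pi_coord_val]
    show ((1 + π ^ (j + 1) * (x : K)) - 1) / π ^ (j + 1) = (x : K)
    field_simp
    ring
  rw [hc, hx]
  rfl

/-- **(D)** `[V j : V (j + a)] = |k|^a` -/
theorem h6pi_relIndex (hv : IsLocalVal v) (j a : ℕ) (hja : a ≤ j + 1) :
    (h6pi_V v (j + a)).relIndex (h6pi_V v j) =
      Nat.card (IsLocalRing.ResidueField v.valuationSubring) ^ a := by
  obtain ⟨π, hπ⟩ := hv.surj (WithZero.exp (-1 : ℤ))
  unfold Subgroup.relIndex
  rw [← h6pi_psi_ker π hπ j a hja, Subgroup.index_ker,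
    MonoidHom.range_eq_top.2 (h6pi_psi_surj π hπ j a hja), Subgroup.card_top,
    ← h6pi_card_quot hv a]
  rfl

end quot

end H6PI
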