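/-
W2-C (S55) block B, slice BPI (helper6): `H6PI.h6lb_powIndex : H3LB.PowIndex`,
`[Kˣ : Kˣᵖ] = p · |μ_p(K)| · |k|^ord(p)`.
Herbrand quotient (helper25's `H25Herb`) of the pair (trivial, `p`-th power) along
`0 → U → Kˣ → ℤ → 0` and `V ≤ U` of finite index, `V = 1 + 𝔪^(a+1)`, `a = ord p`, on which the
`p`-th power is a bijection onto `1 + 𝔪^(2a+1)`.
-/
import Mathlib
import Fermat.Agent.CFT2.B.PowIndexQuot_helper6
import Fermat.Agent.CFT2.B.NormIndexAsm_helper6

set_option autoImplicit false
set_option linter.style.haveILetI false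
set_option linter.unusedSectionVars false
set_option linter.unusedVariables false

namespace H6PI

open scoped WithZero
open H3LB H25Herb H6NI

/-- **(BPI)** the index of `p`-th powers in a local field -/
theorem h6lb_powIndex : H3LB.PowIndex := by
  intro K _ v hv p hp hpK
  classical
  -- `a = ord p`
  have hvp0 : v (p : K) ≠ 0 := (Valuation.ne_zero_iff v).mpr hpK
  have hvp1 : v (p : K) ≤ 1 := h21po_natCast_le_one v p
  have hlog : WithZero.log (v (p : K)) ≤ 0 := by
    rw [WithZero.log_le_iff_le_exp hvp0, WithZero.exp_zero]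
    exact hvp1
  set a : ℕ := Int.toNat (- WithZero.log (v (p : K))) with ha
  have haZ : (a : ℤ) = - WithZero.log (v (p : K)) := Int.toNat_of_nonneg (by omega)
  have hva : v (p : K) = WithZero.exp (-(a : ℤ)) := by
    rw [haZ, neg_neg, WithZero.exp_log hvp0]
  -- the endomorphisms
  set P : Kˣ →* Kˣ := powMonoidHom p with hP
  set T : Kˣ →* Kˣ := 1 with hT
  have hPU : ∀ u : Kˣ, u ∈ unitGroup v → P u ∈ unitGroup v := fun u hu =>
    (unitGroup v).pow_mem hu p
  have hPV : ∀ u : Kˣ, u ∈ h6pi_V v a → P u ∈ h6pi_V v a := fun u hu =>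
    (h6pi_V v a).pow_mem hu p
  let PU : ↥(unitGroup v) →* ↥(unitGroup v) :=
    (P.comp (unitGroup v).subtype).codRestrict (unitGroup v) (fun u => hPU u u.2)
  let TU : ↥(unitGroup v) →* ↥(unitGroup v) := 1
  let PV : ↥(h6pi_V v a) →* ↥(h6pi_V v a) :=
    (P.comp (h6pi_V v a).subtype).codRestrict (h6pi_V v a) (fun u => hPV u u.2)
  let TV : ↥(h6pi_V v a) →* ↥(h6pi_V v a) := 1
  have hVU : h6pi_V v a ≤ unitGroup v := h6pi_V_le_unitGroup v a
  -- Herbrand indices of `V`
  have hV1 : TV.range.relIndex PV.ker = 1 := by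
    rw [Subgroup.relIndex_eq_one]
    intro u hu
    rw [MonoidHom.mem_ker] at hu
    have hu' : (u : Kˣ) ^ p = 1 := congrArg Subtype.val hu
    have h1 : (u : Kˣ) = 1 := h6pi_pow_inj v p a hva le_rfl u.2 hu'
    have h2 : u = 1 := Subtype.ext h1
    rw [h2]
    exact Subgroup.one_mem _
  have hV0 : PV.range.relIndex TV.ker =
      Nat.card (IsLocalRing.ResidueField v.valuationSubring) ^ a := by
    have hker : TV.ker = ⊤ := by
      ext u
      simp [TV]
    have hrange : PV.range = (h6pi_V v (a + a)).subgroupOf (h6pi_V v a) := by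
      ext u
      rw [Subgroup.mem_subgroupOf]
      constructor
      · rintro ⟨y, rfl⟩
        exact h6pi_pow_mem v p a hva (Nat.le_succ a) y.2
      · intro hu
        obtain ⟨y, hy, hyu⟩ := h6pi_pow_surj v hv p hpK a hva le_rfl hu
        exact ⟨⟨y, hy⟩, Subtype.ext hyu⟩
    rw [hker, Subgroup.relIndex_top_right, hrange]
    exact h6pi_relIndex hv a a (Nat.le_succ a)
  have hVfin : (h6pi_V v a).relIndex (unitGroup v) ≠ 0 :=
    h6ni_finite_index hv _ (a + 1) (fun u hu => by
      rw [h6pi_mem_V]
      refine hu.trans ?_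
      rw [WithZero.exp_le_exp]
      push_cast
      omega)
  -- `V ⊆ U` of finite index
  have hfinU := h25herb_finiteIndex (MonoidHom.toAdditive TV) (MonoidHom.toAdditive PV)
    (MonoidHom.toAdditive TU) (MonoidHom.toAdditive PU)
    (MonoidHom.toAdditive (Subgroup.inclusion hVU))
    (fun x => rfl)
    (fun x => by
      induction x using Additive.rec with
      | ofMul u =>
        change Additive.ofMul (PU (TU u)) = 0
        rw [show PU (TU u) = 1 from map_one PU]
        rfl)
    (fun a b hab => by
      have : Function.Injective (Subgroup.inclusion hVU) := Subgroup.inclusion_injective hVU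
      exact this hab)
    (fun a => rfl) (fun a => rfl)
    (by
      rw [MonoidHom.coe_toAdditive_range, Subgroup.index_toAddSubgroup,
        Subgroup.inclusion_range]
      exact hVfin)
  obtain ⟨hU1, hU2⟩ := hfinU
  rw [h6ni_h0_toAdditive, h6ni_h1_toAdditive, h6ni_h0_toAdditive, h6ni_h1_toAdditive,
    hV0, hV1, mul_one] at hU1
  have hk : Nat.card (IsLocalRing.ResidueField v.valuationSubring) ≠ 0 := by
    haveI : Finite (IsLocalRing.ResidueField v.valuationSubring) := H24LB.h24lb_finite_k v hv
    exact Nat.card_pos.ne'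
  have hDefV : Defined (MonoidHom.toAdditive TV) (MonoidHom.toAdditive PV) := by
    unfold Defined
    rw [h6ni_h0_toAdditive, h6ni_h1_toAdditive, hV0, hV1]
    exact ⟨pow_ne_zero _ hk, one_ne_zero⟩
  have hDefU := hU2.mp hDefV
  unfold Defined at hDefU
  rw [h6ni_h0_toAdditive, h6ni_h1_toAdditive] at hDefU
  -- the exact sequence `0 → U → Kˣ → ℤ → 0`
  have hmul := h25herb_mul (MonoidHom.toAdditive TU) (MonoidHom.toAdditive PU)
    (MonoidHom.toAdditive T) (MonoidHom.toAdditive P)
    (0 : ℤ →+ ℤ) (p • AddMonoidHom.id ℤ)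
    (MonoidHom.toAdditive (unitGroup v).subtype) (h6ni_ord v)
    (fun x => rfl)
    (fun x => by
      induction x using Additive.rec with
      | ofMul u =>
        change Additive.ofMul (P (T u)) = 0
        rw [show P (T u) = 1 from map_one P]
        rfl)
    (fun a b hab => by
      have : Function.Injective (unitGroup v).subtype := Subgroup.subtype_injective _
      exact this hab)
    (h6ni_ord_surjective v hv)
    (by
      ext x
      induction x using Additive.rec with
      | ofMul u =>
        rw [AddMonoidHom.mem_ker, h6ni_ord_eq_zero_iff, MonoidHom.coe_toAdditive_range,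
          Subgroup.range_subtype]
        rfl)
    (fun a => rfl) (fun a => rfl)
    (fun b => by
      induction b using Additive.rec with
      | ofMul u =>
        change h6ni_ord v (Additive.ofMul (T u)) = 0
        rw [h6ni_ord_eq_zero_iff]
        simp [T])
    (fun b => by
      induction b using Additive.rec with
      | ofMul u =>
        change h6ni_ord v (Additive.ofMul (P u)) = p • h6ni_ord v (Additive.ofMul u)
        rw [h6ni_ord_apply, h6ni_ord_apply]
        simp only [hP, powMonoidHom_apply, Units.val_pow_eq_pow_val, map_pow]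
        rw [WithZero.log_pow])
  obtain ⟨hint0, hint1⟩ := h25herb_int p hp.ne_zero
  rw [hint0, hint1, mul_one, h6ni_h0_toAdditive, h6ni_h1_toAdditive, h6ni_h0_toAdditive,
    h6ni_h1_toAdditive, hU1] at hmul
  -- identify the terms
  have hTker : T.ker = ⊤ := by
    ext u
    simp [T]
  have hTrange : T.range = ⊥ := by
    ext u
    simp [T]
  have hPker : P.ker = rootsOfUnity p K := by
    ext u
    rw [MonoidHom.mem_ker, mem_rootsOfUnity]
    rfl
  rw [hTker, Subgroup.relIndex_top_right, hTrange, Subgroup.relIndex_bot_left, hPker] at hmul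
  have h1 : TU.range.relIndex PU.ker ≠ 0 := hDefU.2
  have hfinal : (powMonoidHom p : Kˣ →* Kˣ).range.index * TU.range.relIndex PU.ker =
      (p * Nat.card (rootsOfUnity p K) *
        Nat.card (IsLocalRing.ResidueField v.valuationSubring) ^ a) *
          TU.range.relIndex PU.ker := by
    rw [hmul]
    ring
  exact Nat.eq_of_mul_eq_mul_right (Nat.pos_of_ne_zero h1) hfinal

end H6PI
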