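/-
W2-C (S55) block B, slices S4b, S4c (helper24): functoriality of the field-theoretic restriction
maps on `Hⁿ(Gal(L/K), Lˣ)` and compatibility with inflation:
`h24lb_resFieldComp : H3LB.ResFieldComp`, `h24lb_resInfComm : H3LB.ResInfComm`.
-/
import Mathlib
import Fermat.Agent.CFT2.B.Defs5

set_option autoImplicit false
set_option linter.style.haveILetI false
set_option linter.unusedSectionVars false
set_option linter.unusedVariables false

noncomputable section

namespace H24LB

open scoped WithZero
open H3LB groupCohomology CategoryTheory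

/-- **(S4b)** `res_{F/K → F/M} = res_{F/L → F/M} ∘ res_{F/K → F/L}` -/
theorem h24lb_resFieldComp : H3LB.ResFieldComp := by
  intro K L M F _ _ _ _ _ _ _ _ _ _ _ _ _ _ n
  unfold resField
  have h := groupCohomology.map_comp (k := ℤ)
    (A := Rep.ofAlgebraAutOnUnits K F) (B := Rep.ofAlgebraAutOnUnits L F)
    (C := Rep.ofAlgebraAutOnUnits M F)
    (galRes K L F) (galRes L M F) (resFieldHom K L F) (resFieldHom L M F) n
  have h2 : groupCohomology.map (galRes K M F) (resFieldHom K M F) n
      = groupCohomology.map (galRes K L F) (resFieldHom K L F) n ≫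
        groupCohomology.map (galRes L M F) (resFieldHom L M F) n := by
    refine Eq.trans (groupCohomology.map_congr (f := galRes K M F)
      (g := (galRes K L F).comp (galRes L M F)) ?_ ?_ n) h
    · ext σ x
      rfl
    · ext v
      rfl
  rw [h2]
  rfl

/-- **(S4c)** `res_{F/K → F/L} ∘ inf_{E→F} = inf_{E→F} ∘ res_{E/K → E/L}` -/
theorem h24lb_resInfComm : H3LB.ResInfComm := by
  intro K L E F _ _ _ _ _ _ _ _ _ _ _ _ _ _ _ _ n
  unfold resField infField
  have h1 := groupCohomology.map_comp (k := ℤ)
    (A := Rep.ofAlgebraAutOnUnits K E) (B := Rep.ofAlgebraAutOnUnits K F)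
    (C := Rep.ofAlgebraAutOnUnits L F)
    (AlgEquiv.restrictNormalHom (F := K) (K₁ := F) E) (galRes K L F)
    (infFieldHom K E F) (resFieldHom K L F) n
  have h2 := groupCohomology.map_comp (k := ℤ)
    (A := Rep.ofAlgebraAutOnUnits K E) (B := Rep.ofAlgebraAutOnUnits L E)
    (C := Rep.ofAlgebraAutOnUnits L F)
    (galRes K L E) (AlgEquiv.restrictNormalHom (F := L) (K₁ := F) E)
    (resFieldHom K L E) (infFieldHom L E F) n
  have h3 : groupCohomology.map (AlgEquiv.restrictNormalHom (F := K) (K₁ := F) E)
        (infFieldHom K E F) n ≫ groupCohomology.map (galRes K L F) (resFieldHom K L F) n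
      = groupCohomology.map (galRes K L E) (resFieldHom K L E) n ≫
        groupCohomology.map (AlgEquiv.restrictNormalHom (F := L) (K₁ := F) E)
          (infFieldHom L E F) n := by
    rw [← h1, ← h2]
    refine groupCohomology.map_congr ?_ ?_ n
    · ext σ x
      apply (algebraMap E F).injective
      exact (AlgEquiv.restrictNormal_commutes (σ.restrictScalars K) E x).trans
        (AlgEquiv.restrictNormal_commutes σ E x).symm
    · ext v
      rfl
  ext x
  exact congrArg (fun f => f x) h3

end H24LB

end
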