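/-
W2-C (S55) block B, slices B2' / B2 (helper24), part 2: Teichmüller representatives in a
complete discretely valued field with finite residue field.
-/
import Mathlib
import Fermat.Agent.CFT2.B.UnrRes_helper24

set_option autoImplicit false
set_option linter.style.haveILetI false
set_option linter.unusedSectionVars false
set_option linter.unusedVariables false

noncomputable section

namespace H24LB

open scoped WithZero
open H3LB

variable {L : Type} [Field L] (w : Valuation L ℤᵐ⁰)

/-- the cardinality of the residue field -/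
def h24lb_q : ℕ := Nat.card (h24lb_k w)

theorem h24lb_q_pos (hw : IsLocalVal w) : 0 < h24lb_q w := by
  haveI := h24lb_finite_k w hw
  exact Nat.card_pos

theorem h24lb_res_pow_card (hw : IsLocalVal w) (a : h24lb_k w) : a ^ h24lb_q w = a := by
  haveI := h24lb_finite_k w hw
  haveI := Fintype.ofFinite (h24lb_k w)
  unfold h24lb_q
  rw [Nat.card_eq_fintype_card]
  exact FiniteField.pow_card a

theorem h24lb_res_card_eq_zero (hw : IsLocalVal w) : ((h24lb_q w : ℕ) : h24lb_k w) = 0 := by
  haveI := h24lb_finite_k w hw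
  haveI := Fintype.ofFinite (h24lb_k w)
  unfold h24lb_q
  rw [Nat.card_eq_fintype_card]
  exact Nat.cast_card_eq_zero (h24lb_k w)

/-- `x ^ q ≡ x` modulo the maximal ideal -/
theorem h24lb_pow_card_sub (hw : IsLocalVal w) (x : L) (hx : w x ≤ 1) :
    w (x ^ h24lb_q w - x) < 1 := by
  have h := h24lb_res_pow_card w hw (h24lb_res w (h24lb_mk w x hx))
  rw [← map_pow, h24lb_res_eq_iff] at h
  exact h

/-- `w (a ^ n - b ^ n) ≤ w (a - b)` on the valuation ring -/
theorem h24lb_pow_sub_pow_le (a b : L) (ha : w a ≤ 1) (hb : w b ≤ 1) (n : ℕ) :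
    w (a ^ n - b ^ n) ≤ w (a - b) := by
  rw [← (Commute.all a b).mul_geom_sum₂ n, map_mul]
  have hS : w (∑ i ∈ Finset.range n, a ^ i * b ^ (n - 1 - i)) ≤ 1 := by
    refine Valuation.map_sum_le w (fun i _ => ?_)
    rw [map_mul, map_pow, map_pow]
    exact mul_le_one' (pow_le_one' ha _) (pow_le_one' hb _)
  calc w (a - b) * w (∑ i ∈ Finset.range n, a ^ i * b ^ (n - 1 - i))
      ≤ w (a - b) * 1 := by gcongr
    _ = w (a - b) := mul_one _

/-- the contraction estimate: `w (a ^ q - b ^ q) ≤ exp (-1) * w (a - b)` if `a ≡ b` -/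
theorem h24lb_pow_card_contract (hw : IsLocalVal w) (a b : L) (ha : w a ≤ 1) (hb : w b ≤ 1)
    (hab : w (a - b) < 1) :
    w (a ^ h24lb_q w - b ^ h24lb_q w) ≤ WithZero.exp (-1 : ℤ) * w (a - b) := by
  set q := h24lb_q w with hq
  rw [← (Commute.all a b).mul_geom_sum₂ q, map_mul, mul_comm]
  have hSle : ∀ i ∈ Finset.range q, w (a ^ i * b ^ (q - 1 - i)) ≤ 1 := by
    intro i _
    rw [map_mul, map_pow, map_pow]
    exact mul_le_one' (pow_le_one' ha _) (pow_le_one' hb _)
  have hS1 : w (∑ i ∈ Finset.range q, a ^ i * b ^ (q - 1 - i)) ≤ 1 :=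
    Valuation.map_sum_le w hSle
  have hres : h24lb_res w (h24lb_mk w _ hS1) = 0 := by
    have hab' : h24lb_res w (h24lb_mk w a ha) = h24lb_res w (h24lb_mk w b hb) := by
      rw [h24lb_res_eq_iff]
      exact hab
    have e1 : (h24lb_mk w _ hS1 : h24lb_A w)
        = ∑ i ∈ Finset.range q, (h24lb_mk w a ha) ^ i * (h24lb_mk w b hb) ^ (q - 1 - i) := by
      apply Subtype.ext
      simp [h24lb_mk]
    rw [e1, map_sum]
    have e2 : ∀ i ∈ Finset.range q,
        h24lb_res w ((h24lb_mk w a ha) ^ i * (h24lb_mk w b hb) ^ (q - 1 - i))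
          = (h24lb_res w (h24lb_mk w b hb)) ^ (q - 1) := by
      intro i hi
      rw [map_mul, map_pow, map_pow, hab', ← pow_add]
      congr 1
      have := Finset.mem_range.mp hi
      omega
    rw [Finset.sum_congr rfl e2, Finset.sum_const, Finset.card_range, nsmul_eq_mul,
      h24lb_res_card_eq_zero w hw, zero_mul]
  rw [h24lb_res_eq_zero_iff] at hres
  have hS : w (∑ i ∈ Finset.range q, a ^ i * b ^ (q - 1 - i)) ≤ WithZero.exp (-1 : ℤ) :=
    (h24lb_lt_one_iff _).mp hres
  gcongr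

/-- uniqueness of Teichmüller representatives -/
theorem h24lb_teich_unique (hw : IsLocalVal w) (a b : L) (ha : w a ≤ 1) (hb : w b ≤ 1)
    (haq : a ^ h24lb_q w = a) (hbq : b ^ h24lb_q w = b) (hab : w (a - b) < 1) : a = b := by
  have h := h24lb_pow_card_contract w hw a b ha hb hab
  rw [haq, hbq] at h
  by_contra hne
  have h0 : w (a - b) ≠ 0 := by
    rw [Ne, map_eq_zero, sub_eq_zero]
    exact hne
  have h1 : (1 : ℤᵐ⁰) * w (a - b) ≤ WithZero.exp (-1 : ℤ) * w (a - b) := by
    rw [one_mul]; exact h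
  have h2 := le_of_mul_le_mul_right h1 (zero_lt_iff.mpr h0)
  exact absurd h2 (not_le.mpr h24lb_exp_neg_one_lt_one)

/-- the sequence `x ^ (q ^ n)` -/
def h24lb_seq (x : L) (n : ℕ) : L := x ^ (h24lb_q w ^ n)

theorem h24lb_seq_le (x : L) (hx : w x ≤ 1) (n : ℕ) : w (h24lb_seq w x n) ≤ 1 := by
  unfold h24lb_seq
  rw [map_pow]
  exact pow_le_one' hx _

theorem h24lb_seq_succ (x : L) (n : ℕ) :
    h24lb_seq w x (n + 1) = (h24lb_seq w x n) ^ h24lb_q w := by
  unfold h24lb_seq
  rw [← pow_mul, pow_succ]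

theorem h24lb_seq_step (hw : IsLocalVal w) (x : L) (hx : w x ≤ 1) (n : ℕ) :
    w (h24lb_seq w x (n + 1) - h24lb_seq w x n) ≤ WithZero.exp (-((n + 1 : ℕ) : ℤ)) := by
  induction n with
  | zero =>
    have h := h24lb_pow_card_sub w hw x hx
    have e : h24lb_seq w x (0 + 1) - h24lb_seq w x 0 = x ^ h24lb_q w - x := by
      simp [h24lb_seq]
    rw [e]
    simpa using (h24lb_lt_one_iff _).mp h
  | succ n ih =>
    have hlt : w (h24lb_seq w x (n + 1) - h24lb_seq w x n) < 1 :=
      lt_of_le_of_lt ih (by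
        rw [← WithZero.exp_zero, WithZero.exp_lt_exp]
        push_cast
        omega)
    have h := h24lb_pow_card_contract w hw _ _ (h24lb_seq_le w x hx (n + 1))
      (h24lb_seq_le w x hx n) hlt
    rw [← h24lb_seq_succ, ← h24lb_seq_succ] at h
    refine h.trans ?_
    rw [h24lb_exp_neg_succ (n + 1)]
    gcongr

/-- **existence of Teichmüller representatives** -/
theorem h24lb_teich_exists (hw : IsLocalVal w) (x : L) (hx : w x ≤ 1) :
    ∃ t : L, w t ≤ 1 ∧ t ^ h24lb_q w = t ∧ w (t - x) < 1 := by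
  have hstep := h24lb_seq_step w hw x hx
  obtain ⟨y, hy⟩ := hw.complete (h24lb_seq w x) (fun n =>
    (hstep n).trans (h24lb_exp_neg_mono (Nat.le_succ n)))
  have hy1 : w y ≤ 1 := by
    have h0 := hy 0
    have e : y = (y - h24lb_seq w x 0) + h24lb_seq w x 0 := by ring
    rw [e]
    refine Valuation.map_add_le w ?_ (h24lb_seq_le w x hx 0)
    simpa using h0
  refine ⟨y, hy1, ?_, ?_⟩
  · rw [← sub_eq_zero, ← map_eq_zero w]
    apply h24lb_eq_zero_of_forall_le
    intro n
    have e : y ^ h24lb_q w - y = (y ^ h24lb_q w - (h24lb_seq w x n) ^ h24lb_q w)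
        + (h24lb_seq w x (n + 1) - h24lb_seq w x n) - (y - h24lb_seq w x n) := by
      rw [h24lb_seq_succ]; ring
    rw [e]
    refine Valuation.map_sub_le w (Valuation.map_add_le w ?_ ?_) (hy n)
    · exact (h24lb_pow_sub_pow_le w _ _ hy1 (h24lb_seq_le w x hx n) _).trans (hy n)
    · exact (hstep n).trans (h24lb_exp_neg_mono (Nat.le_succ n))
  · have e : y - x = (y - h24lb_seq w x 1) + (h24lb_seq w x 1 - h24lb_seq w x 0) := by
      simp [h24lb_seq]
    rw [e]
    have h1 : w (y - h24lb_seq w x 1) < 1 :=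
      lt_of_le_of_lt (hy 1) (by simpa using h24lb_exp_neg_one_lt_one)
    have h2 : w (h24lb_seq w x 1 - h24lb_seq w x 0) < 1 :=
      lt_of_le_of_lt (hstep 0) (by simpa using h24lb_exp_neg_one_lt_one)
    exact Valuation.map_add_lt w h1 h2

end H24LB

end
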